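/-
PROJECT FC (Frey chain, S12), block (C) (helper9), part 8: the `hopen` input of the Minkowski step,
and the assembled Minkowski step on the Frey curve.

* `isOpen_kernel_torsion` : for a Weierstrass curve over `ℚ` with finite `n`-torsion over `ℚ̄`, the
  kernel of the action of `G_ℚ` on the `n`-torsion is open;
* `frey_isOpen_kernel` : the same for the `p ^ k`-torsion of the Frey curve;
* `frey_toState_of_inertia` : `PreState.toState_of_inertia` on the Frey curve, without `hopen`.
-/
import Mathlib
import Fermat.Agent.FC.C_helper9_Frey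
import Fermat.Agent.EC.GlobalTrivial_helper5

set_option autoImplicit false
set_option linter.style.haveILetI false
set_option linter.unusedSectionVars false

namespace Fermat.Agent.FC

open WeierstrassCurve WeierstrassCurve.Affine WeierstrassCurve.Affine.Point AddSubgroup
open Fermat.Agent.CFT.S14
open scoped WeierstrassCurve.Affine

/-- the kernel of the action on a finite torsion subgroup is open -/
theorem isOpen_kernel_torsion (W' : Affine ℚ) (n : ℕ)
    (hfin : Finite (torsN (W'⁄Qbar).Point n)) :
    IsOpen {σ : GQ | ∀ x : (W'⁄Qbar).Point, n • x = 0 → σ • x = x} := by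
  have h : {σ : GQ | ∀ x : (W'⁄Qbar).Point, n • x = 0 → σ • x = x} =
      ⋂ x : torsN (W'⁄Qbar).Point n,
        ((MulAction.stabilizer GQ (x : (W'⁄Qbar).Point) : Subgroup GQ) : Set GQ) := by
    ext σ
    simp only [Set.mem_setOf_eq, Set.mem_iInter, SetLike.mem_coe, MulAction.mem_stabilizer_iff]
    constructor
    · intro h x
      exact h x (mem_torsN.mp x.2)
    · intro h x hx
      exact h ⟨x, mem_torsN.mpr hx⟩
  rw [h]
  exact isOpen_iInter_of_finite fun x => Fermat.Agent.EC.isOpen_stabilizer_point _

variable (P : FreyPackage)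

theorem frey_finite_torsN_pow (k : ℕ) : Finite (torsN (Epts P) (P.p ^ k)) := by
  apply Nat.finite_of_card_ne_zero
  rw [frey_card_torsN_pow]
  exact pow_ne_zero _ (pow_ne_zero _ P.hp0)

theorem frey_isOpen_kernel (k : ℕ) :
    IsOpen {σ : GQ | ∀ x : Epts P, P.p ^ k • x = 0 → σ • x = x} :=
  isOpen_kernel_torsion (P.freyCurve : Affine ℚ) (P.p ^ k) (frey_finite_torsN_pow P k)

/-- **the Minkowski step on the Frey curve**. -/
theorem frey_toState_of_inertia {k : ℕ} {g : Epts P} (h : PreState GQ P.p k g)
    (hI : ∀ (ℓ : ℕ) (A : ValuationSubring Qbar), ℓ.Prime → A.LiesOverPrime ℓ →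
      ∀ σ ∈ A.inertiaSubgroupIn ℚ, ∀ x : Epts P, P.p ^ k • x = 0 → σ • x - x ∈ zmultiples g) :
    State GQ P.p k g :=
  h.toState_of_inertia (frey_isOpen_kernel P k) hI

end Fermat.Agent.FC
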