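/-
PROJECT FC (Frey chain, S12), block (FREY) (helper9): facts on the Frey curve and its integral
model `P.freyCurveInt`.

* `frey_map_int` : `P.freyCurveInt.map (Int.castRingHom ℚ) = P.freyCurve`;
* `freyCurveInt_c₄`, `freyCurveInt_Δ` : `c₄ = A² + AB + B²`, `2⁸ Δ = (abc)^{2p}`;
* `dvd_freyCurveInt_Δ`, `not_dvd_freyCurveInt_c₄` : multiplicative reduction at every `ℓ ∣ abc`
  (including `ℓ = 2`);
* `frey_inertia_trivial_of_good` : for `ℓ ∤ abc`, `ℓ ≠ p`, the inertia groups over `ℓ` act trivially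
  on `E[p^n]`.
-/
import Mathlib
import Fermat.Agent.FC.C_helper9_Open
import Fermat.Agent.S13.At2_helper2_FreyModel
import Fermat.Agent.Tate.NodeGalois
import Fermat.Agent.Tate.Inertia
import Fermat.Agent.Tate.R1_helper8

set_option autoImplicit false
set_option linter.style.haveILetI false
set_option linter.unusedSectionVars false

namespace Fermat.Agent.FC

open WeierstrassCurve WeierstrassCurve.Affine WeierstrassCurve.Affine.Point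
open Fermat.Agent.CFT.S14 Fermat.Agent.Tate Fermat.Agent.S13
open scoped WeierstrassCurve.Affine

variable (P : FreyPackage)

theorem frey_sixteen_dvd : (16 : ℤ) ∣ -(P.a ^ P.p) * (P.b ^ P.p) := by
  obtain ⟨b₁, hb₁⟩ := frey_two_dvd_b P
  have hp4 : 4 ≤ P.p := by have := P.hp5; omega
  obtain ⟨k, hk⟩ := Nat.exists_eq_add_of_le hp4
  refine Dvd.dvd.mul_left ?_ _
  rw [hb₁, hk, mul_pow, pow_add]
  exact ⟨2 ^ k * b₁ ^ (4 + k), by ring⟩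

/-- the integral model of the Frey curve has generic fibre the Frey curve -/
theorem frey_map_int : P.freyCurveInt.map (Int.castRingHom ℚ) = P.freyCurve := by
  have h4 := frey_four_dvd P
  have h16 := frey_sixteen_dvd P
  ext
  · simp [FreyPackage.freyCurveInt, FreyPackage.freyCurve]
  · show ((((P.b ^ P.p - 1 - P.a ^ P.p) / 4 : ℤ) : ℤ) : ℚ) = _
    rw [Int.cast_div h4 (by norm_num)]
    simp [FreyPackage.freyCurve]
  · simp [FreyPackage.freyCurveInt, FreyPackage.freyCurve]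
  · show (((-(P.a ^ P.p) * (P.b ^ P.p) / 16 : ℤ) : ℤ) : ℚ) = _
    rw [Int.cast_div h16 (by norm_num)]
    simp [FreyPackage.freyCurve]
  · simp [FreyPackage.freyCurveInt, FreyPackage.freyCurve]

theorem frey_c₄_rat :
    P.freyCurve.c₄ = (P.a : ℚ) ^ P.p * (P.a : ℚ) ^ P.p + (P.a : ℚ) ^ P.p * (P.b : ℚ) ^ P.p +
      (P.b : ℚ) ^ P.p * (P.b : ℚ) ^ P.p := by
  simp only [WeierstrassCurve.c₄, WeierstrassCurve.b₂, WeierstrassCurve.b₄,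
    FreyPackage.freyCurve]
  ring

/-- `c₄ = A² + AB + B²` -/
theorem freyCurveInt_c₄ :
    P.freyCurveInt.c₄ = P.a ^ P.p * P.a ^ P.p + P.a ^ P.p * P.b ^ P.p + P.b ^ P.p * P.b ^ P.p := by
  have h1 : ((P.freyCurveInt.c₄ : ℤ) : ℚ) = P.freyCurve.c₄ := by
    rw [← frey_map_int, WeierstrassCurve.map_c₄]; rfl
  rw [frey_c₄_rat] at h1
  exact_mod_cast h1

/-- `2⁸ Δ = (abc)^{2p}` -/
theorem freyCurveInt_Δ :
    2 ^ 8 * P.freyCurveInt.Δ = (P.a * P.b * P.c) ^ (2 * P.p) := by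
  have h1 : ((P.freyCurveInt.Δ : ℤ) : ℚ) = P.freyCurve.Δ := by
    rw [← frey_map_int, WeierstrassCurve.map_Δ]; rfl
  rw [freyCurve_Δ] at h1
  have h2 : ((2 ^ 8 * P.freyCurveInt.Δ : ℤ) : ℚ) = (((P.a * P.b * P.c) ^ (2 * P.p) : ℤ) : ℚ) := by
    push_cast
    rw [h1]
    push_cast
    field_simp
    ring
  exact_mod_cast h2

theorem freyCurveInt_Δ_ne_zero : P.freyCurveInt.Δ ≠ 0 := by
  intro h
  have := freyCurveInt_Δ P
  rw [h, mul_zero] at this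
  exact pow_ne_zero _ P.habc0 this.symm

/-- `ℓ ∣ abc ⇒ ℓ ∣ Δ` (all primes, including `2`) -/
theorem dvd_freyCurveInt_Δ {ℓ : ℕ} (hℓ : ℓ.Prime) (h : (ℓ : ℤ) ∣ P.a * P.b * P.c) :
    (ℓ : ℤ) ∣ P.freyCurveInt.Δ := by
  have hΔ := freyCurveInt_Δ P
  have hℓ' : Prime (ℓ : ℤ) := Nat.prime_iff_prime_int.mp hℓ
  by_cases h2 : ℓ = 2
  · subst h2
    obtain ⟨b₁, hb₁⟩ := frey_two_dvd_b P
    have hp5 := P.hp5
    obtain ⟨k, hk⟩ := Nat.exists_eq_add_of_le hp5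
    -- `2^{10} ∣ (abc)^{2p}`
    have h10 : (2 : ℤ) ^ 10 ∣ (P.a * P.b * P.c) ^ (2 * P.p) := by
      rw [hb₁, hk]
      refine ⟨2 ^ (2 * k) * (P.a * b₁ * P.c) ^ (2 * (5 + k)), ?_⟩
      ring
    rw [← hΔ] at h10
    have h11 : (2 : ℤ) ^ 8 * 2 ^ 2 ∣ 2 ^ 8 * P.freyCurveInt.Δ := by
      have e : (2 : ℤ) ^ 8 * 2 ^ 2 = 2 ^ 10 := by norm_num
      rw [e]; exact h10
    have h12 : (2 : ℤ) ^ 2 ∣ P.freyCurveInt.Δ :=
      (mul_dvd_mul_iff_left (by norm_num : (2 : ℤ) ^ 8 ≠ 0)).mp h11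
    exact dvd_trans ⟨2, by norm_num⟩ h12
  · have h1 : (ℓ : ℤ) ∣ 2 ^ 8 * P.freyCurveInt.Δ := by
      rw [hΔ]
      exact dvd_pow h (by have := P.hp0; omega)
    rcases hℓ'.dvd_or_dvd h1 with h3 | h3
    · exfalso
      have h4 := hℓ'.dvd_of_dvd_pow h3
      have h5 : ℓ ∣ 2 := by exact_mod_cast h4
      exact h2 ((Nat.prime_dvd_prime_iff_eq hℓ Nat.prime_two).mp h5)
    · exact h3

/-- `ℓ ∣ abc ⇒ ℓ ∤ c₄` -/
theorem not_dvd_freyCurveInt_c₄ {ℓ : ℕ} (hℓ : ℓ.Prime) (h : (ℓ : ℤ) ∣ P.a * P.b * P.c) :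
    ¬ (ℓ : ℤ) ∣ P.freyCurveInt.c₄ := by
  have hℓ' : Prime (ℓ : ℤ) := Nat.prime_iff_prime_int.mp hℓ
  rw [freyCurveInt_c₄]
  intro hc
  have hp0 := P.hp0
  have hcop : ∀ {x y : ℤ}, gcd x y = 1 → (ℓ : ℤ) ∣ x → (ℓ : ℤ) ∣ y → False := by
    intro x y hxy hx hy
    have := dvd_gcd hx hy
    rw [hxy] at this
    exact hℓ'.not_dvd_one this
  rcases hℓ'.dvd_or_dvd h with hab | hcc
  · rcases hℓ'.dvd_or_dvd hab with ha | hb
    · -- `ℓ ∣ a`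
      have hA : (ℓ : ℤ) ∣ P.a ^ P.p := dvd_pow ha hp0
      have hB : (ℓ : ℤ) ∣ P.b ^ P.p * P.b ^ P.p := by
        have h1 : (ℓ : ℤ) ∣ P.a ^ P.p * P.a ^ P.p + P.a ^ P.p * P.b ^ P.p :=
          dvd_add (Dvd.dvd.mul_right hA _) (Dvd.dvd.mul_right hA _)
        exact (dvd_add_right h1).mp hc
      have hb : (ℓ : ℤ) ∣ P.b := by
        rcases hℓ'.dvd_or_dvd hB with h2 | h2 <;> exact hℓ'.dvd_of_dvd_pow h2
      exact hcop P.hgcdab ha hb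
    · -- `ℓ ∣ b`
      have hB : (ℓ : ℤ) ∣ P.b ^ P.p := dvd_pow hb hp0
      have hA : (ℓ : ℤ) ∣ P.a ^ P.p * P.a ^ P.p := by
        have h1 : (ℓ : ℤ) ∣ P.a ^ P.p * P.b ^ P.p + P.b ^ P.p * P.b ^ P.p :=
          dvd_add (Dvd.dvd.mul_left hB _) (Dvd.dvd.mul_right hB _)
        rw [add_assoc] at hc
        exact (dvd_add_left h1).mp hc
      have ha : (ℓ : ℤ) ∣ P.a := by
        rcases hℓ'.dvd_or_dvd hA with h2 | h2 <;> exact hℓ'.dvd_of_dvd_pow h2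
      exact hcop P.hgcdab ha hb
  · -- `ℓ ∣ c`
    have hC : (ℓ : ℤ) ∣ P.c ^ P.p := dvd_pow hcc hp0
    have e : P.a ^ P.p * P.a ^ P.p + P.a ^ P.p * P.b ^ P.p + P.b ^ P.p * P.b ^ P.p =
        P.c ^ P.p * P.c ^ P.p - P.a ^ P.p * P.b ^ P.p := by
      rw [← P.hFLT]; ring
    rw [e] at hc
    have hAB : (ℓ : ℤ) ∣ P.a ^ P.p * P.b ^ P.p := by
      have h1 : (ℓ : ℤ) ∣ P.c ^ P.p * P.c ^ P.p := Dvd.dvd.mul_right hC _
      have := dvd_sub h1 hc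
      rwa [sub_sub_cancel] at this
    rcases hℓ'.dvd_or_dvd hAB with h2 | h2
    · exact hcop P.hgcdac (hℓ'.dvd_of_dvd_pow h2) hcc
    · exact hcop P.hgcdbc (hℓ'.dvd_of_dvd_pow h2) hcc

/-- **good primes**: for `ℓ ∤ abc`, `ℓ ≠ p`, inertia over `ℓ` acts trivially on `E[p^n]`. -/
theorem frey_inertia_trivial_of_good {ℓ : ℕ} (hℓ : ℓ.Prime) (hℓp : ℓ ≠ P.p)
    (hgood : ¬ (ℓ : ℤ) ∣ P.a * P.b * P.c) (A : ValuationSubring Qbar) (hA : A.LiesOverPrime ℓ)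
    (σ : GQ) (hσ : σ ∈ A.inertiaSubgroupIn ℚ) (n : ℕ) (x : Epts P) (hx : P.p ^ n • x = 0) :
    σ • x = x := by
  have hℓ2 : ℓ ≠ 2 := by
    rintro rfl
    exact hgood (by exact_mod_cast P.two_dvd_abc)
  have hqA : (ℓ : Qbar) ∈ A.nonunits := hA
  have hE : IsIntegralCurve A (P.freyCurve⁄Qbar) :=
    ⟨freyCurve_a₁_mem P A, freyCurve_a₂_mem P A hℓ hℓ2 hqA, freyCurve_a₃_mem P A,
      freyCurve_a₄_mem P A hℓ hℓ2 hqA, freyCurve_a₆_mem P A⟩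
  have hΔ : (P.freyCurve⁄Qbar).Δ ∉ A.nonunits :=
    freyCurve_Δ_notMem_nonunits P A hℓ hℓ2 hqA hgood
  have hpu := prime_cast_mem_and_inv_mem A hℓ hqA P.pp hℓp
  have hodd : Odd (P.p ^ n) := P.hp_odd.pow
  have hm : (((P.p ^ n : ℕ) : Qbar))⁻¹ ∈ A := by
    rw [Nat.cast_pow, ← inv_pow]; exact pow_mem hpu.2 n
  exact galois_fix_of_good (P.freyCurve : Affine ℚ) hE.a₁ hE.a₂ hE.a₃ hΔ hodd
    (fun h ht => mem_of_nsmul_eq_zero' hE (pow_ne_zero n P.hp0) hm h ht) σ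
    (fun a ha => inertia_map_mem_and_sub_mem hσ ha) x hx

end Fermat.Agent.FC
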