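/-
PROJECT FC (S12, branch-only) — block (NODE), part 1 — helper6.

The group of nonsingular points of a nodal Weierstrass cubic in NORMAL FORM
`(y - α x)(y - β x) = x³`, `α ≠ β` (i.e. `a₁ = -(α + β)`, `a₂ = -αβ`, `a₃ = a₄ = a₆ = 0`) over any
field `K` (every characteristic) is `Kˣ` via `(x, y) ↦ (y - α x) / (y - β x)`:
`nodeHom : W.toAffine.Point →+ Additive Kˣ`, injective (`nodeHom_injective`).
-/
import Mathlib

set_option autoImplicit false
set_option linter.unusedSectionVars false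
set_option linter.unusedVariables false
set_option linter.style.haveILetI false

namespace Fermat.Agent.FC

open WeierstrassCurve WeierstrassCurve.Affine

section Algebra

variable {K : Type*} [Field K]

/-- the Vieta identity behind the chord/tangent law on the nodal cubic: if `x₁` is a root of
`X³ - (L X + ν)(M X + ν)`, `x₃ = L M - x₁ - x₂` and the second symmetric function is right, then
`∏ (L xᵢ + ν) = ν³`. -/
theorem node_prod_eq (L M ν x₁ x₂ x₃ : K) (h₁ : x₁ ^ 3 = (L * x₁ + ν) * (M * x₁ + ν))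
    (hx₃ : x₃ = L * M - x₁ - x₂)
    (he₂ : x₁ ^ 2 + x₁ * x₂ + x₂ ^ 2 - L * M * (x₁ + x₂) - (L + M) * ν = 0) :
    (L * x₁ + ν) * (L * x₂ + ν) * (L * x₃ + ν) = ν ^ 3 := by
  subst hx₃
  linear_combination (L ^ 3) * h₁ - (L ^ 3 * x₁ + L ^ 2 * ν) * he₂

end Algebra

section Form

variable {K : Type*} [Field K] [DecidableEq K]

/-- nodal normal form `(y - α x)(y - β x) = x³`, `α ≠ β`. -/
structure IsNodeForm (W : WeierstrassCurve K) (α β : K) : Prop where
  a₁ : W.a₁ = -(α + β)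
  a₂ : W.a₂ = -(α * β)
  a₃ : W.a₃ = 0
  a₄ : W.a₄ = 0
  a₆ : W.a₆ = 0
  ne : α ≠ β

variable {W : WeierstrassCurve K} {α β : K}

theorem IsNodeForm.equation (hW : IsNodeForm W α β) {x y : K} (h : W.toAffine.Equation x y) :
    (y - α * x) * (y - β * x) = x ^ 3 := by
  rw [Affine.equation_iff, hW.a₁, hW.a₂, hW.a₃, hW.a₄, hW.a₆] at h
  linear_combination h

theorem IsNodeForm.x_ne_zero (hW : IsNodeForm W α β) {x y : K}
    (h : W.toAffine.Nonsingular x y) : x ≠ 0 := by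
  rintro rfl
  have heq := hW.equation h.1
  have hy : y = 0 := by
    have : y ^ 2 = 0 := by linear_combination heq
    exact pow_eq_zero_iff (two_ne_zero) |>.mp this
  subst hy
  rw [Affine.nonsingular_iff', hW.a₁, hW.a₂, hW.a₃, hW.a₄] at h
  rcases h.2 with h2 | h2
  · exact h2 (by ring)
  · exact h2 (by ring)

theorem IsNodeForm.left_ne_zero (hW : IsNodeForm W α β) {x y : K}
    (h : W.toAffine.Nonsingular x y) : y - α * x ≠ 0 := by
  intro h0
  have heq := hW.equation h.1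
  rw [h0, zero_mul] at heq
  exact hW.x_ne_zero h (pow_eq_zero_iff (by norm_num) |>.mp heq.symm)

theorem IsNodeForm.right_ne_zero (hW : IsNodeForm W α β) {x y : K}
    (h : W.toAffine.Nonsingular x y) : y - β * x ≠ 0 := by
  intro h0
  have heq := hW.equation h.1
  rw [h0, mul_zero] at heq
  exact hW.x_ne_zero h (pow_eq_zero_iff (by norm_num) |>.mp heq.symm)

/-- the value `(y - α x) / (y - β x)` of a point (`1` at the origin). -/
noncomputable def nodeVal (α β : K) {W : WeierstrassCurve K} : W.toAffine.Point → K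
  | .zero => 1
  | .some x y _ => (y - α * x) / (y - β * x)

@[simp] theorem nodeVal_zero : nodeVal α β (0 : W.toAffine.Point) = 1 := rfl

@[simp] theorem nodeVal_some {x y : K} (h : W.toAffine.Nonsingular x y) :
    nodeVal α β (Point.some x y h) = (y - α * x) / (y - β * x) := rfl

theorem IsNodeForm.nodeVal_ne_zero (hW : IsNodeForm W α β) (P : W.toAffine.Point) :
    nodeVal α β P ≠ 0 := by
  rcases P with _ | ⟨x, y, h⟩
  · exact one_ne_zero
  · exact div_ne_zero (hW.left_ne_zero h) (hW.right_ne_zero h)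

/-- the core identity: for the chord/tangent line `y = ℓ x + ν` through `P₁`, `P₂` the third
intersection point `(x₃, ℓ x₃ + ν)` satisfies `∏ (yᵢ - α xᵢ) = ν³ = ∏ (yᵢ - β xᵢ)`. -/
theorem IsNodeForm.nodeVal_add_some (hW : IsNodeForm W α β) {x₁ y₁ x₂ y₂ : K}
    (h₁ : W.toAffine.Nonsingular x₁ y₁) (h₂ : W.toAffine.Nonsingular x₂ y₂)
    (hxy : ¬ (x₁ = x₂ ∧ y₁ = W.toAffine.negY x₂ y₂)) :
    nodeVal α β (Point.some x₁ y₁ h₁ + Point.some x₂ y₂ h₂) =
      nodeVal α β (Point.some x₁ y₁ h₁) * nodeVal α β (Point.some x₂ y₂ h₂) := by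
  have h₃ := nonsingular_add h₁ h₂ hxy
  rw [Point.add_some hxy, nodeVal_some, nodeVal_some, nodeVal_some]
  set ℓ := W.toAffine.slope x₁ x₂ y₁ y₂ with hℓ
  set L := ℓ - α with hL
  set M := ℓ - β with hM
  set ν := y₁ - ℓ * x₁ with hν
  -- the line passes through the second point
  have hy₂ : y₂ = ℓ * x₂ + ν := by
    by_cases hx : x₁ = x₂
    · have hy : y₁ = y₂ := Y_eq_of_Y_ne h₁.1 h₂.1 hx (fun h => hxy ⟨hx, h⟩)
      rw [hν, ← hx, ← hy]
      ring
    · have hs : ℓ = (y₁ - y₂) / (x₁ - x₂) := slope_of_X_ne hx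
      have hne : x₁ - x₂ ≠ 0 := sub_ne_zero.mpr hx
      rw [hν, hs]
      field_simp
      ring
  have e₁ := hW.equation h₁.1
  have e₂ := hW.equation h₂.1
  have hA₁ : y₁ - α * x₁ = L * x₁ + ν := by rw [hL, hν]; ring
  have hB₁ : y₁ - β * x₁ = M * x₁ + ν := by rw [hM, hν]; ring
  have hA₂ : y₂ - α * x₂ = L * x₂ + ν := by rw [hy₂, hL]; ring
  have hB₂ : y₂ - β * x₂ = M * x₂ + ν := by rw [hy₂, hM]; ring
  have f₁ : x₁ ^ 3 = (L * x₁ + ν) * (M * x₁ + ν) := by rw [← hA₁, ← hB₁]; exact e₁.symm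
  have f₂ : x₂ ^ 3 = (L * x₂ + ν) * (M * x₂ + ν) := by rw [← hA₂, ← hB₂]; exact e₂.symm
  -- the second symmetric function
  have he₂ : x₁ ^ 2 + x₁ * x₂ + x₂ ^ 2 - L * M * (x₁ + x₂) - (L + M) * ν = 0 := by
    by_cases hx : x₁ = x₂
    · have hy : y₁ = y₂ := Y_eq_of_Y_ne h₁.1 h₂.1 hx (fun h => hxy ⟨hx, h⟩)
      have hyne : y₁ ≠ W.toAffine.negY x₁ y₁ := by
        intro h
        exact hxy ⟨hx, by rw [← hx, ← hy]; exact h⟩
      have hs : ℓ = (3 * x₁ ^ 2 + 2 * W.a₂ * x₁ + W.a₄ - W.a₁ * y₁) /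
          (y₁ - W.toAffine.negY x₁ y₁) := by
        rw [hℓ]
        exact slope_of_Y_ne hx (fun h => hxy ⟨hx, h⟩)
      have hden : y₁ - W.toAffine.negY x₁ y₁ ≠ 0 := sub_ne_zero.mpr hyne
      have hs' : ℓ * (y₁ - W.toAffine.negY x₁ y₁) =
          3 * x₁ ^ 2 + 2 * W.a₂ * x₁ + W.a₄ - W.a₁ * y₁ := by
        rw [hs]
        field_simp
      rw [negY, hW.a₁, hW.a₂, hW.a₃, hW.a₄] at hs'
      rw [← hx, hL, hM, hν]
      linear_combination -hs'
    · have hne : x₁ - x₂ ≠ 0 := sub_ne_zero.mpr hx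
      have h0 : (x₁ - x₂) *
          (x₁ ^ 2 + x₁ * x₂ + x₂ ^ 2 - L * M * (x₁ + x₂) - (L + M) * ν) = 0 := by
        linear_combination f₁ - f₂
      exact (mul_eq_zero.mp h0).resolve_left hne
  have he₂' : x₁ ^ 2 + x₁ * x₂ + x₂ ^ 2 - M * L * (x₁ + x₂) - (M + L) * ν = 0 := by
    linear_combination he₂
  set x₃ := W.toAffine.addX x₁ x₂ ℓ with hx₃
  have hx₃' : x₃ = L * M - x₁ - x₂ := by
    rw [hx₃, addX, hW.a₁, hW.a₂, hL, hM]
    ring
  have hx₃'' : x₃ = M * L - x₁ - x₂ := by rw [hx₃']; ring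
  have f₁' : x₁ ^ 3 = (M * x₁ + ν) * (L * x₁ + ν) := by rw [f₁]; ring
  have pL := node_prod_eq L M ν x₁ x₂ x₃ f₁ hx₃' he₂
  have pM := node_prod_eq M L ν x₁ x₂ x₃ f₁' hx₃'' he₂'
  -- the third point
  have hA₃ : W.toAffine.addY x₁ x₂ y₁ ℓ - α * x₃ = -(M * x₃ + ν) := by
    rw [addY, negAddY, negY, hW.a₁, hW.a₃, ← hx₃, hM, hν]
    ring
  have hB₃ : W.toAffine.addY x₁ x₂ y₁ ℓ - β * x₃ = -(L * x₃ + ν) := by
    rw [addY, negAddY, negY, hW.a₁, hW.a₃, ← hx₃, hL, hν]
    ring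
  have n₁ := hW.right_ne_zero h₁
  have n₂ := hW.right_ne_zero h₂
  have n₃ := hW.right_ne_zero h₃
  rw [hB₁] at n₁
  rw [hB₂] at n₂
  rw [hB₃] at n₃
  rw [hA₁, hB₁, hA₂, hB₂, hA₃, hB₃]
  have n₃' : L * x₃ + ν ≠ 0 := fun h => n₃ (by rw [h, neg_zero])
  rw [neg_div_neg_eq, div_mul_div_comm, div_eq_div_iff n₃' (mul_ne_zero n₁ n₂)]
  linear_combination pM - pL

/-- **multiplicativity** of `nodeVal`. -/
theorem IsNodeForm.nodeVal_add (hW : IsNodeForm W α β) (P Q : W.toAffine.Point) :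
    nodeVal α β (P + Q) = nodeVal α β P * nodeVal α β Q := by
  rcases P with _ | ⟨x₁, y₁, h₁⟩
  · rw [← Point.zero_def, zero_add, nodeVal_zero, one_mul]
  rcases Q with _ | ⟨x₂, y₂, h₂⟩
  · rw [← Point.zero_def, add_zero, nodeVal_zero, mul_one]
  by_cases hxy : x₁ = x₂ ∧ y₁ = W.toAffine.negY x₂ y₂
  · rw [Point.add_of_Y_eq hxy.1 hxy.2, nodeVal_zero, nodeVal_some, nodeVal_some]
    obtain ⟨rfl, hy⟩ := hxy
    have hy' : y₁ = -y₂ + (α + β) * x₁ := by
      rw [hy, negY, hW.a₁, hW.a₃]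
      ring
    have hA₂ := hW.left_ne_zero h₂
    have hB₂ := hW.right_ne_zero h₂
    have e1 : y₁ - α * x₁ = -(y₂ - β * x₁) := by rw [hy']; ring
    have e2 : y₁ - β * x₁ = -(y₂ - α * x₁) := by rw [hy']; ring
    rw [e1, e2, neg_div_neg_eq, div_mul_div_comm, mul_comm, div_self (mul_ne_zero hA₂ hB₂)]
  · exact hW.nodeVal_add_some h₁ h₂ hxy

/-- **the isomorphism onto its image**: `P ↦ (y - α x)/(y - β x)` as a homomorphism to `Kˣ`. -/
noncomputable def nodeHom (hW : IsNodeForm W α β) : W.toAffine.Point →+ Additive Kˣ where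
  toFun P := Additive.ofMul (Units.mk0 (nodeVal α β P) (hW.nodeVal_ne_zero P))
  map_zero' := by
    show Additive.ofMul (Units.mk0 (nodeVal α β (0 : W.toAffine.Point)) _) = 0
    rw [← ofMul_one]
    congr 1
    exact Units.ext rfl
  map_add' P Q := by
    rw [← ofMul_mul]
    congr 1
    apply Units.ext
    show nodeVal α β (P + Q) = nodeVal α β P * nodeVal α β Q
    exact hW.nodeVal_add P Q

theorem nodeHom_apply (hW : IsNodeForm W α β) (P : W.toAffine.Point) :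
    ((Additive.toMul (nodeHom hW P) : Kˣ) : K) = nodeVal α β P := rfl

theorem nodeHom_injective (hW : IsNodeForm W α β) : Function.Injective (nodeHom hW) := by
  rw [injective_iff_map_eq_zero]
  intro P hP
  have h1 : nodeVal α β P = 1 := by
    have := congrArg (fun u : Additive Kˣ => ((Additive.toMul u : Kˣ) : K)) hP
    exact this
  rcases P with _ | ⟨x, y, h⟩
  · rfl
  · exfalso
    rw [nodeVal_some, div_eq_one_iff_eq (hW.right_ne_zero h)] at h1
    have hx := hW.x_ne_zero h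
    have : (α - β) * x = 0 := by linear_combination -h1
    rcases mul_eq_zero.mp this with h0 | h0
    · exact hW.ne (sub_eq_zero.mp h0)
    · exact hx h0

end Form

end Fermat.Agent.FC
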