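/-
PROJECT FC (S12, branch-only) — block (NODE), part 2 — helper6.

`k` a field with `2 ≠ 0`, `W : WeierstrassCurve k` with `Δ = 0`, `c₄ ≠ 0` (a nodal cubic):
* `exists_singPt` : the node `(x₀, y₀)`, `x₀ = (18 b₆ - b₂ b₄) / c₄`, `y₀ = -(a₁ x₀ + a₃) / 2`;
* `isNodeForm_of_singPt` : translating the node to the origin gives the normal form of part 1;
* **`exists_nodeHom`** : an injective homomorphism `W.toAffine.Point →+ Additive Kˣ`,
  `K = AlgebraicClosure k`;
* **`card_torsion_node_le`** : at most `m` points killed by `m`;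
* **`no_char_torsion`** : no `p`-torsion in characteristic `p`.
-/
import Mathlib
import Fermat.Agent.FC.NODE_helper6_Form
import Fermat.Agent.Tate.VC_helper7

set_option autoImplicit false
set_option linter.unusedSectionVars false
set_option linter.unusedVariables false
set_option linter.style.haveILetI false

namespace Fermat.Agent.FC

open WeierstrassCurve WeierstrassCurve.Affine Fermat.Agent.Tate

section Identities

variable {R : Type*} [CommRing R] (W : WeierstrassCurve R)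

/-- `c₄² (6 x₀² + b₂ x₀ + b₄) = -72 Δ` for `c₄ x₀ = 18 b₆ - b₂ b₄` (cleared of denominators). -/
theorem node_identity_one :
    6 * (18 * W.b₆ - W.b₂ * W.b₄) ^ 2 + W.b₂ * (18 * W.b₆ - W.b₂ * W.b₄) * W.c₄ +
      W.b₄ * W.c₄ ^ 2 = -72 * W.Δ := by
  simp only [Δ, b₂, b₄, b₆, b₈, c₄]
  ring

/-- `c₄³ (4 x₀³ + b₂ x₀² + 2 b₄ x₀ + b₆) = 4 c₆ Δ` for `c₄ x₀ = 18 b₆ - b₂ b₄`. -/
theorem node_identity_two :
    4 * (18 * W.b₆ - W.b₂ * W.b₄) ^ 3 + W.b₂ * (18 * W.b₆ - W.b₂ * W.b₄) ^ 2 * W.c₄ +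
      2 * W.b₄ * (18 * W.b₆ - W.b₂ * W.b₄) * W.c₄ ^ 2 + W.b₆ * W.c₄ ^ 3 = 4 * W.c₆ * W.Δ := by
  simp only [Δ, b₂, b₄, b₆, b₈, c₄, c₆]
  ring

end Identities

section Sing

variable {k : Type*} [Field k]

/-- `(x₀, y₀)` is a singular point of `W`. -/
def IsSingPt (W : WeierstrassCurve k) (x₀ y₀ : k) : Prop :=
  W.toAffine.Equation x₀ y₀ ∧ W.a₁ * y₀ - (3 * x₀ ^ 2 + 2 * W.a₂ * x₀ + W.a₄) = 0 ∧
    2 * y₀ + W.a₁ * x₀ + W.a₃ = 0

/-- **the node** of a Weierstrass cubic with `Δ = 0`, `c₄ ≠ 0` (characteristic `≠ 2`). -/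
theorem exists_singPt (W : WeierstrassCurve k) (hΔ : W.Δ = 0) (hc₄ : W.c₄ ≠ 0)
    (h2 : (2 : k) ≠ 0) : ∃ x₀ y₀ : k, IsSingPt W x₀ y₀ := by
  set x₀ : k := (18 * W.b₆ - W.b₂ * W.b₄) / W.c₄ with hx₀
  set y₀ : k := -(W.a₁ * x₀ + W.a₃) / 2 with hy₀
  have hn : W.c₄ * x₀ = 18 * W.b₆ - W.b₂ * W.b₄ := by rw [hx₀]; field_simp
  -- `6 x₀² + b₂ x₀ + b₄ = 0`
  have hh : 6 * x₀ ^ 2 + W.b₂ * x₀ + W.b₄ = 0 := by
    have h1 := node_identity_one W
    rw [hΔ, mul_zero, ← hn] at h1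
    have h2' : W.c₄ ^ 2 * (6 * x₀ ^ 2 + W.b₂ * x₀ + W.b₄) = 0 := by linear_combination h1
    exact (mul_eq_zero.mp h2').resolve_left (pow_ne_zero 2 hc₄)
  -- `4 x₀³ + b₂ x₀² + 2 b₄ x₀ + b₆ = 0`
  have hψ : 4 * x₀ ^ 3 + W.b₂ * x₀ ^ 2 + 2 * W.b₄ * x₀ + W.b₆ = 0 := by
    have h1 := node_identity_two W
    rw [hΔ, mul_zero, ← hn] at h1
    have h2' : W.c₄ ^ 3 * (4 * x₀ ^ 3 + W.b₂ * x₀ ^ 2 + 2 * W.b₄ * x₀ + W.b₆) = 0 := by
      linear_combination h1
    exact (mul_eq_zero.mp h2').resolve_left (pow_ne_zero 3 hc₄)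
  have hY : 2 * y₀ + W.a₁ * x₀ + W.a₃ = 0 := by
    rw [hy₀]
    field_simp
    ring
  refine ⟨x₀, y₀, ?_, ?_, hY⟩
  · -- the equation: `4 F = F_y² - ψ₂²`
    rw [Affine.equation_iff]
    have h4 : (4 : k) ≠ 0 := by
      have : (4 : k) = 2 * 2 := by norm_num
      rw [this]
      exact mul_ne_zero h2 h2
    have key : 4 * (y₀ ^ 2 + W.a₁ * x₀ * y₀ + W.a₃ * y₀ -
        (x₀ ^ 3 + W.a₂ * x₀ ^ 2 + W.a₄ * x₀ + W.a₆)) = 0 := by
      have e : 4 * (y₀ ^ 2 + W.a₁ * x₀ * y₀ + W.a₃ * y₀ -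
          (x₀ ^ 3 + W.a₂ * x₀ ^ 2 + W.a₄ * x₀ + W.a₆)) =
          (2 * y₀ + W.a₁ * x₀ + W.a₃) ^ 2 -
            (4 * x₀ ^ 3 + W.b₂ * x₀ ^ 2 + 2 * W.b₄ * x₀ + W.b₆) := by
        simp only [b₂, b₄, b₆]
        ring
      rw [e, hY, hψ]
      ring
    have := (mul_eq_zero.mp key).resolve_left h4
    exact sub_eq_zero.mp this
  · -- `2 F_x = -(6 x₀² + b₂ x₀ + b₄) - a₁ F_y`
    have key : 2 * (W.a₁ * y₀ - (3 * x₀ ^ 2 + 2 * W.a₂ * x₀ + W.a₄)) = 0 := by
      have e : 2 * (W.a₁ * y₀ - (3 * x₀ ^ 2 + 2 * W.a₂ * x₀ + W.a₄)) =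
          W.a₁ * (2 * y₀ + W.a₁ * x₀ + W.a₃) - (6 * x₀ ^ 2 + W.b₂ * x₀ + W.b₄) := by
        simp only [b₂, b₄]
        ring
      rw [e, hY, hh]
      ring
    exact (mul_eq_zero.mp key).resolve_left h2

/-- translating a singular point to the origin gives the nodal normal form. -/
theorem isNodeForm_of_singPt (W : WeierstrassCurve k) (hc₄ : W.c₄ ≠ 0) {x₀ y₀ : k}
    (hs : IsSingPt W x₀ y₀) {α β : k} (hsum : α + β = -W.a₁)
    (hprod : α * β = -(W.a₂ + 3 * x₀)) :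
    IsNodeForm (VariableChange.mk 1 x₀ 0 y₀ • W) α β := by
  obtain ⟨heq, hX, hY⟩ := hs
  rw [Affine.equation_iff] at heq
  have ha₃ : (VariableChange.mk 1 x₀ 0 y₀ • W).a₃ = 0 := by
    rw [variableChange_a₃]
    simp only [inv_one, Units.val_one, one_pow, one_mul]
    linear_combination hY
  have ha₄ : (VariableChange.mk 1 x₀ 0 y₀ • W).a₄ = 0 := by
    rw [variableChange_a₄]
    simp only [inv_one, Units.val_one, one_pow, one_mul]
    linear_combination -hX
  have ha₆ : (VariableChange.mk 1 x₀ 0 y₀ • W).a₆ = 0 := by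
    rw [variableChange_a₆]
    simp only [inv_one, Units.val_one, one_pow, one_mul]
    linear_combination -heq
  have ha₁ : (VariableChange.mk 1 x₀ 0 y₀ • W).a₁ = -(α + β) := by
    rw [variableChange_a₁, hsum]
    simp
  have ha₂ : (VariableChange.mk 1 x₀ 0 y₀ • W).a₂ = -(α * β) := by
    rw [variableChange_a₂, hprod]
    simp
  refine ⟨ha₁, ha₂, ha₃, ha₄, ha₆, ?_⟩
  -- `c₄ = (α - β)⁴`
  intro hαβ
  apply hc₄
  have hc : (VariableChange.mk 1 x₀ 0 y₀ • W).c₄ = W.c₄ := by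
    rw [variableChange_c₄]
    simp
  rw [← hc, c₄, b₂, b₄, ha₁, ha₂, ha₃, ha₄, hαβ]
  ring

end Sing

section Hom

variable {k : Type*} [Field k] [DecidableEq k]

/-- the injective homomorphism to `kˣ` when the node and the tangent slopes are rational. -/
theorem exists_nodeHom_of_slopes (W : WeierstrassCurve k) (hc₄ : W.c₄ ≠ 0) {x₀ y₀ : k}
    (hs : IsSingPt W x₀ y₀) {α β : k} (hsum : α + β = -W.a₁)
    (hprod : α * β = -(W.a₂ + 3 * x₀)) :
    ∃ φ : W.toAffine.Point →+ Additive kˣ, Function.Injective φ := by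
  have hF := isNodeForm_of_singPt W hc₄ hs hsum hprod
  refine ⟨(nodeHom hF).comp (vcPtEquiv W (VariableChange.mk 1 x₀ 0 y₀)).symm.toAddMonoidHom, ?_⟩
  exact (nodeHom_injective hF).comp (vcPtEquiv W _).symm.injective

/-- the same over an algebraically closed field of characteristic `≠ 2`. -/
theorem exists_nodeHom_of_isAlgClosed [IsAlgClosed k] (W : WeierstrassCurve k) (hΔ : W.Δ = 0)
    (hc₄ : W.c₄ ≠ 0) (h2 : (2 : k) ≠ 0) :
    ∃ φ : W.toAffine.Point →+ Additive kˣ, Function.Injective φ := by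
  obtain ⟨x₀, y₀, hs⟩ := exists_singPt W hΔ hc₄ h2
  -- a root of `T² + a₁ T - (a₂ + 3 x₀)`
  obtain ⟨α, hα⟩ := IsAlgClosed.exists_root
    (Polynomial.C (1 : k) * Polynomial.X ^ 2 + Polynomial.C W.a₁ * Polynomial.X +
      Polynomial.C (-(W.a₂ + 3 * x₀)))
    (by rw [Polynomial.degree_quadratic one_ne_zero]; norm_num)
  have hα' : α ^ 2 + W.a₁ * α - (W.a₂ + 3 * x₀) = 0 := by
    have : Polynomial.eval α (Polynomial.C (1 : k) * Polynomial.X ^ 2 +
        Polynomial.C W.a₁ * Polynomial.X + Polynomial.C (-(W.a₂ + 3 * x₀))) = 0 := hα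
    simp only [Polynomial.eval_add, Polynomial.eval_mul, Polynomial.eval_C, Polynomial.eval_pow,
      Polynomial.eval_X, one_mul] at this
    linear_combination this
  exact exists_nodeHom_of_slopes W hc₄ hs (α := α) (β := -W.a₁ - α) (by ring)
    (by linear_combination -hα')

end Hom

section BaseChange

variable {k : Type*} [Field k] [DecidableEq k]

/-- **(NODE)**: the group of nonsingular points of a nodal Weierstrass cubic over a field `k` of
characteristic `≠ 2` embeds into the multiplicative group of the algebraic closure. -/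
theorem exists_nodeHom (W : WeierstrassCurve k) (hΔ : W.Δ = 0) (hc₄ : W.c₄ ≠ 0)
    (h2 : (2 : k) ≠ 0) :
    ∃ φ : W.toAffine.Point →+ Additive (AlgebraicClosure k)ˣ, Function.Injective φ := by
  classical
  set K := AlgebraicClosure k
  have hinj : Function.Injective (algebraMap k K) := (algebraMap k K).injective
  have hΔK : (W.map (algebraMap k K)).Δ = 0 := by rw [map_Δ, hΔ, map_zero]
  have hc₄K : (W.map (algebraMap k K)).c₄ ≠ 0 := by
    rw [map_c₄]
    exact fun h => hc₄ (hinj (by rw [h, map_zero]))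
  have h2K : (2 : K) ≠ 0 := by
    intro h
    apply h2
    apply hinj
    rw [map_ofNat, h, map_zero]
  obtain ⟨ψ, hψ⟩ := exists_nodeHom_of_isAlgClosed (W.map (algebraMap k K)) hΔK hc₄K h2K
  -- base change of points
  let bc : W.toAffine.Point →+ (W.map (algebraMap k K)).toAffine.Point :=
    Point.map (W' := W) (Algebra.ofId k K)
  have hbc : Function.Injective bc := Point.map_injective (W' := W) (Algebra.ofId k K)
  exact ⟨ψ.comp bc, hψ.comp hbc⟩

/-- **at most `m` points of a nodal cubic are killed by `m`.** -/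
theorem card_torsion_node_le (W : WeierstrassCurve k) (hΔ : W.Δ = 0) (hc₄ : W.c₄ ≠ 0)
    (h2 : (2 : k) ≠ 0) (m : ℕ) (hm : 0 < m) (T : Finset W.toAffine.Point)
    (hT : ∀ P ∈ T, m • P = 0) : T.card ≤ m := by
  classical
  obtain ⟨φ, hφ⟩ := exists_nodeHom W hΔ hc₄ h2
  haveI : NeZero m := ⟨hm.ne'⟩
  set K := AlgebraicClosure k
  have hmem : ∀ P : ↥T, Additive.toMul (φ P.1) ∈ rootsOfUnity m K := by
    intro P
    rw [mem_rootsOfUnity]
    have h1 : φ (m • P.1) = 0 := by rw [hT P.1 P.2, map_zero]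
    rw [map_nsmul] at h1
    have h2' := congrArg Additive.toMul h1
    rw [toMul_nsmul, toMul_zero] at h2'
    exact h2'
  have hle : Nat.card ↥T ≤ Nat.card (rootsOfUnity m K) :=
    Nat.card_le_card_of_injective (fun P : ↥T => (⟨Additive.toMul (φ P.1), hmem P⟩ :
      rootsOfUnity m K))
      (fun P Q hPQ => by
        have h1 : Additive.toMul (φ P.1) = Additive.toMul (φ Q.1) := congrArg Subtype.val hPQ
        exact Subtype.ext (hφ (Additive.toMul.injective h1)))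
  rw [Nat.card_eq_fintype_card, Fintype.card_coe] at hle
  exact hle.trans (card_rootsOfUnity K m)

/-- **no `p`-torsion in characteristic `p`.** -/
theorem no_char_torsion (W : WeierstrassCurve k) (hΔ : W.Δ = 0) (hc₄ : W.c₄ ≠ 0)
    (h2 : (2 : k) ≠ 0) (p : ℕ) [hp : Fact p.Prime] [CharP k p] (P : W.toAffine.Point)
    (hP : p • P = 0) : P = 0 := by
  classical
  obtain ⟨φ, hφ⟩ := exists_nodeHom W hΔ hc₄ h2
  set K := AlgebraicClosure k
  haveI : CharP K p := charP_of_injective_algebraMap (algebraMap k K).injective p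
  apply hφ
  rw [map_zero]
  have h1 : φ (p • P) = 0 := by rw [hP, map_zero]
  rw [map_nsmul] at h1
  have h2' := congrArg Additive.toMul h1
  rw [toMul_nsmul, toMul_zero] at h2'
  -- `u ^ p = 1 ⇒ u = 1`
  have h3 : ((Additive.toMul (φ P) : Kˣ) : K) ^ p = 1 := by
    have := congrArg (fun u : Kˣ => (u : K)) h2'
    simpa using this
  have h4 : (((Additive.toMul (φ P) : Kˣ) : K) - 1) ^ p = 0 := by
    rw [sub_pow_char, h3, one_pow, sub_self]
  have h5 : ((Additive.toMul (φ P) : Kˣ) : K) = 1 := sub_eq_zero.mp (pow_eq_zero_iff hp.out.ne_zero |>.mp h4)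
  have h6 : (Additive.toMul (φ P) : Kˣ) = 1 := Units.ext h5
  exact Additive.toMul.injective h6

end BaseChange

end Fermat.Agent.FC
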