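import Mathlib
import Fermat.Agent.Tate.LogVal

/-!
# FC, block (P), part 1 (helper5): the valuation of `1 - ζ_p`

`A` a valuation subring of a field `K` with a `ℚ`-valued logarithmic valuation `w`, `w(p) = 1`,
`ζ` a primitive `p`-th root of unity in `K`.  Then `(p - 1) w(1 - ζ^k) = 1` for `p ∤ k`
(`logVal_one_sub_zeta_pow`), `ζ` is a unit of `A`, and `∑_{i < c} ζ^i ≡ c` modulo `𝔪`
(`geom_sum_sub_natCast_mem`).
-/

set_option autoImplicit false

namespace Fermat.Agent.FC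

open Fermat.Agent.Tate Finset

variable {K : Type*} [Field K] {A : ValuationSubring K} (L : LogVal A)

/-- the logarithmic valuation of a finite product -/
theorem pLogVal_prod {ι : Type*} (s : Finset ι) (f : ι → K) (hf : ∀ i ∈ s, f i ≠ 0) :
    L.w (∏ i ∈ s, f i) = ∑ i ∈ s, L.w (f i) := by
  classical
  induction s using Finset.induction_on with
  | empty => simp
  | insert a s ha ih =>
    rw [Finset.prod_insert ha, Finset.sum_insert ha,
      L.map_mul (hf a (Finset.mem_insert_self a s))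
        (Finset.prod_ne_zero_iff.mpr fun i hi => hf i (Finset.mem_insert_of_mem hi)),
      ih fun i hi => hf i (Finset.mem_insert_of_mem hi)]

/-- a root of unity is a unit of `A` -/
theorem rootOfUnity_mem {ζ : K} {n : ℕ} (hn : n ≠ 0) (h : ζ ^ n = 1) : ζ ∈ A := by
  rcases A.mem_or_inv_mem ζ with h1 | h1
  · exact h1
  · have : ζ = (ζ⁻¹) ^ (n - 1) := by
      have hζ0 : ζ ≠ 0 := by
        rintro rfl
        rw [zero_pow hn] at h
        exact zero_ne_one h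
      have e : ζ ^ n = ζ ^ (n - 1) * ζ := by
        rw [← pow_succ]
        congr 1
        omega
      rw [inv_pow]
      exact eq_inv_of_mul_eq_one_left (by rw [mul_comm, ← e, h])
    rw [this]
    exact A.pow_mem h1 _

theorem pow_mem_of_rootOfUnity {ζ : K} {n : ℕ} (hn : n ≠ 0) (h : ζ ^ n = 1) (k : ℕ) :
    ζ ^ k ∈ A := A.pow_mem (rootOfUnity_mem hn h) k

/-- geometric sums of a root of unity are integral -/
theorem geom_sum_mem {ζ : K} {n : ℕ} (hn : n ≠ 0) (h : ζ ^ n = 1) (c : ℕ) :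
    ∑ i ∈ range c, ζ ^ i ∈ A :=
  A.toSubring.sum_mem fun i _ => pow_mem_of_rootOfUnity hn h i

/-- `1 - ζ^k ∈ (1 - ζ) A` -/
theorem one_sub_pow_eq (ζ : K) (k : ℕ) : 1 - ζ ^ k = (1 - ζ) * ∑ i ∈ range k, ζ ^ i :=
  (mul_neg_geom_sum ζ k).symm

/-- `w (1 - ζ) ≤ w (1 - ζ^k)` when `ζ^k ≠ 1` -/
theorem logVal_one_sub_le {ζ : K} {n : ℕ} (hn : n ≠ 0) (h : ζ ^ n = 1) {k : ℕ}
    (hk : ζ ^ k ≠ 1) : 1 - ζ ≠ 0 ∧ L.w (1 - ζ) ≤ L.w (1 - ζ ^ k) := by
  have hne : 1 - ζ ^ k ≠ 0 := sub_ne_zero.mpr (Ne.symm hk)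
  have e := one_sub_pow_eq ζ k
  have h1 : 1 - ζ ≠ 0 := by
    intro h0
    rw [h0, zero_mul] at e
    exact hne e
  have h2 : ∑ i ∈ range k, ζ ^ i ≠ 0 := by
    intro h0
    rw [h0, mul_zero] at e
    exact hne e
  refine ⟨h1, ?_⟩
  rw [e, L.map_mul h1 h2]
  have := L.nonneg_of_mem h2 (geom_sum_mem hn h k)
  linarith

section prim

variable {p : ℕ} (hp : p.Prime) {ζ : K} (hζ : IsPrimitiveRoot ζ p)
include hp hζ

/-- all `1 - ζ^k`, `p ∤ k`, have the same valuation -/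
theorem logVal_one_sub_zeta_pow_eq {k : ℕ} (hk : ¬ p ∣ k) :
    1 - ζ ^ k ≠ 0 ∧ 1 - ζ ≠ 0 ∧ L.w (1 - ζ ^ k) = L.w (1 - ζ) := by
  have hp0 : p ≠ 0 := hp.ne_zero
  have hcop : Nat.Coprime k p := (Nat.Prime.coprime_iff_not_dvd hp).mpr hk |>.symm
  have hξ : IsPrimitiveRoot (ζ ^ k) p := hζ.pow_of_coprime k hcop
  have hk1 : ζ ^ k ≠ 1 := hξ.ne_one hp.one_lt
  obtain ⟨h1, hle⟩ := logVal_one_sub_le L hp0 hζ.pow_eq_one hk1
  -- `ζ` is a power of `ζ ^ k`
  obtain ⟨m, hm⟩ : ∃ m : ℕ, (ζ ^ k) ^ m = ζ := by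
    obtain ⟨m, -, hm⟩ := Nat.exists_mul_mod_eq_one_of_coprime hcop hp.one_lt
    refine ⟨m, ?_⟩
    rw [← pow_mul, ← Nat.mod_add_div (k * m) p, pow_add, pow_mul, hζ.pow_eq_one, one_pow, mul_one,
      hm, pow_one]
  have hζ1 : (ζ ^ k) ^ m ≠ 1 := by
    rw [hm]
    exact hζ.ne_one hp.one_lt
  obtain ⟨h2, hle'⟩ := logVal_one_sub_le L hp0 hξ.pow_eq_one hζ1
  rw [hm] at hle'
  exact ⟨h2, h1, le_antisymm hle' hle⟩

/-- **`(p - 1) w(1 - ζ) = w(p)`** -/
theorem logVal_one_sub_zeta [CharZero K] :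
    1 - ζ ≠ 0 ∧ ((p : ℚ) - 1) * L.w (1 - ζ) = L.w (p : K) := by
  obtain ⟨n, rfl⟩ : ∃ n, p = n + 1 := ⟨p - 1, by have := hp.pos; omega⟩
  have hprod := hζ.prod_one_sub_pow_eq_order
  have hne : ∀ k ∈ range n, (1 - ζ ^ (k + 1) : K) ≠ 0 := by
    intro k hk
    have hk' : ¬ (n + 1) ∣ (k + 1) := by
      intro hd
      have := Nat.le_of_dvd (Nat.succ_pos k) hd
      have := mem_range.mp hk
      omega
    exact (logVal_one_sub_zeta_pow_eq L hp hζ hk').1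
  have h1 : (1 - ζ : K) ≠ 0 := (logVal_one_sub_zeta_pow_eq L hp hζ (k := 1) (by
    intro hd
    have := Nat.le_of_dvd one_pos hd
    have := hp.one_lt
    omega)).2.1
  refine ⟨h1, ?_⟩
  have h2 := congrArg L.w hprod
  rw [pLogVal_prod L _ _ hne] at h2
  have h3 : ∑ k ∈ range n, L.w (1 - ζ ^ (k + 1)) = ∑ _k ∈ range n, L.w (1 - ζ) := by
    apply Finset.sum_congr rfl
    intro k hk
    have hk' : ¬ (n + 1) ∣ (k + 1) := by
      intro hd
      have := Nat.le_of_dvd (Nat.succ_pos k) hd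
      have := mem_range.mp hk
      omega
    exact (logVal_one_sub_zeta_pow_eq L hp hζ hk').2.2
  rw [h3, Finset.sum_const, card_range, nsmul_eq_mul] at h2
  push_cast
  rw [← h2]
  ring

/-- `w (1 - ζ^k) = 1 / (p - 1)` for `p ∤ k`, if `w p = 1` -/
theorem logVal_one_sub_zeta_pow [CharZero K] (hL : L.w (p : K) = 1) {k : ℕ} (hk : ¬ p ∣ k) :
    1 - ζ ^ k ≠ 0 ∧ ((p : ℚ) - 1) * L.w (1 - ζ ^ k) = 1 := by
  obtain ⟨h1, -, h3⟩ := logVal_one_sub_zeta_pow_eq L hp hζ hk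
  refine ⟨h1, ?_⟩
  rw [h3, (logVal_one_sub_zeta L hp hζ).2, hL]

/-- `1 - ζ` lies in the maximal ideal -/
theorem one_sub_zeta_mem_nonunits [CharZero K] (hL : L.w (p : K) = 1) : 1 - ζ ∈ A.nonunits := by
  obtain ⟨h1, h2⟩ := logVal_one_sub_zeta L hp hζ
  rw [hL] at h2
  apply L.mem_nonunits_of_pos
  right
  have hp1 : (0 : ℚ) < (p : ℚ) - 1 := by
    have : (1 : ℚ) < p := by exact_mod_cast hp.one_lt
    linarith
  by_contra hle
  push Not at hle
  nlinarith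

/-- `∑_{i < c} ζ^i ≡ c` modulo the maximal ideal -/
theorem geom_sum_sub_natCast_mem [CharZero K] (hL : L.w (p : K) = 1) (c : ℕ) :
    ∑ i ∈ range c, ζ ^ i - (c : K) ∈ A.nonunits := by
  have hm := one_sub_zeta_mem_nonunits L hp hζ hL
  have e : ∑ i ∈ range c, ζ ^ i - (c : K) = -∑ i ∈ range c, (1 - ζ ^ i) := by
    rw [Finset.sum_sub_distrib, Finset.sum_const, card_range, nsmul_eq_mul, mul_one]
    ring
  rw [e, ← L.gt_zero_iff]
  apply LogVal.Gt.neg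
  have hm' : L.Gt 0 (1 - ζ) := L.gt_zero_iff.mpr hm
  have key : ∀ s : Finset ℕ, L.Gt 0 (∑ i ∈ s, (1 - ζ ^ i)) := by
    intro s
    induction s using Finset.induction_on with
    | empty => rw [Finset.sum_empty]; exact LogVal.Gt.zero 0
    | insert a s ha ih =>
      rw [Finset.sum_insert ha]
      refine LogVal.Gt.add ?_ ih
      rw [one_sub_pow_eq]
      have := LogVal.Gt.mul_ge hm' (L.ge_zero_iff.mpr (geom_sum_mem hp.ne_zero hζ.pow_eq_one a))
      rwa [add_zero] at this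
  exact key _

end prim

end Fermat.Agent.FC
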