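import Mathlib
import Fermat.Prelude.Def_FLTPrelim_GaloisRep
import Fermat.Agent.FC.P_helper5_Cyclo
import Fermat.Agent.S13.P1_helper5
import Fermat.Agent.S13.Ip_helper8_Roots
import Fermat.Agent.EC.Tors_helper6_Dagger
import Fermat.Agent.Tate.Frey_helper7

/-!
# FC, block (P), part 2 (helper5): an inertia-stable line inside the kernel of reduction

Abstract setting of `S13/Ip_helper8_Dichotomy`: `W'` a Weierstrass curve over `ℚ`, integral over the
valuation subring `A` of the algebraically closed field `K`, `w p = 1`, `I` a set of automorphisms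
of `K` (the inertia group) with `σ a ≡ a` modulo `𝔪` and such that `I`-fixed elements have integral
valuation.  `N` an `I`-stable subgroup of order `p` of `E[p]` contained in the kernel of reduction.

* `sum_logVal_zOf_eq_one`: `∑_{Q ∈ S} w(z(Q)) = 1` for a nonempty `I`-stable finite set `S` of
  nonzero `p`-torsion points in the kernel of reduction (equality case of `(†')` and `(P-1)`);
* `logVal_zOf_line`: `(p - 1) w(z(Q)) = 1` for `0 ≠ Q ∈ N`;
* `mem_line_of_mem_kerRed`: `E[p] ∩ E₁ = N`;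
* `inertia_smul_eq_nsmul`: `σ ∈ I`, `σ ζ = ζ ^ c` ⇒ `σ • Q = c • Q` on `N` (`ζ` a primitive `p`-th
  root of unity): inertia acts on `N` through the cyclotomic character.
-/

set_option autoImplicit false
set_option linter.unusedSectionVars false

namespace Fermat.Agent.FC

open WeierstrassCurve WeierstrassCurve.Affine
open scoped WeierstrassCurve.Affine
open Fermat.Agent.Tate

variable {K : Type*} [Field K] [DecidableEq K] [Algebra ℚ K] {A : ValuationSubring K}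
  {W' : Affine ℚ}

/-- the `z`-coordinate is Galois equivariant -/
theorem pZOf_smul (σ : K ≃ₐ[ℚ] K) (Q : (W'⁄K).Point) : R1.zOf (σ • Q) = σ (R1.zOf Q) := by
  rcases Q with _ | ⟨x, y, h⟩
  · show (0 : K) = σ 0
    rw [_root_.map_zero]
  · show -(σ x) / (σ y) = σ (-x / y)
    rw [map_div₀, _root_.map_neg]

theorem pSmul_ne_zero (σ : K ≃ₐ[ℚ] K) {Q : (W'⁄K).Point} (hQ : Q ≠ 0) : σ • Q ≠ 0 := by
  rcases Q with _ | ⟨x, y, h⟩
  · exact absurd rfl hQ
  · rw [smul_some]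
    exact Point.some_ne_zero _

/-- an automorphism which is trivial modulo `𝔪` maps non-integral elements to non-integral ones -/
theorem map_notMem_of_inertia {σ : K ≃ₐ[ℚ] K}
    (hσ : ∀ a ∈ A, σ a ∈ A ∧ σ a - a ∈ A.nonunits) {x : K} (hx : x ∉ A) : σ x ∉ A := by
  have hx0 : x ≠ 0 := fun h => hx (h ▸ A.zero_mem)
  have hinv : x⁻¹ ∈ A.nonunits := by
    rw [ValuationSubring.mem_nonunits_iff_or]
    right
    rwa [inv_inv]
  obtain ⟨h1, h2⟩ := hσ x⁻¹ (A.nonunits_le hinv)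
  have h3 : σ x⁻¹ ∈ A.nonunits := by
    have e : σ x⁻¹ = (σ x⁻¹ - x⁻¹) + x⁻¹ := by ring
    rw [e, A.mem_nonunits_iff]
    exact lt_of_le_of_lt (A.valuation.map_add _ _)
      (max_lt (A.mem_nonunits_iff.mp h2) (A.mem_nonunits_iff.mp hinv))
  rw [map_inv₀] at h3
  intro hmem
  have hσx0 : σ x ≠ 0 := by
    intro h0
    exact hx0 ((map_eq_zero σ).mp h0)
  have h4 : A.valuation (σ x) ≤ 1 := (A.valuation_le_one_iff _).mpr hmem
  have h5 : A.valuation (σ x)⁻¹ < 1 := A.mem_nonunits_iff.mp h3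
  rw [map_inv₀] at h5
  have h6 : (1 : _) ≤ (A.valuation (σ x))⁻¹ := by
    rw [one_le_inv₀ (zero_lt_iff.mpr ((Valuation.ne_zero_iff _).mpr hσx0))]
    exact h4
  exact absurd h5 (not_lt.mpr h6)

/-- the kernel of reduction is stable under such automorphisms -/
theorem smul_mem_kerRed_of_inertia (hW : IsIntegralCurve A (W'⁄K)) {σ : K ≃ₐ[ℚ] K}
    (hσ : ∀ a ∈ A, σ a ∈ A ∧ σ a - a ∈ A.nonunits) {Q : (W'⁄K).Point} (hQ : Q ∈ kerRed hW) :
    σ • Q ∈ kerRed hW := by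
  rcases Q with _ | ⟨x, y, h⟩
  · exact hQ
  · rw [smul_some, some_mem_kerRed_iff]
    rw [some_mem_kerRed_iff] at hQ
    exact map_notMem_of_inertia hσ hQ

/-- `z (k Q) = k z(Q) + e z(Q)²` with `e ∈ A` on the kernel of reduction -/
theorem zOf_nsmul_eq {W : Affine K} (hW : IsIntegralCurve A W) {Q : W.Point}
    (hQ : Q ∈ kerRed hW) (k : ℕ) :
    k • Q ∈ kerRed hW ∧ ∃ e ∈ A, R1.zOf (k • Q) = k * R1.zOf Q + e * R1.zOf Q ^ 2 := by
  have hlt := R1.v_zOf_lt_one hW.intCoeffs hQ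
  obtain ⟨h1, h2⟩ := R1.inKer_nsmul hW.intCoeffs hlt hQ le_rfl k
  refine ⟨h1, ?_⟩
  by_cases hz : R1.zOf Q = 0
  · rw [hz, map_zero, mul_zero, mul_zero, sub_zero] at h2
    have h3 : R1.zOf (k • Q) = 0 := (Valuation.zero_iff _).mp (le_antisymm h2 zero_le)
    exact ⟨0, A.zero_mem, by rw [hz, h3]; ring⟩
  · refine ⟨(R1.zOf (k • Q) - k * R1.zOf Q) / R1.zOf Q ^ 2, ?_, by field_simp; ring⟩
    rw [← A.valuation_le_one_iff, map_div₀, map_pow, pow_two]
    have hpos : 0 < A.valuation (R1.zOf Q) * A.valuation (R1.zOf Q) := by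
      have := zero_lt_iff.mpr ((Valuation.ne_zero_iff A.valuation).mpr hz)
      exact mul_pos this this
    exact (div_le_one₀ hpos).mpr h2

section sums

variable [IsAlgClosed K] [CharZero K]
  (L : LogVal A) (hW : IsIntegralCurve A (W'⁄K)) {p : ℕ} (hp : p.Prime) (hodd : p ≠ 2)
  (hL : L.w (p : K) = 1) (I : Set (K ≃ₐ[ℚ] K))
  (hval : ∀ y : K, y ≠ 0 → (∀ σ ∈ I, σ y = y) → ∃ m : ℤ, L.w y = m)

include hW hp hodd hL hval in
/-- **equality case of `(†')` and `(P-1)`** -/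
theorem sum_logVal_zOf_eq_one (S : Finset (W'⁄K).Point) (hne : S.Nonempty)
    (hS : ∀ Q ∈ S, Q ≠ 0 ∧ p • Q = 0 ∧ EC.xOf Q ∉ A)
    (hSI : ∀ σ ∈ I, ∀ Q ∈ S, σ • Q ∈ S) :
    ∑ Q ∈ S, L.w (R1.zOf Q) = 1 := by
  classical
  have hfacts : ∀ Q ∈ S, R1.zOf Q ≠ 0 ∧ 0 < L.w (R1.zOf Q) ∧
      L.w (EC.xOf Q) = -2 * L.w (R1.zOf Q) := fun Q hQ =>
    S13.logVal_xOf_eq L hW (hS Q hQ).1 (hS Q hQ).2.2
  -- upper bound from `(†')`
  have hD := EC.neg_two_mul_logVal_le_sum A hW hp hodd L S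
    (fun Q hQ => ⟨(hS Q hQ).2.1, (hS Q hQ).1, (hS Q hQ).2.2⟩)
  rw [hL] at hD
  have hsum : ∑ Q ∈ S, L.w (EC.xOf Q) = -2 * ∑ Q ∈ S, L.w (R1.zOf Q) := by
    rw [Finset.mul_sum]
    exact Finset.sum_congr rfl fun Q hQ => (hfacts Q hQ).2.2
  -- lower bound from invariance
  set y : K := ∏ Q ∈ S, R1.zOf Q with hy
  have hy0 : y ≠ 0 := Finset.prod_ne_zero_iff.mpr fun Q hQ => (hfacts Q hQ).1
  have hwy : L.w y = ∑ Q ∈ S, L.w (R1.zOf Q) :=
    pLogVal_prod L S _ fun Q hQ => (hfacts Q hQ).1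
  have hfix : ∀ σ ∈ I, σ y = y := by
    intro σ hσ
    rw [hy, map_prod]
    set f : (W'⁄K).Point → (W'⁄K).Point := fun Q => σ • Q with hf
    have hinj : Function.Injective f := fun a b hab => MulAction.injective σ hab
    have himg : S.image f = S := by
      apply Finset.eq_of_subset_of_card_le
      · intro Q hQ
        obtain ⟨Q', hQ', rfl⟩ := Finset.mem_image.mp hQ
        exact hSI σ hσ Q' hQ'
      · exact (Finset.card_image_of_injective S hinj).ge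
    conv_rhs => rw [← himg]
    rw [Finset.prod_image fun a _ b _ h => hinj h]
    exact Finset.prod_congr rfl fun Q _ => (pZOf_smul σ Q).symm
  obtain ⟨m, hm⟩ := hval y hy0 hfix
  have hpos : 0 < L.w y := by
    rw [hwy]
    exact Finset.sum_pos (fun Q hQ => (hfacts Q hQ).2.1) hne
  have hm1 : (1 : ℚ) ≤ m := by
    rw [hm] at hpos
    have : (0 : ℤ) < m := by exact_mod_cast hpos
    exact_mod_cast this
  rw [hm] at hwy
  linarith

end sums

section mult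

variable (L : LogVal A)

theorem xOf_notMem_of_mem_kerRed' {W : Affine K} (hW : IsIntegralCurve A W) {Q : W.Point}
    (hQ0 : Q ≠ 0) (hQ : Q ∈ kerRed hW) : EC.xOf Q ∉ A := by
  rcases Q with _ | ⟨x, y, h⟩
  · exact absurd rfl hQ0
  · rwa [some_mem_kerRed_iff] at hQ

/-- `w(z(kQ)) = w(z(Q))` for `k` a unit of `A` -/
theorem logVal_zOf_nsmul {W : Affine K} (hW : IsIntegralCurve A W) {Q : W.Point} (hQ0 : Q ≠ 0)
    (hQ : Q ∈ kerRed hW) {k : ℕ} (hk0 : (k : K) ≠ 0) (hk : (k : K) ∉ A.nonunits) :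
    R1.zOf (k • Q) ≠ 0 ∧ L.w (R1.zOf (k • Q)) = L.w (R1.zOf Q) := by
  obtain ⟨hz0, hzpos, -⟩ := S13.logVal_xOf_eq L hW hQ0 (xOf_notMem_of_mem_kerRed' hW hQ0 hQ)
  obtain ⟨-, e, heA, he⟩ := zOf_nsmul_eq hW hQ k
  have hwk : L.w (k : K) = 0 := L.eq_zero_of_unit (natCast_mem A k) hk
  have hkz0 : (k : K) * R1.zOf Q ≠ 0 := mul_ne_zero hk0 hz0
  have hwkz : L.w ((k : K) * R1.zOf Q) = L.w (R1.zOf Q) := by
    rw [L.map_mul hk0 hz0, hwk, zero_add]
  have hgt : L.Gt (L.w ((k : K) * R1.zOf Q)) (e * R1.zOf Q ^ 2) := by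
    rcases eq_or_ne e 0 with rfl | he0
    · left; rw [zero_mul]
    · right
      rw [hwkz, L.map_mul he0 (pow_ne_zero 2 hz0), L.map_pow hz0]
      have := L.nonneg_of_mem he0 heA
      push_cast
      linarith
  have := L.map_add_of_gt hkz0 hgt
  rw [← he, hwkz] at this
  exact this

end mult

section line

variable [IsAlgClosed K] [CharZero K]
  (L : LogVal A) (hW : IsIntegralCurve A (W'⁄K)) {p : ℕ} (hp : p.Prime) (hodd : p ≠ 2)
  (hL : L.w (p : K) = 1) (I : Set (K ≃ₐ[ℚ] K))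
  (hval : ∀ y : K, y ≠ 0 → (∀ σ ∈ I, σ y = y) → ∃ m : ℤ, L.w y = m)
  (N : AddSubgroup (W'⁄K).Point) (hNp : ∀ Q ∈ N, p • Q = 0) (hcard : Nat.card N = p)
  (hNI : ∀ σ ∈ I, ∀ Q ∈ N, σ • Q ∈ N) (hNE : ∀ Q ∈ N, Q ∈ kerRed hW)

include hp hL in
theorem natCast_mem_nonunits_of_logVal : (p : K) ∈ A.nonunits :=
  L.mem_nonunits_of_pos (Or.inr (by rw [hL]; exact one_pos))

include hp hcard in
/-- every element of `N` is a multiple `k • Q`, `k < p`, of a given nonzero element -/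
theorem exists_nsmul_eq_of_mem_line {Q Q' : (W'⁄K).Point} (hQ : Q ∈ N) (hQ0 : Q ≠ 0)
    (hQ' : Q' ∈ N) : ∃ k : ℕ, k < p ∧ k • Q = Q' := by
  have _ : Fact p.Prime := ⟨hp⟩
  have h0 : (⟨Q, hQ⟩ : N) ≠ 0 := fun h => hQ0 (congrArg Subtype.val h)
  have := mem_zmultiples_of_prime_card (G := N) hcard (g' := ⟨Q', hQ'⟩) h0
  obtain ⟨m, hm⟩ := AddSubgroup.mem_zmultiples_iff.mp this
  have hm' : m • Q = Q' := by
    have := congrArg Subtype.val hm
    simpa using this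
  have hpQ : (p : ℤ) • Q = 0 := by
    have h1 : (p : ℤ) • (⟨Q, hQ⟩ : N) = 0 := by
      rw [natCast_zsmul, ← hcard]
      exact card_nsmul_eq_zero'
    have := congrArg Subtype.val h1
    simpa using this
  refine ⟨(m % (p : ℤ)).toNat, ?_, ?_⟩
  · have hp0 : (0 : ℤ) < p := by exact_mod_cast hp.pos
    have h1 := Int.emod_lt_of_pos m hp0
    have h2 := Int.emod_nonneg m hp0.ne'
    omega
  · have hp0 : (p : ℤ) ≠ 0 := by exact_mod_cast hp.ne_zero
    have h2 := Int.emod_nonneg m hp0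
    rw [← natCast_zsmul, Int.toNat_of_nonneg h2, ← hm']
    conv_rhs => rw [← Int.emod_add_mul_ediv m p, add_smul, mul_comm, mul_smul, hpQ, smul_zero, add_zero]

/-- the finite set `N ∖ 0` -/
noncomputable def lineSet (N : AddSubgroup (W'⁄K).Point) [Finite N] : Finset (W'⁄K).Point :=
  (Set.toFinite (N : Set (W'⁄K).Point)).toFinset.erase 0

omit [IsAlgClosed K] [CharZero K] in
theorem mem_lineSet {N : AddSubgroup (W'⁄K).Point} [Finite N] {Q : (W'⁄K).Point} :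
    Q ∈ lineSet N ↔ Q ≠ 0 ∧ Q ∈ N := by
  rw [lineSet, Finset.mem_erase, Set.Finite.mem_toFinset]
  rfl

omit [IsAlgClosed K] [CharZero K] in
theorem card_lineSet (N : AddSubgroup (W'⁄K).Point) [Finite N] :
    (lineSet N).card = Nat.card N - 1 := by
  rw [lineSet, Finset.card_erase_of_mem]
  · congr 1
    rw [← Set.ncard_eq_toFinset_card (N : Set (W'⁄K).Point) (Set.toFinite _)]
    exact Nat.card_coe_set_eq _
  · rw [Set.Finite.mem_toFinset]
    exact N.zero_mem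

include hW hp hodd hL hval hNp hcard hNI hNE in
/-- **`w(z(Q)) = 1/(p-1)` on the line** -/
theorem logVal_zOf_line {Q : (W'⁄K).Point} (hQ : Q ∈ N) (hQ0 : Q ≠ 0) :
    ((p : ℚ) - 1) * L.w (R1.zOf Q) = 1 := by
  classical
  have hfin : Finite N := Nat.finite_of_card_ne_zero (by rw [hcard]; exact hp.ne_zero)
  have hpA := natCast_mem_nonunits_of_logVal L hp hL
  have hS : ∀ Q' ∈ lineSet N, Q' ≠ 0 ∧ p • Q' = 0 ∧ EC.xOf Q' ∉ A := by
    intro Q' hQ'
    obtain ⟨h0, hN⟩ := mem_lineSet.mp hQ'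
    exact ⟨h0, hNp Q' hN, xOf_notMem_of_mem_kerRed' hW h0 (hNE Q' hN)⟩
  have hsum := sum_logVal_zOf_eq_one L hW hp hodd hL I hval (lineSet N)
    ⟨Q, mem_lineSet.mpr ⟨hQ0, hQ⟩⟩ hS
    (fun σ hσ Q' hQ' => by
      obtain ⟨h0, hN⟩ := mem_lineSet.mp hQ'
      refine mem_lineSet.mpr ⟨?_, hNI σ hσ Q' hN⟩
      exact pSmul_ne_zero σ h0)
  have hconst : ∀ Q' ∈ lineSet N, L.w (R1.zOf Q') = L.w (R1.zOf Q) := by
    intro Q' hQ'
    obtain ⟨h0, hN⟩ := mem_lineSet.mp hQ'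
    obtain ⟨k, hkp, rfl⟩ := exists_nsmul_eq_of_mem_line hp N hcard hQ hQ0 hN
    have hk0 : k ≠ 0 := by
      rintro rfl
      exact h0 (zero_smul _ _)
    have hndvd : ¬ p ∣ k := fun hd => absurd (Nat.le_of_dvd (Nat.pos_of_ne_zero hk0) hd) (by omega)
    exact (logVal_zOf_nsmul L hW hQ0 (hNE Q hQ) (Nat.cast_ne_zero.mpr hk0)
      (natCast_notMem_nonunits A hp hpA hndvd)).2
  rw [Finset.sum_congr rfl hconst, Finset.sum_const, card_lineSet, hcard, nsmul_eq_mul] at hsum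
  have : 1 ≤ p := hp.one_le
  rw [Nat.cast_sub this, Nat.cast_one] at hsum
  exact hsum

include hW hp hodd hL hval hNp hcard hNI hNE in
/-- **`E[p] ∩ E₁ = N`** -/
theorem mem_line_of_mem_kerRed {Q : (W'⁄K).Point} (hQp : p • Q = 0) (hQE : Q ∈ kerRed hW) :
    Q ∈ N := by
  classical
  have hfin : Finite N := Nat.finite_of_card_ne_zero (by rw [hcard]; exact hp.ne_zero)
  by_cases hQ0 : Q = 0
  · rw [hQ0]; exact N.zero_mem
  have hpK : (p : K) ≠ 0 := Nat.cast_ne_zero.mpr hp.ne_zero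
  have hS : ∀ Q' ∈ lineSet N, Q' ≠ 0 ∧ p • Q' = 0 ∧ EC.xOf Q' ∉ A := by
    intro Q' hQ'
    obtain ⟨h0, hN⟩ := mem_lineSet.mp hQ'
    exact ⟨h0, hNp Q' hN, xOf_notMem_of_mem_kerRed' hW h0 (hNE Q' hN)⟩
  have hne : (lineSet N).Nonempty := by
    have hnt : Nontrivial N := by
      rw [← Finite.one_lt_card_iff_nontrivial, hcard]
      exact hp.one_lt
    obtain ⟨⟨Q₁, hQ₁⟩, h1⟩ := exists_ne (0 : N)
    exact ⟨Q₁, mem_lineSet.mpr ⟨fun h => h1 (Subtype.ext h), hQ₁⟩⟩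
  obtain ⟨Q', hQ'S, hx⟩ := S13.exists_xOf_eq_of_notMem L hW hp hodd hpK hL I hval (lineSet N) hne hS
    (fun σ hσ Q' hQ' => by
      obtain ⟨h0, hN⟩ := mem_lineSet.mp hQ'
      refine mem_lineSet.mpr ⟨?_, hNI σ hσ Q' hN⟩
      exact pSmul_ne_zero σ h0)
    hQ0 hQp (xOf_notMem_of_mem_kerRed' hW hQ0 hQE)
  obtain ⟨hQ'0, hQ'N⟩ := mem_lineSet.mp hQ'S
  rcases (EC.xOf_eq_iff hQ0 hQ'0).mp hx with rfl | rfl
  · exact hQ'N
  · exact N.neg_mem hQ'N

include hW hp hodd hL hval hNp hcard hNI hNE in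
/-- **inertia acts on the line through the cyclotomic character** -/
theorem inertia_smul_eq_nsmul {ζ : K} (hζ : IsPrimitiveRoot ζ p) {σ : K ≃ₐ[ℚ] K} (hσI : σ ∈ I)
    (hσ : ∀ a ∈ A, σ a ∈ A ∧ σ a - a ∈ A.nonunits) {c : ℕ} (hc : σ ζ = ζ ^ c)
    {Q : (W'⁄K).Point} (hQ : Q ∈ N) : σ • Q = c • Q := by
  classical
  by_cases hQ0 : Q = 0
  · rw [hQ0, smul_zero]
    rfl
  have hpA := natCast_mem_nonunits_of_logVal L hp hL
  obtain ⟨θ, -, hθ⟩ := exists_nsmul_eq_of_mem_line hp N hcard hQ hQ0 (hNI σ hσI Q hQ)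
  -- it suffices to show `θ ≡ c` modulo `p`
  suffices hdvd : (p : ℤ) ∣ (c : ℤ) - θ by
    obtain ⟨t, ht⟩ := hdvd
    have hpQ : (p : ℤ) • Q = 0 := by rw [natCast_zsmul]; exact hNp Q hQ
    have e : (c : ℤ) • Q = (θ : ℤ) • Q := by
      have : (c : ℤ) = θ + p * t := by linarith
      rw [this, add_smul, mul_comm, mul_smul, hpQ, smul_zero, add_zero]
    rw [natCast_zsmul, natCast_zsmul] at e
    rw [← hθ, e]
  -- the `z`-coordinate
  set z := R1.zOf Q with hz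
  obtain ⟨hz0, hzpos, -⟩ := S13.logVal_xOf_eq L hW hQ0
    (xOf_notMem_of_mem_kerRed' hW hQ0 (hNE Q hQ))
  have hwz := logVal_zOf_line L hW hp hodd hL I hval N hNp hcard hNI hNE hQ hQ0
  obtain ⟨h1ζ, hwζ⟩ := logVal_one_sub_zeta L hp hζ
  rw [hL] at hwζ
  have hp1 : (0 : ℚ) < (p : ℚ) - 1 := by
    have : (1 : ℚ) < p := by exact_mod_cast hp.one_lt
    linarith
  have hwzζ : L.w z = L.w (1 - ζ) := by
    have : ((p : ℚ) - 1) * L.w z = ((p : ℚ) - 1) * L.w (1 - ζ) := by rw [hwz, hwζ]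
    exact mul_left_cancel₀ hp1.ne' this
  -- the unit `u`
  set u := z / (1 - ζ) with hu
  have hu0 : u ≠ 0 := div_ne_zero hz0 h1ζ
  have hwu : L.w u = 0 := by rw [hu, L.map_div hz0 h1ζ, hwzζ, sub_self]
  have huA : u ∈ A := L.mem_of_nonneg (Or.inr hwu.ge)
  have huu : u ∉ A.nonunits := by
    intro h
    have := L.pos_of_mem_nonunits hu0 h
    rw [hwu] at this
    exact lt_irrefl _ this
  have hzu : z = u * (1 - ζ) := by rw [hu]; field_simp
  have hzm : z ∈ A.nonunits := L.mem_nonunits_of_pos (Or.inr hzpos)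
  -- `σ z = θ z + e z²`
  obtain ⟨-, e, heA, he⟩ := zOf_nsmul_eq hW (hNE Q hQ) θ
  rw [hθ, pZOf_smul, ← hz] at he
  -- `σ u (1 - ζ) S_c = θ z + e z²`
  set Sc := ∑ i ∈ Finset.range c, ζ ^ i with hSc
  have hScA : Sc ∈ A := geom_sum_mem hp.ne_zero hζ.pow_eq_one c
  have hScm : Sc - (c : K) ∈ A.nonunits := geom_sum_sub_natCast_mem L hp hζ hL c
  have h1 : σ u * ((1 - ζ) * Sc) = (θ : K) * z + e * z ^ 2 := by
    rw [← he, hzu, _root_.map_mul, _root_.map_sub, _root_.map_one, hc, one_sub_pow_eq]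
  have h2 : σ u * Sc = (θ : K) * u + e * z * u := by
    have : (σ u * Sc - ((θ : K) * u + e * z * u)) * (1 - ζ) = 0 := by
      rw [hzu] at h1 ⊢
      linear_combination h1
    exact sub_eq_zero.mp ((mul_eq_zero.mp this).resolve_right h1ζ)
  obtain ⟨hσuA, hσu⟩ := hσ u huA
  -- `u (c - θ) ∈ 𝔪`
  have key : u * ((c : K) - θ) = -(u * (Sc - c)) + -((σ u - u) * Sc) + e * z * u := by
    linear_combination h2
  have hkey : u * ((c : K) - θ) ∈ A.nonunits := by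
    rw [key, ← L.gt_zero_iff]
    refine LogVal.Gt.add (LogVal.Gt.add ?_ ?_) ?_
    · apply LogVal.Gt.neg
      have := LogVal.Ge.mul_gt (L.ge_zero_iff.mpr huA) (L.gt_zero_iff.mpr hScm)
      rwa [add_zero] at this
    · apply LogVal.Gt.neg
      have := LogVal.Gt.mul_ge (L.gt_zero_iff.mpr hσu) (L.ge_zero_iff.mpr hScA)
      rwa [add_zero] at this
    · have h3 := LogVal.Ge.mul_gt (L.ge_zero_iff.mpr heA) (L.gt_zero_iff.mpr hzm)
      rw [add_zero] at h3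
      have := LogVal.Gt.mul_ge h3 (L.ge_zero_iff.mpr huA)
      rwa [add_zero] at this
  by_contra hnd
  have hunit : (((c : ℤ) - θ : ℤ) : K) ∉ A.nonunits := intCast_notMem_nonunits A hp hpA hnd
  apply hunit
  push_cast
  have hmem : ((c : K) - θ) ∈ A := sub_mem (natCast_mem A c) (natCast_mem A θ)
  rcases mem_nonunits_of_mul_mem huA hmem hkey with h | h
  · exact absurd h huu
  · exact h

end line

end Fermat.Agent.FC
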