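/-
PROJECT FC, block (RED) (helper1), part 1: the slope lemma.

`K` a field, `A : ValuationSubring K`, `k = IsLocalRing.ResidueField A`, `EA` a Weierstrass curve
over `A` (ANY reduction type). For two points of `EA` with coordinates in `A` whose reductions are
not opposite to each other on the reduced cubic, the slope of the chord (tangent) through them is
integral and reduces to the slope of the chord (tangent) through the reductions.
-/
import Mathlib
import Fermat.Agent.Tate.R1_helper8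

set_option autoImplicit false
set_option linter.unusedSectionVars false

namespace Fermat.Agent.FC

open WeierstrassCurve WeierstrassCurve.Affine IsLocalRing Fermat.Agent.Tate

/-- the difference identity `(Y₁ - Y₂) (Y₁ - negY X₂ Y₂) = (X₁ - X₂) N` -/
theorem red_chord_identity {R : Type*} [CommRing R] (W : Affine R) {X₁ X₂ Y₁ Y₂ : R}
    (h₁ : W.Equation X₁ Y₁) (h₂ : W.Equation X₂ Y₂) :
    (Y₁ - Y₂) * (Y₁ - W.negY X₂ Y₂) =
      (X₁ - X₂) * (X₁ ^ 2 + X₁ * X₂ + X₂ ^ 2 + W.a₂ * (X₁ + X₂) + W.a₄ - W.a₁ * Y₁) := by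
  rw [equation_iff] at h₁ h₂
  rw [Affine.negY]
  linear_combination h₁ - h₂

/-- over a field: when `P₁ ≠ -P₂`-type denominators do not vanish, the slope is `N / D` with the
symmetric numerator `N`, in the chord case and in the tangent case alike. -/
theorem red_slope_eq_div {F : Type*} [Field F] [DecidableEq F] (W : Affine F) {x₁ x₂ y₁ y₂ : F}
    (h₁ : W.Equation x₁ y₁) (h₂ : W.Equation x₂ y₂) (hD : y₁ - W.negY x₂ y₂ ≠ 0) :
    W.slope x₁ x₂ y₁ y₂ =
      (x₁ ^ 2 + x₁ * x₂ + x₂ ^ 2 + W.a₂ * (x₁ + x₂) + W.a₄ - W.a₁ * y₁) / (y₁ - W.negY x₂ y₂) := by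
  have hy : y₁ ≠ W.negY x₂ y₂ := sub_ne_zero.mp hD
  by_cases hx : x₁ = x₂
  · have hyy : y₁ = y₂ := Y_eq_of_Y_ne h₁ h₂ hx hy
    subst hx
    subst hyy
    rw [slope_of_Y_ne rfl hy, div_eq_div_iff hD hD]
    ring
  · rw [slope_of_X_ne hx, div_eq_div_iff (sub_ne_zero.mpr hx) hD]
    rw [red_chord_identity W h₁ h₂]
    ring

variable {K : Type*} [Field K] [DecidableEq K] {A : ValuationSubring K}
  [DecidableEq (ResidueField A)]

theorem residue_ne_zero_isUnit {a : A} (h : residue A a ≠ 0) : IsUnit a := by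
  by_contra hu
  exact h ((residue_eq_zero_iff a).mpr ((mem_maximalIdeal a).mpr hu))

/-- **slope lemma** -/
theorem red_slope (EA : Affine A) (X₁ X₂ Y₁ Y₂ : A)
    (h₁ : EA.Equation X₁ Y₁) (h₂ : EA.Equation X₂ Y₂)
    (hne : ¬ (residue A X₁ = residue A X₂ ∧
      residue A Y₁ = (EA.map (residue A)).negY (residue A X₂) (residue A Y₂))) :
    ∃ LA : A, (LA : K) = (EA.map A.subtype).slope (X₁ : K) (X₂ : K) (Y₁ : K) (Y₂ : K) ∧
      residue A LA = (EA.map (residue A)).slope (residue A X₁) (residue A X₂)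
        (residue A Y₁) (residue A Y₂) := by
  have h₁K : (EA.map A.subtype).Equation (X₁ : K) (Y₁ : K) := h₁.map A.subtype
  have h₂K : (EA.map A.subtype).Equation (X₂ : K) (Y₂ : K) := h₂.map A.subtype
  have h₁k : (EA.map (residue A)).Equation (residue A X₁) (residue A Y₁) := h₁.map (residue A)
  have h₂k : (EA.map (residue A)).Equation (residue A X₂) (residue A Y₂) := h₂.map (residue A)
  by_cases hx : residue A X₁ = residue A X₂
  · -- tangent-like case
    have hy : residue A Y₁ ≠ (EA.map (residue A)).negY (residue A X₂) (residue A Y₂) :=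
      fun h => hne ⟨hx, h⟩
    have hDk : residue A Y₁ - (EA.map (residue A)).negY (residue A X₂) (residue A Y₂) ≠ 0 :=
      sub_ne_zero.mpr hy
    have hD : IsUnit (Y₁ - EA.negY X₂ Y₂) := by
      apply residue_ne_zero_isUnit
      rw [map_sub, ← map_negY]
      exact hDk
    obtain ⟨u, hu⟩ := hD
    have hnegK : (EA.map A.subtype).negY (X₂ : K) (Y₂ : K) = ((EA.negY X₂ Y₂ : A) : K) :=
      map_negY (W' := EA) A.subtype X₂ Y₂
    have huK : (Y₁ : K) - (EA.map A.subtype).negY (X₂ : K) (Y₂ : K) = ((u : A) : K) := by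
      rw [hu, hnegK]
      push_cast
      ring
    have hDK : (Y₁ : K) - (EA.map A.subtype).negY (X₂ : K) (Y₂ : K) ≠ 0 := by
      rw [huK]
      intro h0
      exact u.ne_zero (Subtype.ext h0)
    have huk : residue A Y₁ - (EA.map (residue A)).negY (residue A X₂) (residue A Y₂) =
        residue A (u : A) := by
      rw [hu, map_sub, map_negY]
    refine ⟨(X₁ ^ 2 + X₁ * X₂ + X₂ ^ 2 + EA.a₂ * (X₁ + X₂) + EA.a₄ - EA.a₁ * Y₁) *
      ((u⁻¹ : Aˣ) : A), ?_, ?_⟩
    · rw [red_slope_eq_div _ h₁K h₂K hDK, eq_div_iff hDK, huK, ← A.coe_mul, mul_assoc,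
        Units.inv_mul, mul_one]
      push_cast
      rfl
    · rw [red_slope_eq_div _ h₁k h₂k hDk, eq_div_iff hDk, huk, ← map_mul, mul_assoc,
        Units.inv_mul, mul_one]
      simp only [map_sub, map_add, map_mul, map_pow]
      rfl
  · -- chord case
    have hU : IsUnit (X₁ - X₂) := by
      apply residue_ne_zero_isUnit
      rw [map_sub]
      exact sub_ne_zero.mpr hx
    obtain ⟨u, hu⟩ := hU
    have hxK : (X₁ : K) ≠ (X₂ : K) := fun h => hx (by rw [Subtype.ext h])
    have hsub : (X₁ : K) - X₂ ≠ 0 := sub_ne_zero.mpr hxK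
    refine ⟨(Y₁ - Y₂) * ((u⁻¹ : Aˣ) : A), ?_, ?_⟩
    · rw [slope_of_X_ne hxK, eq_div_iff hsub]
      have : ((X₁ : K) - X₂) = ((u : A) : K) := by rw [hu]; push_cast; ring
      rw [this, ← A.coe_mul, mul_assoc, Units.inv_mul, mul_one]
      push_cast
      ring
    · rw [slope_of_X_ne hx, eq_div_iff (sub_ne_zero.mpr hx), ← map_sub, ← map_sub, ← hu, ← map_mul,
        mul_assoc, Units.inv_mul, mul_one]

end Fermat.Agent.FC
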