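/-
PROJECT FC, block (RED) (helper1), part 2: reduction of points and the addition theorem.

`EA` a Weierstrass curve over the valuation subring `A` of `K` (ANY reduction type),
`E = EA.map A.subtype` its generic fibre, `Ē = EA.map (residue A)` its special fibre. Mathlib's
`Ē.Point` is the group of NONSINGULAR points of the reduced cubic.

* `GoodRed EA x y` : `x, y ∈ A` and `(x̄, ȳ)` is a nonsingular point of `Ē`;
* `redPt EA : E.Point → Ē.Point` : `0 ↦ 0`, `(x, y) ↦ (x̄, ȳ)` on points with `GoodRed`, else `0`;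
* `red_add_opp` : two `GoodRed` points with opposite reductions have their sum in `kerRed`;
* `red_add_some` : two `GoodRed` points whose reductions are not opposite have a `GoodRed` sum, and
  `redPt` is additive on them.
-/
import Mathlib
import Fermat.Agent.FC.RED_helper1_Slope
import Fermat.Agent.S13.Ip_helper8_Chord

set_option autoImplicit false
set_option linter.unusedSectionVars false

namespace Fermat.Agent.FC

open WeierstrassCurve WeierstrassCurve.Affine IsLocalRing Fermat.Agent.Tate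

variable {K : Type*} [Field K] [DecidableEq K] {A : ValuationSubring K}
  [DecidableEq (ResidueField A)]

/-- the generic fibre of a Weierstrass curve over `A` is an integral curve -/
theorem isIntegralCurve_map (EA : Affine A) : IsIntegralCurve A (EA.map A.subtype) :=
  ⟨EA.a₁.2, EA.a₂.2, EA.a₃.2, EA.a₄.2, EA.a₆.2⟩

/-- an integral point with nonsingular reduction -/
def GoodRed (EA : Affine A) (x y : K) : Prop :=
  ∃ (hx : x ∈ A) (hy : y ∈ A),
    (EA.map (residue A)).Nonsingular (residue A ⟨x, hx⟩) (residue A ⟨y, hy⟩)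

theorem GoodRed.x_mem {EA : Affine A} {x y : K} (h : GoodRed EA x y) : x ∈ A := h.fst

theorem GoodRed.y_mem {EA : Affine A} {x y : K} (h : GoodRed EA x y) : y ∈ A := h.snd.fst

theorem GoodRed.nonsingular {EA : Affine A} {x y : K} (h : GoodRed EA x y) :
    (EA.map (residue A)).Nonsingular (residue A ⟨x, h.x_mem⟩) (residue A ⟨y, h.y_mem⟩) :=
  h.snd.snd

theorem goodRed_coe {EA : Affine A} {X Y : A}
    (h : (EA.map (residue A)).Nonsingular (residue A X) (residue A Y)) :
    GoodRed EA (X : K) (Y : K) := ⟨X.2, Y.2, h⟩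

open Classical in
/-- the reduction map on points -/
noncomputable def redPt (EA : Affine A) : (EA.map A.subtype).Point → (EA.map (residue A)).Point
  | .zero => 0
  | .some x y _ => if h : GoodRed EA x y then .some _ _ h.nonsingular else 0

@[simp] theorem redPt_zero (EA : Affine A) : redPt EA 0 = 0 := rfl

theorem redPt_some {EA : Affine A} {x y : K} (h : (EA.map A.subtype).Nonsingular x y)
    (hg : GoodRed EA x y) : redPt EA (.some x y h) = .some _ _ hg.nonsingular := by
  unfold redPt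
  exact dif_pos hg

theorem redPt_some_coe {EA : Affine A} {X Y : A}
    (h : (EA.map A.subtype).Nonsingular (X : K) (Y : K))
    (hn : (EA.map (residue A)).Nonsingular (residue A X) (residue A Y)) :
    redPt EA (.some (X : K) (Y : K) h) = .some _ _ hn :=
  redPt_some h (goodRed_coe hn)

theorem redPt_some_of_not {EA : Affine A} {x y : K} (h : (EA.map A.subtype).Nonsingular x y)
    (hg : ¬ GoodRed EA x y) : redPt EA (.some x y h) = 0 := by
  unfold redPt
  exact dif_neg hg

/-- `GoodRed` in terms of the partial derivatives over `K` -/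
theorem goodRed_iff_partials (EA : Affine A) {x y : K} (hx : x ∈ A) (hy : y ∈ A)
    (heq : (EA.map A.subtype).Equation x y) :
    GoodRed EA x y ↔
      ¬ (3 * x ^ 2 + 2 * (EA.map A.subtype).a₂ * x + (EA.map A.subtype).a₄ -
          (EA.map A.subtype).a₁ * y ∈ A.nonunits ∧
        2 * y + (EA.map A.subtype).a₁ * x + (EA.map A.subtype).a₃ ∈ A.nonunits) := by
  have heA : EA.Equation ⟨x, hx⟩ ⟨y, hy⟩ :=
    (map_equation EA (f := A.subtype) Subtype.val_injective ⟨x, hx⟩ ⟨y, hy⟩).mp heq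
  have hek : (EA.map (residue A)).Equation (residue A ⟨x, hx⟩) (residue A ⟨y, hy⟩) :=
    heA.map (residue A)
  have key : ∀ a : A, residue A a = 0 ↔ (a : K) ∈ A.nonunits := fun a => by
    rw [residue_eq_zero_iff, A.coe_mem_nonunits_iff]
  have c3 : ((3 : A) : K) = 3 := map_ofNat A.subtype 3
  have c2 : ((2 : A) : K) = 2 := map_ofNat A.subtype 2
  have e1 : (EA.map A.subtype).a₁ = (EA.a₁ : K) := rfl
  have e2 : (EA.map A.subtype).a₂ = (EA.a₂ : K) := rfl
  have e3 : (EA.map A.subtype).a₃ = (EA.a₃ : K) := rfl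
  have e4 : (EA.map A.subtype).a₄ = (EA.a₄ : K) := rfl
  have r1 : (EA.map (residue A)).a₁ = residue A EA.a₁ := rfl
  have r2 : (EA.map (residue A)).a₂ = residue A EA.a₂ := rfl
  have r3 : (EA.map (residue A)).a₃ = residue A EA.a₃ := rfl
  have r4 : (EA.map (residue A)).a₄ = residue A EA.a₄ := rfl
  have k1 := key (3 * (⟨x, hx⟩ : A) ^ 2 + 2 * EA.a₂ * ⟨x, hx⟩ + EA.a₄ - EA.a₁ * ⟨y, hy⟩)
  have k2 := key (2 * (⟨y, hy⟩ : A) + EA.a₁ * ⟨x, hx⟩ + EA.a₃)
  have k1' : ((3 * (⟨x, hx⟩ : A) ^ 2 + 2 * EA.a₂ * ⟨x, hx⟩ + EA.a₄ - EA.a₁ * ⟨y, hy⟩ : A) : K) =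
      3 * x ^ 2 + 2 * (EA.map A.subtype).a₂ * x + (EA.map A.subtype).a₄ -
        (EA.map A.subtype).a₁ * y := by
    push_cast
    rw [c3, c2, e1, e2, e4]
  have k2' : ((2 * (⟨y, hy⟩ : A) + EA.a₁ * ⟨x, hx⟩ + EA.a₃ : A) : K) =
      2 * y + (EA.map A.subtype).a₁ * x + (EA.map A.subtype).a₃ := by
    push_cast
    rw [c2, e1, e3]
  rw [k1'] at k1
  rw [k2'] at k2
  rw [← k1, ← k2]
  simp only [map_sub, map_add, map_mul, map_pow, map_ofNat]
  constructor
  · rintro ⟨_, _, hn⟩
    rw [nonsingular_iff'] at hn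
    rintro ⟨h1, h2⟩
    rcases hn.2 with h | h
    · apply h
      rw [r1, r2, r4]
      linear_combination -h1
    · apply h
      rw [r1, r3]
      exact h2
  · intro h
    refine ⟨hx, hy, ?_⟩
    rw [nonsingular_iff']
    refine ⟨hek, ?_⟩
    by_contra hcon
    rw [not_or, not_not, not_not] at hcon
    apply h
    refine ⟨?_, ?_⟩
    · rw [r1, r2, r4] at hcon
      linear_combination -hcon.1
    · rw [r1, r3] at hcon
      exact hcon.2

theorem goodRed_neg {EA : Affine A} {x y : K} (h : GoodRed EA x y) :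
    GoodRed EA x ((EA.map A.subtype).negY x y) := by
  obtain ⟨hx, hy, hn⟩ := h
  have h1 : (EA.map A.subtype).negY x y = ((EA.negY ⟨x, hx⟩ ⟨y, hy⟩ : A) : K) :=
    map_negY (W' := EA) A.subtype ⟨x, hx⟩ ⟨y, hy⟩
  rw [h1]
  refine ⟨hx, Subtype.property _, ?_⟩
  have h2 : residue A (EA.negY ⟨x, hx⟩ ⟨y, hy⟩) =
      (EA.map (residue A)).negY (residue A ⟨x, hx⟩) (residue A ⟨y, hy⟩) :=
    (map_negY (W' := EA) (residue A) ⟨x, hx⟩ ⟨y, hy⟩).symm
  have h3 : (⟨((EA.negY ⟨x, hx⟩ ⟨y, hy⟩ : A) : K), Subtype.property _⟩ : A) =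
      EA.negY ⟨x, hx⟩ ⟨y, hy⟩ := rfl
  rw [h3, h2]
  exact (nonsingular_neg ..).mpr hn

theorem redPt_neg (EA : Affine A) (P : (EA.map A.subtype).Point) :
    redPt EA (-P) = -redPt EA P := by
  rcases P with _ | ⟨x, y, h⟩
  · rfl
  · rw [Point.neg_some]
    by_cases hg : GoodRed EA x y
    · rw [redPt_some _ (goodRed_neg hg), redPt_some h hg, Point.neg_some]
      simp only [Point.some.injEq, true_and]
      exact (map_negY (W' := EA) (residue A) ⟨x, hg.x_mem⟩ ⟨y, hg.y_mem⟩).symm
    · have hg' : ¬ GoodRed EA x ((EA.map A.subtype).negY x y) := by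
        intro h'
        apply hg
        have := goodRed_neg h'
        rwa [negY_negY] at this
      rw [redPt_some_of_not _ hg', redPt_some_of_not h hg, neg_zero]

/-- two integral points with nonsingular, opposite reductions: the sum is in the kernel of
reduction -/
theorem red_add_opp (EA : Affine A) (X₁ Y₁ X₂ Y₂ : A)
    (h₁ : (EA.map A.subtype).Nonsingular (X₁ : K) (Y₁ : K))
    (h₂ : (EA.map A.subtype).Nonsingular (X₂ : K) (Y₂ : K))
    (n₂ : (EA.map (residue A)).Nonsingular (residue A X₂) (residue A Y₂))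
    (hopp : residue A X₁ = residue A X₂ ∧
      residue A Y₁ = (EA.map (residue A)).negY (residue A X₂) (residue A Y₂)) :
    Point.some _ _ h₁ + Point.some _ _ h₂ ∈ kerRed (isIntegralCurve_map EA) := by
  have hW := isIntegralCurve_map EA
  have hneg : -Point.some _ _ h₂ = Point.some _ _ ((nonsingular_neg ..).mpr h₂) :=
    Point.neg_some h₂
  have h5 : Point.some _ _ h₁ + Point.some _ _ h₂ =
      Point.some _ _ h₁ - Point.some _ _ ((nonsingular_neg ..).mpr h₂) := by
    rw [← hneg, sub_neg_eq_add]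
  rw [h5]
  have hnegK : (EA.map A.subtype).negY (X₂ : K) (Y₂ : K) = ((EA.negY X₂ Y₂ : A) : K) :=
    map_negY (W' := EA) A.subtype X₂ Y₂
  have hg : GoodRed EA (X₂ : K) ((EA.map A.subtype).negY (X₂ : K) (Y₂ : K)) :=
    goodRed_neg (goodRed_coe n₂)
  have key : ∀ a : A, residue A a = 0 → (a : K) ∈ A.nonunits := fun a ha => by
    rw [residue_eq_zero_iff, mem_maximalIdeal] at ha
    exact A.coe_mem_nonunits_iff.mpr ha
  apply Fermat.Agent.S13.sub_mem_kerRed_of_congr hW _ h₁ X₂.2
  · rw [hnegK]; exact Subtype.property _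
  · have := key (X₁ - X₂) (by rw [map_sub, hopp.1, sub_self])
    simpa using this
  · rw [hnegK]
    have := key (Y₁ - EA.negY X₂ Y₂) (by rw [map_sub, hopp.2, map_negY, sub_self])
    simpa using this
  · exact (goodRed_iff_partials EA X₂.2 (by rw [hnegK]; exact Subtype.property _)
      ((nonsingular_neg ..).mpr h₂).1).mp hg

theorem point_some_congr {F : Type*} [CommRing F] {W : Affine F} {x y x' y' : F}
    (h : W.Nonsingular x y) (hx : x = x') (hy : y = y') :
    ∃ h' : W.Nonsingular x' y', Point.some x y h = Point.some x' y' h' := by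
  subst hx
  subst hy
  exact ⟨h, rfl⟩

/-- **addition theorem**: two integral points with nonsingular reductions which are not opposite
to each other: the sum is integral, with nonsingular reduction, and reduction is additive. -/
theorem red_add_some (EA : Affine A) (X₁ Y₁ X₂ Y₂ : A)
    (h₁ : (EA.map A.subtype).Nonsingular (X₁ : K) (Y₁ : K))
    (h₂ : (EA.map A.subtype).Nonsingular (X₂ : K) (Y₂ : K))
    (n₁ : (EA.map (residue A)).Nonsingular (residue A X₁) (residue A Y₁))
    (n₂ : (EA.map (residue A)).Nonsingular (residue A X₂) (residue A Y₂))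
    (hne : ¬ (residue A X₁ = residue A X₂ ∧
      residue A Y₁ = (EA.map (residue A)).negY (residue A X₂) (residue A Y₂))) :
    ∃ (X₃ Y₃ : A) (h₃ : (EA.map A.subtype).Nonsingular (X₃ : K) (Y₃ : K))
      (n₃ : (EA.map (residue A)).Nonsingular (residue A X₃) (residue A Y₃)),
      Point.some _ _ h₁ + Point.some _ _ h₂ = Point.some _ _ h₃ ∧
      Point.some _ _ n₁ + Point.some _ _ n₂ = Point.some _ _ n₃ := by
  have eq₁ : EA.Equation X₁ Y₁ :=
    (map_equation EA (f := A.subtype) Subtype.val_injective X₁ Y₁).mp h₁.1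
  have eq₂ : EA.Equation X₂ Y₂ :=
    (map_equation EA (f := A.subtype) Subtype.val_injective X₂ Y₂).mp h₂.1
  obtain ⟨LA, hLK, hLk⟩ := red_slope EA X₁ X₂ Y₁ Y₂ eq₁ eq₂ hne
  have hxyK : ¬ ((X₁ : K) = (X₂ : K) ∧ (Y₁ : K) = (EA.map A.subtype).negY (X₂ : K) (Y₂ : K)) := by
    rintro ⟨hx, hy⟩
    apply hne
    have hxA : X₁ = X₂ := Subtype.ext hx
    have hnegK : (EA.map A.subtype).negY (X₂ : K) (Y₂ : K) = ((EA.negY X₂ Y₂ : A) : K) :=
      map_negY (W' := EA) A.subtype X₂ Y₂
    have hyA : Y₁ = EA.negY X₂ Y₂ := Subtype.ext (by rw [hy, hnegK])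
    refine ⟨by rw [hxA], ?_⟩
    rw [hyA, map_negY]
  have hXA : (EA.map A.subtype).addX (X₁ : K) (X₂ : K)
      ((EA.map A.subtype).slope (X₁ : K) (X₂ : K) (Y₁ : K) (Y₂ : K)) =
      ((EA.addX X₁ X₂ LA : A) : K) := by
    rw [← hLK]
    exact map_addX (W' := EA) A.subtype X₁ X₂ LA
  have hYA : (EA.map A.subtype).addY (X₁ : K) (X₂ : K) (Y₁ : K)
      ((EA.map A.subtype).slope (X₁ : K) (X₂ : K) (Y₁ : K) (Y₂ : K)) =
      ((EA.addY X₁ X₂ Y₁ LA : A) : K) := by
    rw [← hLK]
    exact map_addY (W' := EA) A.subtype X₁ Y₁ X₂ LA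
  have hXk : (EA.map (residue A)).addX (residue A X₁) (residue A X₂)
      ((EA.map (residue A)).slope (residue A X₁) (residue A X₂) (residue A Y₁) (residue A Y₂)) =
      residue A (EA.addX X₁ X₂ LA) := by
    rw [← hLk]
    exact map_addX (W' := EA) (residue A) X₁ X₂ LA
  have hYk : (EA.map (residue A)).addY (residue A X₁) (residue A X₂) (residue A Y₁)
      ((EA.map (residue A)).slope (residue A X₁) (residue A X₂) (residue A Y₁) (residue A Y₂)) =
      residue A (EA.addY X₁ X₂ Y₁ LA) := by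
    rw [← hLk]
    exact map_addY (W' := EA) (residue A) X₁ Y₁ X₂ LA
  obtain ⟨h₃, e₃⟩ := point_some_congr (nonsingular_add h₁ h₂ hxyK) hXA hYA
  obtain ⟨n₃, f₃⟩ := point_some_congr (nonsingular_add n₁ n₂ hne) hXk hYk
  refine ⟨EA.addX X₁ X₂ LA, EA.addY X₁ X₂ Y₁ LA, h₃, n₃, ?_, ?_⟩
  · rw [Point.add_some hxyK, e₃]
  · rw [Point.add_some hne, f₃]

end Fermat.Agent.FC
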