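/-
PROJECT FC, block (RED) (helper1), part 3: the identity component `E⁰` is a subgroup and reduction
is a homomorphism `E⁰ →+ Ē.Point` with kernel `kerRed`.

`EA` a Weierstrass curve over the valuation subring `A` of `K` (ANY reduction type).

* `InZeroComp EA P` : `P = 0`, or `P = (x, y)` with `x ∉ A` or with `GoodRed EA x y`
  (the shape of the frozen `WeierstrassCurve.InZeroComponentAt`);
* `red_add` : `E⁰` is closed under addition and `redPt` is additive on it;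
* `zeroComp EA : AddSubgroup E.Point`, `redHom EA : zeroComp EA →+ Ē.Point`,
  `redHom_eq_zero_iff` : the kernel is `kerRed`.
-/
import Mathlib
import Fermat.Agent.FC.RED_helper1_Add

set_option autoImplicit false
set_option linter.unusedSectionVars false

namespace Fermat.Agent.FC

open WeierstrassCurve WeierstrassCurve.Affine IsLocalRing Fermat.Agent.Tate

variable {K : Type*} [Field K] [DecidableEq K] {A : ValuationSubring K}
  [DecidableEq (ResidueField A)]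

/-- membership in the identity component -/
def InZeroComp (EA : Affine A) (P : (EA.map A.subtype).Point) : Prop :=
  P = 0 ∨ ∃ (x y : K) (h : (EA.map A.subtype).Nonsingular x y),
    P = .some x y h ∧ (x ∉ A ∨ GoodRed EA x y)

theorem inZeroComp_zero (EA : Affine A) : InZeroComp EA 0 := Or.inl rfl

theorem inZeroComp_of_mem_kerRed {EA : Affine A} {P : (EA.map A.subtype).Point}
    (h : P ∈ kerRed (isIntegralCurve_map EA)) : InZeroComp EA P := by
  rcases (mem_kerRed_iff _).mp h with h0 | ⟨x, y, hxy, rfl, hx⟩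
  · exact Or.inl h0
  · exact Or.inr ⟨x, y, hxy, rfl, Or.inl hx⟩

theorem inZeroComp_some_of_goodRed {EA : Affine A} {x y : K}
    (h : (EA.map A.subtype).Nonsingular x y) (hg : GoodRed EA x y) :
    InZeroComp EA (.some x y h) :=
  Or.inr ⟨x, y, h, rfl, Or.inr hg⟩

/-- a point of `E⁰` is in `kerRed`, or integral with nonsingular reduction -/
theorem InZeroComp.cases {EA : Affine A} {P : (EA.map A.subtype).Point} (h : InZeroComp EA P) :
    P ∈ kerRed (isIntegralCurve_map EA) ∨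
      ∃ (x y : K) (hxy : (EA.map A.subtype).Nonsingular x y), P = .some x y hxy ∧ GoodRed EA x y := by
  rcases h with rfl | ⟨x, y, hxy, rfl, hx | hg⟩
  · exact Or.inl (kerRed _).zero_mem
  · exact Or.inl ((some_mem_kerRed_iff _).mpr hx)
  · exact Or.inr ⟨x, y, hxy, rfl, hg⟩

theorem redPt_of_mem_kerRed {EA : Affine A} {P : (EA.map A.subtype).Point}
    (h : P ∈ kerRed (isIntegralCurve_map EA)) : redPt EA P = 0 := by
  rcases (mem_kerRed_iff _).mp h with rfl | ⟨x, y, hxy, rfl, hx⟩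
  · rfl
  · exact redPt_some_of_not hxy (fun hg => hx hg.x_mem)

theorem not_mem_kerRed_of_goodRed {EA : Affine A} {x y : K}
    (h : (EA.map A.subtype).Nonsingular x y) (hx : x ∈ A) :
    Point.some x y h ∉ kerRed (isIntegralCurve_map EA) := fun hk =>
  (some_mem_kerRed_iff _).mp hk hx

theorem inZeroComp_neg {EA : Affine A} {P : (EA.map A.subtype).Point} (h : InZeroComp EA P) :
    InZeroComp EA (-P) := by
  rcases h.cases with hk | ⟨x, y, hxy, rfl, hg⟩
  · exact inZeroComp_of_mem_kerRed ((kerRed _).neg_mem hk)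
  · rw [Point.neg_some]
    exact inZeroComp_some_of_goodRed _ (goodRed_neg hg)

/-- the good-good case of the addition theorem, in terms of `redPt` -/
theorem red_add_good (EA : Affine A) {x₁ y₁ x₂ y₂ : K}
    (h₁ : (EA.map A.subtype).Nonsingular x₁ y₁) (h₂ : (EA.map A.subtype).Nonsingular x₂ y₂)
    (g₁ : GoodRed EA x₁ y₁) (g₂ : GoodRed EA x₂ y₂) :
    InZeroComp EA (Point.some x₁ y₁ h₁ + Point.some x₂ y₂ h₂) ∧
      redPt EA (Point.some x₁ y₁ h₁ + Point.some x₂ y₂ h₂) =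
        redPt EA (Point.some x₁ y₁ h₁) + redPt EA (Point.some x₂ y₂ h₂) := by
  obtain ⟨hx₁, hy₁, n₁⟩ := id g₁
  obtain ⟨hx₂, hy₂, n₂⟩ := id g₂
  rw [redPt_some h₁ g₁, redPt_some h₂ g₂]
  by_cases hopp : residue A ⟨x₁, hx₁⟩ = residue A ⟨x₂, hx₂⟩ ∧
      residue A ⟨y₁, hy₁⟩ = (EA.map (residue A)).negY (residue A ⟨x₂, hx₂⟩) (residue A ⟨y₂, hy₂⟩)
  · have hk := red_add_opp EA ⟨x₁, hx₁⟩ ⟨y₁, hy₁⟩ ⟨x₂, hx₂⟩ ⟨y₂, hy₂⟩ h₁ h₂ n₂ hopp
    refine ⟨inZeroComp_of_mem_kerRed hk, ?_⟩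
    rw [redPt_of_mem_kerRed hk]
    exact (Point.add_of_Y_eq hopp.1 hopp.2).symm
  · obtain ⟨X₃, Y₃, h₃, n₃, e₃, f₃⟩ :=
      red_add_some EA ⟨x₁, hx₁⟩ ⟨y₁, hy₁⟩ ⟨x₂, hx₂⟩ ⟨y₂, hy₂⟩ h₁ h₂ n₁ n₂ hopp
    have e₃' : Point.some x₁ y₁ h₁ + Point.some x₂ y₂ h₂ = Point.some _ _ h₃ := e₃
    rw [e₃']
    refine ⟨inZeroComp_some_of_goodRed _ (goodRed_coe n₃), ?_⟩
    rw [redPt_some_coe h₃ n₃]
    exact f₃.symm

theorem addX_mem_of_mem {W : Affine K} (hW : IsIntegralCurve A W) {x₁ x₂ l : K} (hx₁ : x₁ ∈ A)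
    (hx₂ : x₂ ∈ A) (hl : l ∈ A) : W.addX x₁ x₂ l ∈ A := by
  simp only [Affine.addX]
  exact sub_mem (sub_mem (sub_mem (add_mem (pow_mem hl 2) (mul_mem hW.a₁ hl)) hW.a₂) hx₁) hx₂

/-- the mixed case: a point of the kernel of reduction plus an integral point with nonsingular
reduction is an integral point with the same reduction. -/
theorem red_add_mixed (EA : Affine A) {P₁ : (EA.map A.subtype).Point}
    (hP₁ : P₁ ∈ kerRed (isIntegralCurve_map EA)) {x₂ y₂ : K}
    (h₂ : (EA.map A.subtype).Nonsingular x₂ y₂) (g₂ : GoodRed EA x₂ y₂) :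
    InZeroComp EA (P₁ + Point.some x₂ y₂ h₂) ∧
      redPt EA (P₁ + Point.some x₂ y₂ h₂) = redPt EA (Point.some x₂ y₂ h₂) := by
  have hW := isIntegralCurve_map EA
  obtain ⟨hx₂, hy₂, n₂⟩ := id g₂
  -- the sum is not in the kernel of reduction
  have h3k : P₁ + Point.some x₂ y₂ h₂ ∉ kerRed hW := by
    intro hk
    have : Point.some x₂ y₂ h₂ ∈ kerRed hW := by
      have := (kerRed hW).sub_mem hk hP₁
      rwa [add_sub_cancel_left] at this
    exact not_mem_kerRed_of_goodRed h₂ hx₂ this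
  -- hence it is an integral point
  rcases hP3 : P₁ + Point.some x₂ y₂ h₂ with _ | ⟨x₃, y₃, h₃⟩
  · exact absurd (hP3 ▸ (kerRed hW).zero_mem) h3k
  have hP3' : P₁ + Point.some x₂ y₂ h₂ = Point.some x₃ y₃ h₃ := hP3
  have hx₃ : x₃ ∈ A := by
    by_contra hx
    apply h3k
    rw [hP3']
    exact (some_mem_kerRed_iff hW).mpr hx
  have hy₃ : y₃ ∈ A := y_mem_of_x_mem hW h₃.1 hx₃
  -- `P₁ = P₃ + (-P₂)`
  have hP1 : P₁ = Point.some x₃ y₃ h₃ + Point.some _ _ ((nonsingular_neg ..).mpr h₂) := by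
    rw [← Point.neg_some h₂, ← hP3']
    abel
  have hnegY₂ : (EA.map A.subtype).negY x₂ y₂ ∈ A := (goodRed_neg g₂).y_mem
  -- `x₃ ≡ x₂`
  have hxx : residue A ⟨x₃, hx₃⟩ = residue A ⟨x₂, hx₂⟩ := by
    by_contra hne
    have hU : IsUnit ((⟨x₃, hx₃⟩ : A) - ⟨x₂, hx₂⟩) := by
      apply residue_ne_zero_isUnit
      rw [map_sub]
      exact sub_ne_zero.mpr hne
    obtain ⟨u, hu⟩ := hU
    have hxne : x₃ ≠ x₂ := by
      rintro rfl
      exact hne rfl
    have huK : x₃ - x₂ = ((u : A) : K) := by rw [hu]; rfl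
    have hl : (EA.map A.subtype).slope x₃ x₂ y₃ ((EA.map A.subtype).negY x₂ y₂) ∈ A := by
      rw [slope_of_X_ne hxne, huK, div_eq_mul_inv]
      have : (((u : A) : K))⁻¹ = (((u⁻¹ : Aˣ) : A) : K) := by
        have hu0 : ((u : A) : K) ≠ 0 := by
          intro h0
          exact u.ne_zero (Subtype.ext h0)
        apply inv_eq_of_mul_eq_one_right
        rw [← A.coe_mul, Units.mul_inv]
        rfl
      rw [this]
      exact mul_mem (sub_mem hy₃ hnegY₂) (Subtype.property _)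
    have hxy : ¬ (x₃ = x₂ ∧ y₃ = (EA.map A.subtype).negY x₂ ((EA.map A.subtype).negY x₂ y₂)) :=
      fun h => hxne h.1
    rw [Point.add_some hxy] at hP1
    rw [hP1, some_mem_kerRed_iff] at hP₁
    exact hP₁ (addX_mem_of_mem hW hx₃ hx₂ hl)
  -- `ȳ₃ ∈ {ȳ₂, -ȳ₂ - …}`
  have heA₃ : EA.Equation ⟨x₃, hx₃⟩ ⟨y₃, hy₃⟩ :=
    (map_equation EA (f := A.subtype) Subtype.val_injective ⟨x₃, hx₃⟩ ⟨y₃, hy₃⟩).mp h₃.1
  have hek₃ : (EA.map (residue A)).Equation (residue A ⟨x₃, hx₃⟩) (residue A ⟨y₃, hy₃⟩) :=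
    heA₃.map (residue A)
  rcases Y_eq_of_X_eq hek₃ n₂.1 hxx with hyy | hyy
  · -- `P₃ ≡ P₂`
    have n₃ : (EA.map (residue A)).Nonsingular (residue A ⟨x₃, hx₃⟩) (residue A ⟨y₃, hy₃⟩) := by
      rw [hxx, hyy]; exact n₂
    have g₃ : GoodRed EA x₃ y₃ := ⟨hx₃, hy₃, n₃⟩
    refine ⟨inZeroComp_some_of_goodRed _ g₃, ?_⟩
    rw [redPt_some h₃ g₃, redPt_some h₂ g₂]
    simp only [Point.some.injEq]
    exact ⟨hxx, hyy⟩
  · -- `P₃ ≡ -P₂`
    have n₃ : (EA.map (residue A)).Nonsingular (residue A ⟨x₃, hx₃⟩) (residue A ⟨y₃, hy₃⟩) := by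
      rw [hxx, hyy]; exact (nonsingular_neg ..).mpr n₂
    have g₃ : GoodRed EA x₃ y₃ := ⟨hx₃, hy₃, n₃⟩
    refine ⟨inZeroComp_some_of_goodRed _ g₃, ?_⟩
    rw [redPt_some h₃ g₃, redPt_some h₂ g₂]
    simp only [Point.some.injEq]
    refine ⟨hxx, ?_⟩
    -- show that the reduction of `P₂` is a `2`-torsion point
    by_contra hyne
    -- `P₃ + P₂ ∈ kerRed`
    have hk1 := red_add_opp EA ⟨x₃, hx₃⟩ ⟨y₃, hy₃⟩ ⟨x₂, hx₂⟩ ⟨y₂, hy₂⟩ h₃ h₂ n₂ ⟨hxx, hyy⟩
    have hk1' : Point.some x₃ y₃ h₃ + Point.some x₂ y₂ h₂ ∈ kerRed hW := hk1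
    -- `P₃ - P₂ = P₁ ∈ kerRed`
    have hk2 : Point.some x₃ y₃ h₃ - Point.some x₂ y₂ h₂ ∈ kerRed hW := by
      rw [← hP3', add_sub_cancel_right]
      exact hP₁
    have hk3 : Point.some x₃ y₃ h₃ + Point.some x₃ y₃ h₃ ∈ kerRed hW := by
      have := (kerRed hW).add_mem hk1' hk2
      have e : Point.some x₃ y₃ h₃ + Point.some x₂ y₂ h₂ +
          (Point.some x₃ y₃ h₃ - Point.some x₂ y₂ h₂) =
          Point.some x₃ y₃ h₃ + Point.some x₃ y₃ h₃ := by abel
      rwa [e] at this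
    -- but `2 P₃` is an integral point
    have hne3 : ¬ (residue A ⟨x₃, hx₃⟩ = residue A ⟨x₃, hx₃⟩ ∧
        residue A ⟨y₃, hy₃⟩ =
          (EA.map (residue A)).negY (residue A ⟨x₃, hx₃⟩) (residue A ⟨y₃, hy₃⟩)) := by
      rintro ⟨-, h⟩
      apply hyne
      rw [hyy, hxx, negY_negY] at h
      rw [hyy]
      exact h
    obtain ⟨X₄, Y₄, h₄, n₄, e₄, -⟩ :=
      red_add_some EA ⟨x₃, hx₃⟩ ⟨y₃, hy₃⟩ ⟨x₃, hx₃⟩ ⟨y₃, hy₃⟩ h₃ h₃ n₃ n₃ hne3
    have e₄' : Point.some x₃ y₃ h₃ + Point.some x₃ y₃ h₃ = Point.some _ _ h₄ := e₄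
    rw [e₄'] at hk3
    exact not_mem_kerRed_of_goodRed h₄ X₄.2 hk3

/-- **`E⁰` is closed under addition and reduction is additive on it** -/
theorem red_add (EA : Affine A) {P Q : (EA.map A.subtype).Point} (hP : InZeroComp EA P)
    (hQ : InZeroComp EA Q) :
    InZeroComp EA (P + Q) ∧ redPt EA (P + Q) = redPt EA P + redPt EA Q := by
  have hW := isIntegralCurve_map EA
  rcases hP.cases with hkP | ⟨x₁, y₁, h₁, rfl, g₁⟩
  · rcases hQ.cases with hkQ | ⟨x₂, y₂, h₂, rfl, g₂⟩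
    · have hk := (kerRed hW).add_mem hkP hkQ
      refine ⟨inZeroComp_of_mem_kerRed hk, ?_⟩
      rw [redPt_of_mem_kerRed hk, redPt_of_mem_kerRed hkP, redPt_of_mem_kerRed hkQ, add_zero]
    · have := red_add_mixed EA hkP h₂ g₂
      rw [redPt_of_mem_kerRed hkP, zero_add]
      exact this
  · rcases hQ.cases with hkQ | ⟨x₂, y₂, h₂, rfl, g₂⟩
    · have := red_add_mixed EA hkQ h₁ g₁
      rw [redPt_of_mem_kerRed hkQ, add_zero, add_comm]
      exact this
    · exact red_add_good EA h₁ h₂ g₁ g₂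

/-- **the identity component `E⁰`** of an integral Weierstrass curve, as a subgroup of Mathlib's
group of nonsingular points of the generic fibre -/
def zeroComp (EA : Affine A) : AddSubgroup (EA.map A.subtype).Point where
  carrier := {P | InZeroComp EA P}
  zero_mem' := inZeroComp_zero EA
  add_mem' := fun hP hQ => (red_add EA hP hQ).1
  neg_mem' := fun hP => inZeroComp_neg hP

theorem mem_zeroComp_iff {EA : Affine A} {P : (EA.map A.subtype).Point} :
    P ∈ zeroComp EA ↔ InZeroComp EA P := Iff.rfl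

theorem kerRed_le_zeroComp (EA : Affine A) : kerRed (isIntegralCurve_map EA) ≤ zeroComp EA :=
  fun _ h => inZeroComp_of_mem_kerRed h

/-- **the reduction homomorphism** `E⁰ →+ Ē.Point` -/
noncomputable def redHom (EA : Affine A) : zeroComp EA →+ (EA.map (residue A)).Point where
  toFun P := redPt EA P.1
  map_zero' := rfl
  map_add' P Q := (red_add EA P.2 Q.2).2

@[simp] theorem redHom_apply (EA : Affine A) (P : zeroComp EA) : redHom EA P = redPt EA P.1 := rfl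

/-- the kernel of the reduction homomorphism is the kernel of reduction -/
theorem redPt_eq_zero_iff {EA : Affine A} {P : (EA.map A.subtype).Point} (hP : InZeroComp EA P) :
    redPt EA P = 0 ↔ P ∈ kerRed (isIntegralCurve_map EA) := by
  constructor
  · intro h0
    rcases hP.cases with hk | ⟨x, y, hxy, rfl, hg⟩
    · exact hk
    · rw [redPt_some hxy hg] at h0
      exact absurd h0 (Point.some_ne_zero _)
  · exact redPt_of_mem_kerRed

theorem redHom_eq_zero_iff (EA : Affine A) (P : zeroComp EA) :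
    redHom EA P = 0 ↔ (P : (EA.map A.subtype).Point) ∈ kerRed (isIntegralCurve_map EA) :=
  redPt_eq_zero_iff P.2

/-- reduction is injective on torsion of order a unit of `A` -/
theorem redPt_injOn_torsion (EA : Affine A) {n : ℕ} (hn0 : (n : K) ≠ 0) (hn : ((n : K))⁻¹ ∈ A)
    {P Q : (EA.map A.subtype).Point} (hP : InZeroComp EA P) (hQ : InZeroComp EA Q)
    (hnP : n • P = 0) (hnQ : n • Q = 0) (h : redPt EA P = redPt EA Q) : P = Q := by
  have hW := isIntegralCurve_map EA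
  have hPQ : InZeroComp EA (P - Q) := (zeroComp EA).sub_mem hP hQ
  have h1 : redPt EA (P - Q) = 0 := by
    have := (red_add EA hP (inZeroComp_neg hQ)).2
    rw [sub_eq_add_neg, this, redPt_neg, h, add_neg_cancel]
  have h2 := (redPt_eq_zero_iff hPQ).mp h1
  have h3 : n • (P - Q) = 0 := by rw [smul_sub, hnP, hnQ, sub_zero]
  exact sub_eq_zero.mp (eq_zero_of_nsmul_eq_zero hW hn0 hn h2 h3)

end Fermat.Agent.FC
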