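import Mathlib
import Fermat.Agent.FC.P_helper5_Line
import Fermat.Agent.FC.RED_helper1_Hom
import Fermat.Agent.FC.NODE_helper6_Main
import Fermat.Agent.S13.Ip_helper8_Inertia

/-!
# FC, block (P), part 9 (helper5): (K6-mult) — inertia on `p`-power torsion of a nodal model

`W'⁄K` a nodal model `y² = x³ + α² x² + a₄ x + a₆` (`NodeCtx.IsModel`), residue characteristic `p`,
`σ` an automorphism which is trivial modulo `𝔪` and preserves the valuation.  Then for every point
`Q` of `p`-power order, `σ • Q - Q` lies in the kernel of reduction: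

* the component class `depthPt` is `σ`-invariant and additive modulo `n`, hence `T = σ • Q - Q` is
  in the kernel of reduction or is integral with `x(T) ∉ 𝔪`, i.e. lies on the identity component;
* the reduction homomorphism (block (RED)) maps `T` to a point of `p`-power order of the group of
  nonsingular points of the reduced nodal cubic, which has no `p`-torsion (block (NODE));
  so `T` is in the kernel of reduction.
-/

set_option autoImplicit false
set_option linter.unusedSectionVars false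

namespace Fermat.Agent.FC

open WeierstrassCurve WeierstrassCurve.Affine IsLocalRing Fermat.Agent.Tate
open scoped WeierstrassCurve.Affine

section Generic

variable {K : Type*} [Field K] [DecidableEq K] {A : ValuationSubring K}

/-- an integral curve is the generic fibre of a curve over `A` -/
theorem exists_model_of_isIntegralCurve {E : Affine K} (hW : IsIntegralCurve A E) :
    ∃ EA : Affine A, EA.map A.subtype = E :=
  ⟨⟨⟨E.a₁, hW.a₁⟩, ⟨E.a₂, hW.a₂⟩, ⟨E.a₃, hW.a₃⟩, ⟨E.a₄, hW.a₄⟩, ⟨E.a₆, hW.a₆⟩⟩, by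
    ext <;> rfl⟩

theorem residue_eq_zero_of_coe_mem {a : A} (ha : (a : K) ∈ A.nonunits) : residue A a = 0 := by
  rw [residue_eq_zero_iff, mem_maximalIdeal]
  exact A.coe_mem_nonunits_iff.mp ha

theorem residue_ne_zero_of_coe_notMem {a : A} (ha : (a : K) ∉ A.nonunits) : residue A a ≠ 0 := by
  intro h
  rw [residue_eq_zero_iff, mem_maximalIdeal] at h
  exact ha (A.coe_mem_nonunits_iff.mpr h)

/-- the residue field has characteristic `p` if `p ∈ 𝔪` -/
theorem charP_residueField_of_mem {p : ℕ} (hp : p.Prime) (hpm : (p : K) ∈ A.nonunits) :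
    CharP (ResidueField A) p := by
  rw [CharP.charP_iff_prime_eq_zero hp]
  have h1 : residue A ((p : ℕ) : A) = 0 := by
    apply residue_eq_zero_of_coe_mem
    have : (((p : ℕ) : A) : K) = (p : K) := map_natCast A.subtype p
    rw [this]
    exact hpm
  rwa [map_natCast] at h1

/-- **no `p`-power torsion on the identity component outside the kernel of reduction**, for a nodal
model in residue characteristic `p`: an integral point with `x ∉ 𝔪` is not of `p`-power order -/
theorem false_of_pow_torsion_of_node {E : Affine K} (hW : IsIntegralCurve A E)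
    (h1 : E.a₁ = 0) (h3 : E.a₃ = 0) (hc : E.a₂ ∉ A.nonunits) (h2 : (2 : K) ∉ A.nonunits)
    (h4 : E.a₄ ∈ A.nonunits) (h6 : E.a₆ ∈ A.nonunits) {p : ℕ} (hp : p.Prime)
    (hpm : (p : K) ∈ A.nonunits) {x y : K} (h : E.Nonsingular x y) (hx : x ∈ A) (hy : y ∈ A)
    (hx' : x ∉ A.nonunits) (j : ℕ) (hT : p ^ j • Point.some x y h = 0) : False := by
  classical
  obtain ⟨EA, rfl⟩ := exists_model_of_isIntegralCurve hW
  have hg : GoodRed EA x y := (goodRed_iff_partials EA hx hy h.1).mpr
    (not_partials_mem_of_node h1 h3 hW.a₂ h2 h4 h6 hx hy hx' h.1)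
  have hZ : InZeroComp EA (Point.some x y h) := inZeroComp_some_of_goodRed h hg
  set P : zeroComp EA := ⟨Point.some x y h, hZ⟩ with hPdef
  have hP : p ^ j • P = 0 := Subtype.ext (by rw [AddSubgroup.coe_nsmul]; exact hT)
  have hred : p ^ j • redHom EA P = 0 := by rw [← map_nsmul, hP, map_zero]
  -- the reduced curve
  have : Fact p.Prime := ⟨hp⟩
  have : CharP (ResidueField A) p := charP_residueField_of_mem hp hpm
  have r1 : (EA.map (residue A)).a₁ = 0 := by
    show residue A EA.a₁ = 0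
    have : EA.a₁ = 0 := Subtype.ext h1
    rw [this, map_zero]
  have r3 : (EA.map (residue A)).a₃ = 0 := by
    show residue A EA.a₃ = 0
    have : EA.a₃ = 0 := Subtype.ext h3
    rw [this, map_zero]
  have r4 : (EA.map (residue A)).a₄ = 0 := residue_eq_zero_of_coe_mem h4
  have r6 : (EA.map (residue A)).a₆ = 0 := residue_eq_zero_of_coe_mem h6
  have r2 : (EA.map (residue A)).a₂ ≠ 0 := residue_ne_zero_of_coe_notMem hc
  have h2k : (2 : ResidueField A) ≠ 0 := by
    have h2' : residue A (2 : A) ≠ 0 := by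
      apply residue_ne_zero_of_coe_notMem
      have : ((2 : A) : K) = 2 := map_ofNat A.subtype 2
      rw [this]
      exact h2
    rwa [map_ofNat] at h2'
  have hΔ : (EA.map (residue A)).Δ = 0 := by
    simp only [WeierstrassCurve.Δ, WeierstrassCurve.b₂, WeierstrassCurve.b₄, WeierstrassCurve.b₆,
      WeierstrassCurve.b₈, r1, r3, r4, r6]
    ring
  have hc₄ : (EA.map (residue A)).c₄ ≠ 0 := by
    have : (EA.map (residue A)).c₄ = 2 ^ 4 * (EA.map (residue A)).a₂ ^ 2 := by
      simp only [WeierstrassCurve.c₄, WeierstrassCurve.b₂, WeierstrassCurve.b₄, r1, r3, r4]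
      ring
    rw [this]
    exact mul_ne_zero (pow_ne_zero _ h2k) (pow_ne_zero _ r2)
  have key : ∀ (j : ℕ) (R : (EA.map (residue A)).Point), p ^ j • R = 0 → R = 0 := by
    intro j
    induction j with
    | zero => intro R hR; simpa using hR
    | succ j ih =>
      intro R hR
      apply ih
      apply no_char_torsion (EA.map (residue A)) hΔ hc₄ h2k p
      rw [← mul_smul, ← pow_succ']
      exact hR
  have h0 := key j _ hred
  have hk := (redHom_eq_zero_iff EA P).mp h0
  exact (some_mem_kerRed_iff _).mp hk hx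

end Generic

section Galois

variable {K : Type*} [Field K] [DecidableEq K] [Algebra ℚ K] {A : ValuationSubring K}
  {W' : Affine ℚ}

/-- a point outside the kernel of reduction is integral -/
theorem integralPt_of_notMem_kerRed {W : Affine K} (hW : IsIntegralCurve A W) {P : W.Point}
    (hP : P ∉ kerRed hW) : IntegralPt A P := by
  rcases P with _ | ⟨x, y, h⟩
  · trivial
  · have hx : x ∈ A := by
      by_contra hx
      exact hP ((some_mem_kerRed_iff hW).mpr hx)
    exact ⟨hx, y_mem_of_x_mem hW h.1 hx⟩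

/-- the depth of a point near the node lies strictly between `0` and `n` -/
theorem depth_pos_lt (C : NodeCtx K A) {x : K} (a : K) (hx : x ∈ A.nonunits) :
    0 < C.depth x a ∧ C.depth x a < C.n := by
  have hn := C.n_pos
  unfold NodeCtx.depth
  rw [if_pos hx]
  by_cases h1 : x = 0 ∨ C.n ≤ 2 * C.L.w x
  · rw [if_pos h1]
    constructor <;> linarith
  · rw [if_neg h1]
    rw [not_or, not_le] at h1
    have hpos := C.L.pos_of_mem_nonunits h1.1 hx
    by_cases h2 : a = 0 ∨ C.L.w x < C.L.w a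
    · rw [if_pos h2]
      constructor <;> linarith [h1.2]
    · rw [if_neg h2]
      constructor <;> linarith [h1.2]

/-- a point whose depth is an integral multiple of `n` is not near the node -/
theorem notMem_of_depth_eq_int_mul (C : NodeCtx K A) {x a : K} {k : ℤ}
    (h : C.depth x a = k * C.n) : x ∉ A.nonunits := by
  intro hx
  obtain ⟨h0, h1⟩ := depth_pos_lt C a hx
  have hn := C.n_pos
  rw [h] at h0 h1
  have hk0 : (0 : ℚ) < k := by
    by_contra hcon
    rw [not_lt] at hcon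
    have := mul_nonpos_of_nonpos_of_nonneg hcon hn.le
    linarith
  have hk1 : (k : ℚ) < 1 := by
    by_contra hcon
    rw [not_lt] at hcon
    have := mul_le_mul_of_nonneg_right hcon hn.le
    linarith
  have a1 : (0 : ℤ) < k := by exact_mod_cast hk0
  have a2 : k < 1 := by exact_mod_cast hk1
  omega

/-- the depth is invariant under a valuation-preserving automorphism -/
theorem depth_map_of_logVal (C : NodeCtx K A) (σ : K ≃ₐ[ℚ] K)
    (hw : ∀ x : K, x ≠ 0 → C.L.w (σ x) = C.L.w x) (x a : K) :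
    C.depth (σ x) (σ a) = C.depth x a := by
  have hw' : ∀ x : K, C.L.w (σ x) = C.L.w x := by
    intro x
    rcases eq_or_ne x 0 with rfl | hx
    · rw [map_zero]
    · exact hw x hx
  have hnu : ∀ x : K, σ x ∈ A.nonunits ↔ x ∈ A.nonunits := by
    intro x
    rcases eq_or_ne x 0 with rfl | hx
    · rw [map_zero]
    · have hσx : σ x ≠ 0 := (map_ne_zero σ).mpr hx
      rw [← C.L.pos_iff hσx, ← C.L.pos_iff hx, hw x hx]
  simp only [NodeCtx.depth, hw', map_eq_zero]
  by_cases hx : x ∈ A.nonunits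
  · rw [if_pos hx, if_pos ((hnu x).mpr hx)]
    split_ifs <;> rfl
  · rw [if_neg hx, if_neg (fun h => hx ((hnu x).mp h))]

/-- an automorphism which is trivial modulo `𝔪` fixes the tangent slope `α` (`α² = a₂ ∈ ℚ`) -/
theorem map_alpha_eq_of_inertia (C : NodeCtx K A) (hM : C.IsModel (W'⁄K)) (σ : K ≃ₐ[ℚ] K)
    (hσ : ∀ a ∈ A, σ a ∈ A ∧ σ a - a ∈ A.nonunits) : σ C.α = C.α := by
  have ha₂ : σ (W'⁄K).a₂ = (W'⁄K).a₂ := by
    show σ (algebraMap ℚ K W'.a₂) = algebraMap ℚ K W'.a₂
    exact σ.commutes _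
  rw [hM.a₂, map_pow] at ha₂
  have h3 : (σ C.α - C.α) * (σ C.α + C.α) = 0 := by linear_combination ha₂
  rcases mul_eq_zero.mp h3 with h | h
  · exact sub_eq_zero.mp h
  · exfalso
    have h4 : σ C.α - C.α ∈ A.nonunits := (hσ C.α C.α_mem).2
    have h5 : σ C.α - C.α = -(2 * C.α) := by linear_combination h
    rw [h5] at h4
    have := C.L.pos_of_mem_nonunits (neg_ne_zero.mpr C.two_alpha_ne) h4
    rw [C.L.map_neg, C.w_two_alpha] at this
    exact lt_irrefl _ this

/-- the component class is Galois invariant -/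
theorem depthPt_smul_of_logVal (C : NodeCtx K A) (hM : C.IsModel (W'⁄K)) (σ : K ≃ₐ[ℚ] K)
    (hσ : ∀ a ∈ A, σ a ∈ A ∧ σ a - a ∈ A.nonunits)
    (hw : ∀ x : K, x ≠ 0 → C.L.w (σ x) = C.L.w x) (Q : (W'⁄K).Point) :
    C.depthPt (σ • Q) = C.depthPt Q := by
  rcases Q with _ | ⟨x, y, h⟩
  · rfl
  rw [smul_some, NodeCtx.depthPt_some, NodeCtx.depthPt_some]
  have hα := map_alpha_eq_of_inertia C hM σ hσ
  have : σ y - C.α * σ x = σ (y - C.α * x) := by rw [map_sub, map_mul, hα]
  rw [this]
  exact depth_map_of_logVal C σ hw x _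

/-- **(K6-mult), nodal model**: `σ • Q - Q ∈ E₁` for `Q` of `p`-power order -/
theorem smul_sub_mem_kerRed_of_node_pow (C : NodeCtx K A) (hM : C.IsModel (W'⁄K))
    (hW : IsIntegralCurve A (W'⁄K)) (h2 : (2 : K) ∉ A.nonunits)
    {p : ℕ} (hp : p.Prime) (hpm : (p : K) ∈ A.nonunits)
    (σ : K ≃ₐ[ℚ] K) (hσ : ∀ a ∈ A, σ a ∈ A ∧ σ a - a ∈ A.nonunits)
    (hw : ∀ x : K, x ≠ 0 → C.L.w (σ x) = C.L.w x)
    (j : ℕ) (Q : (W'⁄K).Point) (hQ : p ^ j • Q = 0) : σ • Q - Q ∈ kerRed hW := by
  by_cases hQk : Q ∈ kerRed hW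
  · exact (kerRed hW).sub_mem (smul_mem_kerRed_of_inertia hW hσ hQk) hQk
  by_contra hTk
  -- integrality
  have hQint : IntegralPt A Q := integralPt_of_notMem_kerRed hW hQk
  have hσQint : IntegralPt A (σ • Q) := by
    rcases Q with _ | ⟨x, y, h⟩
    · trivial
    · rw [smul_some]
      exact ⟨(hσ x hQint.1).1, (hσ y hQint.2).1⟩
  have hnegint : IntegralPt A (-Q) := by
    rcases Q with _ | ⟨x, y, h⟩
    · trivial
    · rw [Point.neg_some]
      refine ⟨hQint.1, ?_⟩
      rw [hM.negY]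
      exact neg_mem hQint.2
  have hTint : IntegralPt A (σ • Q - Q) := integralPt_of_notMem_kerRed hW hTk
  obtain ⟨k, hk⟩ := hM.depthPt_add (σ • Q) (-Q) hσQint hnegint
    (by rw [← sub_eq_add_neg]; exact hTint)
  obtain ⟨k', hk'⟩ := hM.depthPt_neg Q
  rw [← sub_eq_add_neg, depthPt_smul_of_logVal C hM σ hσ hw Q, hk'] at hk
  have hpT : p ^ j • (σ • Q - Q) = 0 := by
    rw [smul_sub, nsmul_smul_eq_zero σ hQ, hQ, sub_zero]
  rcases hT : σ • Q - Q with _ | ⟨x, y, h⟩
  · apply hTk
    rw [hT]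
    exact (kerRed hW).zero_mem
  · rw [hT] at hk hTint hpT
    rw [NodeCtx.depthPt_some] at hk
    have hx' : x ∉ A.nonunits :=
      notMem_of_depth_eq_int_mul C (k := k' + k) (by rw [hk]; push_cast; ring)
    have ha₂ : (W'⁄K).a₂ ∉ A.nonunits := by
      rw [hM.a₂]
      intro hmem
      have := C.L.pos_of_mem_nonunits (pow_ne_zero 2 C.α_ne) hmem
      rw [C.L.map_pow C.α_ne, C.α_unit, mul_zero] at this
      exact lt_irrefl _ this
    exact false_of_pow_torsion_of_node hW hM.a₁ hM.a₃ ha₂ h2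
      (by rw [hM.a₄]; exact C.a₄_mem) (by rw [hM.a₆]; exact C.a₆_mem) hp hpm h
      hTint.1 hTint.2 hx' j hpT

end Galois

end Fermat.Agent.FC

namespace Fermat.Agent.FC

open WeierstrassCurve WeierstrassCurve.Affine IsLocalRing Fermat.Agent.Tate
open scoped WeierstrassCurve.Affine

variable {K : Type*} [Field K] [DecidableEq K] [Algebra ℚ K] {A : ValuationSubring K}

/-- **(K6-mult)**, from the explicit normal form `y² = (x² - d²)(x + c)` with `c = α²` a unit and
`d = π^(p k) · unit`, in residue characteristic `p` -/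
theorem smul_sub_mem_kerRed_of_nodal_form_pow (W' : Affine ℚ) (L : LogVal A) {π : K} (hπ0 : π ≠ 0)
    (hπ : L.w π = 1) {α c d : K} (hα : α ^ 2 = c)
    (h1 : (W'⁄K).a₁ = 0) (h2 : (W'⁄K).a₂ = c) (h3 : (W'⁄K).a₃ = 0) (h4 : (W'⁄K).a₄ = -d ^ 2)
    (h6 : (W'⁄K).a₆ = -d ^ 2 * c) (hcA : c ∈ A) (hcu : c ∉ A.nonunits)
    (two_ne : (2 : K) ≠ 0) (h2u : (2 : K) ∉ A.nonunits)
    {p : ℕ} (hp : p.Prime) (hpm : (p : K) ∈ A.nonunits) {k : ℕ} (hk : 0 < k) {d' : K}
    (hd'A : d' ∈ A) (hd'u : d' ∉ A.nonunits) (hd : d = π ^ (p * k) * d')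
    (hW : IsIntegralCurve A (W'⁄K))
    (σ : K ≃ₐ[ℚ] K) (hσ : ∀ a ∈ A, σ a ∈ A ∧ σ a - a ∈ A.nonunits)
    (hw : ∀ x : K, x ≠ 0 → L.w (σ x) = L.w x)
    (j : ℕ) (Q : (W'⁄K).Point) (hQ : p ^ j • Q = 0) : σ • Q - Q ∈ kerRed hW := by
  have hc0 : c ≠ 0 := by rintro rfl; exact hcu A.nonunits.zero_mem
  have hd'0 : d' ≠ 0 := by rintro rfl; exact hd'u A.nonunits.zero_mem
  have hα0 : α ≠ 0 := by rintro rfl; exact hc0 (by rw [← hα]; ring)
  have hπpk : π ^ (p * k) ≠ 0 := pow_ne_zero _ hπ0
  have hd0 : d ≠ 0 := by rw [hd]; exact mul_ne_zero hπpk hd'0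
  have hwc : L.w c = 0 := L.eq_zero_of_unit hcA hcu
  have hwd' : L.w d' = 0 := L.eq_zero_of_unit hd'A hd'u
  have hwα : L.w α = 0 := by
    have : L.w (α ^ 2) = 0 := by rw [hα]; exact hwc
    rw [L.map_pow hα0] at this
    push_cast at this
    linarith
  have hwd : L.w d = p * k := by
    rw [hd, L.map_mul hπpk hd'0, L.map_pow hπ0, hπ, hwd']
    push_cast; ring
  have hd2 : d ^ 2 ≠ 0 := pow_ne_zero 2 hd0
  have hwd2 : L.w (-d ^ 2) = 2 * p * k := by
    rw [L.map_neg, L.map_pow hd0, hwd]; push_cast; ring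
  have hw6 : L.w (-d ^ 2 * c) = 2 * p * k := by
    rw [L.map_mul (neg_ne_zero.mpr hd2) hc0, hwd2, hwc, add_zero]
  have hpos : (0 : ℚ) < 2 * p * k := by
    have : (0 : ℚ) < p := Nat.cast_pos.mpr hp.pos
    have : (0 : ℚ) < k := Nat.cast_pos.mpr hk
    positivity
  let C : NodeCtx K A :=
    { L := L
      α := α
      a₄ := -d ^ 2
      a₆ := -d ^ 2 * c
      α_ne := hα0
      α_unit := hwα
      two_ne := two_ne
      two_unit := L.eq_zero_of_unit (by exact_mod_cast natCast_mem A 2) h2u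
      a₆_ne := mul_ne_zero (neg_ne_zero.mpr hd2) hc0
      a₆_pos := by rw [hw6]; exact hpos
      a₄_le := Or.inr (by rw [hw6, hwd2]) }
  have hM : C.IsModel (W'⁄K) :=
    { a₁ := h1
      a₂ := by rw [h2]; exact hα.symm
      a₃ := h3
      a₄ := h4
      a₆ := h6 }
  exact smul_sub_mem_kerRed_of_node_pow C hM hW h2u hp hpm σ hσ hw j Q hQ

end Fermat.Agent.FC
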