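/-
PROJECT FC, block (S2) (helper1), part 1: the point count, abstract form.

`K` a field of characteristic zero, `A : ValuationSubring K` with `(ℓ : K) ∈ A.nonunits`, `EA` a
Weierstrass curve over `A` (any reduction type). If `Q` is a point of prime order `p ≠ ℓ` lying
in the identity component `E⁰`, all of whose multiples have rational coordinates, then
`p ≤ ℓ ^ 2 + 1`.
-/
import Mathlib
import Fermat.Agent.FC.RED_helper1_Hom
import Fermat.Agent.S54_Frobenius

set_option autoImplicit false
set_option linter.unusedSectionVars false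

namespace Fermat.Agent.FC

open WeierstrassCurve WeierstrassCurve.Affine IsLocalRing Fermat.Agent.Tate

variable {K : Type*} [Field K] [DecidableEq K] {A : ValuationSubring K}
  [DecidableEq (ResidueField A)]

/-- `(ℓ : k_A) = 0` -/
theorem residue_natCast_eq_zero {ℓ : ℕ} (hA : (ℓ : K) ∈ A.nonunits) :
    ((ℓ : ℕ) : ResidueField A) = 0 := by
  have h1 : ((ℓ : A)) ∈ maximalIdeal A := by
    rw [mem_maximalIdeal]
    apply A.coe_mem_nonunits_iff.mp
    simpa using hA
  have h2 := (residue_eq_zero_iff (ℓ : A)).mpr h1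
  rwa [map_natCast] at h2

/-- the residue of an integral rational number is the residue of an integer -/
theorem exists_int_residue_ratCast [CharZero K] {ℓ : ℕ} (hℓ : ℓ.Prime) (hA : (ℓ : K) ∈ A.nonunits)
    (q : ℚ) (hq : (q : K) ∈ A) : ∃ n : ℤ, residue A ⟨(q : K), hq⟩ = (n : ResidueField A) := by
  have hℓ0 := residue_natCast_eq_zero (A := A) hA
  by_cases hd : (ℓ : ℤ) ∣ (q.den : ℤ)
  · -- impossible: `q` would not be integral
    exfalso
    have hnum : ¬ (ℓ : ℤ) ∣ q.num := by
      intro hn
      have h1 : ℓ ∣ q.num.natAbs := Int.natCast_dvd.mp hn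
      have h2 : ℓ ∣ q.den := Int.natCast_dvd_natCast.mp hd
      have := Nat.dvd_gcd h1 h2
      rw [q.reduced] at this
      exact hℓ.one_lt.ne' (Nat.dvd_one.mp this)
    have hv1 : A.valuation ((q.num : ℤ) : K) = 1 :=
      Fermat.Agent.S54.valuation_intCast_eq_one A hℓ hA hnum
    have hv2 : A.valuation ((q.den : ℕ) : K) < 1 := by
      obtain ⟨c, hc⟩ := hd
      have : ((q.den : ℕ) : K) = (ℓ : K) * ((c : ℤ) : K) := by
        have := congrArg (fun z : ℤ => (z : K)) hc
        push_cast at this
        exact this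
      rw [this, map_mul]
      have h1 : A.valuation (ℓ : K) < 1 := (A.mem_nonunits_iff).mp hA
      have h2 : A.valuation ((c : ℤ) : K) ≤ 1 := (A.valuation_le_one_iff _).mpr (intCast_mem A c)
      rw [mul_comm]
      exact Right.mul_lt_one_of_le_of_lt h2 h1
    have hq' : A.valuation (q : K) ≤ 1 := (A.valuation_le_one_iff _).mpr hq
    have key : (q : K) * ((q.den : ℕ) : K) = ((q.num : ℤ) : K) := by
      have hden : ((q.den : ℕ) : K) ≠ 0 := Nat.cast_ne_zero.mpr q.den_ne_zero
      rw [Rat.cast_def, div_mul_cancel₀ _ hden]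
    have := congrArg A.valuation key
    rw [map_mul, hv1] at this
    have h3 : A.valuation (q : K) * A.valuation ((q.den : ℕ) : K) < 1 :=
      Right.mul_lt_one_of_le_of_lt hq' hv2
    rw [this] at h3
    exact lt_irrefl _ h3
  · -- `den` is invertible modulo `ℓ`
    have hcop : IsCoprime (q.den : ℤ) (ℓ : ℤ) := by
      rw [isCoprime_comm]
      exact (Int.isCoprime_iff_gcd_eq_one).mpr
        ((Nat.Prime.coprime_iff_not_dvd hℓ).mpr (fun h => hd (Int.natCast_dvd_natCast.mpr h)))
    obtain ⟨m, t, hmt⟩ := hcop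
    refine ⟨q.num * m, ?_⟩
    have hdenA : ((q.den : ℕ) : K) ∈ A := natCast_mem A _
    have key : (⟨(q : K), hq⟩ : A) * ⟨((q.den : ℕ) : K), hdenA⟩ =
        ⟨((q.num : ℤ) : K), intCast_mem A _⟩ := by
      apply Subtype.ext
      have hden : ((q.den : ℕ) : K) ≠ 0 := Nat.cast_ne_zero.mpr q.den_ne_zero
      change (q : K) * ((q.den : ℕ) : K) = ((q.num : ℤ) : K)
      rw [Rat.cast_def, div_mul_cancel₀ _ hden]
    have h1 : residue A ⟨((q.den : ℕ) : K), hdenA⟩ = ((q.den : ℕ) : ResidueField A) := by
      have : (⟨((q.den : ℕ) : K), hdenA⟩ : A) = ((q.den : ℕ) : A) := Subtype.ext (by simp)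
      rw [this, map_natCast]
    have h2 : residue A ⟨((q.num : ℤ) : K), intCast_mem A _⟩ = ((q.num : ℤ) : ResidueField A) := by
      have : (⟨((q.num : ℤ) : K), intCast_mem A _⟩ : A) = ((q.num : ℤ) : A) :=
        Subtype.ext (by simp)
      rw [this, map_intCast]
    have h3 := congrArg (residue A) key
    rw [map_mul, h1, h2] at h3
    have h4 : ((q.den : ℕ) : ResidueField A) * ((m : ℤ) : ResidueField A) = 1 := by
      have := congrArg (fun z : ℤ => (z : ResidueField A)) hmt
      push_cast at this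
      rw [hℓ0, mul_zero, add_zero] at this
      rw [mul_comm]
      exact this
    calc residue A ⟨(q : K), hq⟩
        = residue A ⟨(q : K), hq⟩ * (((q.den : ℕ) : ResidueField A) * ((m : ℤ) : ResidueField A)) := by
          rw [h4, mul_one]
      _ = ((q.num : ℤ) : ResidueField A) * ((m : ℤ) : ResidueField A) := by
          rw [← mul_assoc, h3]
      _ = ((q.num * m : ℤ) : ResidueField A) := by push_cast; ring

/-- the residue of an integral rational number is the residue of a natural number `< ℓ` -/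
theorem exists_fin_residue_ratCast [CharZero K] {ℓ : ℕ} (hℓ : ℓ.Prime) (hA : (ℓ : K) ∈ A.nonunits)
    (q : ℚ) (hq : (q : K) ∈ A) :
    ∃ i : Fin ℓ, residue A ⟨(q : K), hq⟩ = ((i : ℕ) : ResidueField A) := by
  obtain ⟨n, hn⟩ := exists_int_residue_ratCast hℓ hA q hq
  have hℓ0 := residue_natCast_eq_zero (A := A) hA
  have hpos : (0 : ℤ) < (ℓ : ℤ) := by exact_mod_cast hℓ.pos
  refine ⟨⟨(n % (ℓ : ℤ)).toNat, ?_⟩, ?_⟩
  · have h1 := Int.emod_lt_of_pos n hpos
    have h0 := Int.emod_nonneg n hpos.ne'
    omega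
  · rw [hn]
    have h0 := Int.emod_nonneg n hpos.ne'
    have h1 : (((n % (ℓ : ℤ)).toNat : ℕ) : ResidueField A) = ((n % (ℓ : ℤ) : ℤ) : ResidueField A) := by
      conv_rhs => rw [← Int.toNat_of_nonneg h0]
      rw [Int.cast_natCast]
    change (n : ResidueField A) = (((n % (ℓ : ℤ)).toNat : ℕ) : ResidueField A)
    rw [h1]
    conv_lhs => rw [← Int.emod_add_mul_ediv n (ℓ : ℤ)]
    push_cast
    rw [hℓ0, zero_mul, add_zero]

/-- the candidate points over the prime field -/
noncomputable def primePt (Ē : Affine (ResidueField A)) (ℓ : ℕ) :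
    Option (Fin ℓ × Fin ℓ) → Ē.Point
  | none => 0
  | some ij =>
    open Classical in
    if h : Ē.Nonsingular ((ij.1 : ℕ) : ResidueField A) ((ij.2 : ℕ) : ResidueField A) then
      .some _ _ h else 0

/-- **(S2), abstract count** -/
theorem prime_le_of_inZeroComp [CharZero K] (EA : Affine A) {p ℓ : ℕ} (hp : p.Prime)
    (hℓ : ℓ.Prime) (hpℓ : ℓ ≠ p) (hA : (ℓ : K) ∈ A.nonunits)
    (Q : (EA.map A.subtype).Point) (hQ : addOrderOf Q = p)
    (hrat : ∀ P ∈ AddSubgroup.zmultiples Q, ∀ (x y : K) (h : (EA.map A.subtype).Nonsingular x y),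
      P = .some x y h → ∃ a b : ℚ, x = (a : K) ∧ y = (b : K))
    (hQ0 : InZeroComp EA Q) : p ≤ ℓ ^ 2 + 1 := by
  classical
  -- `p` is a unit of `A`
  have hpu : A.valuation ((p : ℤ) : K) = 1 := by
    apply Fermat.Agent.S54.valuation_intCast_eq_one A hℓ hA
    intro h
    have h1 : ℓ ∣ p := Int.natCast_dvd_natCast.mp h
    exact hpℓ ((Nat.prime_dvd_prime_iff_eq hℓ hp).mp h1)
  have hp0 : (p : K) ≠ 0 := Nat.cast_ne_zero.mpr hp.ne_zero
  have hpinv : ((p : K))⁻¹ ∈ A := by
    rw [← A.valuation_le_one_iff, map_inv₀]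
    have : A.valuation (p : K) = 1 := by simpa using hpu
    rw [this, inv_one]
  -- the subgroup generated by `Q`
  set G : AddSubgroup (EA.map A.subtype).Point := AddSubgroup.zmultiples Q with hG
  have hGZ : G ≤ zeroComp EA := by
    rw [hG, AddSubgroup.zmultiples_le]
    exact hQ0
  have hGp : ∀ P ∈ G, p • P = 0 := by
    intro P hP
    obtain ⟨k, rfl⟩ := AddSubgroup.mem_zmultiples_iff.mp hP
    rw [smul_comm, ← hQ, addOrderOf_nsmul_eq_zero, smul_zero]
  have hcard : (G : Set (EA.map A.subtype).Point).ncard = p := by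
    rw [← Nat.card_coe_set_eq]
    change Nat.card G = p
    rw [hG, Nat.card_zmultiples, hQ]
  -- injectivity of reduction on `G`
  have hinj : Set.InjOn (redPt EA) (G : Set (EA.map A.subtype).Point) := by
    intro P hP P' hP' h
    exact redPt_injOn_torsion EA hp0 hpinv (hGZ hP) (hGZ hP') (hGp P hP) (hGp P' hP') h
  -- the image lies in the prime-field points
  have himg : redPt EA '' (G : Set (EA.map A.subtype).Point) ⊆
      ((Finset.univ.image (primePt (EA.map (residue A)) ℓ) : Finset _) : Set _) := by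
    rintro _ ⟨P, hP, rfl⟩
    rw [Finset.mem_coe, Finset.mem_image]
    rcases (hGZ hP : InZeroComp EA P).cases with hk | ⟨x, y, hxy, rfl, hg⟩
    · exact ⟨none, Finset.mem_univ _, (redPt_of_mem_kerRed hk).symm⟩
    · obtain ⟨a, b, rfl, rfl⟩ := hrat _ hP x y hxy rfl
      obtain ⟨i, hi⟩ := exists_fin_residue_ratCast hℓ hA a hg.x_mem
      obtain ⟨j, hj⟩ := exists_fin_residue_ratCast hℓ hA b hg.y_mem
      refine ⟨some (i, j), Finset.mem_univ _, ?_⟩
      rw [redPt_some hxy hg]
      have hn := hg.nonsingular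
      have hn' : (EA.map (residue A)).Nonsingular ((i : ℕ) : ResidueField A)
          ((j : ℕ) : ResidueField A) := by
        rw [← hi, ← hj]; exact hn
      unfold primePt
      simp only
      rw [dif_pos hn']
      simp only [Point.some.injEq]
      exact ⟨hi.symm, hj.symm⟩
  have h1 : (redPt EA '' (G : Set (EA.map A.subtype).Point)).ncard = p := by
    rw [Set.InjOn.ncard_image hinj, hcard]
  have h2 : (redPt EA '' (G : Set (EA.map A.subtype).Point)).ncard ≤
      (Finset.univ.image (primePt (EA.map (residue A)) ℓ)).card := by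
    have := Set.ncard_le_ncard himg (Finset.finite_toSet _)
    rwa [Set.ncard_coe_finset] at this
  have h3 : (Finset.univ.image (primePt (EA.map (residue A)) ℓ)).card ≤ ℓ ^ 2 + 1 := by
    refine le_trans Finset.card_image_le ?_
    rw [Finset.card_univ, Fintype.card_option, Fintype.card_prod, Fintype.card_fin]
    nlinarith
  omega

end Fermat.Agent.FC
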