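/-
PROJECT FC, block (S2) (helper1), part 2: the point count for the frozen `InZeroComponentAt`.

For ANY `ℤ`-model `W`, a rational point `Q` of prime order `p` of `W` and a prime `ℓ` with
`ℓ ^ 2 + 1 < p`: `Q` is not in the identity component at any place over `ℓ`, and `ℓ ∣ Δ(W)`.
-/
import Mathlib
import Fermat.Prelude.Def_EllipticCurve_ZeroComponentAt
import Fermat.Prelude.Def_FLTPrelim_Ramification
import Fermat.Agent.FC.S2_helper1_Core

set_option autoImplicit false
set_option linter.unusedSectionVars false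

namespace Fermat.Agent.FC

open WeierstrassCurve WeierstrassCurve.Affine IsLocalRing Fermat.Agent.Tate

/-- the `A`-model of a `ℤ`-model -/
def intModel (W : WeierstrassCurve ℤ) {K : Type*} [Field K] (A : ValuationSubring K) :
    Affine A := W.map (Int.castRingHom A)

theorem intModel_map_subtype (W : WeierstrassCurve ℤ) {K : Type*} [Field K]
    (A : ValuationSubring K) :
    (intModel W A).map A.subtype = W.map (Int.castRingHom K) := by
  unfold intModel
  change (W.map (Int.castRingHom A)).map A.subtype = _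
  rw [WeierstrassCurve.map_map]
  congr 1

theorem intModel_map_residue (W : WeierstrassCurve ℤ) {K : Type*} [Field K]
    (A : ValuationSubring K) :
    (intModel W A).map (residue A) = W.map (Int.castRingHom (ResidueField A)) := by
  unfold intModel
  change (W.map (Int.castRingHom A)).map (residue A) = _
  rw [WeierstrassCurve.map_map]
  congr 1

theorem baseChange_int_eq (W : WeierstrassCurve ℤ) :
    ((W.map (Int.castRingHom ℚ))⁄(AlgebraicClosure ℚ)) =
      W.map (Int.castRingHom (AlgebraicClosure ℚ)) := by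
  change (W.map (Int.castRingHom ℚ)).map (algebraMap ℚ (AlgebraicClosure ℚ)) = _
  rw [WeierstrassCurve.map_map]
  congr 1

/-- the generic form of the frozen predicate -/
def InZeroCompP {K : Type*} [Field K] (A : ValuationSubring K) {E : Affine K}
    (Ē : Affine (ResidueField A)) (P : E.Point) : Prop :=
  P = 0 ∨ ∃ (x y : K) (h : E.Nonsingular x y),
    P = .some x y h ∧
      (x ∉ A ∨ ∃ (hx : x ∈ A) (hy : y ∈ A),
        Ē.Nonsingular (residue A ⟨x, hx⟩) (residue A ⟨y, hy⟩))

theorem inZeroComponentAt_iff (W : WeierstrassCurve ℤ)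
    (A : ValuationSubring (AlgebraicClosure ℚ))
    (P : ((W.map (Int.castRingHom ℚ))⁄(AlgebraicClosure ℚ)).Point) :
    W.InZeroComponentAt A P ↔
      InZeroCompP A (W.map (Int.castRingHom (ResidueField A))).toAffine P := Iff.rfl

/-- the abstract count, for a curve `E` presented as the generic fibre of `EA` -/
theorem prime_le_of_inZeroCompP {K : Type*} [Field K] [DecidableEq K] [CharZero K]
    {A : ValuationSubring K} (EA : Affine A) (E : Affine K) (Ē : Affine (ResidueField A))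
    (hE : EA.map A.subtype = E) (hĒ : EA.map (residue A) = Ē) {p ℓ : ℕ} (hp : p.Prime)
    (hℓ : ℓ.Prime) (hpℓ : ℓ ≠ p) (hA : (ℓ : K) ∈ A.nonunits)
    (Q : E.Point) (hQ : addOrderOf Q = p)
    (hrat : ∀ P ∈ AddSubgroup.zmultiples Q, ∀ (x y : K) (h : E.Nonsingular x y),
      P = .some x y h → ∃ a b : ℚ, x = (a : K) ∧ y = (b : K))
    (hQ0 : InZeroCompP A Ē Q) : p ≤ ℓ ^ 2 + 1 := by
  classical
  subst hE
  subst hĒ
  exact prime_le_of_inZeroComp EA hp hℓ hpℓ hA Q hQ hrat hQ0

theorem isGalois_algebraicClosure_rat : IsGalois ℚ (AlgebraicClosure ℚ) := by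
  have e : (AlgebraicClosure.instAlgebra ℚ : Algebra ℚ (AlgebraicClosure ℚ)) =
      DivisionRing.toRatAlgebra := Subsingleton.elim _ _
  have h : @Algebra.IsAlgebraic ℚ (AlgebraicClosure ℚ) _ _ (AlgebraicClosure.instAlgebra ℚ) :=
    AlgebraicClosure.isAlgebraic ℚ
  have h1 : Algebra.IsAlgebraic ℚ (AlgebraicClosure ℚ) := e ▸ h
  have h2 : IsAlgClosure ℚ (AlgebraicClosure ℚ) := ⟨inferInstance, h1⟩
  exact IsAlgClosure.isGalois ℚ (AlgebraicClosure ℚ)

/-- Galois-fixed points have rational coordinates -/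
theorem exists_rat_of_fixed (W : WeierstrassCurve ℤ)
    (P : ((W.map (Int.castRingHom ℚ))⁄(AlgebraicClosure ℚ)).Point)
    (hfix : ∀ σ : AlgebraicClosure ℚ ≃ₐ[ℚ] AlgebraicClosure ℚ, σ • P = P)
    (x y : AlgebraicClosure ℚ)
    (h : ((W.map (Int.castRingHom ℚ))⁄(AlgebraicClosure ℚ)).Nonsingular x y)
    (hP : P = .some x y h) :
    ∃ a b : ℚ, x = (a : AlgebraicClosure ℚ) ∧ y = (b : AlgebraicClosure ℚ) := by
  subst hP
  have hgal : IsGalois ℚ (AlgebraicClosure ℚ) := isGalois_algebraicClosure_rat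
  have hx : ∀ σ : AlgebraicClosure ℚ ≃ₐ[ℚ] AlgebraicClosure ℚ, σ x = x := fun σ => by
    have := hfix σ
    rw [Point.algEquiv_smul_def, Point.map_some] at this
    exact (Point.some.inj this).1
  have hy : ∀ σ : AlgebraicClosure ℚ ≃ₐ[ℚ] AlgebraicClosure ℚ, σ y = y := fun σ => by
    have := hfix σ
    rw [Point.algEquiv_smul_def, Point.map_some] at this
    exact (Point.some.inj this).2
  obtain ⟨a, ha⟩ :=
    (InfiniteGalois.mem_range_algebraMap_iff_fixed (k := ℚ) (K := AlgebraicClosure ℚ) x).mpr hx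
  obtain ⟨b, hb⟩ :=
    (InfiniteGalois.mem_range_algebraMap_iff_fixed (k := ℚ) (K := AlgebraicClosure ℚ) y).mpr hy
  exact ⟨a, b, by rw [← ha, eq_ratCast], by rw [← hb, eq_ratCast]⟩

/-- **(S2)**: a rational point of prime order `p > ℓ ^ 2 + 1` is not in the identity component at
`ℓ`, for any `ℤ`-model. -/
theorem not_inZeroComponentAt_of_lt {p ℓ : ℕ} (hp : p.Prime) (hℓ : ℓ.Prime) (hlt : ℓ ^ 2 + 1 < p)
    (W : WeierstrassCurve ℤ)
    (Q : ((W.map (Int.castRingHom ℚ))⁄(AlgebraicClosure ℚ)).Point)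
    (hQfix : ∀ σ : AlgebraicClosure ℚ ≃ₐ[ℚ] AlgebraicClosure ℚ, σ • Q = Q)
    (hQord : addOrderOf Q = p)
    (A : ValuationSubring (AlgebraicClosure ℚ)) (hA : A.LiesOverPrime ℓ) :
    ¬ W.InZeroComponentAt A Q := by
  classical
  intro h0
  have hpℓ : ℓ ≠ p := by
    rintro rfl
    nlinarith [hℓ.two_le]
  have hE : (intModel W A).map A.subtype =
      ((W.map (Int.castRingHom ℚ))⁄(AlgebraicClosure ℚ)) := by
    rw [intModel_map_subtype, baseChange_int_eq]
  have hrat : ∀ P ∈ AddSubgroup.zmultiples Q, ∀ (x y : AlgebraicClosure ℚ)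
      (h : ((W.map (Int.castRingHom ℚ))⁄(AlgebraicClosure ℚ)).Nonsingular x y),
      P = .some x y h → ∃ a b : ℚ, x = (a : AlgebraicClosure ℚ) ∧ y = (b : AlgebraicClosure ℚ) := by
    intro P hP x y h hPe
    obtain ⟨k, rfl⟩ := AddSubgroup.mem_zmultiples_iff.mp hP
    refine exists_rat_of_fixed W _ (fun σ => ?_) x y h hPe
    rw [Point.algEquiv_smul_zsmul, hQfix]
  have := prime_le_of_inZeroCompP (intModel W A) _ _ hE (intModel_map_residue W A) hp hℓ hpℓ hA
    Q hQord hrat ((inZeroComponentAt_iff W A Q).mp h0)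
  omega

/-- **(S2), corollary**: `ℓ ∣ Δ(W)`. -/
theorem dvd_Δ_of_lt {p ℓ : ℕ} (hp : p.Prime) (hℓ : ℓ.Prime) (hlt : ℓ ^ 2 + 1 < p)
    (W : WeierstrassCurve ℤ)
    (Q : ((W.map (Int.castRingHom ℚ))⁄(AlgebraicClosure ℚ)).Point)
    (hQfix : ∀ σ : AlgebraicClosure ℚ ≃ₐ[ℚ] AlgebraicClosure ℚ, σ • Q = Q)
    (hQord : addOrderOf Q = p) : (ℓ : ℤ) ∣ W.Δ := by
  classical
  by_contra hΔ
  obtain ⟨A, hA⟩ := Fermat.Agent.S54.exists_valuationSubring_liesOver
    (L := AlgebraicClosure ℚ) hℓ
  have hA' : A.LiesOverPrime ℓ := hA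
  apply not_inZeroComponentAt_of_lt hp hℓ hlt W Q hQfix hQord A hA'
  have hpℓ : ℓ ≠ p := by
    rintro rfl
    nlinarith [hℓ.two_le]
  -- `p` is a unit of `A`
  have hpu : A.valuation ((p : ℤ) : AlgebraicClosure ℚ) = 1 := by
    apply Fermat.Agent.S54.valuation_intCast_eq_one A hℓ hA
    intro h
    have h1 : ℓ ∣ p := Int.natCast_dvd_natCast.mp h
    exact hpℓ ((Nat.prime_dvd_prime_iff_eq hℓ hp).mp h1)
  have hp0 : (p : AlgebraicClosure ℚ) ≠ 0 := Nat.cast_ne_zero.mpr hp.ne_zero
  have hpinv : ((p : AlgebraicClosure ℚ))⁻¹ ∈ A := by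
    rw [← A.valuation_le_one_iff, map_inv₀]
    have : A.valuation (p : AlgebraicClosure ℚ) = 1 := by simpa using hpu
    rw [this, inv_one]
  -- the reduced curve is nonsingular
  have hΔk : (W.map (Int.castRingHom (ResidueField A))).Δ ≠ 0 := by
    rw [WeierstrassCurve.map_Δ]
    intro h0
    apply hΔ
    have hchar : CharP (ResidueField A) ℓ := by
      rw [CharP.charP_iff_prime_eq_zero hℓ]
      exact residue_natCast_eq_zero (A := A) hA
    have : ((W.Δ : ℤ) : ResidueField A) = 0 := h0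
    exact (CharP.intCast_eq_zero_iff (ResidueField A) ℓ W.Δ).mp this
  rcases hQ : Q with _ | ⟨x, y, h⟩
  · exact Or.inl rfl
  · refine Or.inr ⟨x, y, h, rfl, ?_⟩
    have hE : (intModel W A).map A.subtype =
        ((W.map (Int.castRingHom ℚ))⁄(AlgebraicClosure ℚ)) := by
      rw [intModel_map_subtype, baseChange_int_eq]
    have hW : IsIntegralCurve A ((W.map (Int.castRingHom ℚ))⁄(AlgebraicClosure ℚ)) := by
      rw [← hE]
      exact isIntegralCurve_map _
    have hpQ : p • Point.some x y h = 0 := by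
      rw [← hQ, ← hQord]
      exact addOrderOf_nsmul_eq_zero Q
    obtain ⟨hx, hy⟩ := mem_of_nsmul_eq_zero hW hp0 hpinv h hpQ
    refine Or.inr ⟨hx, hy, ?_⟩
    rw [← equation_iff_nonsingular_of_Δ_ne_zero hΔk]
    have heq : (W.map (Int.castRingHom (AlgebraicClosure ℚ))).toAffine.Equation x y := by
      rw [← baseChange_int_eq]
      exact h.1
    rw [← intModel_map_subtype W A] at heq
    have heA : (intModel W A).Equation ⟨x, hx⟩ ⟨y, hy⟩ :=
      (map_equation (intModel W A) (f := A.subtype) Subtype.val_injective ⟨x, hx⟩ ⟨y, hy⟩).mp heq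
    have := heA.map (residue A)
    rw [intModel_map_residue] at this
    exact this

end Fermat.Agent.FC
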