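/-
PROJECT FC, block (RED) (helper1), part 4: exports for the FROZEN predicate
`WeierstrassCurve.InZeroComponentAt` (`W` over `ℤ`, `A : ValuationSubring (AlgebraicClosure ℚ)`).

* (R-a) `inZeroComponentAt_zero/add/neg/sub/nsmul/zsmul`, `zeroComponentAt W A : AddSubgroup _`;
* (R-c) `inZeroComponentAt_of_torsion_good` : good reduction at `ℓ`, `ℓ ∤ m`, `m • x = 0` ⇒ in `W⁰`;
* (U2)  `smul_eq_of_inZeroComponentAt` : inertia fixes the prime-to-`ℓ` torsion points of `W⁰`
  (ANY `ℤ`-model, no hypothesis on the reduction type);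
* (R-b) `card_le_of_inZero_torsion` : the `m`-torsion of `W⁰` (`ℓ ∤ m`) injects into the
  `m`-torsion of the group of nonsingular points of the reduced cubic.
-/
import Mathlib
import Fermat.Agent.FC.S2_helper1
import Fermat.Agent.Tate.Inertia

set_option autoImplicit false
set_option linter.unusedSectionVars false

namespace Fermat.Agent.FC

open WeierstrassCurve WeierstrassCurve.Affine IsLocalRing Fermat.Agent.Tate

/-! ### generic transfer lemmas (curve presented as a generic fibre) -/

section Generic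

variable {K : Type*} [Field K] [DecidableEq K] {A : ValuationSubring K}

theorem inZeroCompP_add (EA : Affine A) (E : Affine K) (Ē : Affine (ResidueField A))
    (hE : EA.map A.subtype = E) (hĒ : EA.map (residue A) = Ē) {P Q : E.Point}
    (hP : InZeroCompP A Ē P) (hQ : InZeroCompP A Ē Q) : InZeroCompP A Ē (P + Q) := by
  classical
  subst hE
  subst hĒ
  exact (red_add EA hP hQ).1

theorem inZeroCompP_neg (EA : Affine A) (E : Affine K) (Ē : Affine (ResidueField A))
    (hE : EA.map A.subtype = E) (hĒ : EA.map (residue A) = Ē) {P : E.Point}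
    (hP : InZeroCompP A Ē P) : InZeroCompP A Ē (-P) := by
  classical
  subst hE
  subst hĒ
  exact inZeroComp_neg hP

/-- injectivity of reduction on prime-to-residue-characteristic torsion of `E⁰`, in the form:
two points of `E⁰` with congruent coordinates are equal -/
theorem eq_of_residue_eq (EA : Affine A) (E : Affine K) (Ē : Affine (ResidueField A))
    (hE : EA.map A.subtype = E) (hĒ : EA.map (residue A) = Ē) {n : ℕ} (hn0 : (n : K) ≠ 0)
    (hn : ((n : K))⁻¹ ∈ A) {x y x' y' : K} (h : E.Nonsingular x y) (h' : E.Nonsingular x' y')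
    (hx : x ∈ A) (hy : y ∈ A) (hx' : x' ∈ A) (hy' : y' ∈ A)
    (hns : Ē.Nonsingular (residue A ⟨x, hx⟩) (residue A ⟨y, hy⟩))
    (hxx : residue A ⟨x', hx'⟩ = residue A ⟨x, hx⟩)
    (hyy : residue A ⟨y', hy'⟩ = residue A ⟨y, hy⟩)
    (hnP : n • Point.some x y h = 0) (hnP' : n • Point.some x' y' h' = 0) :
    Point.some x' y' h' = Point.some x y h := by
  classical
  subst hE
  subst hĒ
  have g : GoodRed EA x y := ⟨hx, hy, hns⟩
  have g' : GoodRed EA x' y' := ⟨hx', hy', by rw [hxx, hyy]; exact hns⟩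
  apply redPt_injOn_torsion EA hn0 hn (inZeroComp_some_of_goodRed h' g')
    (inZeroComp_some_of_goodRed h g) hnP' hnP
  rw [redPt_some h' g', redPt_some h g]
  simp only [Point.some.injEq]
  exact ⟨hxx, hyy⟩

/-- the `m`-torsion of `E⁰` is not bigger than the `m`-torsion of the reduction -/
theorem card_le_of_inZeroCompP_torsion (EA : Affine A) (E : Affine K)
    (Ē : Affine (ResidueField A)) [DecidableEq (ResidueField A)]
    (hE : EA.map A.subtype = E) (hĒ : EA.map (residue A) = Ē) {m : ℕ} (hm0 : (m : K) ≠ 0)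
    (hm : ((m : K))⁻¹ ∈ A)
    (hnode : ∀ T' : Finset Ē.Point, (∀ x ∈ T', m • x = 0) → T'.card ≤ m)
    (T : Finset E.Point) (hT : ∀ x ∈ T, m • x = 0 ∧ InZeroCompP A Ē x) : T.card ≤ m := by
  classical
  subst hE
  subst hĒ
  have hinj : Set.InjOn (redPt EA) (T : Set (EA.map A.subtype).Point) := by
    intro P hP P' hP' h
    exact redPt_injOn_torsion EA hm0 hm (hT P hP).2 (hT P' hP').2 (hT P hP).1 (hT P' hP').1 h
  have h1 : (T.image (redPt EA)).card = T.card := Finset.card_image_of_injOn hinj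
  rw [← h1]
  apply hnode
  intro x hx
  obtain ⟨P, hP, rfl⟩ := Finset.mem_image.mp hx
  have hPZ : P ∈ zeroComp EA := (hT P hP).2
  have : redHom EA (m • (⟨P, hPZ⟩ : zeroComp EA)) = m • redHom EA ⟨P, hPZ⟩ := map_nsmul _ _ _
  have h2 : m • (⟨P, hPZ⟩ : zeroComp EA) = 0 := Subtype.ext (by
    rw [AddSubgroup.coe_nsmul]
    exact (hT P hP).1)
  rw [h2, map_zero] at this
  exact this.symm

end Generic

/-! ### the frozen predicate -/

section Frozen

variable (W : WeierstrassCurve ℤ) (A : ValuationSubring (AlgebraicClosure ℚ))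

theorem intModel_map_subtype' :
    (intModel W A).map A.subtype = ((W.map (Int.castRingHom ℚ))⁄(AlgebraicClosure ℚ)) := by
  rw [intModel_map_subtype, baseChange_int_eq]

/-- (R-a) -/
theorem inZeroComponentAt_zero : W.InZeroComponentAt A 0 := Or.inl rfl

/-- (R-a) -/
theorem inZeroComponentAt_add {P Q : ((W.map (Int.castRingHom ℚ))⁄(AlgebraicClosure ℚ)).Point}
    (hP : W.InZeroComponentAt A P) (hQ : W.InZeroComponentAt A Q) :
    W.InZeroComponentAt A (P + Q) :=
  inZeroCompP_add (intModel W A) _ _ (intModel_map_subtype' W A) (intModel_map_residue W A) hP hQ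

/-- (R-a) -/
theorem inZeroComponentAt_neg {P : ((W.map (Int.castRingHom ℚ))⁄(AlgebraicClosure ℚ)).Point}
    (hP : W.InZeroComponentAt A P) : W.InZeroComponentAt A (-P) :=
  inZeroCompP_neg (intModel W A) _ _ (intModel_map_subtype' W A) (intModel_map_residue W A) hP

/-- (R-a): the identity component of a `ℤ`-model at a place, as a subgroup -/
noncomputable def zeroComponentAt : AddSubgroup ((W.map (Int.castRingHom ℚ))⁄(AlgebraicClosure ℚ)).Point where
  carrier := {P | W.InZeroComponentAt A P}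
  zero_mem' := inZeroComponentAt_zero W A
  add_mem' := fun hP hQ => inZeroComponentAt_add W A hP hQ
  neg_mem' := fun hP => inZeroComponentAt_neg W A hP

theorem mem_zeroComponentAt_iff
    {P : ((W.map (Int.castRingHom ℚ))⁄(AlgebraicClosure ℚ)).Point} :
    P ∈ zeroComponentAt W A ↔ W.InZeroComponentAt A P := Iff.rfl

theorem inZeroComponentAt_sub {P Q : ((W.map (Int.castRingHom ℚ))⁄(AlgebraicClosure ℚ)).Point}
    (hP : W.InZeroComponentAt A P) (hQ : W.InZeroComponentAt A Q) :
    W.InZeroComponentAt A (P - Q) :=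
  (zeroComponentAt W A).sub_mem hP hQ

theorem inZeroComponentAt_nsmul {P : ((W.map (Int.castRingHom ℚ))⁄(AlgebraicClosure ℚ)).Point}
    (hP : W.InZeroComponentAt A P) (n : ℕ) : W.InZeroComponentAt A (n • P) :=
  (zeroComponentAt W A).nsmul_mem hP n

theorem inZeroComponentAt_zsmul {P : ((W.map (Int.castRingHom ℚ))⁄(AlgebraicClosure ℚ)).Point}
    (hP : W.InZeroComponentAt A P) (n : ℤ) : W.InZeroComponentAt A (n • P) :=
  (zeroComponentAt W A).zsmul_mem hP n

variable {W A}

/-- an integer prime to `ℓ` is a unit at a place over `ℓ` -/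
theorem natCast_unit_of_not_dvd {ℓ m : ℕ} (hℓ : ℓ.Prime) (hA : A.LiesOverPrime ℓ)
    (hm : ¬ ℓ ∣ m) :
    (m : AlgebraicClosure ℚ) ≠ 0 ∧ ((m : AlgebraicClosure ℚ))⁻¹ ∈ A := by
  have hm0 : m ≠ 0 := by
    rintro rfl
    exact hm (dvd_zero _)
  have hpu : A.valuation ((m : ℤ) : AlgebraicClosure ℚ) = 1 := by
    apply Fermat.Agent.S54.valuation_intCast_eq_one A hℓ hA
    intro h
    exact hm (Int.natCast_dvd_natCast.mp h)
  refine ⟨Nat.cast_ne_zero.mpr hm0, ?_⟩
  rw [← A.valuation_le_one_iff, map_inv₀]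
  have : A.valuation (m : AlgebraicClosure ℚ) = 1 := by simpa using hpu
  rw [this, inv_one]

theorem isIntegralCurve_int (W : WeierstrassCurve ℤ) (A : ValuationSubring (AlgebraicClosure ℚ)) :
    IsIntegralCurve A ((W.map (Int.castRingHom ℚ))⁄(AlgebraicClosure ℚ)) := by
  classical
  rw [← intModel_map_subtype' W A]
  exact isIntegralCurve_map _

/-- the reduction of an integral point of a `ℤ`-model lies on the reduced cubic -/
theorem equation_residue_int (W : WeierstrassCurve ℤ) (A : ValuationSubring (AlgebraicClosure ℚ))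
    {x y : AlgebraicClosure ℚ}
    (h : ((W.map (Int.castRingHom ℚ))⁄(AlgebraicClosure ℚ)).Equation x y) (hx : x ∈ A)
    (hy : y ∈ A) :
    (W.map (Int.castRingHom (ResidueField A))).toAffine.Equation
      (residue A ⟨x, hx⟩) (residue A ⟨y, hy⟩) := by
  have heq : ((intModel W A).map A.subtype).Equation x y := by
    rw [intModel_map_subtype' W A]
    exact h
  have heA : (intModel W A).Equation ⟨x, hx⟩ ⟨y, hy⟩ :=
    (map_equation (intModel W A) (f := A.subtype) Subtype.val_injective ⟨x, hx⟩ ⟨y, hy⟩).mp heq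
  have := heA.map (residue A)
  rw [intModel_map_residue] at this
  exact this

/-- (R-c): torsion points of order prime to `ℓ` are in the identity component at a prime of good
reduction -/
theorem inZeroComponentAt_of_torsion_good {ℓ m : ℕ} (hℓ : ℓ.Prime) (hA : A.LiesOverPrime ℓ)
    (hΔ : ¬ (ℓ : ℤ) ∣ W.Δ) (hm : ¬ ℓ ∣ m)
    {P : ((W.map (Int.castRingHom ℚ))⁄(AlgebraicClosure ℚ)).Point} (hP : m • P = 0) :
    W.InZeroComponentAt A P := by
  classical
  obtain ⟨hm0, hminv⟩ := natCast_unit_of_not_dvd hℓ hA hm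
  have hΔk : (W.map (Int.castRingHom (ResidueField A))).Δ ≠ 0 := by
    rw [WeierstrassCurve.map_Δ]
    intro h0
    apply hΔ
    have hchar : CharP (ResidueField A) ℓ := by
      rw [CharP.charP_iff_prime_eq_zero hℓ]
      exact residue_natCast_eq_zero (A := A) hA
    have : ((W.Δ : ℤ) : ResidueField A) = 0 := h0
    exact (CharP.intCast_eq_zero_iff (ResidueField A) ℓ W.Δ).mp this
  rcases P with _ | ⟨x, y, h⟩
  · exact Or.inl rfl
  · refine Or.inr ⟨x, y, h, rfl, ?_⟩
    obtain ⟨hx, hy⟩ := mem_of_nsmul_eq_zero (isIntegralCurve_int W A) hm0 hminv h hP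
    refine Or.inr ⟨hx, hy, ?_⟩
    rw [← equation_iff_nonsingular_of_Δ_ne_zero hΔk]
    exact equation_residue_int W A h.1 hx hy

/-- (U2): inertia fixes the prime-to-`ℓ` torsion points of the identity component (any `ℤ`-model,
any reduction type) -/
theorem smul_eq_of_inZeroComponentAt {ℓ n : ℕ} (hℓ : ℓ.Prime) (hA : A.LiesOverPrime ℓ)
    (hn : ¬ ℓ ∣ n) {σ : AlgebraicClosure ℚ ≃ₐ[ℚ] AlgebraicClosure ℚ}
    (hσ : σ ∈ A.inertiaSubgroupIn ℚ)
    {T : ((W.map (Int.castRingHom ℚ))⁄(AlgebraicClosure ℚ)).Point} (hT : n • T = 0)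
    (h0 : W.InZeroComponentAt A T) : σ • T = T := by
  classical
  obtain ⟨hn0, hninv⟩ := natCast_unit_of_not_dvd hℓ hA hn
  rcases T with _ | ⟨x, y, h⟩
  · rfl
  · obtain ⟨hx, hy⟩ := mem_of_nsmul_eq_zero (isIntegralCurve_int W A) hn0 hninv h hT
    have hns : (W.map (Int.castRingHom (ResidueField A))).toAffine.Nonsingular
        (residue A ⟨x, hx⟩) (residue A ⟨y, hy⟩) := by
      rcases h0 with h0 | ⟨x', y', h', he, hx' | ⟨hx', hy', hns⟩⟩
      · exact absurd h0 (Point.some_ne_zero _)
      · obtain ⟨rfl, rfl⟩ := Point.some.inj he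
        exact absurd hx hx'
      · obtain ⟨rfl, rfl⟩ := Point.some.inj he
        exact hns
    obtain ⟨hσx, hσx'⟩ := inertia_map_mem_and_sub_mem hσ hx
    obtain ⟨hσy, hσy'⟩ := inertia_map_mem_and_sub_mem hσ hy
    have key : ∀ (a b : AlgebraicClosure ℚ) (ha : a ∈ A) (hb : b ∈ A), b - a ∈ A.nonunits →
        residue A ⟨b, hb⟩ = residue A ⟨a, ha⟩ := by
      intro a b ha hb hab
      rw [← sub_eq_zero, ← map_sub, residue_eq_zero_iff, mem_maximalIdeal]
      exact A.coe_mem_nonunits_iff.mp hab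
    rw [Point.algEquiv_smul_def, Point.map_some]
    have hnT' : n • Point.map (W' := W.map (Int.castRingHom ℚ)) σ.toAlgHom (Point.some x y h) = 0 := by
      rw [← map_nsmul, hT, map_zero]
    rw [Point.map_some] at hnT'
    exact eq_of_residue_eq (intModel W A) _ _ (intModel_map_subtype' W A)
      (intModel_map_residue W A) hn0 hninv h _ hx hy hσx hσy hns
      (key x (σ x) hx hσx hσx') (key y (σ y) hy hσy hσy') hT hnT'

/-- (R-b), reduced to the field-level statement about the reduced cubic -/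
theorem card_le_of_inZero_torsion [DecidableEq (ResidueField A)] {ℓ m : ℕ} (hℓ : ℓ.Prime)
    (hA : A.LiesOverPrime ℓ) (hm : ¬ ℓ ∣ m)
    (hnode : ∀ T' : Finset (W.map (Int.castRingHom (ResidueField A))).toAffine.Point,
      (∀ x ∈ T', m • x = 0) → T'.card ≤ m)
    (T : Finset ((W.map (Int.castRingHom ℚ))⁄(AlgebraicClosure ℚ)).Point)
    (hT : ∀ x ∈ T, m • x = 0 ∧ W.InZeroComponentAt A x) : T.card ≤ m := by
  obtain ⟨hm0, hminv⟩ := natCast_unit_of_not_dvd hℓ hA hm
  exact card_le_of_inZeroCompP_torsion (intModel W A) _ _ (intModel_map_subtype' W A)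
    (intModel_map_residue W A) hm0 hminv hnode T hT

end Frozen

end Fermat.Agent.FC
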