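/-
PROJECT FC — helper2 — block (Q), part 1: Vélu's formulas for a finite set `S` of points of a
Weierstrass curve over a field (to be applied to `S = D ∖ {0}` for a finite subgroup `D`).

* `veluT W S = ∑_{d ∈ S} (3 x_d² + 2 a₂ x_d + a₄ - a₁ y_d)`,
* `veluW W S = (∑_{d ∈ S} (10 x_d³ + 2 b₂ x_d² + 3 b₄ x_d + b₆)) / 2`,
* `veluCurve W S = ⟨a₁, a₂, a₃, a₄ - 5 t, a₆ - b₂ t - 7 w⟩`,
* `veluX W S P = x_P + ∑_{d ∈ S} (x_{P+d} - x_d)`, `veluY W S P = y_P + ∑_{d ∈ S} (y_{P+d} - y_d)`,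
and their compatibility with field homomorphisms (`ptMap`).
-/
import Mathlib
import Fermat.Agent.S13.A_helper8_Descent

set_option autoImplicit false
set_option linter.unusedSectionVars false

namespace Fermat.Agent.FC

open WeierstrassCurve Fermat.Agent.S13

section defs

variable {F : Type*} [Field F] [DecidableEq F]

/-- Vélu's `t` of a finite set of points. -/
noncomputable def veluT (W : WeierstrassCurve F) (S : Finset W.toAffine.Point) : F :=
  ∑ d ∈ S, (3 * xOf d ^ 2 + 2 * W.a₂ * xOf d + W.a₄ - W.a₁ * yOf d)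

/-- Vélu's `w` of a finite set of points (closed under negation, without `2`-torsion). -/
noncomputable def veluW (W : WeierstrassCurve F) (S : Finset W.toAffine.Point) : F :=
  (∑ d ∈ S, (10 * xOf d ^ 3 + 2 * W.b₂ * xOf d ^ 2 + 3 * W.b₄ * xOf d + W.b₆)) / 2

/-- Vélu's quotient curve. -/
noncomputable def veluCurve (W : WeierstrassCurve F) (S : Finset W.toAffine.Point) :
    WeierstrassCurve F :=
  ⟨W.a₁, W.a₂, W.a₃, W.a₄ - 5 * veluT W S, W.a₆ - W.b₂ * veluT W S - 7 * veluW W S⟩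

/-- the `x`-coordinate of Vélu's isogeny. -/
noncomputable def veluX (W : WeierstrassCurve F) (S : Finset W.toAffine.Point)
    (P : W.toAffine.Point) : F :=
  xOf P + ∑ d ∈ S, (xOf (P + d) - xOf d)

/-- the `y`-coordinate of Vélu's isogeny. -/
noncomputable def veluY (W : WeierstrassCurve F) (S : Finset W.toAffine.Point)
    (P : W.toAffine.Point) : F :=
  yOf P + ∑ d ∈ S, (yOf (P + d) - yOf d)

variable (W : WeierstrassCurve F) (S : Finset W.toAffine.Point)

@[simp] theorem veluCurve_a₁ : (veluCurve W S).a₁ = W.a₁ := rfl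
@[simp] theorem veluCurve_a₂ : (veluCurve W S).a₂ = W.a₂ := rfl
@[simp] theorem veluCurve_a₃ : (veluCurve W S).a₃ = W.a₃ := rfl
@[simp] theorem veluCurve_a₄ : (veluCurve W S).a₄ = W.a₄ - 5 * veluT W S := rfl
@[simp] theorem veluCurve_a₆ :
    (veluCurve W S).a₆ = W.a₆ - W.b₂ * veluT W S - 7 * veluW W S := rfl

theorem veluCurve_b₂ : (veluCurve W S).b₂ = W.b₂ := by
  simp only [WeierstrassCurve.b₂, veluCurve_a₁, veluCurve_a₂]

theorem veluCurve_b₄ : (veluCurve W S).b₄ = W.b₄ - 10 * veluT W S := by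
  simp only [WeierstrassCurve.b₄, veluCurve_a₁, veluCurve_a₃, veluCurve_a₄]
  ring

theorem veluCurve_b₆ :
    (veluCurve W S).b₆ = W.b₆ - 4 * W.b₂ * veluT W S - 28 * veluW W S := by
  simp only [WeierstrassCurve.b₆, veluCurve_a₃, veluCurve_a₆]
  ring

theorem veluCurve_c₄ : (veluCurve W S).c₄ = W.c₄ + 240 * veluT W S := by
  simp only [WeierstrassCurve.c₄, veluCurve_b₂, veluCurve_b₄]
  ring

theorem veluCurve_c₆ :
    (veluCurve W S).c₆ = W.c₆ + 504 * W.b₂ * veluT W S + 6048 * veluW W S := by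
  simp only [WeierstrassCurve.c₆, veluCurve_b₂, veluCurve_b₄, veluCurve_b₆]
  ring

end defs

section map

variable {F₁ F₂ : Type*} [Field F₁] [Field F₂] [DecidableEq F₁] [DecidableEq F₂]
  (f : F₁ →+* F₂) (W₁ : WeierstrassCurve F₁) (W₂ : WeierstrassCurve F₂) (h : W₁.map f = W₂)
  (S : Finset W₁.toAffine.Point)

/-- the image of a finite set of points under `ptMap`. -/
noncomputable def ptImage : Finset W₂.toAffine.Point :=
  S.map ⟨ptMap f W₁ W₂ h, ptMap_injective f W₁ W₂ h⟩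

theorem mem_ptImage {Q : W₂.toAffine.Point} :
    Q ∈ ptImage f W₁ W₂ h S ↔ ∃ P ∈ S, ptMap f W₁ W₂ h P = Q := by
  simp [ptImage]

theorem sum_ptImage {M : Type*} [AddCommMonoid M] (g : W₂.toAffine.Point → M) :
    ∑ d ∈ ptImage f W₁ W₂ h S, g d = ∑ d ∈ S, g (ptMap f W₁ W₂ h d) := by
  simp [ptImage]

theorem veluT_map : veluT W₂ (ptImage f W₁ W₂ h S) = f (veluT W₁ S) := by
  subst h
  simp only [veluT, sum_ptImage, xOf_ptMap, yOf_ptMap, map_sum, map_sub, map_add, map_mul,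
    map_pow, map_ofNat, WeierstrassCurve.map_a₁, WeierstrassCurve.map_a₂,
    WeierstrassCurve.map_a₄]

theorem veluW_map : veluW W₂ (ptImage f W₁ W₂ h S) = f (veluW W₁ S) := by
  subst h
  simp only [veluW, sum_ptImage, xOf_ptMap, map_div₀, map_sum, map_add, map_mul,
    map_pow, map_ofNat, WeierstrassCurve.map_b₂, WeierstrassCurve.map_b₄,
    WeierstrassCurve.map_b₆]

theorem veluCurve_map :
    (veluCurve W₁ S).map f = veluCurve W₂ (ptImage f W₁ W₂ h S) := by
  have hT := veluT_map f W₁ W₂ h S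
  have hW := veluW_map f W₁ W₂ h S
  subst h
  ext
  · simp
  · simp
  · simp
  · simp [hT, map_ofNat]
  · simp [hT, hW, map_ofNat]

theorem veluX_map (P : W₁.toAffine.Point) :
    veluX W₂ (ptImage f W₁ W₂ h S) (ptMap f W₁ W₂ h P) = f (veluX W₁ S P) := by
  simp only [veluX, sum_ptImage, ← map_add, xOf_ptMap]
  rw [RingHom.map_add, map_sum]
  simp only [map_sub]

theorem veluY_map (P : W₁.toAffine.Point) :
    veluY W₂ (ptImage f W₁ W₂ h S) (ptMap f W₁ W₂ h P) = f (veluY W₁ S P) := by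
  simp only [veluY, sum_ptImage, ← map_add, yOf_ptMap]
  rw [RingHom.map_add, map_sum]
  simp only [map_sub]

end map

end Fermat.Agent.FC
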