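/-
PROJECT FC, block (M) (helper1), part 1: local lemmas.

`W` a `ℤ`-model, `A` a place of `Ω = AlgebraicClosure ℚ` over `ℓ`, `E = (W.map _)⁄Ω`.
* `tval d := 6 x_d² + b₂ x_d + b₄` (`= ℘''(d)`);
* `tval_mem` : `tval d ∈ A` for torsion points of order prime to `ℓ`;
* `tval_mem_nonunits_of_not_inZero` (ND) : `tval d ∈ 𝔪_A` if moreover `d` is not in the identity
  component;
* `two_mul_veluT_eq_sum_tval` : `2 · veluT E S = ∑_{d ∈ S} tval d` for `S` closed under negation, `0 ∉ S`.
-/
import Mathlib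
import Fermat.Agent.FC.RED_helper1_Frozen
import Fermat.Agent.FC.Q_helper2_Defs

set_option autoImplicit false
set_option linter.unusedSectionVars false

namespace Fermat.Agent.FC

open WeierstrassCurve WeierstrassCurve.Affine IsLocalRing Fermat.Agent.Tate Fermat.Agent.S13

/-- `6 x² + b₂ x + b₄` at a point -/
noncomputable def tval {F : Type*} [Field F] (E : WeierstrassCurve F) (d : E.toAffine.Point) : F :=
  6 * xOf d ^ 2 + E.b₂ * xOf d + E.b₄

section pair

variable {F : Type*} [Field F] [DecidableEq F] (E : WeierstrassCurve F)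

/-- the summand of `veluT` -/
noncomputable def tHalf (d : E.toAffine.Point) : F :=
  3 * xOf d ^ 2 + 2 * E.a₂ * xOf d + E.a₄ - E.a₁ * yOf d

theorem veluT_eq_sum_tHalf (S : Finset E.toAffine.Point) : veluT E S = ∑ d ∈ S, tHalf E d := rfl

theorem tHalf_add_neg {d : E.toAffine.Point} (hd : d ≠ 0) :
    tHalf E d + tHalf E (-d) = tval E d := by
  rcases d with _ | ⟨x, y, h⟩
  · exact absurd rfl hd
  · rw [Point.neg_some]
    simp only [tHalf, tval, xOf_some, yOf_some, Affine.negY, WeierstrassCurve.b₂,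
      WeierstrassCurve.b₄]
    ring

/-- `2 t = ∑ (6 x² + b₂ x + b₄)` -/
theorem two_mul_veluT_eq_sum_tval (S : Finset E.toAffine.Point) (hneg : ∀ d ∈ S, -d ∈ S)
    (h0 : (0 : E.toAffine.Point) ∉ S) : 2 * veluT E S = ∑ d ∈ S, tval E d := by
  have h1 : ∑ d ∈ S, tHalf E (-d) = ∑ d ∈ S, tHalf E d := by
    apply Finset.sum_nbij' (fun d => -d) (fun d => -d)
    · intro d hd; exact hneg d hd
    · intro d hd; exact hneg d hd
    · intro d _; exact neg_neg d
    · intro d _; exact neg_neg d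
    · intro d _; rfl
  rw [veluT_eq_sum_tHalf, two_mul]
  nth_rewrite 2 [← h1]
  rw [← Finset.sum_add_distrib]
  apply Finset.sum_congr rfl
  intro d hd
  exact tHalf_add_neg E (fun h => h0 (h ▸ hd))

end pair

section local_

variable {W : WeierstrassCurve ℤ} {A : ValuationSubring (AlgebraicClosure ℚ)}

theorem coeff_mem_int (W : WeierstrassCurve ℤ) (A : ValuationSubring (AlgebraicClosure ℚ)) :
    ((W.map (Int.castRingHom ℚ))⁄(AlgebraicClosure ℚ)).b₂ ∈ A ∧
    ((W.map (Int.castRingHom ℚ))⁄(AlgebraicClosure ℚ)).b₄ ∈ A := by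
  have hW := isIntegralCurve_int W A
  have h2 : (2 : AlgebraicClosure ℚ) ∈ A := by exact_mod_cast natCast_mem A 2
  have h4 : (4 : AlgebraicClosure ℚ) ∈ A := by exact_mod_cast natCast_mem A 4
  constructor
  · simp only [WeierstrassCurve.b₂]
    exact add_mem (pow_mem hW.a₁ 2) (mul_mem h4 hW.a₂)
  · simp only [WeierstrassCurve.b₄]
    exact add_mem (mul_mem h2 hW.a₄) (mul_mem hW.a₁ hW.a₃)

/-- torsion points of order prime to `ℓ` have integral `tval` -/
theorem tval_mem {ℓ n : ℕ} (hℓ : ℓ.Prime) (hA : A.LiesOverPrime ℓ) (hn : ¬ ℓ ∣ n)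
    {d : ((W.map (Int.castRingHom ℚ))⁄(AlgebraicClosure ℚ)).Point} (hd : n • d = 0) :
    tval ((W.map (Int.castRingHom ℚ))⁄(AlgebraicClosure ℚ)) d ∈ A := by
  obtain ⟨hn0, hninv⟩ := natCast_unit_of_not_dvd hℓ hA hn
  obtain ⟨hb₂, hb₄⟩ := coeff_mem_int W A
  have h6 : (6 : AlgebraicClosure ℚ) ∈ A := by exact_mod_cast natCast_mem A 6
  rcases d with _ | ⟨x, y, h⟩
  · simp only [tval]
    rw [show xOf (Point.zero : ((W.map (Int.castRingHom ℚ))⁄(AlgebraicClosure ℚ)).Point) = 0
      from rfl]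
    simp only [ne_eq, OfNat.ofNat_ne_zero, not_false_eq_true, zero_pow, mul_zero, zero_add]
    exact hb₄
  · obtain ⟨hx, -⟩ := mem_of_nsmul_eq_zero (isIntegralCurve_int W A) hn0 hninv h hd
    simp only [tval, xOf_some]
    exact add_mem (add_mem (mul_mem h6 (pow_mem hx 2)) (mul_mem hb₂ hx)) hb₄

/-- **(ND)**: a torsion point (order prime to `ℓ`) outside the identity component has
`6 x² + b₂ x + b₄ ∈ 𝔪` -/
theorem tval_mem_nonunits_of_not_inZero {ℓ n : ℕ} (hℓ : ℓ.Prime) (hA : A.LiesOverPrime ℓ)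
    (hn : ¬ ℓ ∣ n) {d : ((W.map (Int.castRingHom ℚ))⁄(AlgebraicClosure ℚ)).Point}
    (hd : n • d = 0) (h0 : ¬ W.InZeroComponentAt A d) :
    tval ((W.map (Int.castRingHom ℚ))⁄(AlgebraicClosure ℚ)) d ∈ A.nonunits := by
  classical
  obtain ⟨hn0, hninv⟩ := natCast_unit_of_not_dvd hℓ hA hn
  rcases d with _ | ⟨x, y, h⟩
  · exact absurd (Or.inl rfl) h0
  · obtain ⟨hx, hy⟩ := mem_of_nsmul_eq_zero (isIntegralCurve_int W A) hn0 hninv h hd
    -- the generic statement
    have key : ∀ (EA : Affine A) (E : Affine (AlgebraicClosure ℚ))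
        (Ē : Affine (ResidueField A)) (hE : EA.map A.subtype = E) (hĒ : EA.map (residue A) = Ē)
        (heq : E.Equation x y),
        ¬ (∃ (hx : x ∈ A) (hy : y ∈ A),
          Ē.Nonsingular (residue A ⟨x, hx⟩) (residue A ⟨y, hy⟩)) →
        6 * x ^ 2 + E.b₂ * x + E.b₄ ∈ A.nonunits := by
      intro EA E Ē hE hĒ heq hng
      subst hE
      subst hĒ
      have hpart := (not_iff_not.mpr (goodRed_iff_partials EA hx hy heq)).mp hng
      rw [not_not] at hpart
      have e : 6 * x ^ 2 + (EA.map A.subtype).b₂ * x + (EA.map A.subtype).b₄ =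
          2 * (3 * x ^ 2 + 2 * (EA.map A.subtype).a₂ * x + (EA.map A.subtype).a₄ -
            (EA.map A.subtype).a₁ * y) +
          (EA.map A.subtype).a₁ * (2 * y + (EA.map A.subtype).a₁ * x + (EA.map A.subtype).a₃) := by
        simp only [WeierstrassCurve.b₂, WeierstrassCurve.b₄]
        ring
      rw [e]
      have h2 : (2 : AlgebraicClosure ℚ) ∈ A := by exact_mod_cast natCast_mem A 2
      have hmul : ∀ {a b : AlgebraicClosure ℚ}, a ∈ A → b ∈ A.nonunits → a * b ∈ A.nonunits := by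
        intro a b ha hb
        rw [A.mem_nonunits_iff] at hb ⊢
        rw [map_mul]
        exact mul_lt_one_of_nonneg_of_lt_one_right ((A.valuation_le_one_iff a).mpr ha)
          zero_le hb
      have hadd : ∀ {a b : AlgebraicClosure ℚ}, a ∈ A.nonunits → b ∈ A.nonunits →
          a + b ∈ A.nonunits := by
        intro a b ha hb
        rw [A.mem_nonunits_iff] at ha hb ⊢
        exact lt_of_le_of_lt (A.valuation.map_add a b) (max_lt ha hb)
      exact hadd (hmul h2 hpart.1) (hmul (isIntegralCurve_map EA).a₁ hpart.2)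
    simp only [tval, xOf_some]
    apply key (intModel W A) _ _ (intModel_map_subtype' W A) (intModel_map_residue W A) h.1
    rintro ⟨hx', hy', hns⟩
    exact h0 (Or.inr ⟨x, y, h, rfl, Or.inr ⟨hx', hy', hns⟩⟩)

end local_

end Fermat.Agent.FC
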