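/-
PROJECT FC, block (Q-i) (helper1): integrality of Vélu's `t` and `w` at the places not dividing
the orders of the points.

`W₀` a `ℤ`-model, `A` a place of `Ω = AlgebraicClosure ℚ` over `ℓ`, `S` a finite set of torsion
points of order prime to `ℓ`:
* `veluT_mem` : `veluT (W₀ℚ⁄Ω) S ∈ A`;
* `veluW_mem` : `veluW (W₀ℚ⁄Ω) S ∈ A` if `S` is closed under negation without `2`-torsion.
-/
import Mathlib
import Fermat.Agent.FC.M_helper1_Local

set_option autoImplicit false
set_option linter.unusedSectionVars false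

namespace Fermat.Agent.FC

open WeierstrassCurve WeierstrassCurve.Affine IsLocalRing Fermat.Agent.Tate Fermat.Agent.S13

/-- a symmetric set without fixed points of the negation, and an even function: the sum is twice
the sum over a subset -/
theorem exists_half_sum {G M : Type*} [AddGroup G] [DecidableEq G] [AddCommMonoid M]
    (f : G → M) (hf : ∀ d, f (-d) = f d) :
    ∀ (n : ℕ) (S : Finset G), S.card = n → (∀ d ∈ S, -d ∈ S) → (∀ d ∈ S, -d ≠ d) →
      ∃ T ⊆ S, ∑ d ∈ S, f d = 2 • ∑ d ∈ T, f d := by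
  intro n
  induction n using Nat.strong_induction_on with
  | _ n ih =>
    intro S hcard hneg hfix
    rcases S.eq_empty_or_nonempty with rfl | ⟨d, hd⟩
    · exact ⟨∅, Finset.Subset.refl _, by simp⟩
    · have hnd : -d ∈ S := hneg d hd
      have hne : -d ≠ d := hfix d hd
      set S' := (S.erase d).erase (-d) with hS'
      have hnd' : -d ∈ S.erase d := Finset.mem_erase.mpr ⟨hne, hnd⟩
      have hc1 : (S.erase d).card = S.card - 1 := Finset.card_erase_of_mem hd
      have hc2 : S'.card = (S.erase d).card - 1 := Finset.card_erase_of_mem hnd'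
      have hpos : 0 < S.card := Finset.card_pos.mpr ⟨d, hd⟩
      have hlt : S'.card < n := by omega
      have hneg' : ∀ e ∈ S', -e ∈ S' := by
        intro e he
        rw [hS', Finset.mem_erase, Finset.mem_erase] at he ⊢
        refine ⟨?_, ?_, hneg e he.2.2⟩
        · intro h
          exact he.2.1 (neg_injective h)
        · intro h
          apply he.1
          rw [← h, neg_neg]
      have hfix' : ∀ e ∈ S', -e ≠ e := by
        intro e he
        rw [hS', Finset.mem_erase, Finset.mem_erase] at he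
        exact hfix e he.2.2
      obtain ⟨T', hT', hsum'⟩ := ih S'.card hlt S' rfl hneg' hfix'
      have hdT' : d ∉ T' := by
        intro h
        have := hT' h
        rw [hS', Finset.mem_erase, Finset.mem_erase] at this
        exact this.2.1 rfl
      refine ⟨insert d T', ?_, ?_⟩
      · intro e he
        rcases Finset.mem_insert.mp he with rfl | he
        · exact hd
        · have := hT' he
          rw [hS', Finset.mem_erase, Finset.mem_erase] at this
          exact this.2.2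
      · rw [Finset.sum_insert hdT', ← Finset.add_sum_erase S f hd,
          ← Finset.add_sum_erase (S.erase d) f hnd', hsum', hf d, smul_add, two_nsmul (f d)]
        rw [add_assoc]

variable {A : ValuationSubring (AlgebraicClosure ℚ)}

/-- a finite sum of elements of `A` is in `A` -/
theorem sum_mem_valuationSubring {ι : Type*} (S : Finset ι) (f : ι → AlgebraicClosure ℚ)
    (h : ∀ i ∈ S, f i ∈ A) : ∑ i ∈ S, f i ∈ A :=
  Subring.sum_mem A.toSubring h

/-- **(Q-i)**: Vélu's `t` is integral away from the orders of the points -/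
theorem veluT_mem (W₀ℚ : WeierstrassCurve ℚ) (W₀ : WeierstrassCurve ℤ)
    (h : W₀.map (Int.castRingHom ℚ) = W₀ℚ) {ℓ : ℕ} (hℓ : ℓ.Prime)
    (hA : A.LiesOverPrime ℓ) (S : Finset (W₀ℚ⁄(AlgebraicClosure ℚ)).Point)
    (hS : ∀ d ∈ S, ∃ n : ℕ, ¬ ℓ ∣ n ∧ n • d = 0) :
    veluT (W₀ℚ⁄(AlgebraicClosure ℚ)) S ∈ A := by
  subst h
  have hW := isIntegralCurve_int W₀ A
  have h2 : (2 : AlgebraicClosure ℚ) ∈ A := by exact_mod_cast natCast_mem A 2
  have h3 : (3 : AlgebraicClosure ℚ) ∈ A := by exact_mod_cast natCast_mem A 3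
  unfold veluT
  apply sum_mem_valuationSubring
  intro d hd
  obtain ⟨n, hn, hnd⟩ := hS d hd
  obtain ⟨hn0, hninv⟩ := natCast_unit_of_not_dvd hℓ hA hn
  rcases d with _ | ⟨x, y, hxy⟩
  · rw [show xOf (Point.zero :
        ((W₀.map (Int.castRingHom ℚ))⁄(AlgebraicClosure ℚ)).Point) = 0 from rfl,
      show yOf (Point.zero :
        ((W₀.map (Int.castRingHom ℚ))⁄(AlgebraicClosure ℚ)).Point) = 0 from rfl]
    simp only [ne_eq, OfNat.ofNat_ne_zero, not_false_eq_true, zero_pow, mul_zero, add_zero,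
      zero_add, sub_zero]
    exact hW.a₄
  · obtain ⟨hx, hy⟩ := mem_of_nsmul_eq_zero hW hn0 hninv hxy hnd
    simp only [xOf_some, yOf_some]
    exact sub_mem (add_mem (add_mem (mul_mem h3 (pow_mem hx 2)) (mul_mem (mul_mem h2 hW.a₂) hx))
      hW.a₄) (mul_mem hW.a₁ hy)

/-- **(Q-i)**: Vélu's `w` is integral away from the orders of the points -/
theorem veluW_mem (W₀ℚ : WeierstrassCurve ℚ) (W₀ : WeierstrassCurve ℤ)
    (h : W₀.map (Int.castRingHom ℚ) = W₀ℚ) {ℓ : ℕ} (hℓ : ℓ.Prime)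
    (hA : A.LiesOverPrime ℓ) (S : Finset (W₀ℚ⁄(AlgebraicClosure ℚ)).Point)
    (hS : ∀ d ∈ S, ∃ n : ℕ, ¬ ℓ ∣ n ∧ n • d = 0)
    (hneg : ∀ d ∈ S, -d ∈ S ∧ -d ≠ d) :
    veluW (W₀ℚ⁄(AlgebraicClosure ℚ)) S ∈ A := by
  classical
  subst h
  have hW := isIntegralCurve_int W₀ A
  obtain ⟨hb₂, hb₄⟩ := coeff_mem_int W₀ A
  have h2 : (2 : AlgebraicClosure ℚ) ∈ A := by exact_mod_cast natCast_mem A 2
  have h3 : (3 : AlgebraicClosure ℚ) ∈ A := by exact_mod_cast natCast_mem A 3
  have h4 : (4 : AlgebraicClosure ℚ) ∈ A := by exact_mod_cast natCast_mem A 4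
  have h10 : (10 : AlgebraicClosure ℚ) ∈ A := by exact_mod_cast natCast_mem A 10
  have hb₆ : ((W₀.map (Int.castRingHom ℚ))⁄(AlgebraicClosure ℚ)).b₆ ∈ A := by
    simp only [WeierstrassCurve.b₆]
    exact add_mem (pow_mem hW.a₃ 2) (mul_mem h4 hW.a₆)
  set g : ((W₀.map (Int.castRingHom ℚ))⁄(AlgebraicClosure ℚ)).Point → AlgebraicClosure ℚ :=
    fun d => 10 * xOf d ^ 3 + 2 * ((W₀.map (Int.castRingHom ℚ))⁄(AlgebraicClosure ℚ)).b₂ *
      xOf d ^ 2 + 3 * ((W₀.map (Int.castRingHom ℚ))⁄(AlgebraicClosure ℚ)).b₄ * xOf d +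
      ((W₀.map (Int.castRingHom ℚ))⁄(AlgebraicClosure ℚ)).b₆ with hg
  have hgeven : ∀ d, g (-d) = g d := by
    intro d
    rcases d with _ | ⟨x, y, hxy⟩
    · rfl
    · rw [Point.neg_some]
      simp only [hg, xOf_some]
  have hgmem : ∀ d ∈ S, g d ∈ A := by
    intro d hd
    obtain ⟨n, hn, hnd⟩ := hS d hd
    obtain ⟨hn0, hninv⟩ := natCast_unit_of_not_dvd hℓ hA hn
    rcases d with _ | ⟨x, y, hxy⟩
    · simp only [hg]
      rw [show xOf (Point.zero :
        ((W₀.map (Int.castRingHom ℚ))⁄(AlgebraicClosure ℚ)).Point) = 0 from rfl]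
      simp only [ne_eq, OfNat.ofNat_ne_zero, not_false_eq_true, zero_pow, mul_zero, zero_add]
      exact hb₆
    · obtain ⟨hx, -⟩ := mem_of_nsmul_eq_zero hW hn0 hninv hxy hnd
      simp only [hg, xOf_some]
      exact add_mem (add_mem (add_mem (mul_mem h10 (pow_mem hx 3))
        (mul_mem (mul_mem h2 hb₂) (pow_mem hx 2))) (mul_mem (mul_mem h3 hb₄) hx)) hb₆
  obtain ⟨T, hT, hsum⟩ := exists_half_sum g hgeven S.card S rfl (fun d hd => (hneg d hd).1)
    (fun d hd => (hneg d hd).2)
  have : veluW ((W₀.map (Int.castRingHom ℚ))⁄(AlgebraicClosure ℚ)) S = ∑ d ∈ T, g d := by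
    unfold veluW
    change (∑ d ∈ S, g d) / 2 = _
    rw [hsum, two_nsmul, ← two_mul, mul_div_cancel_left₀ _ (two_ne_zero)]
  rw [this]
  exact sum_mem_valuationSubring T g (fun d hd => hgmem d (hT hd))

end Fermat.Agent.FC
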