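/-
PROJECT FC, block (M) (helper1), part 2: `c₄` of Vélu's quotient is a unit at the multiplicative
primes `ℓ ≠ p`.

`W₀` a `ℤ`-model, `ℓ ∣ Δ(W₀)`, `ℓ ∤ c₄(W₀)`, `A` a place over `ℓ`, `D` a subgroup of `p`-power
order of `E(Ω)`, `S = D ∖ {0}`, `t = veluT E S`. Then `c₄ + 240 t` is a unit of `A`.
* `velu_c₄_unit_small` : `ℓ ∣ 240` (no further input);
* `velu_c₄_unit_of` : general `ℓ ≠ p`, from (FT) `120 ∑_{E[m] ∖ 0} (6x² + b₂x + b₄) = (m⁴ - 1) c₄`
  and the field-level bound `hnode` on the `m`-torsion of the reduced (nodal) cubic.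
-/
import Mathlib
import Fermat.Agent.FC.QI_helper1_Integral
import Fermat.Agent.EC.Tors_helper6_CountLe

set_option autoImplicit false
set_option linter.unusedSectionVars false

namespace Fermat.Agent.FC

open WeierstrassCurve WeierstrassCurve.Affine IsLocalRing Fermat.Agent.Tate Fermat.Agent.S13

section finiteness

variable {F : Type*} [Field F] [DecidableEq F] (W : Affine F)

/-- finiteness of the prime-power torsion -/
theorem finite_torsion_prime_pow {p : ℕ} (hp : p.Prime) (hodd : p ≠ 2) (hpF : (p : F) ≠ 0)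
    (j : ℕ) : {P : W.Point | p ^ j • P = 0}.Finite := by
  have hfin1 : {P : W.Point | p • P = 0}.Finite := by
    have := (Fermat.Agent.EC.card_torsion_le (W := W) hp hodd hpF).1
    exact Set.finite_coe_iff.mp (show Finite ↑{P : W.Point | p • P = 0} from this)
  induction j with
  | zero =>
    have : {P : W.Point | p ^ 0 • P = 0} = {0} := by
      ext P
      simp
    rw [this]
    exact Set.finite_singleton _
  | succ j ih =>
    have hsub : {P : W.Point | p ^ (j + 1) • P = 0} ⊆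
        (fun P : W.Point => p • P) ⁻¹' {P : W.Point | p ^ j • P = 0} := by
      intro P hP
      change p ^ j • (p • P) = 0
      rw [← mul_smul, ← pow_succ]
      exact hP
    refine Set.Finite.subset (Set.Finite.preimage' ih ?_) hsub
    intro b _
    by_cases hb : ∃ a₀ : W.Point, p • a₀ = b
    · obtain ⟨a₀, ha₀⟩ := hb
      have : (fun P : W.Point => p • P) ⁻¹' {b} ⊆ (fun Q => Q + a₀) '' {P : W.Point | p • P = 0} := by
        intro a ha
        refine ⟨a - a₀, ?_, by simp⟩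
        change p • (a - a₀) = 0
        rw [smul_sub, ha₀]
        exact sub_eq_zero.mpr ha
      exact Set.Finite.subset (hfin1.image _) this
    · have : (fun P : W.Point => p • P) ⁻¹' {b} = ∅ := by
        ext a
        simp only [Set.mem_preimage, Set.mem_singleton_iff, Set.mem_empty_iff_false, iff_false]
        intro ha
        exact hb ⟨a, ha⟩
      rw [this]
      exact Set.finite_empty

end finiteness

variable {A : ValuationSubring (AlgebraicClosure ℚ)}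

theorem sum_mem_nonunits {ι : Type*} (S : Finset ι) (f : ι → AlgebraicClosure ℚ)
    (h : ∀ i ∈ S, f i ∈ A.nonunits) : ∑ i ∈ S, f i ∈ A.nonunits := by
  classical
  induction S using Finset.induction_on with
  | empty =>
    rw [Finset.sum_empty, A.mem_nonunits_iff, map_zero]
    exact zero_lt_one
  | insert a S ha ih =>
    rw [Finset.sum_insert ha]
    have h1 := h a (Finset.mem_insert_self a S)
    have h2 := ih (fun i hi => h i (Finset.mem_insert_of_mem hi))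
    rw [A.mem_nonunits_iff] at h1 h2 ⊢
    exact lt_of_le_of_lt (A.valuation.map_add _ _) (max_lt h1 h2)

theorem mul_mem_nonunits_of_mem {a b : AlgebraicClosure ℚ} (ha : a ∈ A) (hb : b ∈ A.nonunits) :
    a * b ∈ A.nonunits := by
  rw [A.mem_nonunits_iff] at hb ⊢
  rw [map_mul]
  exact mul_lt_one_of_nonneg_of_lt_one_right ((A.valuation_le_one_iff a).mpr ha) zero_le hb

/-- the `c₄` of the base change is the cast of the integral `c₄` -/
theorem c₄_baseChange_int (W₀ : WeierstrassCurve ℤ) :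
    ((W₀.map (Int.castRingHom ℚ))⁄(AlgebraicClosure ℚ)).c₄ = ((W₀.c₄ : ℤ) : AlgebraicClosure ℚ) := by
  rw [baseChange_int_eq, WeierstrassCurve.map_c₄]
  rfl

/-- a unit plus a nonunit is a unit -/
theorem unit_add_nonunit {u η : AlgebraicClosure ℚ} (hu : A.valuation u = 1)
    (hη : η ∈ A.nonunits) : u + η ∈ A ∧ u + η ∉ A.nonunits := by
  rw [A.mem_nonunits_iff] at hη
  have h1 : A.valuation (u + η) = 1 := by
    rw [← hu]
    apply Valuation.map_add_eq_of_lt_left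
    rw [hu]
    exact hη
  refine ⟨(A.valuation_le_one_iff _).mp h1.le, ?_⟩
  rw [A.mem_nonunits_iff, h1]
  exact lt_irrefl _

/-- **(M), small primes**: `ℓ ∣ 240` -/
theorem velu_c₄_unit_small (W₀ℚ : WeierstrassCurve ℚ) (W₀ : WeierstrassCurve ℤ)
    (h : W₀.map (Int.castRingHom ℚ) = W₀ℚ) {ℓ : ℕ} (hℓ : ℓ.Prime) (hℓ240 : ℓ ∣ 240)
    (hA : A.LiesOverPrime ℓ) (hℓc₄ : ¬ (ℓ : ℤ) ∣ W₀.c₄)
    (S : Finset (W₀ℚ⁄(AlgebraicClosure ℚ)).Point)
    (hS : ∀ d ∈ S, ∃ n : ℕ, ¬ ℓ ∣ n ∧ n • d = 0) :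
    ((W₀.c₄ : ℤ) : AlgebraicClosure ℚ) + 240 * veluT (W₀ℚ⁄(AlgebraicClosure ℚ)) S ∈ A ∧
    ((W₀.c₄ : ℤ) : AlgebraicClosure ℚ) + 240 * veluT (W₀ℚ⁄(AlgebraicClosure ℚ)) S ∉ A.nonunits := by
  have ht := veluT_mem W₀ℚ W₀ h hℓ hA S hS
  have hu : A.valuation ((W₀.c₄ : ℤ) : AlgebraicClosure ℚ) = 1 :=
    Fermat.Agent.S54.valuation_intCast_eq_one A hℓ hA hℓc₄
  apply unit_add_nonunit hu
  have h240 : (240 : AlgebraicClosure ℚ) ∈ A.nonunits := by
    obtain ⟨c, hc⟩ := hℓ240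
    have : (240 : AlgebraicClosure ℚ) = (c : AlgebraicClosure ℚ) * (ℓ : AlgebraicClosure ℚ) := by
      have := congrArg (fun n : ℕ => (n : AlgebraicClosure ℚ)) hc
      push_cast at this
      rw [mul_comm]
      exact_mod_cast this
    rw [this]
    exact mul_mem_nonunits_of_mem (natCast_mem A c) hA
  rw [mul_comm]
  exact mul_mem_nonunits_of_mem ht h240

section core

variable (W₀ : WeierstrassCurve ℤ)

local notation "EE" => ((W₀.map (Int.castRingHom ℚ))⁄(AlgebraicClosure ℚ))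
local notation "EPt" =>
  WeierstrassCurve.Affine.Point ((W₀.map (Int.castRingHom ℚ))⁄(AlgebraicClosure ℚ))

/-- the frozen predicate, as a predicate on the points of `EE` (this fixes the instance path of
the `ℚ`-algebra structure of `AlgebraicClosure ℚ` in the type of the points) -/
def InZ (A : ValuationSubring (AlgebraicClosure ℚ)) (d : EPt) : Prop := W₀.InZeroComponentAt A d

/-- **(M), general prime `ℓ ≠ p`**, core form (curve given by its `ℤ`-model) -/
theorem velu_c₄_unit_core {p ℓ k : ℕ} (hp : p.Prime) (hp2 : p ≠ 2)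
    (hℓ : ℓ.Prime) (hℓp : ℓ ≠ p) (hA : A.LiesOverPrime ℓ) (hℓc₄ : ¬ (ℓ : ℤ) ∣ W₀.c₄)
    (D : AddSubgroup EPt) (hcard : Nat.card D = p ^ k)
    (S : Finset EPt) (hS : ∀ d, d ∈ S ↔ d ∈ D ∧ d ≠ 0)
    (hFT : ∀ m : ℕ, 0 < m → ∀ Sm : Finset EPt,
      (∀ d, d ∈ Sm ↔ m • d = 0 ∧ d ≠ 0) →
      120 * ∑ d ∈ Sm, (6 * xOf d ^ 2 + (EE).b₂ * xOf d + (EE).b₄) =
        ((m : AlgebraicClosure ℚ) ^ 4 - 1) * (EE).c₄)
    [DecidableEq (ResidueField A)]
    (hnode : ∀ m : ℕ, ¬ ℓ ∣ m →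
      ∀ T' : Finset (W₀.map (Int.castRingHom (ResidueField A))).toAffine.Point,
      (∀ x ∈ T', m • x = 0) → T'.card ≤ m) :
    ((W₀.c₄ : ℤ) : AlgebraicClosure ℚ) + 240 * veluT EE S ∈ A ∧
    ((W₀.c₄ : ℤ) : AlgebraicClosure ℚ) + 240 * veluT EE S ∉ A.nonunits := by
  classical
  have hℓpn : ∀ j : ℕ, ¬ ℓ ∣ p ^ j := by
    intro j hj
    have := hℓ.dvd_of_dvd_pow hj
    exact hℓp ((Nat.prime_dvd_prime_iff_eq hℓ hp).mp this)
  have hDfin : Finite D := Nat.finite_of_card_ne_zero (by rw [hcard]; exact pow_ne_zero _ hp.ne_zero)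
  -- the elements of `D` are `p ^ k`-torsion
  have hDtors : ∀ d ∈ D, p ^ k • d = 0 := by
    intro d hd
    have h1 : Nat.card D • (⟨d, hd⟩ : D) = 0 := card_nsmul_eq_zero'
    rw [hcard] at h1
    have := congrArg (fun x : D => (x : EPt)) h1
    simpa using this
  have hStors : ∀ d ∈ S, p ^ k • d = 0 := fun d hd => hDtors d ((hS d).mp hd).1
  have hSneg : ∀ d ∈ S, -d ∈ S := by
    intro d hd
    obtain ⟨h1, h2⟩ := (hS d).mp hd
    exact (hS (-d)).mpr ⟨D.neg_mem h1, neg_ne_zero.mpr h2⟩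
  have hS0 : (0 : EPt) ∉ S := fun h0 => ((hS 0).mp h0).2 rfl
  -- `2 t = ∑ tval`
  have h2t : 2 * veluT EE S = ∑ d ∈ S, tval EE d := two_mul_veluT_eq_sum_tval EE S hSneg hS0
  -- the subgroup `H = D ∩ E⁰` and its order `m = p ^ j`
  have hHD : D ⊓ zeroComponentAt W₀ A ≤ D := inf_le_left
  have hHfin : Finite ↥(D ⊓ zeroComponentAt W₀ A) :=
    Finite.of_injective (AddSubgroup.inclusion hHD) (AddSubgroup.inclusion_injective hHD)
  obtain ⟨j, hjk, hj⟩ : ∃ j ≤ k, Nat.card ↥(D ⊓ zeroComponentAt W₀ A) = p ^ j := by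
    have hdvd : Nat.card ↥(D ⊓ zeroComponentAt W₀ A) ∣ Nat.card D :=
      AddSubgroup.card_dvd_of_le hHD
    rw [hcard] at hdvd
    exact (Nat.dvd_prime_pow hp).mp hdvd
  have hmpos : 0 < p ^ j := pow_pos hp.pos j
  have hℓm : ¬ ℓ ∣ p ^ j := hℓpn j
  have hHtors : ∀ d ∈ D ⊓ zeroComponentAt W₀ A, p ^ j • d = 0 := by
    intro d hd
    have h1 : Nat.card ↥(D ⊓ zeroComponentAt W₀ A) • (⟨d, hd⟩ : ↥(D ⊓ zeroComponentAt W₀ A)) = 0 :=
      card_nsmul_eq_zero'
    rw [hj] at h1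
    have := congrArg (fun x : ↥(D ⊓ zeroComponentAt W₀ A) => (x : EPt)) h1
    simpa using this
  -- the nonzero `m`-torsion points
  have hp0 : (p : AlgebraicClosure ℚ) ≠ 0 := Nat.cast_ne_zero.mpr hp.ne_zero
  have hfinm : {P : EPt | p ^ j • P = 0}.Finite := finite_torsion_prime_pow EE hp hp2 hp0 j
  have hSm_mem : ∀ d, d ∈ (hfinm.toFinset).erase 0 ↔ p ^ j • d = 0 ∧ d ≠ 0 := by
    intro d
    rw [Finset.mem_erase, Set.Finite.mem_toFinset]
    exact ⟨fun h => ⟨h.2, h.1⟩, fun h => ⟨h.2, h.1⟩⟩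
  have hft := hFT (p ^ j) hmpos ((hfinm.toFinset).erase 0) hSm_mem
  -- `T = E[m] ∩ E⁰` has at most `m` elements
  have hTcard : ((hfinm.toFinset).filter (InZ W₀ A)).card ≤ p ^ j := by
    apply card_le_of_inZero_torsion hℓ hA hℓm (hnode _ hℓm)
    intro x hx
    rw [Finset.mem_filter, Set.Finite.mem_toFinset] at hx
    exact ⟨hx.1, hx.2⟩
  -- the elements of `H` as a finset
  have hHf_mem : ∀ d, d ∈ (insert 0 S).filter (InZ W₀ A) ↔
      d ∈ D ⊓ zeroComponentAt W₀ A := by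
    intro d
    rw [Finset.mem_filter, Finset.mem_insert, AddSubgroup.mem_inf, mem_zeroComponentAt_iff]
    constructor
    · rintro ⟨h1 | h1, h2⟩
      · exact ⟨h1 ▸ D.zero_mem, h2⟩
      · exact ⟨((hS d).mp h1).1, h2⟩
    · rintro ⟨h1, h2⟩
      refine ⟨?_, h2⟩
      by_cases hd0 : d = 0
      · exact Or.inl hd0
      · exact Or.inr ((hS d).mpr ⟨h1, hd0⟩)
  have hHfcard : ((insert 0 S).filter (InZ W₀ A)).card = p ^ j := by
    rw [← hj]
    have e : ↥(D ⊓ zeroComponentAt W₀ A) ≃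
        {d // d ∈ (insert 0 S).filter (InZ W₀ A)} :=
      Equiv.subtypeEquivRight (fun d => (hHf_mem d).symm)
    rw [Nat.card_congr e, Nat.card_eq_fintype_card, Fintype.card_coe]
  have hHfT : (insert 0 S).filter (InZ W₀ A) =
      (hfinm.toFinset).filter (InZ W₀ A) := by
    apply Finset.eq_of_subset_of_card_le
    · intro d hd
      have hdH := (hHf_mem d).mp hd
      rw [Finset.mem_filter, Set.Finite.mem_toFinset]
      exact ⟨hHtors d hdH, (Finset.mem_filter.mp hd).2⟩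
    · rw [hHfcard]
      exact hTcard
  have hcommon : S.filter (InZ W₀ A) =
      ((hfinm.toFinset).erase 0).filter (InZ W₀ A) := by
    ext d
    rw [Finset.mem_filter, Finset.mem_filter, Finset.mem_erase, Set.Finite.mem_toFinset]
    constructor
    · rintro ⟨h1, h2⟩
      have hd0 : d ≠ 0 := fun h0 => hS0 (h0 ▸ h1)
      have : d ∈ (insert 0 S).filter (InZ W₀ A) :=
        Finset.mem_filter.mpr ⟨Finset.mem_insert_of_mem h1, h2⟩
      rw [hHfT, Finset.mem_filter, Set.Finite.mem_toFinset] at this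
      exact ⟨⟨hd0, this.1⟩, h2⟩
    · rintro ⟨⟨hd0, h1⟩, h2⟩
      have : d ∈ (hfinm.toFinset).filter (InZ W₀ A) := by
        rw [Finset.mem_filter, Set.Finite.mem_toFinset]
        exact ⟨h1, h2⟩
      rw [← hHfT, Finset.mem_filter, Finset.mem_insert] at this
      rcases this.1 with h0 | h0
      · exact absurd h0 hd0
      · exact ⟨h0, h2⟩
  -- splitting the sums
  have hsplit1 := Finset.sum_filter_add_sum_filter_not S
    (InZ W₀ A) (fun d => tval EE d)
  have hsplit2 := Finset.sum_filter_add_sum_filter_not ((hfinm.toFinset).erase 0)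
    (InZ W₀ A) (fun d => tval EE d)
  have hε1 : ∑ d ∈ S.filter (fun d => ¬ InZ W₀ A d), tval EE d ∈ A.nonunits := by
    apply sum_mem_nonunits
    intro d hd
    rw [Finset.mem_filter] at hd
    exact tval_mem_nonunits_of_not_inZero hℓ hA (hℓpn k) (hStors d hd.1) hd.2
  have hε2 : ∑ d ∈ ((hfinm.toFinset).erase 0).filter (fun d => ¬ InZ W₀ A d),
      tval EE d ∈ A.nonunits := by
    apply sum_mem_nonunits
    intro d hd
    rw [Finset.mem_filter] at hd
    exact tval_mem_nonunits_of_not_inZero hℓ hA hℓm ((hSm_mem d).mp hd.1).1 hd.2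
  have hft' : 120 * ∑ d ∈ (hfinm.toFinset).erase 0, tval EE d =
      (((p ^ j : ℕ) : AlgebraicClosure ℚ) ^ 4 - 1) * ((W₀.c₄ : ℤ) : AlgebraicClosure ℚ) := by
    rw [← c₄_baseChange_int]
    exact hft
  -- the key identity
  have hkey : ((W₀.c₄ : ℤ) : AlgebraicClosure ℚ) + 240 * veluT EE S =
      ((p ^ j : ℕ) : AlgebraicClosure ℚ) ^ 4 * ((W₀.c₄ : ℤ) : AlgebraicClosure ℚ) +
      120 * (∑ d ∈ S.filter (fun d => ¬ InZ W₀ A d), tval EE d -
        ∑ d ∈ ((hfinm.toFinset).erase 0).filter (fun d => ¬ InZ W₀ A d),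
          tval EE d) := by
    have e1 : (240 : AlgebraicClosure ℚ) * veluT EE S = 120 * (2 * veluT EE S) := by ring
    rw [e1, h2t, ← hsplit1, hcommon]
    rw [← hsplit2] at hft'
    linear_combination hft'
  rw [hkey]
  apply unit_add_nonunit
  · rw [map_mul, map_pow]
    have h1 : A.valuation (((p ^ j : ℕ) : AlgebraicClosure ℚ)) = 1 := by
      have := Fermat.Agent.S54.valuation_intCast_eq_one A hℓ hA (c := ((p ^ j : ℕ) : ℤ))
        (fun h => hℓm (Int.natCast_dvd_natCast.mp h))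
      simpa using this
    have h2 : A.valuation ((W₀.c₄ : ℤ) : AlgebraicClosure ℚ) = 1 :=
      Fermat.Agent.S54.valuation_intCast_eq_one A hℓ hA hℓc₄
    rw [h1, h2, one_pow, one_mul]
  · have h120 : (120 : AlgebraicClosure ℚ) ∈ A := by exact_mod_cast natCast_mem A 120
    apply mul_mem_nonunits_of_mem h120
    rw [A.mem_nonunits_iff] at hε1 hε2 ⊢
    exact lt_of_le_of_lt (A.valuation.map_sub _ _) (max_lt hε1 hε2)

end core

/-- **(M), general prime `ℓ ≠ p`**, from (FT) and the bound on the torsion of the reduced cubic -/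
theorem velu_c₄_unit_of (W₀ℚ : WeierstrassCurve ℚ) (W₀ : WeierstrassCurve ℤ)
    (h : W₀.map (Int.castRingHom ℚ) = W₀ℚ) {p ℓ k : ℕ} (hp : p.Prime) (hp2 : p ≠ 2)
    (hℓ : ℓ.Prime) (hℓp : ℓ ≠ p) (hA : A.LiesOverPrime ℓ) (hℓc₄ : ¬ (ℓ : ℤ) ∣ W₀.c₄)
    (D : AddSubgroup (W₀ℚ⁄(AlgebraicClosure ℚ)).Point) (hcard : Nat.card D = p ^ k)
    (S : Finset (W₀ℚ⁄(AlgebraicClosure ℚ)).Point) (hS : ∀ d, d ∈ S ↔ d ∈ D ∧ d ≠ 0)
    (hFT : ∀ m : ℕ, 0 < m → ∀ Sm : Finset (W₀ℚ⁄(AlgebraicClosure ℚ)).Point,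
      (∀ d, d ∈ Sm ↔ m • d = 0 ∧ d ≠ 0) →
      120 * ∑ d ∈ Sm, (6 * xOf d ^ 2 + (W₀ℚ⁄(AlgebraicClosure ℚ)).b₂ * xOf d +
        (W₀ℚ⁄(AlgebraicClosure ℚ)).b₄) =
        ((m : AlgebraicClosure ℚ) ^ 4 - 1) * (W₀ℚ⁄(AlgebraicClosure ℚ)).c₄)
    [DecidableEq (ResidueField A)]
    (hnode : ∀ m : ℕ, ¬ ℓ ∣ m →
      ∀ T' : Finset (W₀.map (Int.castRingHom (ResidueField A))).toAffine.Point,
      (∀ x ∈ T', m • x = 0) → T'.card ≤ m) :
    ((W₀.c₄ : ℤ) : AlgebraicClosure ℚ) + 240 * veluT (W₀ℚ⁄(AlgebraicClosure ℚ)) S ∈ A ∧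
    ((W₀.c₄ : ℤ) : AlgebraicClosure ℚ) + 240 * veluT (W₀ℚ⁄(AlgebraicClosure ℚ)) S ∉ A.nonunits := by
  subst h
  exact velu_c₄_unit_core W₀ hp hp2 hℓ hℓp hA hℓc₄ D hcard S hS hFT hnode

end Fermat.Agent.FC
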