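import Mathlib
import Fermat.Agent.S13.Ip_helper8_Gauss
import Fermat.Agent.Tate.LogVal

/-!
# FC, block (P), part 3a (helper5): polynomial lemmas over a valuation subring

* `intPoly_mul`, `intPoly_prod_X_sub_C`: products of integral polynomials;
* `eq_C_mul_prod_of_roots`: a polynomial of degree `#Z` vanishing on the finite set `Z`;
* `coeff_mem_nonunits_of_sq`: if `f ∈ A[X]` and `f² ∈ 𝔪[X]` then `f ∈ 𝔪[X]`;
* `exists_scale_intPoly`: a nonzero polynomial in `𝔪[X]` is `π g` with `π ∈ 𝔪`, `g ∈ A[X]`.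
-/

set_option autoImplicit false

namespace Fermat.Agent.FC

open Polynomial Fermat.Agent.Tate Fermat.Agent.S13

variable {K : Type*} [Field K] {A : ValuationSubring K}

theorem intPoly_mul {f g : K[X]} (hf : IntPoly A f) (hg : IntPoly A g) : IntPoly A (f * g) := by
  intro n
  rw [coeff_mul]
  exact A.toSubring.sum_mem fun x _ => A.mul_mem _ _ (hf x.1) (hg x.2)

theorem intPoly_X_sub_C {z : K} (hz : z ∈ A) : IntPoly A (X - C z) := by
  intro n
  rw [coeff_sub, coeff_X, coeff_C]
  refine A.sub_mem ?_ ?_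
  · split_ifs
    · exact A.one_mem
    · exact A.zero_mem
  · split_ifs
    · exact hz
    · exact A.zero_mem

theorem intPoly_one : IntPoly A (1 : K[X]) := by
  intro n
  rw [coeff_one]
  split_ifs
  · exact A.one_mem
  · exact A.zero_mem

theorem intPoly_prod_X_sub_C (Z : Finset K) (hZ : ∀ z ∈ Z, z ∈ A) :
    IntPoly A (∏ z ∈ Z, (X - C z)) := by
  classical
  induction Z using Finset.induction_on with
  | empty => rw [Finset.prod_empty]; exact intPoly_one
  | insert a s ha ih =>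
    rw [Finset.prod_insert ha]
    exact intPoly_mul (intPoly_X_sub_C (hZ a (Finset.mem_insert_self a s)))
      (ih fun z hz => hZ z (Finset.mem_insert_of_mem hz))

/-- a polynomial of degree `#Z` vanishing on `Z` -/
theorem eq_C_mul_prod_of_roots [DecidableEq K] (G : K[X]) (Z : Finset K) (hG0 : G ≠ 0)
    (hdeg : G.natDegree = Z.card) (hZ : ∀ z ∈ Z, G.eval z = 0) :
    G = C G.leadingCoeff * ∏ z ∈ Z, (X - C z) := by
  have hle : Z.val ≤ G.roots := by
    rw [Multiset.le_iff_subset Z.nodup]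
    intro z hz
    rw [mem_roots hG0]
    exact hZ z (Finset.mem_val.mp hz)
  have hcard : Multiset.card G.roots ≤ Multiset.card Z.val := by
    rw [Finset.card_val, ← hdeg]
    exact card_roots' G
  have heq : Z.val = G.roots := Multiset.eq_of_le_of_card_le hle hcard
  have hroots : Multiset.card G.roots = G.natDegree := by
    rw [← heq, Finset.card_val, hdeg]
  have := C_leadingCoeff_mul_prod_multiset_X_sub_C hroots
  rw [← heq] at this
  rw [Finset.prod_eq_multiset_prod]
  exact this.symm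

section logval

variable (L : LogVal A)
include L

/-- sums of elements of the maximal ideal -/
theorem logVal_sum_mem_nonunits {ι : Type*} (s : Finset ι) (f : ι → K)
    (hf : ∀ i ∈ s, f i ∈ A.nonunits) : ∑ i ∈ s, f i ∈ A.nonunits := by
  classical
  rw [← L.gt_zero_iff]
  induction s using Finset.induction_on with
  | empty => rw [Finset.sum_empty]; exact LogVal.Gt.zero 0
  | insert a s ha ih =>
    rw [Finset.sum_insert ha]
    exact LogVal.Gt.add (L.gt_zero_iff.mpr (hf a (Finset.mem_insert_self a s)))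
      (ih fun i hi => hf i (Finset.mem_insert_of_mem hi))

/-- **Gauss lemma for squares**: `f ∈ A[X]`, `f² ∈ 𝔪[X]` ⇒ `f ∈ 𝔪[X]` -/
theorem coeff_mem_nonunits_of_sq {f : K[X]} (hf : IntPoly A f)
    (hsq : ∀ n, (f ^ 2).coeff n ∈ A.nonunits) : ∀ n, f.coeff n ∈ A.nonunits := by
  classical
  by_contra hcon
  push Not at hcon
  set i₀ := Nat.find hcon with hi₀
  have hi₀u : f.coeff i₀ ∉ A.nonunits := Nat.find_spec hcon
  have hlt : ∀ i < i₀, f.coeff i ∈ A.nonunits := by
    intro i hi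
    by_contra h
    exact Nat.find_min hcon hi h
  have h1 := hsq (i₀ + i₀)
  rw [pow_two, coeff_mul] at h1
  have hmem : (i₀, i₀) ∈ Finset.HasAntidiagonal.antidiagonal (i₀ + i₀) := by
    rw [Finset.HasAntidiagonal.mem_antidiagonal]
  rw [← Finset.add_sum_erase _ _ hmem] at h1
  have hrest : ∑ x ∈ (Finset.HasAntidiagonal.antidiagonal (i₀ + i₀)).erase (i₀, i₀),
      f.coeff x.1 * f.coeff x.2 ∈ A.nonunits := by
    apply logVal_sum_mem_nonunits L
    intro x hx
    obtain ⟨hne, hx'⟩ := Finset.mem_erase.mp hx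
    rw [Finset.HasAntidiagonal.mem_antidiagonal] at hx'
    have hcase : x.1 < i₀ ∨ x.2 < i₀ := by
      by_contra hc
      push Not at hc
      apply hne
      ext <;> simp only <;> omega
    rw [← L.gt_zero_iff]
    rcases hcase with h | h
    · have := LogVal.Gt.mul_ge (L.gt_zero_iff.mpr (hlt _ h)) (L.ge_zero_iff.mpr (hf x.2))
      rwa [add_zero] at this
    · have := LogVal.Ge.mul_gt (L.ge_zero_iff.mpr (hf x.1)) (L.gt_zero_iff.mpr (hlt _ h))
      rwa [add_zero] at this
  have hsq' : f.coeff i₀ * f.coeff i₀ ∈ A.nonunits := by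
    have e : f.coeff i₀ * f.coeff i₀ = (f.coeff i₀ * f.coeff i₀ +
        ∑ x ∈ (Finset.HasAntidiagonal.antidiagonal (i₀ + i₀)).erase (i₀, i₀), f.coeff x.1 * f.coeff x.2) -
        ∑ x ∈ (Finset.HasAntidiagonal.antidiagonal (i₀ + i₀)).erase (i₀, i₀), f.coeff x.1 * f.coeff x.2 := by
      ring
    rw [e, ← L.gt_zero_iff]
    exact LogVal.Gt.sub (L.gt_zero_iff.mpr h1) (L.gt_zero_iff.mpr hrest)
  have hc0 : f.coeff i₀ ≠ 0 := fun h0 => hi₀u (h0 ▸ A.nonunits.zero_mem)
  have hw := L.pos_of_mem_nonunits (mul_ne_zero hc0 hc0) hsq'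
  rw [L.map_mul hc0 hc0] at hw
  have hw0 : L.w (f.coeff i₀) = 0 := L.eq_zero_of_unit (hf i₀) hi₀u
  rw [hw0] at hw
  simp at hw

/-- a nonzero polynomial in `𝔪[X]` is `π g` with `0 ≠ π ∈ 𝔪`, `g ∈ A[X]` -/
theorem exists_scale_intPoly {f : K[X]} (hf0 : f ≠ 0) (hf : ∀ n, f.coeff n ∈ A.nonunits) :
    ∃ π : K, π ≠ 0 ∧ π ∈ A.nonunits ∧ IntPoly A (C π⁻¹ * f) := by
  have hne : f.support.Nonempty := nonempty_support_iff.mpr hf0
  obtain ⟨i₁, hi₁, hmin⟩ := Finset.exists_min_image f.support (fun i => L.w (f.coeff i)) hne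
  have hπ0 : f.coeff i₁ ≠ 0 := mem_support_iff.mp hi₁
  refine ⟨f.coeff i₁, hπ0, hf i₁, ?_⟩
  intro n
  rw [coeff_C_mul]
  by_cases hn : f.coeff n = 0
  · rw [hn, mul_zero]; exact A.zero_mem
  · have h1 := hmin n (mem_support_iff.mpr hn)
    apply L.mem_of_nonneg
    right
    rw [L.map_mul (inv_ne_zero hπ0) hn, L.map_inv hπ0]
    linarith

end logval

end Fermat.Agent.FC
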