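import Mathlib
import Fermat.Agent.FC.P_helper5_Poly
import Fermat.Agent.S13.Ip_helper8_Roots
import Fermat.Agent.EC.TorsDiv_helper4
import Fermat.Agent.EC.Tors_helper6_Eval
import Fermat.Agent.EC.Tors_helper6_CountGe
import Fermat.Agent.Tate.R1_helper8

/-!
# FC, block (P), part 3b (helper5): lifting along `[p]` inside the kernel of reduction

`W` an integral Weierstrass curve over the valuation subring `A` of an algebraically closed field
`K` of characteristic zero, `w p = 1`, `p` odd.  Assume the **equality case** of `(†')`: there is a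
finite set `R` of non-integral abscissas of nonzero `p`-torsion points with `w (∏ R) ≤ -1`
(ordinary or multiplicative reduction).  Then

* `exists_coeff_preΨ_notMem`: `preΨ_p ∉ 𝔪[X]`;
* `exists_mem_kerRed_nsmul_eq`: every nonzero point `g` of `p`-power order in the kernel of reduction
  is `p • P` for a point `P` in the kernel of reduction.

Proof of the second: `G = x_g⁻¹ Φ_p - ΨSq_p ∈ A[X]` has leading coefficient `x_g⁻¹ ∈ 𝔪` and its
`p²` roots are the `x(P₀ + T)`, `T ∈ E[p]`; if all of them were integral, `ΨSq_p = preΨ_p²` would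
lie in `𝔪[X]`.
-/

set_option autoImplicit false
set_option linter.unusedSectionVars false

namespace Fermat.Agent.FC

open WeierstrassCurve WeierstrassCurve.Affine Polynomial
open Fermat.Agent.Tate Fermat.Agent.S13

variable {K : Type*} [Field K] [DecidableEq K] {A : ValuationSubring K} {W : Affine K}

theorem intPoly_Φ (hW : IsIntegralCurve A W) (n : ℤ) : IntPoly A (W.Φ n) := by
  let WA : WeierstrassCurve A :=
    ⟨⟨W.a₁, hW.a₁⟩, ⟨W.a₂, hW.a₂⟩, ⟨W.a₃, hW.a₃⟩, ⟨W.a₄, hW.a₄⟩, ⟨W.a₆, hW.a₆⟩⟩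
  have e : W = WA.map A.subtype := by ext <;> rfl
  intro j
  rw [e, WeierstrassCurve.map_Φ, coeff_map]
  exact ((WA.Φ n).coeff j).2

section main

variable [IsAlgClosed K] [CharZero K] (hW : IsIntegralCurve A W) (hΔ : W.Δ ≠ 0) (L : LogVal A)
  {p : ℕ} (hp : p.Prime) (hodd : p ≠ 2) (hL : L.w (p : K) = 1)
  (R : Finset K)
  (hR : ∀ r ∈ R, r ∉ A ∧ ∃ Q : W.Point, Q ≠ 0 ∧ p • Q = 0 ∧ EC.xOf Q = r)
  (hRw : L.w (∏ r ∈ R, r) ≤ -1)

include hW hp hodd hL hR hRw in
/-- in the equality case `preΨ_p` has a unit coefficient -/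
theorem exists_coeff_preΨ_notMem : ∃ n, (W.preΨ (p : ℤ)).coeff n ∉ A.nonunits := by
  by_contra hcon
  push Not at hcon
  have hpK : (p : K) ≠ 0 := Nat.cast_ne_zero.mpr hp.ne_zero
  have hpK' : ((p : ℤ) : K) ≠ 0 := by exact_mod_cast hpK
  have hf0 : W.preΨ (p : ℤ) ≠ 0 := WeierstrassCurve.preΨ_ne_zero W hpK'
  obtain ⟨π, hπ0, hπm, hint⟩ := exists_scale_intPoly L hf0 hcon
  have hroots : ∀ r ∈ R, (C π⁻¹ * W.preΨ (p : ℤ)).eval r = 0 ∧ r ∉ A := by
    intro r hr
    obtain ⟨hrA, Q, hQ0, hQp, rfl⟩ := hR r hr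
    refine ⟨?_, hrA⟩
    rw [eval_mul, EC.preΨ_eval_xOf_eq_zero hp hodd hQ0 hQp, mul_zero]
  have hmem := prod_roots_mul_leadingCoeff_mem R _ hint hroots
  have hodd' : ¬ Even (p : ℤ) := by
    rw [Int.even_coe_nat]
    exact fun he => hodd ((Nat.Prime.even_iff hp).mp he)
  rw [leadingCoeff_mul, leadingCoeff_C, WeierstrassCurve.leadingCoeff_preΨ W hpK',
    if_neg hodd'] at hmem
  have hR0 : ∀ r ∈ R, r ≠ 0 := fun r hr h0 => (hR r hr).1 (h0 ▸ A.zero_mem)
  have hy0 : (∏ r ∈ R, r) ≠ 0 := Finset.prod_ne_zero_iff.mpr hR0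
  have hpZ : ((p : ℤ) : K) = (p : K) := by push_cast; rfl
  rw [hpZ] at hmem
  have hne : π⁻¹ * (p : K) ≠ 0 := mul_ne_zero (inv_ne_zero hπ0) hpK
  have h1 := L.nonneg_of_mem (mul_ne_zero hy0 hne) hmem
  rw [L.map_mul hy0 hne, L.map_mul (inv_ne_zero hπ0) hpK, L.map_inv hπ0, hL] at h1
  have h2 := L.pos_of_mem_nonunits hπ0 hπm
  linarith

include hW hΔ hp hodd hL hR hRw in
/-- **lifting along `[p]` inside the kernel of reduction** -/
theorem exists_mem_kerRed_nsmul_eq {g : W.Point} (hg0 : g ≠ 0) (hgE : g ∈ kerRed hW) {j : ℕ}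
    (hgj : p ^ j • g = 0) : ∃ P : W.Point, P ∈ kerRed hW ∧ p • P = g := by
  classical
  by_contra hcon
  push Not at hcon
  have hpK : (p : K) ≠ 0 := Nat.cast_ne_zero.mpr hp.ne_zero
  have hpK' : ((p : ℤ) : K) ≠ 0 := by exact_mod_cast hpK
  have hodd' : ¬ Even (p : ℤ) := by
    rw [Int.even_coe_nat]
    exact fun he => hodd ((Nat.Prime.even_iff hp).mp he)
  -- `g` has no prime-to-`p` torsion
  have hgcop : ∀ k : ℕ, Nat.Coprime k p → k • g = 0 → False := by
    intro k hk hkg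
    have d1 : addOrderOf g ∣ k := addOrderOf_dvd_of_nsmul_eq_zero hkg
    have d2 : addOrderOf g ∣ p ^ j := addOrderOf_dvd_of_nsmul_eq_zero hgj
    have d3 : addOrderOf g ∣ 1 := by
      have := Nat.dvd_gcd d1 d2
      rwa [Nat.Coprime.gcd_eq_one (Nat.Coprime.pow_right j hk)] at this
    exact hg0 (AddMonoid.addOrderOf_eq_one_iff.mp (Nat.dvd_one.mp d3))
  -- no small multiple of a `p`-th root of `g` vanishes
  have hN : ∀ P : W.Point, p • P = g → ∀ k, 1 ≤ k → k ≤ p → k • P ≠ 0 := by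
    intro P hP k h1 hk hk0
    rcases Nat.lt_or_ge k p with hlt | hge
    · have hcop : Nat.Coprime k p :=
        ((Nat.Prime.coprime_iff_not_dvd hp).mpr fun hd =>
            absurd (Nat.le_of_dvd (by omega) hd) (by omega)).symm
      apply hgcop k hcop
      rw [← hP, smul_comm, hk0, smul_zero]
    · have : k = p := le_antisymm hk hge
      rw [this, hP] at hk0
      exact hg0 hk0
  -- coordinates of `g`
  rcases g with _ | ⟨xg, yg, hg⟩
  · exact hg0 rfl
  have hxg : xg ∉ A := (some_mem_kerRed_iff hW).mp hgE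
  have hxg0 : xg ≠ 0 := fun h0 => hxg (h0 ▸ A.zero_mem)
  set t := xg⁻¹ with ht
  have ht0 : t ≠ 0 := inv_ne_zero hxg0
  have htm : t ∈ A.nonunits := by
    rw [ValuationSubring.mem_nonunits_iff_or]
    right
    rwa [ht, inv_inv]
  set Φ := W.Φ (p : ℤ) with hΦ
  set Ψ := W.ΨSq (p : ℤ) with hΨ
  set G := C t * Φ - Ψ with hG
  -- roots of `G`
  have hroot : ∀ P : W.Point, p • P = Point.some xg yg hg → G.eval (EC.xOf P) = 0 := by
    intro P hP
    rcases P with _ | ⟨x, y, h⟩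
    · exfalso
      have : p • (0 : W.Point) = 0 := smul_zero p
      rw [Point.zero_def] at this
      rw [this] at hP
      exact hg0 hP.symm
    obtain ⟨-, hmul⟩ := EC.xOf_nsmul_mul h p hp.one_le (hN _ hP)
    rw [hP] at hmul
    have hmul' : xg * Ψ.eval x = Φ.eval x := hmul
    show G.eval x = 0
    rw [hG, eval_sub, eval_mul, eval_C, ← hmul', ← mul_assoc, ht, inv_mul_cancel₀ hxg0, one_mul,
      sub_self]
  -- integrality of the roots
  have hrootA : ∀ P : W.Point, p • P = Point.some xg yg hg → EC.xOf P ∈ A := by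
    intro P hP
    by_contra hx
    apply hcon P ?_ hP
    rcases P with _ | ⟨x, y, h⟩
    · exact (kerRed hW).zero_mem
    · exact (some_mem_kerRed_iff hW).mpr hx
  -- a `p`-th root
  obtain ⟨P₀, hP₀⟩ := EC.exists_nsmul_eq hΔ hp hodd (Point.some xg yg hg)
  -- the torsion subgroup
  have hcardT := EC.card_torsion_eq hΔ hp hodd (W := W)
  have hfinT : Finite {T : W.Point // p • T = 0} :=
    Nat.finite_of_card_ne_zero (by rw [hcardT]; exact pow_ne_zero 2 hp.ne_zero)
  have : Fintype {T : W.Point // p • T = 0} := Fintype.ofFinite _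
  set φ : {T : W.Point // p • T = 0} → K := fun T => EC.xOf (P₀ + T.1) with hφ
  have hPT : ∀ T : {T : W.Point // p • T = 0}, p • (P₀ + T.1) = Point.some xg yg hg := by
    intro T
    rw [smul_add, hP₀, T.2, add_zero]
  have hPT0 : ∀ T : {T : W.Point // p • T = 0}, P₀ + T.1 ≠ 0 := by
    intro T h0
    have := hPT T
    rw [h0, smul_zero] at this
    exact hg0 this.symm
  have hφinj : Function.Injective φ := by
    intro T T' hTT
    rcases (EC.xOf_eq_iff (hPT0 T) (hPT0 T')).mp hTT with e | e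
    · exact Subtype.ext (add_left_cancel e)
    · exfalso
      have h1 := hPT T
      rw [e, smul_neg, hPT T'] at h1
      have h2 : 2 • Point.some xg yg hg = 0 := by
        rw [two_nsmul]
        nth_rewrite 1 [← h1]
        exact neg_add_cancel _
      refine hgcop 2 ?_ h2
      exact (Nat.coprime_primes Nat.prime_two hp).mpr (Ne.symm hodd)
  set Z : Finset K := Finset.univ.image φ with hZ
  have hZcard : Z.card = p ^ 2 := by
    rw [hZ, Finset.card_image_of_injective _ hφinj, Finset.card_univ, ← Nat.card_eq_fintype_card,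
      hcardT]
  have hZroot : ∀ z ∈ Z, G.eval z = 0 := by
    intro z hz
    obtain ⟨T, -, rfl⟩ := Finset.mem_image.mp hz
    exact hroot _ (hPT T)
  have hZA : ∀ z ∈ Z, z ∈ A := by
    intro z hz
    obtain ⟨T, -, rfl⟩ := Finset.mem_image.mp hz
    exact hrootA _ (hPT T)
  -- degree and leading coefficient of `G`
  have hΦdeg : Φ.natDegree = p ^ 2 := by
    rw [hΦ, WeierstrassCurve.natDegree_Φ]; simp
  have hΨdeg : Ψ.natDegree = p ^ 2 - 1 := by
    rw [hΨ, WeierstrassCurve.natDegree_ΨSq W hpK']; simp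
  have h1p : 1 ≤ p ^ 2 := Nat.one_le_pow _ _ hp.pos
  have htΦdeg : (C t * Φ).natDegree = p ^ 2 := by
    rw [natDegree_C_mul ht0, hΦdeg]
  have hdeglt : Ψ.natDegree < (C t * Φ).natDegree := by
    rw [htΦdeg, hΨdeg]; omega
  have hGdeg : G.natDegree = p ^ 2 := by
    rw [hG, natDegree_sub_eq_left_of_natDegree_lt hdeglt, htΦdeg]
  have hG0 : G ≠ 0 := by
    intro h0
    rw [h0, natDegree_zero] at hGdeg
    omega
  have hGlead : G.leadingCoeff = t := by
    rw [hG, leadingCoeff_sub_of_degree_lt (degree_lt_degree hdeglt), leadingCoeff_mul,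
      leadingCoeff_C, hΦ, WeierstrassCurve.leadingCoeff_Φ, mul_one]
  have hGfac := eq_C_mul_prod_of_roots G Z hG0 (by rw [hGdeg, hZcard]) hZroot
  rw [hGlead] at hGfac
  -- `ΨSq_p ∈ 𝔪[X]`
  have hΨfac : Ψ = C t * (Φ - ∏ z ∈ Z, (X - C z)) := by
    rw [mul_sub, ← hGfac, hG]
    ring
  have hint : IntPoly A (Φ - ∏ z ∈ Z, (X - C z)) := by
    intro n
    rw [coeff_sub]
    exact sub_mem (intPoly_Φ hW _ n) (intPoly_prod_X_sub_C Z hZA n)
  have hΨm : ∀ n, Ψ.coeff n ∈ A.nonunits := by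
    intro n
    rw [hΨfac, coeff_C_mul, ← L.gt_zero_iff]
    have := LogVal.Gt.mul_ge (L.gt_zero_iff.mpr htm) (L.ge_zero_iff.mpr (hint n))
    rwa [add_zero] at this
  have hΨsq : Ψ = W.preΨ (p : ℤ) ^ 2 := by
    rw [hΨ, WeierstrassCurve.ΨSq, if_neg hodd', mul_one]
  rw [hΨsq] at hΨm
  have hall := coeff_mem_nonunits_of_sq L (intPoly_preΨ hW (p : ℤ)) hΨm
  obtain ⟨n, hn⟩ := exists_coeff_preΨ_notMem hW L hp hodd hL R hR hRw
  exact hn (hall n)

end main

end Fermat.Agent.FC
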