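import Mathlib
import Fermat.Prelude.Def_FLTPrelim_GaloisRep
import Fermat.Agent.FC.P_helper5_Line
import Fermat.Agent.FC.P_helper5_Lift

/-!
# FC, block (P), part 4 (helper5): the canonical chain `K_j = E[p^j] ∩ E₁`

Abstract setting of `P_helper5_Line`: `W'` over `ℚ`, integral over `A ⊆ K`, `w p = 1`, `I` the inertia
group, `N ⊆ E[p] ∩ E₁` an `I`-stable subgroup of order `p`.  Then, with `canChain hW p j := E[p^j] ∩ E₁`:

* `mem_canChain_one_iff`: `K_1 = N`;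
* `exists_mem_canChain_succ`: `p : K_{j+1} → K_j` is surjective;
* `card_canChain`: `#K_j = p^j`;
* `eq_canChain_of_stable`: **uniqueness**: an `I`-stable subgroup `D ⊆ E[p^j]` of order `p^j` with
  `D[p] ⊆ N` equals `K_j`, provided `I` acts trivially on `E[p]/N` and some `σ ∈ I` acts on `N` by
  a scalar `c ≢ 1` modulo `p`.
-/

set_option autoImplicit false
set_option linter.unusedSectionVars false

namespace Fermat.Agent.FC

open WeierstrassCurve WeierstrassCurve.Affine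
open scoped WeierstrassCurve.Affine
open Fermat.Agent.Tate

variable {K : Type*} [Field K] [DecidableEq K] [Algebra ℚ K] {A : ValuationSubring K}
  {W' : Affine ℚ}

/-- the canonical chain `K_j = E[p^j] ∩ E₁` -/
def canChain (hW : IsIntegralCurve A (W'⁄K)) (p j : ℕ) : AddSubgroup (W'⁄K).Point where
  carrier := {Q | p ^ j • Q = 0 ∧ Q ∈ kerRed hW}
  zero_mem' := ⟨smul_zero _, (kerRed hW).zero_mem⟩
  add_mem' := fun h₁ h₂ => ⟨by rw [smul_add, h₁.1, h₂.1, add_zero], (kerRed hW).add_mem h₁.2 h₂.2⟩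
  neg_mem' := fun h => ⟨by rw [smul_neg, h.1, neg_zero], (kerRed hW).neg_mem h.2⟩

theorem mem_canChain {hW : IsIntegralCurve A (W'⁄K)} {p j : ℕ} {Q : (W'⁄K).Point} :
    Q ∈ canChain hW p j ↔ p ^ j • Q = 0 ∧ Q ∈ kerRed hW := Iff.rfl

theorem canChain_mono (hW : IsIntegralCurve A (W'⁄K)) (p j : ℕ) :
    canChain hW p j ≤ canChain hW p (j + 1) := by
  intro Q hQ
  refine ⟨?_, hQ.2⟩
  rw [pow_succ, mul_comm, mul_smul, hQ.1, smul_zero]

theorem nsmul_mem_canChain {hW : IsIntegralCurve A (W'⁄K)} {p j : ℕ} {Q : (W'⁄K).Point}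
    (hQ : Q ∈ canChain hW p (j + 1)) : p • Q ∈ canChain hW p j := by
  refine ⟨?_, (kerRed hW).nsmul_mem hQ.2 p⟩
  rw [← mul_smul, ← pow_succ]
  exact hQ.1

theorem mem_canChain_of_nsmul_eq_zero {hW : IsIntegralCurve A (W'⁄K)} {p j i : ℕ}
    {Q : (W'⁄K).Point} (hQ : Q ∈ canChain hW p j) (h : p ^ i • Q = 0) : Q ∈ canChain hW p i :=
  ⟨h, hQ.2⟩

theorem canChain_zero (hW : IsIntegralCurve A (W'⁄K)) (p : ℕ) : canChain hW p 0 = ⊥ := by
  ext Q
  rw [mem_canChain, pow_zero, one_smul, AddSubgroup.mem_bot]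
  exact ⟨fun h => h.1, fun h => ⟨h, h ▸ (kerRed hW).zero_mem⟩⟩

theorem pSmul_nsmul (σ : K ≃ₐ[ℚ] K) (n : ℕ) (P : (W'⁄K).Point) : σ • (n • P) = n • (σ • P) :=
  map_nsmul (Point.map (W' := W') σ.toAlgHom) n P

theorem pSmul_sub (σ : K ≃ₐ[ℚ] K) (P Q : (W'⁄K).Point) : σ • (P - Q) = σ • P - σ • Q :=
  map_sub (Point.map (W' := W') σ.toAlgHom) P Q

theorem pSmul_add (σ : K ≃ₐ[ℚ] K) (P Q : (W'⁄K).Point) : σ • (P + Q) = σ • P + σ • Q :=
  map_add (Point.map (W' := W') σ.toAlgHom) P Q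

section line

variable [IsAlgClosed K] [CharZero K]
  (L : LogVal A) (hW : IsIntegralCurve A (W'⁄K)) (hΔ : (W'⁄K).Δ ≠ 0)
  {p : ℕ} (hp : p.Prime) (hodd : p ≠ 2)
  (hL : L.w (p : K) = 1) (I : Set (K ≃ₐ[ℚ] K))
  (hval : ∀ y : K, y ≠ 0 → (∀ σ ∈ I, σ y = y) → ∃ m : ℤ, L.w y = m)
  (N : AddSubgroup (W'⁄K).Point) (hNp : ∀ Q ∈ N, p • Q = 0) (hcard : Nat.card N = p)
  (hNI : ∀ σ ∈ I, ∀ Q ∈ N, σ • Q ∈ N) (hNE : ∀ Q ∈ N, Q ∈ kerRed hW)

include L hp hodd hL hval hNp hcard hNI hNE in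
/-- `K_1 = N` -/
theorem mem_canChain_one_iff {Q : (W'⁄K).Point} : Q ∈ canChain hW p 1 ↔ Q ∈ N := by
  rw [mem_canChain, pow_one]
  constructor
  · rintro ⟨h1, h2⟩
    exact mem_line_of_mem_kerRed L hW hp hodd hL I hval N hNp hcard hNI hNE h1 h2
  · intro h
    exact ⟨hNp Q h, hNE Q h⟩

include L hΔ hp hodd hL hval hNp hcard hNI hNE in
/-- `p : K_{j+1} → K_j` is surjective -/
theorem exists_mem_canChain_succ {j : ℕ} {g : (W'⁄K).Point} (hg : g ∈ canChain hW p j) :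
    ∃ P ∈ canChain hW p (j + 1), p • P = g := by
  classical
  by_cases hg0 : g = 0
  · exact ⟨0, (canChain hW p (j + 1)).zero_mem, by rw [smul_zero, hg0]⟩
  have hfin : Finite N := Nat.finite_of_card_ne_zero (by rw [hcard]; exact hp.ne_zero)
  have hS : ∀ Q' ∈ lineSet N, Q' ≠ 0 ∧ p • Q' = 0 ∧ EC.xOf Q' ∉ A := by
    intro Q' hQ'
    obtain ⟨h0, hN⟩ := mem_lineSet.mp hQ'
    exact ⟨h0, hNp Q' hN, xOf_notMem_of_mem_kerRed' hW h0 (hNE Q' hN)⟩
  have hne : (lineSet N).Nonempty := by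
    have hnt : Nontrivial N := by
      rw [← Finite.one_lt_card_iff_nontrivial, hcard]
      exact hp.one_lt
    obtain ⟨⟨Q₁, hQ₁⟩, h1⟩ := exists_ne (0 : N)
    exact ⟨Q₁, mem_lineSet.mpr ⟨fun h => h1 (Subtype.ext h), hQ₁⟩⟩
  have hRw := S13.logVal_prod_le_neg_one L I hval (lineSet N) hne (fun Q hQ => (hS Q hQ).2.2)
    (fun σ hσ Q' hQ' => by
      obtain ⟨h0, hN⟩ := mem_lineSet.mp hQ'
      exact mem_lineSet.mpr ⟨pSmul_ne_zero σ h0, hNI σ hσ Q' hN⟩)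
  have hR : ∀ r ∈ (lineSet N).image EC.xOf,
      r ∉ A ∧ ∃ Q : (W'⁄K).Point, Q ≠ 0 ∧ p • Q = 0 ∧ EC.xOf Q = r := by
    intro r hr
    obtain ⟨Q', hQ', rfl⟩ := Finset.mem_image.mp hr
    exact ⟨(hS Q' hQ').2.2, Q', (hS Q' hQ').1, (hS Q' hQ').2.1, rfl⟩
  obtain ⟨P, hPE, hP⟩ := exists_mem_kerRed_nsmul_eq hW hΔ L hp hodd hL _ hR hRw hg0 hg.2 hg.1
  refine ⟨P, ⟨?_, hPE⟩, hP⟩
  rw [pow_succ, mul_smul, hP]
  exact hg.1

/-- multiplication by `p` from `K_{j+1}` to `K_j` -/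
def canChainMul (hW : IsIntegralCurve A (W'⁄K)) (p j : ℕ) :
    canChain hW p (j + 1) →+ canChain hW p j where
  toFun Q := ⟨p • Q.1, nsmul_mem_canChain Q.2⟩
  map_zero' := Subtype.ext (smul_zero p)
  map_add' Q₁ Q₂ := Subtype.ext (smul_add p Q₁.1 Q₂.1)

include L hΔ hp hodd hL hval hNp hcard hNI hNE in
/-- **`#K_j = p^j`** -/
theorem card_canChain (j : ℕ) : Nat.card (canChain hW p j) = p ^ j := by
  induction j with
  | zero =>
    rw [canChain_zero, pow_zero]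
    exact AddSubgroup.card_bot
  | succ j ih =>
    set f := canChainMul hW p j with hf
    have hsurj : Function.Surjective f := by
      rintro ⟨g, hg⟩
      obtain ⟨P, hP, hPg⟩ := exists_mem_canChain_succ L hW hΔ hp hodd hL I hval N hNp hcard
        hNI hNE hg
      exact ⟨⟨P, hP⟩, Subtype.ext hPg⟩
    have hker : Nat.card f.ker = p := by
      refine Eq.trans ?_ hcard
      refine Nat.card_congr
        { toFun := fun Q => ⟨Q.1.1, ?_⟩
          invFun := fun Q => ⟨⟨Q.1, ?_⟩, ?_⟩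
          left_inv := fun Q => rfl
          right_inv := fun Q => rfl }
      · have h0 : f Q.1 = 0 := Q.2
        have h1 : p • Q.1.1 = 0 := congrArg Subtype.val h0
        exact mem_line_of_mem_kerRed L hW hp hodd hL I hval N hNp hcard hNI hNE h1 Q.1.2.2
      · refine ⟨?_, hNE Q.1 Q.2⟩
        rw [pow_succ, mul_smul, hNp Q.1 Q.2, smul_zero]
      · rw [AddMonoidHom.mem_ker]
        exact Subtype.ext (hNp Q.1 Q.2)
    have h1 := AddSubgroup.card_eq_card_quotient_mul_card_addSubgroup f.ker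
    have h2 : Nat.card (canChain hW p (j + 1) ⧸ f.ker) = Nat.card (canChain hW p j) :=
      Nat.card_congr (QuotientAddGroup.quotientKerEquivOfSurjective f hsurj).toEquiv
    rw [h1, h2, ih, hker, pow_succ]

include L hΔ hp hodd hL hval hNp hcard hNI hNE in
/-- **uniqueness, inclusion**: a `σ₀`-stable subgroup `D` with `D[p] ⊆ N` has its `p`-power torsion
inside the kernel of reduction, if `I` acts trivially on `E[p]/N` and `σ₀ ∈ I` acts on `N` by a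
scalar `c ≢ 1`. -/
theorem mem_kerRed_of_stable
    (hcof : ∀ σ ∈ I, ∀ Q : (W'⁄K).Point, p • Q = 0 → σ • Q - Q ∈ N)
    {σ₀ : K ≃ₐ[ℚ] K} (hσ₀ : σ₀ ∈ I) (hσ₀A : ∀ a ∈ A, σ₀ a ∈ A ∧ σ₀ a - a ∈ A.nonunits)
    {c : ℕ} (hc : ¬ (p : ℤ) ∣ (c : ℤ) - 1) (hσ₀N : ∀ Q ∈ N, σ₀ • Q = c • Q)
    (D : AddSubgroup (W'⁄K).Point) (hDN : ∀ Q ∈ D, p • Q = 0 → Q ∈ N)
    (hDI : ∀ Q ∈ D, σ₀ • Q ∈ D) :
    ∀ i : ℕ, ∀ d ∈ D, p ^ i • d = 0 → d ∈ kerRed hW := by
  intro i
  induction i with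
  | zero =>
    intro d _ hd
    rw [pow_zero, one_smul] at hd
    rw [hd]
    exact (kerRed hW).zero_mem
  | succ i ih =>
    intro d hdD hd
    -- `p d ∈ K_i`
    have hpd : p ^ i • (p • d) = 0 := by rw [← mul_smul, ← pow_succ]; exact hd
    have hpdE : p • d ∈ kerRed hW := ih (p • d) (D.nsmul_mem hdD p) hpd
    obtain ⟨κ, hκ, hκd⟩ := exists_mem_canChain_succ L hW hΔ hp hodd hL I hval N hNp hcard hNI hNE
      (j := i) (g := p • d) ⟨hpd, hpdE⟩
    -- `e = d - κ ∈ E[p]`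
    have hpe : p • (d - κ) = 0 := by rw [smul_sub, hκd, sub_self]
    -- `τ x = σ₀ x - c x`
    have hτd : σ₀ • d - c • d ∈ kerRed hW := by
      apply ih _ (D.sub_mem (hDI d hdD) (D.nsmul_mem hdD c))
      have h1 : p ^ i • d ∈ N := by
        apply hDN _ (D.nsmul_mem hdD _)
        rw [← mul_smul, ← pow_succ']
        exact hd
      rw [smul_sub, ← pSmul_nsmul, hσ₀N _ h1, smul_comm, sub_self]
    have hτκ : σ₀ • κ - c • κ ∈ kerRed hW :=
      (kerRed hW).sub_mem (smul_mem_kerRed_of_inertia hW hσ₀A hκ.2) ((kerRed hW).nsmul_mem hκ.2 c)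
    have hτe : σ₀ • (d - κ) - c • (d - κ) ∈ N := by
      apply mem_line_of_mem_kerRed L hW hp hodd hL I hval N hNp hcard hNI hNE
      · rw [smul_sub, ← pSmul_nsmul, hpe, smul_comm, hpe, smul_zero, sub_zero]
        rfl
      · have e : σ₀ • (d - κ) - c • (d - κ) = (σ₀ • d - c • d) - (σ₀ • κ - c • κ) := by
          rw [pSmul_sub, smul_sub]
          abel
        rw [e]
        exact (kerRed hW).sub_mem hτd hτκ
    have hcofe := hcof σ₀ hσ₀ (d - κ) hpe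
    -- `(c - 1) e ∈ N`
    have hce : ((c : ℤ) - 1) • (d - κ) ∈ N := by
      have e : ((c : ℤ) - 1) • (d - κ) =
          (σ₀ • (d - κ) - (d - κ)) - (σ₀ • (d - κ) - c • (d - κ)) := by
        rw [sub_smul, one_smul, natCast_zsmul]
        abel
      rw [e]
      exact N.sub_mem hcofe hτe
    -- Bezout
    have hcop : IsCoprime ((c : ℤ) - 1) (p : ℤ) := by
      rw [isCoprime_comm]
      exact (Nat.prime_iff_prime_int.mp hp).coprime_iff_not_dvd.mpr hc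
    obtain ⟨a, b, hab⟩ := hcop
    have heN : d - κ ∈ N := by
      have e : d - κ = a • (((c : ℤ) - 1) • (d - κ)) + b • ((p : ℤ) • (d - κ)) := by
        rw [← mul_smul, ← mul_smul, ← add_smul, hab, one_smul]
      rw [e, natCast_zsmul, hpe, smul_zero, add_zero]
      exact N.zsmul_mem hce a
    have : d = κ + (d - κ) := by abel
    rw [this]
    exact (kerRed hW).add_mem hκ.2 (hNE _ heN)

include L hΔ hp hodd hL hval hNp hcard hNI hNE in
/-- **(K7) uniqueness of the canonical chain** -/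
theorem eq_canChain_of_stable
    (hcof : ∀ σ ∈ I, ∀ Q : (W'⁄K).Point, p • Q = 0 → σ • Q - Q ∈ N)
    {σ₀ : K ≃ₐ[ℚ] K} (hσ₀ : σ₀ ∈ I) (hσ₀A : ∀ a ∈ A, σ₀ a ∈ A ∧ σ₀ a - a ∈ A.nonunits)
    {c : ℕ} (hc : ¬ (p : ℤ) ∣ (c : ℤ) - 1) (hσ₀N : ∀ Q ∈ N, σ₀ • Q = c • Q)
    (j : ℕ) (D : AddSubgroup (W'⁄K).Point) (hDj : ∀ Q ∈ D, p ^ j • Q = 0)
    (hDcard : Nat.card D = p ^ j) (hDN : ∀ Q ∈ D, p • Q = 0 → Q ∈ N)
    (hDI : ∀ Q ∈ D, σ₀ • Q ∈ D) : D = canChain hW p j := by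
  have hle : D ≤ canChain hW p j := by
    intro d hd
    exact ⟨hDj d hd, mem_kerRed_of_stable L hW hΔ hp hodd hL I hval N hNp hcard hNI hNE hcof hσ₀
      hσ₀A hc hσ₀N D hDN hDI j d hd (hDj d hd)⟩
  have hcardK := card_canChain L hW hΔ hp hodd hL I hval N hNp hcard hNI hNE j
  have hfin : Finite (canChain hW p j) :=
    Nat.finite_of_card_ne_zero (by rw [hcardK]; exact pow_ne_zero _ hp.ne_zero)
  exact AddSubgroup.eq_of_le_of_card_ge hle (by rw [hcardK, hDcard])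

include L hp hodd hL hval hNp hcard hNI hNE in
/-- some element of the inertia group acts on `N` by a scalar `c ≢ 1` modulo `p` -/
theorem exists_inertia_scalar {ζ : K} (hζ : IsPrimitiveRoot ζ p)
    (hin : ∀ σ ∈ I, ∀ a ∈ A, σ a ∈ A ∧ σ a - a ∈ A.nonunits) :
    ∃ σ₀ ∈ I, ∃ c : ℕ, ¬ (p : ℤ) ∣ (c : ℤ) - 1 ∧ ∀ Q ∈ N, σ₀ • Q = c • Q := by
  have hp1 : (1 : ℚ) < p := by exact_mod_cast hp.one_lt
  by_cases hall : ∀ σ ∈ I, σ ζ = ζ
  · exfalso
    obtain ⟨h1ζ, hwζ⟩ := logVal_one_sub_zeta L hp hζ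
    rw [hL] at hwζ
    obtain ⟨m, hm⟩ := hval (1 - ζ) h1ζ (fun σ hσ => by
      rw [_root_.map_sub, _root_.map_one, hall σ hσ])
    rw [hm] at hwζ
    have h2 : ((p : ℤ) - 1) * m = 1 := by exact_mod_cast hwζ
    have h3 : (p : ℤ) - 1 ∣ 1 := Dvd.intro _ h2
    have h4 : (p : ℤ) - 1 = 1 := by
      have hpos : (0 : ℤ) < (p : ℤ) - 1 := by
        have : (1 : ℤ) < p := by exact_mod_cast hp.one_lt
        linarith
      exact le_antisymm (Int.le_of_dvd one_pos h3) (by linarith)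
    have : p = 2 := by
      have : (p : ℤ) = 2 := by linarith
      exact_mod_cast this
    exact hodd this
  · push Not at hall
    obtain ⟨σ₀, hσ₀, hne⟩ := hall
    have hpow : (σ₀ ζ) ^ p = 1 := by rw [← _root_.map_pow, hζ.pow_eq_one, _root_.map_one]
    have : NeZero p := ⟨hp.ne_zero⟩
    obtain ⟨c, -, hc⟩ := hζ.eq_pow_of_pow_eq_one hpow
    refine ⟨σ₀, hσ₀, c, ?_, fun Q hQ =>
      inertia_smul_eq_nsmul L hW hp hodd hL I hval N hNp hcard hNI hNE hζ hσ₀ (hin σ₀ hσ₀) hc.symm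
        hQ⟩
    intro hd
    apply hne
    rw [← hc]
    obtain ⟨t, ht⟩ := hd
    have hc' : (c : ℤ) = 1 + p * t := by linarith
    rcases Int.le_total 0 t with h0 | h0
    · obtain ⟨t', rfl⟩ := Int.eq_ofNat_of_zero_le h0
      have : c = 1 + p * t' := by exact_mod_cast hc'
      rw [this, pow_add, pow_one, pow_mul, hζ.pow_eq_one, one_pow, mul_one]
    · have hc0 : (0 : ℤ) ≤ c := Int.natCast_nonneg c
      have hp0 : (0 : ℤ) < p := by exact_mod_cast hp.pos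
      have ht0 : t = 0 := by
        by_contra hne0
        have h5 : t ≤ -1 := by omega
        have h6 : (p : ℤ) * t ≤ p * (-1) := mul_le_mul_of_nonneg_left h5 hp0.le
        have h7 : (2 : ℤ) ≤ p := by exact_mod_cast hp.two_le
        linarith
      rw [ht0, mul_zero, add_zero] at hc'
      have : c = 1 := by exact_mod_cast hc'
      rw [this, pow_one]

end line

end Fermat.Agent.FC
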