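import Mathlib
import Fermat.Prelude.Def_FLTPrelim_GaloisRep
import Fermat.Agent.FC.P_helper5_Chain

/-!
# FC, block (P), part 5 (helper5): the canonical chain, transported to another model

`W₁` an integral model (over `A`) of the curve `W₀`, `e : W₁(K) ≃+ W₀(K)` a Galois-equivariant
isomorphism of point groups.  `N₀ ⊆ W₀[p]` an `I`-stable subgroup of order `p` whose preimage lies in
the kernel of reduction of `W₁`, `I` acting trivially on `W₀[p]/N₀`.  `chainOn e hW₁ p j` is the image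
of `canChain hW₁ p j`; `chainOn_spec` lists its properties (K1)–(K7).
-/

set_option autoImplicit false
set_option linter.unusedSectionVars false

namespace Fermat.Agent.FC

open WeierstrassCurve WeierstrassCurve.Affine
open scoped WeierstrassCurve.Affine
open Fermat.Agent.Tate

variable {K : Type*} [Field K] [DecidableEq K] [Algebra ℚ K] {A : ValuationSubring K}
  {W₀ W₁ : Affine ℚ}

/-- the image of the canonical chain of the model `W₁` -/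
def chainOn (e : (W₁⁄K).Point ≃+ (W₀⁄K).Point) (hW₁ : IsIntegralCurve A (W₁⁄K)) (p j : ℕ) :
    AddSubgroup (W₀⁄K).Point :=
  (canChain hW₁ p j).map e.toAddMonoidHom

theorem mem_chainOn {e : (W₁⁄K).Point ≃+ (W₀⁄K).Point} {hW₁ : IsIntegralCurve A (W₁⁄K)} {p j : ℕ}
    {Q : (W₀⁄K).Point} : Q ∈ chainOn e hW₁ p j ↔ e.symm Q ∈ canChain hW₁ p j := by
  rw [chainOn, AddSubgroup.mem_map]
  constructor
  · rintro ⟨Q₁, hQ₁, rfl⟩
    have : e.symm (e.toAddMonoidHom Q₁) = Q₁ := e.symm_apply_apply Q₁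
    rw [this]
    exact hQ₁
  · intro h
    exact ⟨e.symm Q, h, e.apply_symm_apply Q⟩

section main

variable [IsAlgClosed K] [CharZero K]
  (L : LogVal A) (e : (W₁⁄K).Point ≃+ (W₀⁄K).Point)
  (he : ∀ (σ : K ≃ₐ[ℚ] K) (Q : (W₁⁄K).Point), σ • e Q = e (σ • Q))
  (hW₁ : IsIntegralCurve A (W₁⁄K)) (hΔ : (W₁⁄K).Δ ≠ 0)
  {p : ℕ} (hp : p.Prime) (hodd : p ≠ 2) (hL : L.w (p : K) = 1)
  (I : Set (K ≃ₐ[ℚ] K))
  (hval : ∀ y : K, y ≠ 0 → (∀ σ ∈ I, σ y = y) → ∃ m : ℤ, L.w y = m)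
  (hin : ∀ σ ∈ I, ∀ a ∈ A, σ a ∈ A ∧ σ a - a ∈ A.nonunits)
  (Dec : Set (K ≃ₐ[ℚ] K)) (hDec : ∀ σ ∈ Dec, ∀ x : K, x ∉ A → σ x ∉ A)
  (hC : ∀ σ ∈ I, ∀ (j : ℕ) (R : (W₁⁄K).Point), p ^ j • R = 0 → σ • R - R ∈ kerRed hW₁)
  {ζ : K} (hζ : IsPrimitiveRoot ζ p)
  (N₀ : AddSubgroup (W₀⁄K).Point) (hNp : ∀ Q ∈ N₀, p • Q = 0) (hcard : Nat.card N₀ = p)
  (hNI : ∀ σ ∈ I, ∀ Q ∈ N₀, σ • Q ∈ N₀)
  (hNE : ∀ Q ∈ N₀, e.symm Q ∈ kerRed hW₁)
  (hcof : ∀ σ ∈ I, ∀ Q : (W₀⁄K).Point, p • Q = 0 → σ • Q - Q ∈ N₀)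

include he in
theorem smul_symm_apply (σ : K ≃ₐ[ℚ] K) (Q : (W₀⁄K).Point) : σ • e.symm Q = e.symm (σ • Q) := by
  apply e.injective
  rw [← he, e.apply_symm_apply, e.apply_symm_apply]

include L he hΔ hp hodd hL hval hin hDec hC hζ hNp hcard hNI hNE hcof in
/-- **the canonical chain (K1)–(K7)** -/
theorem chainOn_spec :
    (∀ j, ∀ Q ∈ chainOn e hW₁ p j, p ^ j • Q = 0) ∧
    (∀ j, Nat.card (chainOn e hW₁ p j) = p ^ j) ∧
    (∀ j, chainOn e hW₁ p j ≤ chainOn e hW₁ p (j + 1)) ∧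
    (∀ j, ∀ Q ∈ chainOn e hW₁ p (j + 1), p • Q ∈ chainOn e hW₁ p j) ∧
    (∀ j, ∀ Q ∈ chainOn e hW₁ p (j + 1), p ^ j • Q = 0 → Q ∈ chainOn e hW₁ p j) ∧
    (∀ Q, Q ∈ chainOn e hW₁ p 1 ↔ Q ∈ N₀) ∧
    (∀ j, ∀ σ ∈ Dec, ∀ Q ∈ chainOn e hW₁ p j, σ • Q ∈ chainOn e hW₁ p j) ∧
    (∀ j, ∀ σ ∈ I, ∀ R : (W₀⁄K).Point, p ^ j • R = 0 → σ • R - R ∈ chainOn e hW₁ p j) ∧
    (∀ j, ∀ D : AddSubgroup (W₀⁄K).Point, (∀ Q ∈ D, p ^ j • Q = 0) → Nat.card D = p ^ j →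
      (∀ Q ∈ D, p • Q = 0 → Q ∈ N₀) → (∀ σ ∈ I, ∀ Q ∈ D, σ • Q ∈ D) →
      D = chainOn e hW₁ p j) := by
  classical
  -- the line on the model `W₁`
  set N₁ : AddSubgroup (W₁⁄K).Point := N₀.comap e.toAddMonoidHom with hN₁
  have hmemN₁ : ∀ Q₁, Q₁ ∈ N₁ ↔ e Q₁ ∈ N₀ := fun Q₁ => Iff.rfl
  have hes := smul_symm_apply e he
  have h1p : ∀ Q ∈ N₁, p • Q = 0 := by
    intro Q hQ
    apply e.injective
    rw [map_nsmul, hNp _ ((hmemN₁ Q).mp hQ), _root_.map_zero]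
  have h1card : Nat.card N₁ = p := by
    rw [← hcard]
    exact Nat.card_congr
      { toFun := fun Q => ⟨e Q.1, (hmemN₁ _).mp Q.2⟩
        invFun := fun Q => ⟨e.symm Q.1, (hmemN₁ _).mpr (by rw [e.apply_symm_apply]; exact Q.2)⟩
        left_inv := fun Q => Subtype.ext (e.symm_apply_apply Q.1)
        right_inv := fun Q => Subtype.ext (e.apply_symm_apply Q.1) }
  have h1I : ∀ σ ∈ I, ∀ Q ∈ N₁, σ • Q ∈ N₁ := by
    intro σ hσ Q hQ
    rw [hmemN₁, ← he]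
    exact hNI σ hσ _ ((hmemN₁ Q).mp hQ)
  have h1E : ∀ Q ∈ N₁, Q ∈ kerRed hW₁ := by
    intro Q hQ
    have := hNE _ ((hmemN₁ Q).mp hQ)
    rwa [e.symm_apply_apply] at this
  have h1cof : ∀ σ ∈ I, ∀ Q : (W₁⁄K).Point, p • Q = 0 → σ • Q - Q ∈ N₁ := by
    intro σ hσ Q hQ
    rw [hmemN₁, map_sub, ← he]
    apply hcof σ hσ
    rw [← map_nsmul, hQ, _root_.map_zero]
  obtain ⟨σ₀, hσ₀, c, hc, hσ₀N⟩ := exists_inertia_scalar L hW₁ hp hodd hL I hval N₁ h1p h1card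
    h1I h1E hζ hin
  have hmem : ∀ j Q, Q ∈ chainOn e hW₁ p j ↔ e.symm Q ∈ canChain hW₁ p j :=
    fun j Q => mem_chainOn
  refine ⟨?_, ?_, ?_, ?_, ?_, ?_, ?_, ?_, ?_⟩
  · intro j Q hQ
    have h := ((hmem j Q).mp hQ).1
    rw [← map_nsmul] at h
    have := congrArg e h
    rwa [e.apply_symm_apply, _root_.map_zero] at this
  · intro j
    rw [chainOn, AddSubgroup.card_map_of_injective e.injective]
    exact card_canChain L hW₁ hΔ hp hodd hL I hval N₁ h1p h1card h1I h1E j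
  · intro j Q hQ
    rw [hmem] at hQ ⊢
    exact canChain_mono hW₁ p j hQ
  · intro j Q hQ
    rw [hmem] at hQ ⊢
    rw [map_nsmul]
    exact nsmul_mem_canChain hQ
  · intro j Q hQ hj
    rw [hmem] at hQ ⊢
    refine mem_canChain_of_nsmul_eq_zero hQ ?_
    rw [← map_nsmul, hj, _root_.map_zero]
  · intro Q
    rw [hmem, mem_canChain_one_iff L hW₁ hp hodd hL I hval N₁ h1p h1card h1I h1E, hmemN₁,
      e.apply_symm_apply]
  · intro j σ hσ Q hQ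
    rw [hmem] at hQ ⊢
    rw [← hes]
    refine ⟨?_, ?_⟩
    · rw [← pSmul_nsmul, hQ.1]
      rfl
    · have hQE := hQ.2
      rcases hq : e.symm Q with _ | ⟨x, y, h⟩
      · exact (kerRed hW₁).zero_mem
      · rw [hq] at hQE
        rw [smul_some, some_mem_kerRed_iff]
        exact hDec σ hσ x ((some_mem_kerRed_iff hW₁).mp hQE)
  · intro j σ hσ R hR
    rw [hmem, map_sub, ← hes]
    have hR₁ : p ^ j • e.symm R = 0 := by rw [← map_nsmul, hR, _root_.map_zero]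
    refine ⟨?_, hC σ hσ j _ hR₁⟩
    rw [smul_sub, ← pSmul_nsmul, hR₁, sub_zero]
    rfl
  · intro j D hDj hDcard hDN hDI
    set D₁ : AddSubgroup (W₁⁄K).Point := D.comap e.toAddMonoidHom with hD₁
    have hmemD₁ : ∀ Q₁, Q₁ ∈ D₁ ↔ e Q₁ ∈ D := fun Q₁ => Iff.rfl
    have key := eq_canChain_of_stable L hW₁ hΔ hp hodd hL I hval N₁ h1p h1card h1I h1E h1cof
      hσ₀ (hin σ₀ hσ₀) hc hσ₀N j D₁
      (fun Q hQ => by
        apply e.injective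
        rw [map_nsmul, hDj _ ((hmemD₁ Q).mp hQ), _root_.map_zero])
      (by
        rw [← hDcard]
        exact Nat.card_congr
          { toFun := fun Q => ⟨e Q.1, (hmemD₁ _).mp Q.2⟩
            invFun := fun Q => ⟨e.symm Q.1, (hmemD₁ _).mpr (by rw [e.apply_symm_apply]; exact Q.2)⟩
            left_inv := fun Q => Subtype.ext (e.symm_apply_apply Q.1)
            right_inv := fun Q => Subtype.ext (e.apply_symm_apply Q.1) })
      (fun Q hQ hpQ => by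
        rw [hmemN₁]
        apply hDN _ ((hmemD₁ Q).mp hQ)
        rw [← map_nsmul, hpQ, _root_.map_zero])
      (fun Q hQ => by
        rw [hmemD₁, ← he]
        exact hDI σ₀ hσ₀ _ ((hmemD₁ Q).mp hQ))
    ext Q
    rw [hmem, ← key, hmemD₁, e.apply_symm_apply]

end main

end Fermat.Agent.FC
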