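import Mathlib
import Fermat.Prelude.Def_FLTPrelim_CofixedLine
import Fermat.Prelude.Def_FLTPrelim_Ramification
import Fermat.Agent.FC.P_helper5_Transport
import Fermat.Agent.S05
import Fermat.Agent.S13.Assembly_helper6
import Fermat.Agent.S13.At2_helper2_FreyRational
import Fermat.Agent.S13.Ip_helper8_Main
import Fermat.Agent.S13.Ip_helper6_Dichotomy
import Fermat.Agent.EC.Conjugacy_helper5
import Fermat.Agent.CFT.S14.Cyclo_helper5

/-!
# FC, block (P), part 6 (helper5): the canonical chain of the Frey curve at `p`, from a model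

`P` a Frey package, `N` a Galois stable cofixed line of `E[p]`, `A` a valuation subring of `ℚ̄` over
`p`.  Given an `A`-integral model `W₁` of the Frey curve (with an equivariant isomorphism `e` of
point groups) on which inertia moves `p`-power torsion points inside the kernel of reduction,
`frey_chain_of_model` produces the canonical chain (K1)–(K7).

* `frey_false_of_inertia_trivial`: an inertia group over `p` cannot act trivially on a stable line
  (else the line would be pointwise rational);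
* `frey_line_mem_kerRed`: the cofixed line lies in the kernel of reduction of the model.
-/

set_option autoImplicit false
set_option linter.unusedSectionVars false

open WeierstrassCurve WeierstrassCurve.Affine WeierstrassCurve.Affine.Point

namespace Fermat.Agent.FC

open Fermat.Agent.CFT.S14 Fermat.Agent.Tate Fermat.Agent.S13

/-- the points of the Frey curve over `ℚ̄` -/
abbrev PEpts (P : FreyPackage) : Type := (P.freyCurve⁄Qbar).Point

/-- the subgroup of points underlying a submodule of `E[p]` -/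
noncomputable def lineAsSubgroup (P : FreyPackage) (N : Submodule (ZMod P.p) (FreyTors P)) :
    AddSubgroup (PEpts P) :=
  N.toAddSubgroup.map (Submodule.torsionBy ℤ (PEpts P) P.p).subtype.toAddMonoidHom

theorem mem_lineAsSubgroup {P : FreyPackage} {N : Submodule (ZMod P.p) (FreyTors P)}
    {Q : PEpts P} : Q ∈ lineAsSubgroup P N ↔ ∃ x ∈ N, (x : PEpts P) = Q := by
  rw [lineAsSubgroup, AddSubgroup.mem_map]
  rfl

theorem freyTors_nsmul (P : FreyPackage) (x : FreyTors P) : P.p • (x : PEpts P) = 0 := by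
  have := x.2
  rw [Submodule.mem_torsionBy_iff, natCast_zsmul] at this
  exact this

/-- a `p`-torsion point as an element of `E[p]` -/
noncomputable def toFreyTors (P : FreyPackage) (Q : PEpts P) (hQ : P.p • Q = 0) : FreyTors P :=
  ⟨Q, by rw [Submodule.mem_torsionBy_iff, natCast_zsmul]; exact hQ⟩

/-- **an inertia group over `p` does not act trivially on a stable line** -/
theorem frey_false_of_inertia_trivial (P : FreyPackage)
    (N : Submodule (ZMod P.p) (FreyTors P)) (hN : IsGaloisStable ℚ N) (hbot : N ≠ ⊥)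
    (htop : N ≠ ⊤) (A₀ : ValuationSubring Qbar) (hA₀ : A₀.LiesOverPrime P.p)
    (h : ∀ σ ∈ A₀.inertiaSubgroupIn ℚ, ∀ x ∈ N, σ • x = x) : False := by
  have hfin : Finite (FreyTors P) := Fermat.Agent.EC.frey_finite_torsionBy P
  have hfix : ∀ (σ : GQ) (x : FreyTors P), x ∈ N → σ • x = x := by
    refine Fermat.Agent.EC.smul_eq_of_inertia N hN ?_
    intro ℓ A hℓ hA σ hσ x hx
    by_cases h2 : ℓ = 2
    · subst h2
      exact (asm_unipotent P N hN hbot htop σ
        (fun x => @Fermat.Agent.S13.frey_inertia_two_unipotent P (AlgebraicClosure ℚ) _ _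
          (AlgebraicClosure.instAlgebra ℚ) _ _ A hA σ hσ x)).1 x hx
    by_cases hℓp : ℓ = P.p
    · subst hℓp
      obtain ⟨τ, hτ⟩ := Fermat.Agent.EC.exists_conj_inertia P.pp A₀ A hA₀ hA
      have h1 := h _ (hτ σ hσ) (τ⁻¹ • x) (hN τ⁻¹ x hx)
      rw [mul_smul, mul_smul, smul_inv_smul] at h1
      have h2 := congrArg (fun y => τ • y) h1
      simpa using h2
    · exact Fermat.Agent.S05.result P hℓ h2 hℓp A hA σ hσ x
  obtain ⟨x, hxN, hx0⟩ := Submodule.exists_mem_ne_zero_of_ne_bot hbot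
  exact hx0 (@Fermat.Agent.S13.frey_no_fixed_torsion P (AlgebraicClosure ℚ) _ _
    (AlgebraicClosure.instAlgebra ℚ) _ _ x (fun σ => hfix σ x hxN))

section model

variable (P : FreyPackage) (N : Submodule (ZMod P.p) (FreyTors P)) (hN : IsGaloisStable ℚ N)
  (hbot : N ≠ ⊥) (htop : N ≠ ⊤) (A : ValuationSubring Qbar) (hA : A.LiesOverPrime P.p)
  {W₁ : Affine ℚ} (e : (W₁⁄Qbar).Point ≃+ PEpts P)
  (he : ∀ (σ : GQ) (Q : (W₁⁄Qbar).Point), σ • e Q = e (σ • Q))
  (hW₁ : IsIntegralCurve A (W₁⁄Qbar))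
  (hC1 : ∀ σ ∈ A.inertiaSubgroupIn ℚ, ∀ Q : (W₁⁄Qbar).Point, P.p • Q = 0 →
    (∀ j : ℕ, j ≤ P.p → IntegralPt A (j • Q)) → σ • Q - Q ∈ kerRed hW₁)

include hN hbot htop hA he hC1 in
/-- **the stable line lies in the kernel of reduction** (of any integral model at `p`) -/
theorem frey_line_mem_kerRed : ∀ x ∈ N, e.symm (x : PEpts P) ∈ kerRed hW₁ := by
  classical
  have : Fact P.p.Prime := ⟨P.pp⟩
  by_contra hcon
  push Not at hcon
  obtain ⟨x₀, hx₀N, hx₀E⟩ := hcon
  have hrank : Module.finrank (ZMod P.p) N = 1 :=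
    ip_finrank_eq_one (Fermat.Agent.EC.frey_finrank_torsionBy P) N hbot htop
  have hes := smul_symm_apply e he
  have hzero : ∀ y ∈ N, e.symm (y : PEpts P) ∈ kerRed hW₁ → y = 0 := by
    intro y hyN hyE
    by_contra hy0
    have hy0' : (⟨y, hyN⟩ : N) ≠ 0 := fun h => hy0 (congrArg Subtype.val h)
    obtain ⟨c, hc⟩ := (finrank_eq_one_iff_of_nonzero' (⟨y, hyN⟩ : N) hy0').mp hrank ⟨x₀, hx₀N⟩
    have hc' : c • y = x₀ := congrArg Subtype.val hc
    apply hx₀E
    rw [← hc', ipTors_coe_zmod_smul, map_nsmul]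
    exact (kerRed hW₁).nsmul_mem hyE _
  apply frey_false_of_inertia_trivial P N hN hbot htop A hA
  intro σ hσ x hxN
  have hd : σ • x - x ∈ N := N.sub_mem (hN σ x hxN) hxN
  have hp0 : P.p • e.symm (x : PEpts P) = 0 := by
    rw [← map_nsmul, freyTors_nsmul, _root_.map_zero]
  have hint : ∀ j : ℕ, j ≤ P.p → IntegralPt A (j • e.symm (x : PEpts P)) := by
    intro j _
    apply integralPt_of_notMem_kerRed hW₁
    intro hj0 hjE
    apply hj0
    have h1 : (j • x : FreyTors P) ∈ N := N.nsmul_mem hxN j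
    have h2 : e.symm ((j • x : FreyTors P) : PEpts P) ∈ kerRed hW₁ := by
      have : ((j • x : FreyTors P) : PEpts P) = j • (x : PEpts P) := rfl
      rw [this, map_nsmul]
      exact hjE
    have h3 := hzero _ h1 h2
    have h4 : j • (x : PEpts P) = 0 := congrArg Subtype.val h3
    rw [← map_nsmul, h4, _root_.map_zero]
  have hE := hC1 σ hσ _ hp0 hint
  have hE' : e.symm ((σ • x - x : FreyTors P) : PEpts P) ∈ kerRed hW₁ := by
    have : ((σ • x - x : FreyTors P) : PEpts P) = σ • (x : PEpts P) - (x : PEpts P) := rfl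
    rw [this, map_sub, ← hes]
    exact hE
  exact sub_eq_zero.mp (hzero _ hd hE')

end model

/-- **the canonical chain at a valuation subring `A` over `p`**: properties (K1)–(K7) -/
structure IsCanonicalChain (P : FreyPackage) (N : Submodule (ZMod P.p) (FreyTors P))
    (A : ValuationSubring Qbar) (Kc : ℕ → AddSubgroup (PEpts P)) : Prop where
  tors : ∀ j, ∀ Q ∈ Kc j, P.p ^ j • Q = 0
  card : ∀ j, Nat.card (Kc j) = P.p ^ j
  mono : ∀ j, Kc j ≤ Kc (j + 1)
  nsmul_mem : ∀ j, ∀ Q ∈ Kc (j + 1), P.p • Q ∈ Kc j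
  mem_of_tors : ∀ j, ∀ Q ∈ Kc (j + 1), P.p ^ j • Q = 0 → Q ∈ Kc j
  one : ∀ Q, Q ∈ Kc 1 ↔ ∃ x ∈ N, (x : PEpts P) = Q
  dec_stable : ∀ j, ∀ σ ∈ A.decompositionSubgroup ℚ, ∀ Q ∈ Kc j, σ • Q ∈ Kc j
  unram : ∀ j, ∀ σ ∈ A.inertiaSubgroupIn ℚ, ∀ R : PEpts P, P.p ^ j • R = 0 → σ • R - R ∈ Kc j
  unique : ∀ j, ∀ D : AddSubgroup (PEpts P), (∀ Q ∈ D, P.p ^ j • Q = 0) → Nat.card D = P.p ^ j →
    (∀ Q ∈ D, P.p • Q = 0 → Q ∈ Kc 1) → (∀ σ ∈ A.inertiaSubgroupIn ℚ, ∀ Q ∈ D, σ • Q ∈ D) →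
    D = Kc j

section chain

variable (P : FreyPackage) (N : Submodule (ZMod P.p) (FreyTors P)) (hN : IsGaloisStable ℚ N)
  (hbot : N ≠ ⊥) (htop : N ≠ ⊤) (hcof : ∀ (σ : GQ) (x : FreyTors P), σ • x - x ∈ N)
  (A : ValuationSubring Qbar) (hA : A.LiesOverPrime P.p)
  {W₁ : Affine ℚ} (e : (W₁⁄Qbar).Point ≃+ PEpts P)
  (he : ∀ (σ : GQ) (Q : (W₁⁄Qbar).Point), σ • e Q = e (σ • Q))
  (hW₁ : IsIntegralCurve A (W₁⁄Qbar)) (hΔ : (W₁⁄Qbar).Δ ≠ 0)
  (hC1 : ∀ σ ∈ A.inertiaSubgroupIn ℚ, ∀ Q : (W₁⁄Qbar).Point, P.p • Q = 0 →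
    (∀ j : ℕ, j ≤ P.p → IntegralPt A (j • Q)) → σ • Q - Q ∈ kerRed hW₁)
  (hC : ∀ σ ∈ A.inertiaSubgroupIn ℚ, ∀ (j : ℕ) (R : (W₁⁄Qbar).Point), P.p ^ j • R = 0 →
    σ • R - R ∈ kerRed hW₁)

include hN hbot htop hcof hA he hΔ hC1 hC in
/-- **the canonical chain from an integral model at `p`** -/
theorem frey_chain_of_model : IsCanonicalChain P N A (chainOn e hW₁ P.p) := by
  classical
  have : Fact P.p.Prime := ⟨P.pp⟩
  have hp := P.pp
  have hp2 : P.p ≠ 2 := Fermat.Agent.EC.frey_p_ne_two P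
  have : CharZero Qbar := algebraRat.charZero Qbar
  have hqA' : (P.p : Qbar) ∈ A.nonunits := hA
  obtain ⟨L, hL⟩ := exists_logVal A hp hqA'
  have hval : ∀ y : Qbar, y ≠ 0 → (∀ σ ∈ (A.inertiaSubgroupIn ℚ : Set GQ), σ y = y) →
      ∃ m : ℤ, L.w y = m :=
    fun y hy hfix => Fermat.Agent.EC.logVal_eq_intCast_of_fixed L hp hA hL y hy hfix
  have hin : ∀ σ ∈ (A.inertiaSubgroupIn ℚ : Set GQ), ∀ a ∈ A,
      σ a ∈ A ∧ σ a - a ∈ A.nonunits :=
    fun σ hσ a ha => inertia_map_mem_and_sub_mem hσ ha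
  have hDec : ∀ σ ∈ (A.decompositionSubgroup ℚ : Set GQ), ∀ x : Qbar, x ∉ A → σ x ∉ A := by
    intro σ hσ x hx
    rw [← one_lt_valuation_iff_not_mem] at hx ⊢
    rwa [Fermat.Agent.EC.valuation_map_eq_of_mem_decompositionSubgroup hp hA hσ x]
  have hcardN : Nat.card (lineAsSubgroup P N) = P.p := by
    rw [lineAsSubgroup, AddSubgroup.card_map_of_injective (Subtype.val_injective)]
    exact card_eq_of_ne_bot_of_ne_top P N hbot htop
  have hspec := chainOn_spec L e he hW₁ hΔ hp hp2 hL (A.inertiaSubgroupIn ℚ : Set GQ) hval hin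
    (A.decompositionSubgroup ℚ : Set GQ) hDec hC (zetaP_spec P.p) (lineAsSubgroup P N)
    (fun Q hQ => by
      obtain ⟨x, -, rfl⟩ := mem_lineAsSubgroup.mp hQ
      exact freyTors_nsmul P x)
    hcardN
    (fun σ _ Q hQ => by
      obtain ⟨x, hx, rfl⟩ := mem_lineAsSubgroup.mp hQ
      exact mem_lineAsSubgroup.mpr ⟨σ • x, hN σ x hx, rfl⟩)
    (fun Q hQ => by
      obtain ⟨x, hx, rfl⟩ := mem_lineAsSubgroup.mp hQ
      exact frey_line_mem_kerRed P N hN hbot htop A hA e he hW₁ hC1 x hx)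
    (fun σ _ Q hQ => by
      have := hcof σ (toFreyTors P Q hQ)
      exact mem_lineAsSubgroup.mpr ⟨_, this, rfl⟩)
  obtain ⟨h1, h2, h3, h4, h5, h6, h7, h8, h9⟩ := hspec
  exact
    { tors := h1
      card := h2
      mono := h3
      nsmul_mem := h4
      mem_of_tors := h5
      one := fun Q => (h6 Q).trans mem_lineAsSubgroup
      dec_stable := h7
      unram := h8
      unique := fun j D hDj hDc hDN hDI => h9 j D hDj hDc (fun Q hQ hpQ => (h6 Q).mp (hDN Q hQ hpQ))
        hDI }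

end chain

end Fermat.Agent.FC
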