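import Mathlib
import Fermat.Agent.FC.P_helper5_Frey

/-!
# FC, block (P), part 7 (helper5): the canonical chain at `p ∤ abc` (good reduction)

`frey_chain_good`: for `p ∤ abc` the Frey model itself is integral with good reduction at every `A`
over `p`, and `chainOn (AddEquiv.refl _) hW p j = E[p^j] ∩ kerRed` is the canonical chain.
-/

set_option autoImplicit false
set_option linter.unusedSectionVars false

open WeierstrassCurve WeierstrassCurve.Affine WeierstrassCurve.Affine.Point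

namespace Fermat.Agent.FC

open Fermat.Agent.CFT.S14 Fermat.Agent.Tate Fermat.Agent.S13

/-- inertia moves every point of a curve with good reduction inside the kernel of reduction -/
theorem smul_sub_mem_kerRed_of_good_all {W' : Affine ℚ} {A : ValuationSubring Qbar}
    (hW : IsIntegralCurve A (W'⁄Qbar)) (hΔ : (W'⁄Qbar).Δ ∉ A.nonunits) (σ : GQ)
    (hσ : ∀ a ∈ A, σ a ∈ A ∧ σ a - a ∈ A.nonunits) (R : (W'⁄Qbar).Point) :
    σ • R - R ∈ kerRed hW := by
  by_cases hR : R ∈ kerRed hW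
  · exact (kerRed hW).sub_mem (smul_mem_kerRed_of_inertia hW hσ hR) hR
  · exact smul_sub_mem_kerRed_of_good W' hW hΔ σ hσ R
      (integralPt_of_notMem_kerRed hW fun _ => hR)

/-- **the canonical chain, good reduction at `p`** -/
theorem frey_chain_good (P : FreyPackage) (N : Submodule (ZMod P.p) (FreyTors P))
    (hN : IsGaloisStable ℚ N) (hbot : N ≠ ⊥) (htop : N ≠ ⊤)
    (hcof : ∀ (σ : GQ) (x : FreyTors P), σ • x - x ∈ N)
    (A : ValuationSubring Qbar) (hA : A.LiesOverPrime P.p)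
    (hgood : ¬ (P.p : ℤ) ∣ P.a * P.b * P.c) :
    ∃ Kc : ℕ → AddSubgroup (PEpts P), IsCanonicalChain P N A Kc := by
  have hp := P.pp
  have hp2 : P.p ≠ 2 := Fermat.Agent.EC.frey_p_ne_two P
  have : CharZero Qbar := algebraRat.charZero Qbar
  have hqA' : (P.p : Qbar) ∈ A.nonunits := hA
  have hW : IsIntegralCurve A ((P.freyCurve : Affine ℚ)⁄Qbar) :=
    frey_isIntegralCurve P A hp hp2 hA
  have hΔu := freyCurve_Δ_notMem_nonunits P A hp hp2 hqA' hgood
  have hin : ∀ σ ∈ A.inertiaSubgroupIn ℚ, ∀ a ∈ A, σ a ∈ A ∧ σ a - a ∈ A.nonunits :=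
    fun σ hσ a ha => inertia_map_mem_and_sub_mem hσ ha
  refine ⟨_, frey_chain_of_model P N hN hbot htop hcof A hA (AddEquiv.refl _) (fun σ Q => rfl) hW
    (Fermat.Agent.EC.freyCurve_baseChange_Δ_ne P) ?_ ?_⟩
  · intro σ hσ Q _ _
    exact smul_sub_mem_kerRed_of_good_all hW hΔu σ (hin σ hσ) Q
  · intro σ hσ j R _
    exact smul_sub_mem_kerRed_of_good_all hW hΔu σ (hin σ hσ) R

end Fermat.Agent.FC
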