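import Mathlib
import Fermat.Agent.FC.P_helper5_Good

/-!
# FC, block (P), part 8 (helper5): the canonical chain at `p ∣ abc`, and the final statement

`NodalPowHyp` is the input (K6-mult): on a nodal normal form, inertia moves `p`-power torsion points
inside the kernel of reduction.  `frey_chain_mult` gives the canonical chain on the nodal model
`C₀ • freyCurve`, transported by `vcPtBaseChange`; `exists_canonical_chain_of` is block (P).
-/

set_option autoImplicit false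
set_option linter.unusedSectionVars false

open WeierstrassCurve WeierstrassCurve.Affine WeierstrassCurve.Affine.Point

namespace Fermat.Agent.FC

open Fermat.Agent.CFT.S14 Fermat.Agent.Tate Fermat.Agent.S13

/-- **(K6-mult)**: on the nodal normal form `y² = (x² - d²)(x + c)`, `c = α²` a unit,
`d = π^(pk) · unit`, residue characteristic `p`, an automorphism which is trivial modulo `𝔪` and
preserves the valuation moves every point of `p`-power order inside the kernel of reduction. -/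
def NodalPowHyp : Prop :=
  ∀ (W' : Affine ℚ) (A : ValuationSubring Qbar) (L : LogVal A) {π : Qbar} (_ : π ≠ 0)
    (_ : L.w π = 1) {α c d : Qbar} (_ : α ^ 2 = c)
    (_ : (W'⁄Qbar).a₁ = 0) (_ : (W'⁄Qbar).a₂ = c) (_ : (W'⁄Qbar).a₃ = 0)
    (_ : (W'⁄Qbar).a₄ = -d ^ 2) (_ : (W'⁄Qbar).a₆ = -d ^ 2 * c) (_ : c ∈ A)
    (_ : c ∉ A.nonunits) (_ : (2 : Qbar) ≠ 0) (_ : (2 : Qbar) ∉ A.nonunits)
    {p : ℕ} (_ : p.Prime) (_ : p ≠ 2) (_ : (p : Qbar) ∈ A.nonunits) {k : ℕ} (_ : 0 < k)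
    {d' : Qbar} (_ : d' ∈ A) (_ : d' ∉ A.nonunits) (_ : d = π ^ (p * k) * d')
    (hW : IsIntegralCurve A (W'⁄Qbar)) (σ : GQ)
    (_ : ∀ a ∈ A, σ a ∈ A ∧ σ a - a ∈ A.nonunits)
    (_ : ∀ x : Qbar, x ≠ 0 → L.w (σ x) = L.w x)
    (j : ℕ) (Q : (W'⁄Qbar).Point) (_ : p ^ j • Q = 0), σ • Q - Q ∈ kerRed hW

/-- **the canonical chain, multiplicative reduction at `p`** -/
theorem frey_chain_mult (hK6 : NodalPowHyp) (P : FreyPackage)
    (N : Submodule (ZMod P.p) (FreyTors P))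
    (hN : IsGaloisStable ℚ N) (hbot : N ≠ ⊥) (htop : N ≠ ⊤)
    (hcof : ∀ (σ : GQ) (x : FreyTors P), σ • x - x ∈ N)
    (A : ValuationSubring Qbar) (hA : A.LiesOverPrime P.p)
    (hbad : (P.p : ℤ) ∣ P.a * P.b * P.c) :
    ∃ Kc : ℕ → AddSubgroup (PEpts P), IsCanonicalChain P N A Kc := by
  have hp := P.pp
  have hp2 : P.p ≠ 2 := Fermat.Agent.EC.frey_p_ne_two P
  have : CharZero Qbar := algebraRat.charZero Qbar
  have hqA' : (P.p : Qbar) ∈ A.nonunits := hA
  have hpK : (P.p : Qbar) ≠ 0 := Nat.cast_ne_zero.mpr hp.ne_zero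
  obtain ⟨L, hL⟩ := exists_logVal A hp hqA'
  have hin : ∀ σ ∈ A.inertiaSubgroupIn ℚ, ∀ a ∈ A, σ a ∈ A ∧ σ a - a ∈ A.nonunits :=
    fun σ hσ a ha => inertia_map_mem_and_sub_mem hσ ha
  obtain ⟨C₀, c, d, k, hC₀, hcA, hcu, hk, d', hd'A, hd'u, hd⟩ :=
    exists_nodal_model A hp hp2 hqA' P hbad
  obtain ⟨α, hα⟩ := IsAlgClosed.exists_pow_nat_eq (algebraMap ℚ Qbar c) (by norm_num : 0 < 2)
  have h2u : (2 : Qbar) ∉ A.nonunits := by
    have := natCast_notMem_nonunits A hp hqA' (n := 2)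
      (fun h => hp2 ((Nat.prime_dvd_prime_iff_eq hp Nat.prime_two).mp h))
    exact_mod_cast this
  have h1 : ((C₀ • P.freyCurve).toAffine⁄Qbar).a₁ = 0 := by rw [hC₀]; simp
  have h2 : ((C₀ • P.freyCurve).toAffine⁄Qbar).a₂ = algebraMap ℚ Qbar c := by rw [hC₀]; simp
  have h3 : ((C₀ • P.freyCurve).toAffine⁄Qbar).a₃ = 0 := by rw [hC₀]; simp
  have h4 : ((C₀ • P.freyCurve).toAffine⁄Qbar).a₄ = -(algebraMap ℚ Qbar d) ^ 2 := by
    rw [hC₀]; simp
  have h6 : ((C₀ • P.freyCurve).toAffine⁄Qbar).a₆ =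
      -(algebraMap ℚ Qbar d) ^ 2 * algebraMap ℚ Qbar c := by rw [hC₀]; simp
  have hdA : algebraMap ℚ Qbar d ∈ A := by
    have hqm : (P.p : Qbar) ∈ A := A.nonunits_le hqA'
    rw [hd]; exact mul_mem (pow_mem hqm _) hd'A
  have hW : IsIntegralCurve A ((C₀ • P.freyCurve).toAffine⁄Qbar) :=
    { a₁ := by rw [h1]; exact A.zero_mem
      a₂ := by rw [h2]; exact hcA
      a₃ := by rw [h3]; exact A.zero_mem
      a₄ := by rw [h4]; exact neg_mem (pow_mem hdA 2)
      a₆ := by rw [h6]; exact mul_mem (neg_mem (pow_mem hdA 2)) hcA }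
  -- the discriminant of the nodal model
  have hΔ : ((C₀ • P.freyCurve).toAffine⁄Qbar).Δ ≠ 0 := by
    have h0 := Fermat.Agent.EC.freyCurve_baseChange_Δ_ne (K := Qbar) P
    intro hzero
    apply h0
    have e : ((C₀ • P.freyCurve).toAffine⁄Qbar) =
        (C₀.baseChange Qbar) • (P.freyCurve.toAffine⁄Qbar) :=
      baseChange_variableChange P.freyCurve C₀ Qbar
    rw [e, WeierstrassCurve.variableChange_Δ] at hzero
    rcases mul_eq_zero.mp hzero with h | h
    · exact absurd h (by simp)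
    · exact h
  refine ⟨_, frey_chain_of_model P N hN hbot htop hcof A hA (vcPtBaseChange P.freyCurve C₀ Qbar)
    (fun σ Q => smul_vcPtBaseChange P.freyCurve C₀ σ Q) hW hΔ ?_ ?_⟩
  · intro σ hσ Q hQ hint
    exact smul_sub_mem_kerRed_of_nodal_form (C₀ • P.freyCurve).toAffine L hpK hL hα h1 h2 h3 h4 h6
      hcA hcu two_ne_zero h2u hp hp2 hk hd'A hd'u hd hW σ (by simp) (hin σ hσ) Q hQ hint
  · intro σ hσ j R hR
    exact hK6 (C₀ • P.freyCurve).toAffine A L hpK hL hα h1 h2 h3 h4 h6 hcA hcu two_ne_zero h2u hp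
      hp2 hqA' hk hd'A hd'u hd hW σ (hin σ hσ)
      (fun x hx => Fermat.Agent.EC.logVal_map_eq_of_mem_decompositionSubgroup L hp hA
        (Fermat.Agent.EC.inertiaSubgroupIn_le_decompositionSubgroup' A hσ) hx) j R hR

/-- **block (P)**: the canonical chain at every valuation subring over `p`, for a cofixed line -/
theorem exists_canonical_chain_of (hK6 : NodalPowHyp) (P : FreyPackage)
    (N : Submodule (ZMod P.p) (FreyTors P))
    (hN : IsGaloisStable ℚ N) (hbot : N ≠ ⊥) (htop : N ≠ ⊤)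
    (hcof : ∀ (σ : GQ) (x : FreyTors P), σ • x - x ∈ N)
    (A : ValuationSubring Qbar) (hA : A.LiesOverPrime P.p) :
    ∃ Kc : ℕ → AddSubgroup (PEpts P), IsCanonicalChain P N A Kc := by
  by_cases hbad : (P.p : ℤ) ∣ P.a * P.b * P.c
  · exact frey_chain_mult hK6 P N hN hbot htop hcof A hA hbad
  · exact frey_chain_good P N hN hbot htop hcof A hA hbad

end Fermat.Agent.FC
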