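import Mathlib
import Fermat.Agent.FC.P_helper5_Mult
import Fermat.Agent.FC.P_helper5_K6

/-!
# FC, block (P), part 10 (helper5): the final statement of block (P), unconditional

`nodalPowHyp` discharges the named input (K6-mult) of `P_helper5_Mult` by
`smul_sub_mem_kerRed_of_nodal_form_pow` (component group + reduction homomorphism + no `p`-torsion
on the nodal cubic in characteristic `p`).  `exists_canonical_chain` is block (P).
-/

set_option autoImplicit false
set_option linter.unusedSectionVars false

open WeierstrassCurve WeierstrassCurve.Affine WeierstrassCurve.Affine.Point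

namespace Fermat.Agent.FC

open Fermat.Agent.CFT.S14 Fermat.Agent.Tate Fermat.Agent.S13

/-- **(K6-mult)** holds -/
theorem nodalPowHyp : NodalPowHyp := by
  intro W' A L π hπ0 hπ α c d hα h1 h2 h3 h4 h6 hcA hcu two_ne h2u p hp _ hpm k hk d' hd'A hd'u hd
    hW σ hσ hw j Q hQ
  exact smul_sub_mem_kerRed_of_nodal_form_pow W' L hπ0 hπ hα h1 h2 h3 h4 h6 hcA hcu two_ne h2u hp
    hpm hk hd'A hd'u hd hW σ hσ hw j Q hQ

/-- **block (P)**: the canonical chain at every valuation subring over `p`, for a cofixed line
(unconditional) -/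
theorem exists_canonical_chain (P : FreyPackage)
    (N : Submodule (ZMod P.p) (FreyTors P))
    (hN : IsGaloisStable ℚ N) (hbot : N ≠ ⊥) (htop : N ≠ ⊤)
    (hcof : ∀ (σ : GQ) (x : FreyTors P), σ • x - x ∈ N)
    (A : ValuationSubring Qbar) (hA : A.LiesOverPrime P.p) :
    ∃ Kc : ℕ → AddSubgroup (PEpts P), IsCanonicalChain P N A Kc :=
  exists_canonical_chain_of nodalPowHyp P N hN hbot htop hcof A hA

end Fermat.Agent.FC
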