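/-
PROJECT FC (Frey chain, S12), block (C) (helper9), part 2: pure group theory.

`E` an additive commutative group, `p`-divisible.
* `torsN E n` : the `n`-torsion subgroup; `card_comap_nsmul`, `card_torsN_pow`;
* `exists_preimage_of_torsion` : if `φ : E →+ E'` has finite kernel `D` and
  `#E[p] = #E'[p]` (finite), then every `p`-torsion point of `E'` is in the image of `φ`
  (counting `p⁻¹ D`).
-/
import Mathlib

set_option autoImplicit false
set_option linter.unusedSectionVars false

namespace Fermat.Agent.FC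

section Card

variable {E : Type*} [AddCommGroup E]

/-- the `n`-torsion subgroup -/
def torsN (E : Type*) [AddCommGroup E] (n : ℕ) : AddSubgroup E :=
  (nsmulAddMonoidHom n : E →+ E).ker

theorem mem_torsN {n : ℕ} {x : E} : x ∈ torsN E n ↔ n • x = 0 := by
  unfold torsN
  rw [AddMonoidHom.mem_ker, nsmulAddMonoidHom_apply]

/-- the preimage of a subgroup under multiplication by `p` -/
def divBy (p : ℕ) (H : AddSubgroup E) : AddSubgroup E :=
  H.comap (nsmulAddMonoidHom p : E →+ E)

theorem mem_divBy {p : ℕ} {H : AddSubgroup E} {x : E} : x ∈ divBy p H ↔ p • x ∈ H := by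
  unfold divBy
  rw [AddSubgroup.mem_comap, nsmulAddMonoidHom_apply]

theorem le_divBy_of_torsion {p : ℕ} {H : AddSubgroup E} : torsN E p ≤ divBy p H := by
  intro x hx
  rw [mem_divBy, mem_torsN.mp hx]
  exact H.zero_mem

/-- counting a kernel-range decomposition -/
theorem fc_card_ker_mul_card_range {G G' : Type*} [AddGroup G] [AddGroup G'] (f : G →+ G') :
    Nat.card G = Nat.card f.ker * Nat.card f.range := by
  rw [← AddSubgroup.index_ker, AddSubgroup.card_mul_index]

theorem card_divBy (p : ℕ) (hdiv : ∀ x : E, ∃ y : E, p • y = x) (H : AddSubgroup E) :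
    Nat.card (divBy p H) = Nat.card (torsN E p) * Nat.card H := by
  let h : divBy p H →+ H :=
    ((nsmulAddMonoidHom p : E →+ E).comp (divBy p H).subtype).codRestrict H
      (fun y => mem_divBy.mp y.2)
  have hh : ∀ y : divBy p H, ((h y : H) : E) = p • (y : E) := fun y => rfl
  have hsurj : Function.Surjective h := by
    intro x
    obtain ⟨y, hy⟩ := hdiv x
    refine ⟨⟨y, mem_divBy.mpr (hy ▸ x.2)⟩, Subtype.ext ?_⟩
    rw [hh]; exact hy
  have hrange : Nat.card h.range = Nat.card H := by
    rw [AddMonoidHom.range_eq_top.mpr hsurj]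
    exact Nat.card_congr AddSubgroup.topEquiv.toEquiv
  have hker : Nat.card h.ker = Nat.card (torsN E p) := by
    refine Nat.card_congr
      { toFun := fun y => ⟨((y : divBy p H) : E), ?_⟩
        invFun := fun x => ⟨⟨(x : E), le_divBy_of_torsion x.2⟩, ?_⟩
        left_inv := fun y => rfl
        right_inv := fun x => rfl }
    · have h1 : h (y : divBy p H) = 0 := AddMonoidHom.mem_ker.mp y.2
      have h2 := congrArg (fun z : H => (z : E)) h1
      simp only [hh] at h2
      exact mem_torsN.mpr h2
    · rw [AddMonoidHom.mem_ker]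
      apply Subtype.ext
      rw [hh]
      exact mem_torsN.mp x.2
  rw [fc_card_ker_mul_card_range h, hker, hrange]

theorem torsN_pow_succ (p k : ℕ) : torsN E (p ^ (k + 1)) = divBy p (torsN E (p ^ k)) := by
  ext x
  rw [mem_torsN, mem_divBy, mem_torsN, pow_succ, mul_smul]

theorem card_torsN_pow (p : ℕ) (hdiv : ∀ x : E, ∃ y : E, p • y = x) (k : ℕ) :
    Nat.card (torsN E (p ^ k)) = Nat.card (torsN E p) ^ k := by
  induction k with
  | zero =>
    rw [pow_zero, pow_zero]
    have : torsN E 1 = ⊥ := by
      ext x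
      rw [mem_torsN, one_smul, AddSubgroup.mem_bot]
    rw [this]
    exact Nat.card_unique
  | succ k ih =>
    rw [torsN_pow_succ, card_divBy p hdiv, ih, pow_succ, mul_comm]

theorem card_torsN_eq_card_subtype (n : ℕ) :
    Nat.card (torsN E n) = Nat.card {x : E // n • x = 0} :=
  Nat.card_congr (Equiv.subtypeEquivRight fun _ => mem_torsN)

end Card

section Surj

variable {E E' : Type*} [AddCommGroup E] [AddCommGroup E']

/-- **surjectivity onto the `p`-torsion by counting**: `φ : E →+ E'` with kernel `D` finite,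
`E` `p`-divisible, `#E[p] = #E'[p]` finite and nonzero: every `p`-torsion point of `E'` is
the image of a point `y` with `p • y ∈ D`. -/
theorem exists_preimage_of_torsion (φ : E →+ E') (p : ℕ) (hdiv : ∀ x : E, ∃ y : E, p • y = x)
    [Finite φ.ker] (hcard : Nat.card (torsN E p) = Nat.card (torsN E' p))
    (hpos : Nat.card (torsN E' p) ≠ 0) (m : E') (hm : p • m = 0) :
    ∃ y : E, p • y ∈ φ.ker ∧ φ y = m := by
  haveI : Finite (torsN E' p) := Nat.finite_of_card_ne_zero hpos
  set B := divBy p φ.ker with hB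
  let ψ : B →+ E' := φ.comp B.subtype
  have hψ : ∀ y : B, ψ y = φ (y : E) := fun y => rfl
  -- the kernel of `ψ` is `D`
  have hkerle : φ.ker ≤ B := by
    intro x hx
    rw [hB, mem_divBy]
    exact φ.ker.nsmul_mem hx p
  have hker : Nat.card ψ.ker = Nat.card φ.ker := by
    refine Nat.card_congr
      { toFun := fun y => ⟨((y : B) : E), ?_⟩
        invFun := fun x => ⟨⟨(x : E), hkerle x.2⟩, ?_⟩
        left_inv := fun y => rfl
        right_inv := fun x => rfl }
    · have h1 : ψ (y : B) = 0 := AddMonoidHom.mem_ker.mp y.2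
      rw [hψ] at h1
      exact AddMonoidHom.mem_ker.mpr h1
    · rw [AddMonoidHom.mem_ker, hψ]
      exact AddMonoidHom.mem_ker.mp x.2
  have hcardB : Nat.card B = Nat.card (torsN E p) * Nat.card φ.ker := card_divBy p hdiv φ.ker
  have hD0 : Nat.card φ.ker ≠ 0 := Nat.card_pos.ne'
  have hrange : Nat.card ψ.range = Nat.card (torsN E' p) := by
    have h1 := fc_card_ker_mul_card_range ψ
    rw [hker, hcardB, mul_comm] at h1
    rw [← hcard]
    exact (Nat.eq_of_mul_eq_mul_left (Nat.pos_of_ne_zero hD0) h1).symm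
  have hle : ψ.range ≤ torsN E' p := by
    rintro _ ⟨y, rfl⟩
    rw [mem_torsN, hψ, ← map_nsmul]
    exact AddMonoidHom.mem_ker.mp (mem_divBy.mp y.2)
  have heq : ψ.range = torsN E' p := AddSubgroup.eq_of_le_of_card_ge hle hrange.ge
  have hm' : m ∈ ψ.range := heq ▸ mem_torsN.mpr hm
  obtain ⟨y, hy⟩ := hm'
  exact ⟨(y : E), mem_divBy.mp y.2, hy⟩

end Surj

end Fermat.Agent.FC
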