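/-
PROJECT FC (Frey chain, S12), block (C) (helper9), part 3: the abstract induction state and the
abstract step `State k ⇒ PreState (k+1)`.

`G` a group acting on the additive commutative group `E` (the points of the Frey curve), `p` a
prime.  A `PreState p k g` is a generator `g` of order `p ^ k` of a `G`-stable cyclic subgroup
`D = ⟨g⟩` such that `p (σ x - x) ∈ D` for all `x ∈ E[p^k]` and `σ x - x ∈ D` for all `x ∈ E[p]`.
A `State` has `σ x - x ∈ D` for all `x ∈ E[p^k]`.

* `State.succ` : given a `G`-equivariant `φ : E →+ E'` with kernel `D`, and a `G`-stable line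
  `M ⊆ E'[p]` with `M ∩ φ(E[p]) = 0`, the preimage `φ⁻¹(M)` is cyclic, generated by `g'` with
  `PreState p (k+1) g'`.
-/
import Mathlib
import Fermat.Agent.FC.C_helper9_Group

set_option autoImplicit false
set_option linter.unusedSectionVars false

namespace Fermat.Agent.FC

open AddSubgroup

section Defs

variable (G : Type*) {E : Type*} [Group G] [AddCommGroup E] [DistribMulAction G E]

/-- the induction state before the Minkowski step -/
structure PreState (p k : ℕ) (g : E) : Prop where
  order : addOrderOf g = p ^ k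
  stable : ∀ σ : G, σ • g ∈ zmultiples g
  pre : ∀ (σ : G) (x : E), p ^ k • x = 0 → p • (σ • x - x) ∈ zmultiples g
  low : ∀ (σ : G) (x : E), p • x = 0 → σ • x - x ∈ zmultiples g

/-- the induction state: `G` acts trivially on `E[p^k]/⟨g⟩` -/
structure State (p k : ℕ) (g : E) : Prop where
  order : addOrderOf g = p ^ k
  stable : ∀ σ : G, σ • g ∈ zmultiples g
  full : ∀ (σ : G) (x : E), p ^ k • x = 0 → σ • x - x ∈ zmultiples g

variable {G}

theorem State.toPreState {p k : ℕ} (hk : k ≠ 0) {g : E} (h : State G p k g) :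
    PreState G p k g where
  order := h.order
  stable := h.stable
  pre := fun σ x hx => (zmultiples g).nsmul_mem (h.full σ x hx) p
  low := fun σ x hx => h.full σ x (by
    obtain ⟨j, rfl⟩ := Nat.exists_eq_succ_of_ne_zero hk
    rw [pow_succ, mul_smul, hx, smul_zero])

theorem stable_zmultiples {g : E} (hst : ∀ σ : G, σ • g ∈ zmultiples g) (σ : G) {d : E}
    (hd : d ∈ zmultiples g) : σ • d ∈ zmultiples g := by
  obtain ⟨n, rfl⟩ := mem_zmultiples_iff.mp hd
  rw [smul_zsmul_comm' σ n g]
  exact (zmultiples g).zsmul_mem (hst σ) n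
where
  smul_zsmul_comm' (σ : G) (n : ℤ) (g : E) : σ • (n • g) = n • (σ • g) :=
    map_zsmul (DistribMulAction.toAddMonoidHom E σ) n g

end Defs

section Order

variable {E : Type*} [AddCommGroup E]

/-- in a cyclic group of order `p ^ k`, an element `n • g` with `p ∤ n` is a generator -/
theorem addOrderOf_zsmul_of_not_dvd {p : ℕ} (hp : p.Prime) {k : ℕ} {g : E}
    (hg : addOrderOf g = p ^ k) {n : ℤ} (hn : ¬ (p : ℤ) ∣ n) : addOrderOf (n • g) = p ^ k := by
  have hcop : (addOrderOf g).Coprime n.natAbs := by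
    rw [hg]
    apply Nat.Coprime.pow_left
    rw [Nat.Prime.coprime_iff_not_dvd hp]
    intro h
    exact hn (Int.natCast_dvd.mpr h)
  have h1 : addOrderOf (n.natAbs • g) = p ^ k := by
    rw [Nat.Coprime.addOrderOf_nsmul hcop, hg]
  rcases Int.natAbs_eq n with h | h
  · rw [h, natCast_zsmul]; exact h1
  · rw [h, neg_smul, addOrderOf_neg, natCast_zsmul]; exact h1

/-- the order of `g'` when `p • g'` has order `p ^ k`, `k ≠ 0` -/
theorem addOrderOf_of_nsmul {p : ℕ} (hp : p.Prime) {k : ℕ} (hk : k ≠ 0) {g' : E}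
    (h : addOrderOf (p • g') = p ^ k) : addOrderOf g' = p ^ (k + 1) := by
  haveI : Fact p.Prime := ⟨hp⟩
  have h0 : p ^ k • (p • g') = 0 := by rw [← h]; exact addOrderOf_nsmul_eq_zero _
  obtain ⟨j, rfl⟩ := Nat.exists_eq_succ_of_ne_zero hk
  apply addOrderOf_eq_prime_pow
  · intro h1
    have h2 : p ^ j • (p • g') = 0 := by
      rw [← mul_smul, ← pow_succ]; exact h1
    have h3 := addOrderOf_dvd_of_nsmul_eq_zero h2
    rw [h] at h3
    have := (Nat.pow_dvd_pow_iff_le_right hp.one_lt).mp h3
    omega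
  · rw [pow_succ, mul_smul]; exact h0

end Order

section Step

variable {G : Type*} {E E' : Type*} [Group G] [AddCommGroup E] [AddCommGroup E']
  [DistribMulAction G E] [DistribMulAction G E']

/-- **the abstract step** `State k ⇒ PreState (k+1)`. -/
theorem State.succ {p : ℕ} (hp : p.Prime) {k : ℕ} (hk : k ≠ 0) {g : E} (hS : State G p k g)
    (φ : E →+ E') (hφ : ∀ (σ : G) (x : E), φ (σ • x) = σ • φ x)
    (hker : ∀ x : E, φ x = 0 ↔ x ∈ zmultiples g)
    (hsurj : ∀ m : E', p • m = 0 → ∃ y : E, φ y = m)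
    (M : AddSubgroup E') (hMst : ∀ (σ : G), ∀ m ∈ M, σ • m ∈ M)
    (hMline : ∀ m ∈ M, ∀ m' ∈ M, m ≠ 0 → m' ∈ zmultiples m)
    (hMtors : ∀ m ∈ M, p • m = 0)
    (hMne : ∃ m ∈ M, m ≠ 0)
    (hMcompl : ∀ x : E, p • x = 0 → φ x ∈ M → φ x = 0) :
    ∃ g' : E, PreState G p (k + 1) g' ∧ (∀ x : E, x ∈ zmultiples g' ↔ φ x ∈ M) ∧
      zmultiples g ≤ zmultiples g' := by
  obtain ⟨m, hmM, hm0⟩ := hMne
  obtain ⟨g', hg'⟩ := hsurj m (hMtors m hmM)
  -- `p • g' ∈ D`
  have hpg' : p • g' ∈ zmultiples g := by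
    rw [← hker, map_nsmul, hg']
    exact hMtors m hmM
  obtain ⟨n, hn⟩ := mem_zmultiples_iff.mp hpg'
  -- `p ∤ n`
  have hpn : ¬ (p : ℤ) ∣ n := by
    rintro ⟨n', rfl⟩
    set x := g' - n' • g with hx
    have hxp : p • x = 0 := by
      rw [hx, smul_sub, ← hn, mul_smul, natCast_zsmul, sub_self]
    have hφx : φ x = m := by
      rw [hx, map_sub, hg', (hker _).mpr ((zmultiples g).zsmul_mem (mem_zmultiples g) n'),
        sub_zero]
    have := hMcompl x hxp (hφx ▸ hmM)
    rw [hφx] at this
    exact hm0 this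
  have hord1 : addOrderOf (p • g') = p ^ k := by
    rw [← hn]
    exact addOrderOf_zsmul_of_not_dvd hp hS.order hpn
  have hord : addOrderOf g' = p ^ (k + 1) := addOrderOf_of_nsmul hp hk hord1
  -- `D ≤ ⟨g'⟩`
  have hDle : zmultiples g ≤ zmultiples g' := by
    have h1 : zmultiples (p • g') ≤ zmultiples g := by
      rw [zmultiples_le]; exact hpg'
    have h2 : zmultiples (p • g') = zmultiples g := by
      haveI : Finite (zmultiples g) := by
        apply Nat.finite_of_card_ne_zero
        rw [Nat.card_zmultiples, hS.order]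
        exact (pow_pos hp.pos k).ne'
      apply AddSubgroup.eq_of_le_of_card_ge h1
      rw [Nat.card_zmultiples, Nat.card_zmultiples, hord1, hS.order]
    rw [← h2, zmultiples_le]
    exact (zmultiples g').nsmul_mem (mem_zmultiples g') p
  -- the preimage of `M`
  have hpre : ∀ x : E, x ∈ zmultiples g' ↔ φ x ∈ M := by
    intro x
    constructor
    · intro hx
      obtain ⟨j, rfl⟩ := mem_zmultiples_iff.mp hx
      rw [map_zsmul, hg']
      exact M.zsmul_mem hmM j
    · intro hx
      obtain ⟨j, hj⟩ := mem_zmultiples_iff.mp (hMline m hmM (φ x) hx hm0)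
      have h1 : φ (x - j • g') = 0 := by
        rw [map_sub, map_zsmul, hg', hj, sub_self]
      have h2 : x - j • g' ∈ zmultiples g' := hDle ((hker _).mp h1)
      have := (zmultiples g').add_mem h2 ((zmultiples g').zsmul_mem (mem_zmultiples g') j)
      rwa [sub_add_cancel] at this
  refine ⟨g', ⟨hord, ?_, ?_, ?_⟩, hpre, hDle⟩
  · intro σ
    rw [hpre, hφ, hg']
    exact hMst σ m hmM
  · intro σ x hx
    have h1 : p • (σ • x - x) = σ • (p • x) - p • x := by
      rw [smul_sub, smul_comm]
    rw [h1]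
    refine hDle (hS.full σ (p • x) ?_)
    rw [← mul_smul, ← pow_succ]
    exact hx
  · intro σ x hx
    refine hDle (hS.full σ x ?_)
    obtain ⟨j, rfl⟩ := Nat.exists_eq_succ_of_ne_zero hk
    rw [pow_succ, mul_smul, hx, smul_zero]

end Step

end Fermat.Agent.FC
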