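/-
PROJECT FC (Frey chain, S12), block (C) (helper9), part 1: the point count at a prime of good
reduction.

`W'` a Weierstrass curve over `R`, `K ⊇ S ⊇ R` fields, `A` a valuation subring of `K` at which
`W'⁄K` is integral with unit discriminant, `σ` a Frobenius element at `ℓ` for `A`.  A finite set of
`m`-torsion points (`m` odd, prime to the residue characteristic) all fixed by `σ` has at most
`ℓ² + 1` elements: such points are integral, their residues are roots of `X ^ ℓ - X`, and reduction
is injective on `m`-torsion.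

* `e2GoodRed_of_integral` : `E2GoodRed` from integrality and unit discriminant;
* `card_le_of_frobenius_fixed` : the count.
-/
import Mathlib
import Fermat.Agent.S58.E2_helper2_Int

set_option autoImplicit false
set_option linter.unusedSectionVars false

namespace Fermat.Agent.FC

open WeierstrassCurve WeierstrassCurve.Affine IsLocalRing Fermat.Agent.Tate Fermat.Agent.S58
open scoped WeierstrassCurve.Affine

section Good

variable {K : Type*} [Field K] [DecidableEq K] {A : ValuationSubring K}
  [DecidableEq (ResidueField A)]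

/-- an integral Weierstrass curve with unit discriminant has good reduction in the sense of
`E2GoodRed` -/
theorem e2GoodRed_of_integral {E : Affine K} (hE : IsIntegralCurve A E)
    (hΔ : E.Δ ∉ A.nonunits) : ∃ Ē : Affine (ResidueField A), E2GoodRed A E Ē := by
  let EA : Affine A :=
    { a₁ := ⟨E.a₁, hE.a₁⟩, a₂ := ⟨E.a₂, hE.a₂⟩, a₃ := ⟨E.a₃, hE.a₃⟩, a₄ := ⟨E.a₄, hE.a₄⟩,
      a₆ := ⟨E.a₆, hE.a₆⟩ }
  have hmap : EA.map A.subtype = E := by
    ext <;> rfl
  refine ⟨EA.map (residue A), EA, hmap, rfl, ?_⟩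
  by_contra hu
  apply hΔ
  have h1 : (EA.map A.subtype).Δ = ((EA.Δ : A) : K) := by
    rw [WeierstrassCurve.map_Δ]; rfl
  rw [← hmap, h1, A.coe_mem_nonunits_iff]
  exact hu

end Good

section Roots

variable {F : Type*} [Field F] [DecidableEq F]

/-- the roots of `X ^ ℓ - X` -/
noncomputable def frobFixed (F : Type*) [Field F] [DecidableEq F] (ℓ : ℕ) : Finset F :=
  (Polynomial.X ^ ℓ - Polynomial.X : Polynomial F).roots.toFinset

theorem mem_frobFixed {ℓ : ℕ} (hℓ : 1 < ℓ) {z : F} : z ∈ frobFixed F ℓ ↔ z ^ ℓ = z := by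
  unfold frobFixed
  rw [Multiset.mem_toFinset, Polynomial.mem_roots (FiniteField.X_pow_card_sub_X_ne_zero F hℓ)]
  simp [Polynomial.IsRoot, sub_eq_zero]

theorem card_frobFixed_le {ℓ : ℕ} (hℓ : 1 < ℓ) : (frobFixed F ℓ).card ≤ ℓ := by
  unfold frobFixed
  refine (Multiset.toFinset_card_le _).trans ?_
  refine (Polynomial.card_roots' _).trans ?_
  rw [FiniteField.X_pow_card_sub_X_natDegree_eq F hℓ]

end Roots

section Count

variable {R : Type*} {S : Type*} {K : Type*} [CommRing R] [Field S] [Field K] [DecidableEq K]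
  [Algebra R S] [Algebra R K] [Algebra S K] [IsScalarTower R S K]
  {A : ValuationSubring K} {W' : Affine R}

theorem smul_some_eq (σ : K ≃ₐ[S] K) {x y : K} (h : (W'⁄K).Nonsingular x y) :
    ∃ h', σ • (Point.some x y h : (W'⁄K).Point) = Point.some (σ x) (σ y) h' := ⟨_, rfl⟩

/-- the coordinates of a point fixed by `σ` are fixed by `σ` -/
theorem coords_fixed_of_smul_eq (σ : K ≃ₐ[S] K) {x y : K} (h : (W'⁄K).Nonsingular x y)
    (hfix : σ • (Point.some x y h : (W'⁄K).Point) = Point.some x y h) : σ x = x ∧ σ y = y := by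
  obtain ⟨h', e⟩ := smul_some_eq (W' := W') σ h
  rw [e] at hfix
  exact ⟨(Point.some.inj hfix).1, (Point.some.inj hfix).2⟩

/-- the residue of an integral element fixed by a Frobenius element is a root of `X ^ ℓ - X` -/
theorem residue_pow_eq_of_fixed {σ : K ≃ₐ[S] K} {ℓ : ℕ} (hσ : A.IsFrobeniusAt σ ℓ) {a : K}
    (ha : a ∈ A) (hfix : σ a = a) : (residue A ⟨a, ha⟩) ^ ℓ = residue A ⟨a, ha⟩ := by
  rw [← e2ResHom_eq_pow_of_isFrobeniusAt hσ, e2ResHom_residue]
  congr 2

open Classical in
/-- **the count at a good prime**: a finite set of `m`-torsion points (`m` odd, a unit of `A`),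
all fixed by a Frobenius element at `ℓ`, has at most `ℓ² + 1` elements. -/
theorem card_le_of_frobenius_fixed (hE : IsIntegralCurve A (W'⁄K)) (hΔ : (W'⁄K).Δ ∉ A.nonunits)
    {σ : K ≃ₐ[S] K} {ℓ : ℕ} (hℓ : 1 < ℓ) (hσ : A.IsFrobeniusAt σ ℓ) {m : ℕ} (hodd : Odd m)
    (hm0 : (m : K) ≠ 0) (hm : ((m : K))⁻¹ ∈ A) (T : Finset (W'⁄K).Point)
    (hT : ∀ P ∈ T, m • P = 0 ∧ σ • P = P) : T.card ≤ ℓ ^ 2 + 1 := by
  obtain ⟨Ē, hg⟩ := e2GoodRed_of_integral hE hΔ
  -- code a point of the reduced curve by its coordinates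
  let code : Ē.Point → Option (ResidueField A × ResidueField A) := fun Q =>
    match Q with
    | .zero => none
    | .some x y _ => some (x, y)
  have hcode : Function.Injective code := by
    intro Q Q' h
    rcases Q with _ | ⟨x, y, hxy⟩ <;> rcases Q' with _ | ⟨x', y', hxy'⟩
    · rfl
    · exact absurd h (by simp [code])
    · exact absurd h (by simp [code])
    · have h1 : (x, y) = (x', y') := Option.some.inj h
      have hx : x = x' := congrArg Prod.fst h1
      have hy : y = y' := congrArg Prod.snd h1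
      subst hx; subst hy; rfl
  let f : (W'⁄K).Point → Option (ResidueField A × ResidueField A) := fun P => code (e2RedPt hg P)
  have hinj : Set.InjOn f T := by
    intro P hP Q hQ h
    exact e2RedPt_injOn hg hodd hm0 hm (hT P hP).1 (hT Q hQ).1 (hcode h)
  let B : Finset (Option (ResidueField A × ResidueField A)) :=
    insert none (((frobFixed (ResidueField A) ℓ) ×ˢ (frobFixed (ResidueField A) ℓ)).image some)
  have hmaps : ∀ P ∈ T, f P ∈ B := by
    intro P hP
    obtain ⟨hmP, hfix⟩ := hT P hP
    rcases P with _ | ⟨x, y, h⟩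
    · exact Finset.mem_insert_self _ _
    · obtain ⟨hx, hy⟩ := hg.mem_of_torsion hm0 hm h hmP
      obtain ⟨hσx, hσy⟩ := coords_fixed_of_smul_eq σ h hfix
      have e : f (Point.some x y h) = some (residue A ⟨x, hx⟩, residue A ⟨y, hy⟩) := by
        show code (e2RedPt hg (Point.some x y h)) = _
        rw [e2RedPt_some hg h hx hy]
      rw [e]
      refine Finset.mem_insert_of_mem (Finset.mem_image_of_mem _ ?_)
      rw [Finset.mem_product]
      exact ⟨(mem_frobFixed hℓ).mpr (residue_pow_eq_of_fixed hσ hx hσx),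
        (mem_frobFixed hℓ).mpr (residue_pow_eq_of_fixed hσ hy hσy)⟩
  calc T.card ≤ B.card := Finset.card_le_card_of_injOn f hmaps hinj
    _ ≤ (((frobFixed (ResidueField A) ℓ) ×ˢ (frobFixed (ResidueField A) ℓ)).image some).card + 1 :=
        Finset.card_insert_le _ _
    _ ≤ ((frobFixed (ResidueField A) ℓ) ×ˢ (frobFixed (ResidueField A) ℓ)).card + 1 :=
        Nat.add_le_add_right Finset.card_image_le _
    _ = (frobFixed (ResidueField A) ℓ).card * (frobFixed (ResidueField A) ℓ).card + 1 := by
        rw [Finset.card_product]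
    _ ≤ ℓ * ℓ + 1 :=
        Nat.add_le_add_right (Nat.mul_le_mul (card_frobFixed_le hℓ) (card_frobFixed_le hℓ)) _
    _ = ℓ ^ 2 + 1 := by ring

end Count

end Fermat.Agent.FC
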