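/-
PROJECT FC (Frey chain, S12), block (C) (helper9), part 5: a `State` at level `k` forces
`p ^ k ≤ ℓ² + 1` for every prime `ℓ` of good reduction.

* `State.le_card_fixed` (abstract): every `σ` fixes at least `p ^ k` points of `E[p^k]`;
* `State.pow_le_of_frobenius` : the bound, for the points of a Weierstrass curve.
-/
import Mathlib
import Fermat.Agent.FC.C_helper9_Count
import Fermat.Agent.FC.C_helper9_Chain

set_option autoImplicit false
set_option linter.unusedSectionVars false

namespace Fermat.Agent.FC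

open AddSubgroup

section Abstract

variable {G : Type*} {E : Type*} [Group G] [AddCommGroup E] [DistribMulAction G E]

/-- `x ↦ σ x - x` -/
def subOneHom (σ : G) : E →+ E := DistribMulAction.toAddMonoidHom E σ - AddMonoidHom.id E

@[simp] theorem subOneHom_apply (σ : G) (x : E) : subOneHom σ x = σ • x - x := rfl

/-- **every element fixes at least `p ^ k` points of `E[p^k]`** in a `State` of level `k`. -/
theorem State.le_card_fixed {p : ℕ} (hp : p.Prime) {k : ℕ} {g : E} (hS : State G p k g)
    (hdiv : ∀ x : E, ∃ y : E, p • y = x) (hcard : Nat.card (torsN E p) = p ^ 2) (σ : G) :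
    p ^ k ≤ Nat.card {x : E // p ^ k • x = 0 ∧ σ • x = x} := by
  let f : torsN E (p ^ k) →+ zmultiples g :=
    ((subOneHom σ).comp (torsN E (p ^ k)).subtype).codRestrict (zmultiples g)
      (fun x => hS.full σ x (mem_torsN.mp x.2))
  have hf : ∀ x : torsN E (p ^ k), ((f x : zmultiples g) : E) = σ • (x : E) - x := fun x => rfl
  have h1 : Nat.card (torsN E (p ^ k)) = Nat.card f.ker * Nat.card f.range :=
    fc_card_ker_mul_card_range f
  rw [card_torsN_pow p hdiv k, hcard] at h1
  have h2 : Nat.card f.range ∣ p ^ k := by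
    have := AddSubgroup.card_addSubgroup_dvd_card f.range
    rwa [Nat.card_zmultiples, hS.order] at this
  have hpos : 0 < p ^ k := pow_pos hp.pos k
  have h3 : Nat.card f.range ≤ p ^ k := Nat.le_of_dvd hpos h2
  have h4 : p ^ k ≤ Nat.card f.ker := by
    by_contra hlt
    rw [not_le] at hlt
    have : Nat.card f.ker * Nat.card f.range < p ^ k * p ^ k :=
      Nat.mul_lt_mul_of_lt_of_le hlt h3 hpos
    rw [← h1, ← pow_mul, ← pow_add] at this
    have h5 : 2 * k = k + k := by ring
    rw [h5] at this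
    exact lt_irrefl _ this
  refine h4.trans (le_of_eq (Nat.card_congr ?_))
  exact
    { toFun := fun x => ⟨((x : torsN E (p ^ k)) : E), mem_torsN.mp (x : torsN E (p ^ k)).2, by
        have h6 : f (x : torsN E (p ^ k)) = 0 := AddMonoidHom.mem_ker.mp x.2
        have h7 := congrArg (fun z : zmultiples g => (z : E)) h6
        simp only [hf] at h7
        exact sub_eq_zero.mp h7⟩
      invFun := fun x => ⟨⟨(x : E), mem_torsN.mpr x.2.1⟩, by
        rw [AddMonoidHom.mem_ker]
        apply Subtype.ext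
        rw [hf]
        exact sub_eq_zero.mpr x.2.2⟩
      left_inv := fun x => rfl
      right_inv := fun x => rfl }

end Abstract

section Curve

open WeierstrassCurve WeierstrassCurve.Affine IsLocalRing Fermat.Agent.Tate
open scoped WeierstrassCurve.Affine

variable {R : Type*} {S : Type*} {K : Type*} [CommRing R] [Field S] [Field K] [DecidableEq K]
  [Algebra R S] [Algebra R K] [Algebra S K] [IsScalarTower R S K]
  {A : ValuationSubring K} {W' : Affine R}

/-- **the final count**: a `State` of level `k` on the points of a Weierstrass curve gives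
`p ^ k ≤ ℓ² + 1` for a prime `ℓ ≠ p` of good reduction with a Frobenius element. -/
theorem State.pow_le_of_frobenius {p : ℕ} (hp : p.Prime) (hp2 : p ≠ 2) {k : ℕ}
    {g : (W'⁄K).Point} (hS : State (K ≃ₐ[S] K) p k g)
    (hdiv : ∀ x : (W'⁄K).Point, ∃ y : (W'⁄K).Point, p • y = x)
    (hcard : Nat.card (torsN (W'⁄K).Point p) = p ^ 2)
    (hE : IsIntegralCurve A (W'⁄K)) (hΔ : (W'⁄K).Δ ∉ A.nonunits)
    {σ : K ≃ₐ[S] K} {ℓ : ℕ} (hℓ : 1 < ℓ) (hσ : A.IsFrobeniusAt σ ℓ)
    (hpK : (p : K) ≠ 0) (hpA : ((p : K))⁻¹ ∈ A) : p ^ k ≤ ℓ ^ 2 + 1 := by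
  classical
  have h1 := hS.le_card_fixed hp hdiv hcard σ
  have hpos : 0 < p ^ k := pow_pos hp.pos k
  haveI : Finite {x : (W'⁄K).Point // p ^ k • x = 0 ∧ σ • x = x} :=
    Nat.finite_of_card_ne_zero (by omega)
  have hfin : {x : (W'⁄K).Point | p ^ k • x = 0 ∧ σ • x = x}.Finite :=
    Set.finite_coe_iff.mp this
  have h2 : hfin.toFinset.card = Nat.card {x : (W'⁄K).Point // p ^ k • x = 0 ∧ σ • x = x} := by
    rw [← Set.ncard_eq_toFinset_card _ hfin]
    rfl
  have hodd : Odd (p ^ k) := (hp.odd_of_ne_two hp2).pow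
  have hm0 : ((p ^ k : ℕ) : K) ≠ 0 := by
    rw [Nat.cast_pow]; exact pow_ne_zero k hpK
  have hm : (((p ^ k : ℕ) : K))⁻¹ ∈ A := by
    rw [Nat.cast_pow, ← inv_pow]; exact pow_mem hpA k
  have h3 := card_le_of_frobenius_fixed hE hΔ hℓ hσ hodd hm0 hm hfin.toFinset (by
    intro P hP
    exact (Set.Finite.mem_toFinset hfin).mp hP)
  omega

end Curve

end Fermat.Agent.FC
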