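/-
PROJECT FC (Frey chain, S12), block (C) (helper9), part 4: the Minkowski step
`PreState k ⇒ State k` for `G = G_ℚ`.

`E` an additive commutative group with an action of `G_ℚ` whose kernel on `E[p^k]` is open.
If every inertia subgroup (all primes `ℓ`, all valuation subrings `A` over `ℓ`) maps `E[p^k]`
into `D = ⟨g⟩` under `σ - 1`, then so does `G_ℚ` (`EC.eq_top_of_inertia_le`).
-/
import Mathlib
import Fermat.Agent.FC.C_helper9_Chain
import Fermat.Agent.EC.Minkowski_helper5

set_option autoImplicit false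
set_option linter.unusedSectionVars false

namespace Fermat.Agent.FC

open AddSubgroup Fermat.Agent.CFT.S14

variable {E : Type*} [AddCommGroup E] [DistribMulAction GQ E]

/-- the subgroup of `G_ℚ` acting trivially on `E[n]/D` -/
def trivModSubgroup (n : ℕ) (D : AddSubgroup E) (hst : ∀ (σ : GQ), ∀ d ∈ D, σ • d ∈ D) :
    Subgroup GQ where
  carrier := {σ | ∀ x : E, n • x = 0 → σ • x - x ∈ D}
  one_mem' := fun x _ => by rw [one_smul, sub_self]; exact D.zero_mem
  mul_mem' := by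
    intro σ τ hσ hτ x hx
    have h1 : (σ * τ) • x - x = σ • (τ • x - x) + (σ • x - x) := by
      rw [mul_smul, smul_sub]; abel
    rw [h1]
    exact D.add_mem (hst σ _ (hτ x hx)) (hσ x hx)
  inv_mem' := by
    intro σ hσ x hx
    have h1 : σ⁻¹ • x - x = -(σ⁻¹ • (σ • x - x)) := by
      rw [smul_sub, inv_smul_smul]; abel
    rw [h1]
    exact D.neg_mem (hst σ⁻¹ _ (hσ x hx))

theorem mem_trivModSubgroup {n : ℕ} {D : AddSubgroup E}
    {hst : ∀ (σ : GQ), ∀ d ∈ D, σ • d ∈ D} {σ : GQ} :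
    σ ∈ trivModSubgroup n D hst ↔ ∀ x : E, n • x = 0 → σ • x - x ∈ D := Iff.rfl

instance trivModSubgroup_normal (n : ℕ) (D : AddSubgroup E)
    (hst : ∀ (σ : GQ), ∀ d ∈ D, σ • d ∈ D) : (trivModSubgroup n D hst).Normal where
  conj_mem := by
    intro σ hσ τ x hx
    have hx' : n • (τ⁻¹ • x) = 0 := by
      rw [smul_comm, hx, smul_zero]
    have h1 : (τ * σ * τ⁻¹) • x - x = τ • (σ • (τ⁻¹ • x) - τ⁻¹ • x) := by
      rw [mul_smul, mul_smul, smul_sub, smul_inv_smul]
    rw [h1]
    exact hst τ _ (hσ _ hx')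

/-- **the Minkowski step**. -/
theorem PreState.toState_of_inertia {p k : ℕ} {g : E} (h : PreState GQ p k g)
    (hopen : IsOpen {σ : GQ | ∀ x : E, p ^ k • x = 0 → σ • x = x})
    (hI : ∀ (ℓ : ℕ) (A : ValuationSubring Qbar), ℓ.Prime → A.LiesOverPrime ℓ →
      ∀ σ ∈ A.inertiaSubgroupIn ℚ, ∀ x : E, p ^ k • x = 0 → σ • x - x ∈ zmultiples g) :
    State GQ p k g := by
  have hst : ∀ (σ : GQ), ∀ d ∈ zmultiples g, σ • d ∈ zmultiples g :=
    fun σ d hd => stable_zmultiples h.stable σ hd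
  have hHopen : IsOpen ((trivModSubgroup (p ^ k) (zmultiples g) hst : Subgroup GQ) : Set GQ) := by
    apply Subgroup.isOpen_of_mem_nhds (g := (1 : GQ))
    refine Filter.mem_of_superset (hopen.mem_nhds (x := (1 : GQ)) ?_) ?_
    · intro x _
      exact one_smul _ x
    · intro σ hσ x hx
      rw [hσ x hx, sub_self]
      exact (zmultiples g).zero_mem
  have htop := Fermat.Agent.EC.eq_top_of_inertia_le _ hHopen
    (fun ℓ A hℓ hA σ hσ => mem_trivModSubgroup.mpr (hI ℓ A hℓ hA σ hσ))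
  refine ⟨h.order, h.stable, fun σ x hx => ?_⟩
  have : σ ∈ trivModSubgroup (p ^ k) (zmultiples g) hst := htop ▸ Subgroup.mem_top σ
  exact this x hx

end Fermat.Agent.FC
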