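/-
PROJECT FC (Frey chain, S12), block (C)/(CNT) (helper9), part 6: the chain on the Frey curve.

`Epts P := (P.freyCurve⁄ℚ̄).Point`.
* `frey_state_one_of_cofixed` : a Galois-stable cofixed line gives a `State` of level `1`;
* `frey_pow_le` : a `State` of level `k` gives `p ^ k ≤ ℓ² + 1` for every odd prime `ℓ ∤ p·abc`;
* `three_dvd_abc_of_state_one`, `three_dvd_abc_of_cofixed` : `3 ∣ abc` for `p ≥ 11`;
* `frey_state_false` : there is no `State` at every level.
-/
import Mathlib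
import Fermat.Agent.FC.C_helper9_Final
import Fermat.Agent.FC.C_helper9_Mink
import Fermat.Agent.S13.Assembly_helper6
import Fermat.Agent.S54_Frobenius
import Fermat.Agent.EC.TorsDiv_helper4

set_option autoImplicit false
set_option linter.style.haveILetI false
set_option linter.unusedSectionVars false

namespace Fermat.Agent.FC

open WeierstrassCurve WeierstrassCurve.Affine WeierstrassCurve.Affine.Point AddSubgroup
open Fermat.Agent.CFT.S14 Fermat.Agent.Tate
open scoped WeierstrassCurve.Affine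

/-- the points of the Frey curve over `ℚ̄` -/
abbrev Epts (P : FreyPackage) : Type := (P.freyCurve⁄Qbar).Point

section Basic

variable (P : FreyPackage)

theorem frey_divisible (x : Epts P) : ∃ y : Epts P, P.p • y = x :=
  Fermat.Agent.EC.exists_nsmul_eq (Fermat.Agent.EC.freyCurve_baseChange_Δ_ne P) P.pp
    (Fermat.Agent.EC.frey_p_ne_two P) x

theorem frey_card_torsN : Nat.card (torsN (Epts P) P.p) = P.p ^ 2 := by
  rw [card_torsN_eq_card_subtype]
  exact Fermat.Agent.EC.card_torsion_eq (Fermat.Agent.EC.freyCurve_baseChange_Δ_ne P) P.pp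
    (Fermat.Agent.EC.frey_p_ne_two P)

theorem frey_card_torsN_pow (k : ℕ) : Nat.card (torsN (Epts P) (P.p ^ k)) = (P.p ^ 2) ^ k := by
  rw [card_torsN_pow P.p (frey_divisible P) k, frey_card_torsN]

end Basic

section StateOne

variable (P : FreyPackage)

theorem zmod_smul_coe (c : ZMod P.p) (v : Fermat.Agent.S13.FreyTors P) :
    ((c • v : Fermat.Agent.S13.FreyTors P) : Epts P) = c.val • (v : Epts P) := by
  haveI : NeZero P.p := ⟨P.hp0⟩
  conv_lhs => rw [← ZMod.natCast_zmod_val c, Nat.cast_smul_eq_nsmul]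
  rfl

/-- **a Galois-stable cofixed line is a `State` of level one**, with the line remembered. -/
theorem frey_state_one_of_line (N : Submodule (ZMod P.p) (Fermat.Agent.S13.FreyTors P))
    (hN : IsGaloisStable ℚ N) (hbot : N ≠ ⊥) (htop : N ≠ ⊤)
    (hcof : ∀ (σ : GQ) (x : Fermat.Agent.S13.FreyTors P), σ • x - x ∈ N) :
    ∃ g : Epts P, State GQ P.p 1 g ∧
      ∀ Q : Epts P, Q ∈ zmultiples g ↔ ∃ x ∈ N, ((x : Fermat.Agent.S13.FreyTors P) : Epts P) = Q := by
  haveI : Fact P.p.Prime := ⟨P.pp⟩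
  haveI : Finite (Fermat.Agent.S13.FreyTors P) := Fermat.Agent.EC.frey_finite_torsionBy P
  have hfr : Module.finrank (ZMod P.p) (Fermat.Agent.S13.FreyTors P) = 2 :=
    Fermat.Agent.EC.frey_finrank_torsionBy P
  have hN1 : Module.finrank (ZMod P.p) N = 1 := by
    have h1 : Module.finrank (ZMod P.p) N < 2 := hfr ▸ Submodule.finrank_lt htop
    have h2 : 0 < Module.finrank (ZMod P.p) N := by
      rw [Module.finrank_pos_iff]
      exact Submodule.nontrivial_iff_ne_bot.mpr hbot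
    omega
  obtain ⟨n, hnN, hn0⟩ := Submodule.exists_mem_ne_zero_of_ne_bot hbot
  have hspan : ∀ w ∈ N, ∃ c : ZMod P.p, c • n = w := by
    intro w hw
    have := (finrank_eq_one_iff_of_nonzero' (⟨n, hnN⟩ : N)
      (fun h0 => hn0 (congrArg Subtype.val h0))).mp hN1 ⟨w, hw⟩
    obtain ⟨c, hc⟩ := this
    exact ⟨c, congrArg Subtype.val hc⟩
  have hmem : ∀ w ∈ N, ((w : Fermat.Agent.S13.FreyTors P) : Epts P) ∈
      zmultiples ((n : Fermat.Agent.S13.FreyTors P) : Epts P) := by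
    intro w hw
    obtain ⟨c, rfl⟩ := hspan w hw
    rw [zmod_smul_coe]
    exact nsmul_mem_zmultiples _ _
  have hnp : P.p • ((n : Fermat.Agent.S13.FreyTors P) : Epts P) = 0 := by
    have := n.2
    rw [Submodule.mem_torsionBy_iff, natCast_zsmul] at this
    exact this
  refine ⟨(n : Epts P), ⟨?_, ?_, ?_⟩, ?_⟩
  · rw [pow_one]
    exact addOrderOf_eq_prime hnp (fun h0 => hn0 (Subtype.ext h0))
  · intro σ
    exact hmem (σ • n) (hN σ n hnN)
  · intro σ x hx
    rw [pow_one] at hx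
    have hxt : x ∈ Submodule.torsionBy ℤ (Epts P) P.p := by
      rw [Submodule.mem_torsionBy_iff, natCast_zsmul]; exact hx
    exact hmem _ (hcof σ ⟨x, hxt⟩)
  · intro Q
    constructor
    · intro hQ
      obtain ⟨j, rfl⟩ := mem_zmultiples_iff.mp hQ
      exact ⟨j • n, N.smul_of_tower_mem j hnN, rfl⟩
    · rintro ⟨x, hx, rfl⟩
      exact hmem x hx

/-- **a Galois-stable cofixed line is a `State` of level one.** -/
theorem frey_state_one_of_cofixed
    (h : HasGaloisStableCofixedLine (K := AlgebraicClosure ℚ) ℚ P.freyCurve P.p) :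
    ∃ g : Epts P, State GQ P.p 1 g := by
  obtain ⟨N, hN, hbot, htop, hcof⟩ := h
  obtain ⟨g, hg, -⟩ := frey_state_one_of_line P N hN hbot htop hcof
  exact ⟨g, hg⟩

end StateOne

section Count

variable (P : FreyPackage)

/-- **the count on the Frey curve**: a `State` of level `k` gives `p ^ k ≤ ℓ² + 1` for every odd
prime `ℓ ≠ p` of good reduction. -/
theorem frey_pow_le {k : ℕ} {g : Epts P} (hS : State GQ P.p k g) {ℓ : ℕ} (hℓ : ℓ.Prime)
    (hℓ2 : ℓ ≠ 2) (hℓp : ℓ ≠ P.p) (hgood : ¬ (ℓ : ℤ) ∣ P.a * P.b * P.c) :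
    P.p ^ k ≤ ℓ ^ 2 + 1 := by
  obtain ⟨A, σ, hA, hσ⟩ := Fermat.Agent.S54.exists_frobenius ℓ hℓ
  have hqA : (ℓ : Qbar) ∈ A.nonunits := hA
  have hE : IsIntegralCurve A (P.freyCurve⁄Qbar) :=
    ⟨freyCurve_a₁_mem P A, freyCurve_a₂_mem P A hℓ hℓ2 hqA, freyCurve_a₃_mem P A,
      freyCurve_a₄_mem P A hℓ hℓ2 hqA, freyCurve_a₆_mem P A⟩
  have hΔ : (P.freyCurve⁄Qbar).Δ ∉ A.nonunits :=
    freyCurve_Δ_notMem_nonunits P A hℓ hℓ2 hqA hgood
  have hpu := prime_cast_mem_and_inv_mem A hℓ hqA P.pp hℓp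
  exact hS.pow_le_of_frobenius P.pp (Fermat.Agent.EC.frey_p_ne_two P) (frey_divisible P)
    (frey_card_torsN P) hE hΔ hℓ.one_lt hσ (Nat.cast_ne_zero.mpr P.hp0) hpu.2

/-- `3 ∣ abc` from a `State` of level one, `p ≥ 11`. -/
theorem three_dvd_abc_of_state_one {g : Epts P} (hS : State GQ P.p 1 g) (hp : 11 ≤ P.p) :
    (3 : ℤ) ∣ P.a * P.b * P.c := by
  by_contra h3
  have := frey_pow_le P hS Nat.prime_three (by norm_num) (by omega)
    (by exact_mod_cast h3)
  rw [pow_one] at this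
  omega

/-- **`3 ∣ abc`** if the Frey curve has a Galois-stable cofixed line, `p ≥ 11`. -/
theorem three_dvd_abc_of_cofixed
    (h : HasGaloisStableCofixedLine (K := AlgebraicClosure ℚ) ℚ P.freyCurve P.p)
    (hp : 11 ≤ P.p) : (3 : ℤ) ∣ P.a * P.b * P.c := by
  obtain ⟨g, hS⟩ := frey_state_one_of_cofixed P h
  exact three_dvd_abc_of_state_one P hS hp

/-- a good odd prime different from `p` -/
theorem exists_good_prime :
    ∃ ℓ : ℕ, ℓ.Prime ∧ ℓ ≠ 2 ∧ ℓ ≠ P.p ∧ ¬ (ℓ : ℤ) ∣ P.a * P.b * P.c := by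
  obtain ⟨ℓ, hge, hℓ⟩ := Nat.exists_infinite_primes ((P.a * P.b * P.c).natAbs + P.p + 3)
  refine ⟨ℓ, hℓ, by omega, by omega, fun hdvd => ?_⟩
  have h1 : ℓ ∣ (P.a * P.b * P.c).natAbs := Int.natCast_dvd.mp hdvd
  have h2 : 0 < (P.a * P.b * P.c).natAbs := Int.natAbs_pos.mpr P.habc0
  have := Nat.le_of_dvd h2 h1
  omega

/-- **the chain is finite**: there is no `State` at every level. -/
theorem frey_state_false (h : ∀ k : ℕ, 1 ≤ k → ∃ g : Epts P, State GQ P.p k g) : False := by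
  obtain ⟨ℓ, hℓ, hℓ2, hℓp, hgood⟩ := exists_good_prime P
  obtain ⟨g, hS⟩ := h (ℓ ^ 2 + 2) (by omega)
  have h1 := frey_pow_le P hS hℓ hℓ2 hℓp hgood
  have h2 : ℓ ^ 2 + 2 < P.p ^ (ℓ ^ 2 + 2) := Nat.lt_pow_self P.pp.one_lt
  omega

end Count

end Fermat.Agent.FC
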