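/-
PROJECT FC (Frey chain, S12), block (Q-z) (helper9): the `ℤ`-model step.

A Weierstrass curve `V` over `ℚ` whose coefficients are integral at every valuation subring of `ℚ̄`
over every prime `ℓ ≠ p` becomes integral after the scaling `u = p^{-e}`:
`exists_int_model_of_denominators`.
-/
import Mathlib
import Fermat.Agent.Tate.VC_helper7_Galois
import Fermat.Agent.Tate.Frey_helper7
import Fermat.Agent.S54_Frobenius
import Fermat.Prelude.Def_FLTPrelim_Ramification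

set_option autoImplicit false
set_option linter.style.haveILetI false
set_option linter.unusedSectionVars false

namespace Fermat.Agent.FC

open WeierstrassCurve WeierstrassCurve.Affine
open scoped WeierstrassCurve.Affine

/-- `Ω = AlgebraicClosure ℚ`. -/
local notation "Ω" => AlgebraicClosure ℚ
/-- `GQ = Gal(Ω/ℚ)`. -/
local notation "GQ" => (AlgebraicClosure ℚ ≃ₐ[ℚ] AlgebraicClosure ℚ)

section Den

/-- a rational number which is integral at every valuation subring of `ℚ̄` over every prime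
`ℓ ≠ p` has a power of `p` as denominator -/
theorem den_eq_prime_pow_of_integral (r : ℚ) {p : ℕ}
    (h : ∀ ℓ : ℕ, ℓ.Prime → ℓ ≠ p → ∀ A : ValuationSubring Ω, A.LiesOverPrime ℓ →
      algebraMap ℚ Ω r ∈ A) : ∃ j : ℕ, r.den = p ^ j := by
  refine ⟨_, Nat.eq_prime_pow_of_unique_prime_dvd r.den_nz ?_⟩
  intro d hd hdvd
  by_contra hdp
  obtain ⟨A, hA⟩ := Fermat.Agent.S54.exists_valuationSubring_liesOver (L := Ω) hd
  have hrA := h d hd hdp A hA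
  have hden : ((r.den : ℤ) : Ω) ∈ A.nonunits :=
    Fermat.Agent.Tate.intCast_mem_nonunits A hA (by exact_mod_cast hdvd)
  have hnum : ((r.num : ℤ) : Ω) ∉ A.nonunits := by
    refine Fermat.Agent.Tate.intCast_notMem_nonunits A hd hA ?_
    intro hn
    have h1 : d ∣ r.num.natAbs := Int.natCast_dvd.mp hn
    have h2 := Nat.dvd_gcd h1 hdvd
    rw [r.reduced] at h2
    exact hd.one_lt.ne' (Nat.dvd_one.mp h2)
  apply hnum
  have e : ((r.num : ℤ) : Ω) = ((r.den : ℤ) : Ω) * algebraMap ℚ Ω r := by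
    have h1 : (r.num : ℚ) = (r.den : ℚ) * r := by
      rw [mul_comm]; exact (Rat.mul_den_eq_num r).symm
    have h2 := congrArg (algebraMap ℚ Ω) h1
    rw [map_mul, map_intCast, map_natCast] at h2
    rw [Int.cast_natCast]
    exact h2
  rw [e]
  exact mul_mem_nonunits_left hden hrA
where
  mul_mem_nonunits_left {A : ValuationSubring Ω} {a b : Ω} (ha : a ∈ A.nonunits) (hb : b ∈ A) :
      a * b ∈ A.nonunits := by
    rw [A.mem_nonunits_iff] at ha ⊢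
    rw [map_mul]
    exact mul_lt_one_of_lt_of_le ha ((A.valuation_le_one_iff b).mpr hb)

/-- clearing a `p`-power denominator -/
theorem exists_int_eq_pow_mul (r : ℚ) {p j N : ℕ} (hj : r.den = p ^ j) (hN : j ≤ N) :
    ∃ n : ℤ, (n : ℚ) = (p : ℚ) ^ N * r := by
  obtain ⟨i, rfl⟩ := Nat.exists_eq_add_of_le hN
  refine ⟨r.num * (p : ℤ) ^ i, ?_⟩
  have h1 : (r.num : ℚ) = r * (r.den : ℚ) := (Rat.mul_den_eq_num r).symm
  push_cast
  rw [h1, hj]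
  push_cast
  ring

end Den

section Congr

/-- the identification of the groups of `ℚ̄`-points of two equal curves over `ℚ` -/
noncomputable def pointCongrQ {V₁ V₂ : WeierstrassCurve ℚ} (h : V₁ = V₂) :
    (V₁⁄Ω).Point ≃+ (V₂⁄Ω).Point :=
  h ▸ AddEquiv.refl _

theorem pointCongrQ_smul {V₁ V₂ : WeierstrassCurve ℚ} (h : V₁ = V₂) (σ : GQ)
    (P : (V₁⁄Ω).Point) : pointCongrQ h (σ • P) = σ • pointCongrQ h P := by
  subst h
  rfl

end Congr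

section Model

/-- **(Q-z), the `ℤ`-model step.** -/
theorem exists_int_model_of_denominators (V : WeierstrassCurve ℚ) {p : ℕ} (hp : p.Prime)
    (hint : ∀ ℓ : ℕ, ℓ.Prime → ℓ ≠ p → ∀ A : ValuationSubring Ω, A.LiesOverPrime ℓ →
      algebraMap ℚ Ω V.a₁ ∈ A ∧ algebraMap ℚ Ω V.a₂ ∈ A ∧ algebraMap ℚ Ω V.a₃ ∈ A ∧
        algebraMap ℚ Ω V.a₄ ∈ A ∧ algebraMap ℚ Ω V.a₆ ∈ A) :
    ∃ (W : WeierstrassCurve ℤ) (e : ℕ)
      (ψ : (V⁄Ω).Point ≃+ ((W.map (Int.castRingHom ℚ))⁄Ω).Point),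
      (∀ (σ : GQ) (P : (V⁄Ω).Point), ψ (σ • P) = σ • ψ P) ∧
      (W.a₁ : ℚ) = (p : ℚ) ^ e * V.a₁ ∧ (W.a₂ : ℚ) = (p : ℚ) ^ (2 * e) * V.a₂ ∧
      (W.a₃ : ℚ) = (p : ℚ) ^ (3 * e) * V.a₃ ∧ (W.a₄ : ℚ) = (p : ℚ) ^ (4 * e) * V.a₄ ∧
      (W.a₆ : ℚ) = (p : ℚ) ^ (6 * e) * V.a₆ := by
  obtain ⟨j₁, h₁⟩ := den_eq_prime_pow_of_integral V.a₁ (fun ℓ hℓ hℓp A hA => (hint ℓ hℓ hℓp A hA).1)
  obtain ⟨j₂, h₂⟩ := den_eq_prime_pow_of_integral V.a₂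
    (fun ℓ hℓ hℓp A hA => (hint ℓ hℓ hℓp A hA).2.1)
  obtain ⟨j₃, h₃⟩ := den_eq_prime_pow_of_integral V.a₃
    (fun ℓ hℓ hℓp A hA => (hint ℓ hℓ hℓp A hA).2.2.1)
  obtain ⟨j₄, h₄⟩ := den_eq_prime_pow_of_integral V.a₄
    (fun ℓ hℓ hℓp A hA => (hint ℓ hℓ hℓp A hA).2.2.2.1)
  obtain ⟨j₆, h₆⟩ := den_eq_prime_pow_of_integral V.a₆
    (fun ℓ hℓ hℓp A hA => (hint ℓ hℓ hℓp A hA).2.2.2.2)
  set e := j₁ + j₂ + j₃ + j₄ + j₆ with he
  obtain ⟨n₁, hn₁⟩ := exists_int_eq_pow_mul V.a₁ h₁ (show j₁ ≤ e by omega)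
  obtain ⟨n₂, hn₂⟩ := exists_int_eq_pow_mul V.a₂ h₂ (show j₂ ≤ 2 * e by omega)
  obtain ⟨n₃, hn₃⟩ := exists_int_eq_pow_mul V.a₃ h₃ (show j₃ ≤ 3 * e by omega)
  obtain ⟨n₄, hn₄⟩ := exists_int_eq_pow_mul V.a₄ h₄ (show j₄ ≤ 4 * e by omega)
  obtain ⟨n₆, hn₆⟩ := exists_int_eq_pow_mul V.a₆ h₆ (show j₆ ≤ 6 * e by omega)
  have hp0 : (p : ℚ) ≠ 0 := Nat.cast_ne_zero.mpr hp.ne_zero
  have hpe0 : ((p : ℚ) ^ e)⁻¹ ≠ 0 := inv_ne_zero (pow_ne_zero e hp0)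
  let C : VariableChange ℚ := ⟨Units.mk0 (((p : ℚ) ^ e)⁻¹) hpe0, 0, 0, 0⟩
  let W : WeierstrassCurve ℤ := ⟨n₁, n₂, n₃, n₄, n₆⟩
  have hu : ((C.u⁻¹ : ℚˣ) : ℚ) = (p : ℚ) ^ e := by
    show ((Units.mk0 (((p : ℚ) ^ e)⁻¹) hpe0)⁻¹ : ℚˣ).val = _
    rw [Units.val_inv_eq_inv_val, Units.val_mk0, inv_inv]
  have hW : W.map (Int.castRingHom ℚ) = C • V := by
    ext
    · show ((n₁ : ℤ) : ℚ) = (C • V).a₁
      rw [variableChange_a₁, hu, hn₁]; show _ = _ * (V.a₁ + 2 * 0); ring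
    · show ((n₂ : ℤ) : ℚ) = (C • V).a₂
      rw [variableChange_a₂, hu, hn₂]
      show _ = _ * (V.a₂ - 0 * V.a₁ + 3 * 0 - 0 ^ 2); ring
    · show ((n₃ : ℤ) : ℚ) = (C • V).a₃
      rw [variableChange_a₃, hu, hn₃]
      show _ = _ * (V.a₃ + 0 * V.a₁ + 2 * 0); ring
    · show ((n₄ : ℤ) : ℚ) = (C • V).a₄
      rw [variableChange_a₄, hu, hn₄]
      show _ = _ * (V.a₄ - 0 * V.a₃ + 2 * 0 * V.a₂ - (0 + 0 * 0) * V.a₁ + 3 * 0 ^ 2 - 2 * 0 * 0)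
      ring
    · show ((n₆ : ℤ) : ℚ) = (C • V).a₆
      rw [variableChange_a₆, hu, hn₆]
      show _ = _ * (V.a₆ + 0 * V.a₄ + 0 ^ 2 * V.a₂ + 0 ^ 3 - 0 * V.a₃ - 0 ^ 2 - 0 * 0 * V.a₁)
      ring
  refine ⟨W, e, (Fermat.Agent.Tate.vcPtBaseChange V C Ω).symm.trans (pointCongrQ hW.symm), ?_,
    hn₁, hn₂, hn₃, hn₄, hn₆⟩
  intro σ P
  rw [AddEquiv.trans_apply, AddEquiv.trans_apply, ← pointCongrQ_smul]
  congr 1
  apply (Fermat.Agent.Tate.vcPtBaseChange V C Ω).injective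
  rw [AddEquiv.apply_symm_apply, ← Fermat.Agent.Tate.smul_vcPtBaseChange,
    AddEquiv.apply_symm_apply]

end Model

end Fermat.Agent.FC
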