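/-
PROJECT FC — helper2 — block (Q), part 2: Vélu's formulas commute with the changes of variables
`x = x' + r`, `y = y' + s x' + t` (`u = 1`): `t` is invariant, `w ↦ w + r t`,
`C • veluCurve W S = veluCurve (C • W) S'`, and the `x`/`y`-formulas transform like coordinates.
Consequence: a Vélu homomorphism for `C • W` gives one for `W` (`IsVeluHom.of_variableChange`).
-/
import Mathlib
import Fermat.Agent.FC.Q_helper2_Defs
import Fermat.Agent.Tate.VC_helper7

set_option autoImplicit false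
set_option linter.unusedSectionVars false

namespace Fermat.Agent.FC

open WeierstrassCurve WeierstrassCurve.Affine Fermat.Agent.S13 Fermat.Agent.Tate

section symm

variable {F : Type*} [Field F] [DecidableEq F] (W : WeierstrassCurve F)

/-- `2y + a₁x + a₃` at a point (`0` at the origin). -/
def gYOf : W.toAffine.Point → F
  | 0 => 0
  | .some x y _ => 2 * y + W.a₁ * x + W.a₃

@[simp] theorem gYOf_zero : gYOf W 0 = 0 := rfl

@[simp] theorem gYOf_some {x y : F} (h : W.toAffine.Nonsingular x y) :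
    gYOf W (Point.some x y h) = 2 * y + W.a₁ * x + W.a₃ := rfl

theorem xOf_neg (P : W.toAffine.Point) : xOf (-P) = xOf P := by
  rcases P with _ | ⟨x, y, h⟩
  · rfl
  · rfl

theorem gYOf_neg (P : W.toAffine.Point) : gYOf W (-P) = -gYOf W P := by
  rcases P with _ | ⟨x, y, h⟩
  · show gYOf W 0 = -gYOf W 0
    simp
  · rw [Point.neg_some, gYOf_some, gYOf_some, Affine.negY]
    ring

variable (S : Finset W.toAffine.Point)

/-- a function which is odd under negation sums to zero over a symmetric finite set. -/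
theorem sum_eq_zero_of_odd (hS : ∀ d ∈ S, -d ∈ S) (h2 : (2 : F) ≠ 0)
    (g : W.toAffine.Point → F) (hg : ∀ d, g (-d) = -g d) : ∑ d ∈ S, g d = 0 := by
  have h : ∑ d ∈ S, g d = ∑ d ∈ S, g (-d) := by
    refine Finset.sum_nbij' (fun d => -d) (fun d => -d) hS hS ?_ ?_ ?_
    · intro d _; exact neg_neg d
    · intro d _; exact neg_neg d
    · intro d _; rw [neg_neg]
  simp only [hg, Finset.sum_neg_distrib] at h
  have h' : (2 : F) * ∑ d ∈ S, g d = 0 := by linear_combination h
  exact (mul_eq_zero.mp h').resolve_left h2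

/-- a function which is even under negation: sum over a symmetric set. -/
theorem sum_gYOf_eq_zero (hS : ∀ d ∈ S, -d ∈ S) (h2 : (2 : F) ≠ 0) :
    ∑ d ∈ S, gYOf W d = 0 :=
  sum_eq_zero_of_odd W S hS h2 _ (gYOf_neg W)

/-- `2 t = ∑ (6x² + b₂x + b₄)` for a symmetric set not containing `0`. -/
theorem two_mul_veluT (hS : ∀ d ∈ S, -d ∈ S) (h2 : (2 : F) ≠ 0) (h0 : (0 : W.toAffine.Point) ∉ S) :
    2 * veluT W S = ∑ d ∈ S, (6 * xOf d ^ 2 + W.b₂ * xOf d + W.b₄) := by
  have h1 : ∀ d ∈ S, 2 * (3 * xOf d ^ 2 + 2 * W.a₂ * xOf d + W.a₄ - W.a₁ * yOf d) =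
      (6 * xOf d ^ 2 + W.b₂ * xOf d + W.b₄) - W.a₁ * gYOf W d := by
    intro d hd
    rcases d with _ | ⟨x, y, h⟩
    · exact absurd hd h0
    · simp only [xOf_some, yOf_some, gYOf_some, WeierstrassCurve.b₂, WeierstrassCurve.b₄]
      ring
  rw [veluT, Finset.mul_sum, Finset.sum_congr rfl h1, Finset.sum_sub_distrib, ← Finset.mul_sum,
    sum_gYOf_eq_zero W S hS h2, mul_zero, sub_zero]

end symm

section vc

variable {F : Type*} [Field F] [DecidableEq F] (W : WeierstrassCurve F)
  (C : WeierstrassCurve.VariableChange F)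

/-- the image of a finite set of points of `C • W` in `W`. -/
noncomputable def vcImage (S' : Finset (C • W).toAffine.Point) : Finset W.toAffine.Point :=
  S'.map ⟨vcPt W C, vcPt_injective W C⟩

theorem mem_vcImage {S' : Finset (C • W).toAffine.Point} {Q : W.toAffine.Point} :
    Q ∈ vcImage W C S' ↔ ∃ P ∈ S', vcPt W C P = Q := by
  simp [vcImage]

theorem sum_vcImage {M : Type*} [AddCommMonoid M] (S' : Finset (C • W).toAffine.Point)
    (g : W.toAffine.Point → M) :
    ∑ d ∈ vcImage W C S', g d = ∑ d ∈ S', g (vcPt W C d) := by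
  simp [vcImage]

theorem xOf_vcPt {P : (C • W).toAffine.Point} (hP : P ≠ 0) :
    xOf (vcPt W C P) = vcX C (xOf P) := by
  rcases P with _ | ⟨x, y, h⟩
  · exact absurd rfl hP
  · rfl

theorem yOf_vcPt {P : (C • W).toAffine.Point} (hP : P ≠ 0) :
    yOf (vcPt W C P) = vcY C (xOf P) (yOf P) := by
  rcases P with _ | ⟨x, y, h⟩
  · exact absurd rfl hP
  · rfl

theorem vcPt_ne_zero {P : (C • W).toAffine.Point} (hP : P ≠ 0) : vcPt W C P ≠ 0 := by
  intro h
  exact hP (vcPt_injective W C (h.trans (vcPt_zero W C).symm))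

variable (hu : C.u = 1) (S' : Finset (C • W).toAffine.Point)
  (h0 : (0 : (C • W).toAffine.Point) ∉ S') (hneg : ∀ d ∈ S', -d ∈ S') (h2 : (2 : F) ≠ 0)

include hu in
theorem vcX_of_u_eq_one (x : F) : vcX C x = x + C.r := by
  simp [vcX, hu]

include hu in
theorem vcY_of_u_eq_one (x y : F) : vcY C x y = y + C.s * x + C.t := by
  simp [vcY, hu]

include h0 in
theorem zero_notMem_vcImage : (0 : W.toAffine.Point) ∉ vcImage W C S' := by
  rw [mem_vcImage]
  rintro ⟨P, hP, h⟩
  have : P = 0 := vcPt_injective W C (h.trans (vcPt_zero W C).symm)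
  exact h0 (this ▸ hP)

include hneg in
theorem neg_mem_vcImage : ∀ d ∈ vcImage W C S', -d ∈ vcImage W C S' := by
  intro d hd
  obtain ⟨P, hP, rfl⟩ := (mem_vcImage W C).mp hd
  exact (mem_vcImage W C).mpr ⟨-P, hneg P hP, vcPt_neg W C P⟩

include hu h0 hneg h2 in
/-- `t` is invariant under `u = 1` changes of variables. -/
theorem veluT_vc : veluT W (vcImage W C S') = veluT (C • W) S' := by
  have hA := two_mul_veluT W (vcImage W C S') (neg_mem_vcImage W C S' hneg) h2
    (zero_notMem_vcImage W C S' h0)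
  have hB := two_mul_veluT (C • W) S' hneg h2 h0
  have hterm : ∀ d ∈ S', 6 * xOf (vcPt W C d) ^ 2 + W.b₂ * xOf (vcPt W C d) + W.b₄ =
      6 * xOf d ^ 2 + (C • W).b₂ * xOf d + (C • W).b₄ := by
    intro d hd
    have hd0 : d ≠ 0 := fun h => h0 (h ▸ hd)
    rw [xOf_vcPt W C hd0, vcX_of_u_eq_one C hu, variableChange_b₂, variableChange_b₄]
    simp only [hu, inv_one, Units.val_one, one_pow, one_mul]
    ring
  rw [sum_vcImage, Finset.sum_congr rfl hterm, ← hB] at hA
  exact mul_left_cancel₀ h2 hA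

include hu h0 hneg h2 in
/-- `w ↦ w + r t` under `u = 1` changes of variables. -/
theorem veluW_vc :
    veluW W (vcImage W C S') = veluW (C • W) S' + C.r * veluT (C • W) S' := by
  have hB := two_mul_veluT (C • W) S' hneg h2 h0
  have hterm : ∀ d ∈ S',
      10 * xOf (vcPt W C d) ^ 3 + 2 * W.b₂ * xOf (vcPt W C d) ^ 2 + 3 * W.b₄ * xOf (vcPt W C d)
        + W.b₆ =
      (10 * xOf d ^ 3 + 2 * (C • W).b₂ * xOf d ^ 2 + 3 * (C • W).b₄ * xOf d + (C • W).b₆) +
        C.r * (6 * xOf d ^ 2 + (C • W).b₂ * xOf d + (C • W).b₄) := by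
    intro d hd
    have hd0 : d ≠ 0 := fun h => h0 (h ▸ hd)
    rw [xOf_vcPt W C hd0, vcX_of_u_eq_one C hu, variableChange_b₂, variableChange_b₄,
      variableChange_b₆]
    simp only [hu, inv_one, Units.val_one, one_pow, one_mul]
    ring
  rw [veluW, sum_vcImage, Finset.sum_congr rfl hterm, Finset.sum_add_distrib, ← Finset.mul_sum,
    ← hB, veluW]
  field_simp

include hu h0 hneg h2 in
/-- Vélu's curve commutes with `u = 1` changes of variables. -/
theorem veluCurve_vc : C • veluCurve W (vcImage W C S') = veluCurve (C • W) S' := by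
  have hT := veluT_vc W C hu S' h0 hneg h2
  have hW := veluW_vc W C hu S' h0 hneg h2
  ext
  · simp [variableChange_a₁]
  · simp [variableChange_a₂]
  · simp [variableChange_a₃]
  · simp only [variableChange_a₄, veluCurve_a₁, veluCurve_a₂, veluCurve_a₃, veluCurve_a₄, hT]
    simp only [hu, inv_one, Units.val_one, one_pow, one_mul]
    ring
  · simp only [variableChange_a₆, variableChange_b₂, veluCurve_a₁, veluCurve_a₂, veluCurve_a₃,
      veluCurve_a₄, veluCurve_a₆, hT, hW]
    simp only [hu, inv_one, Units.val_one, one_pow, one_mul]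
    ring

include hu h0 in
/-- the `x`-formula transforms like an `x`-coordinate. -/
theorem veluX_vc {P : (C • W).toAffine.Point} (hP : P ≠ 0) (hPd : ∀ d ∈ S', P + d ≠ 0) :
    veluX W (vcImage W C S') (vcPt W C P) = vcX C (veluX (C • W) S' P) := by
  have hterm : ∀ d ∈ S', xOf (vcPt W C P + vcPt W C d) - xOf (vcPt W C d) =
      xOf (P + d) - xOf d := by
    intro d hd
    have hd0 : d ≠ 0 := fun h => h0 (h ▸ hd)
    rw [← vcPt_add, xOf_vcPt W C (hPd d hd), xOf_vcPt W C hd0, vcX_of_u_eq_one C hu,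
      vcX_of_u_eq_one C hu]
    ring
  rw [veluX, sum_vcImage, Finset.sum_congr rfl hterm, xOf_vcPt W C hP, vcX_of_u_eq_one C hu,
    vcX_of_u_eq_one C hu, veluX]
  ring

include hu h0 in
/-- the `y`-formula transforms like a `y`-coordinate. -/
theorem veluY_vc {P : (C • W).toAffine.Point} (hP : P ≠ 0) (hPd : ∀ d ∈ S', P + d ≠ 0) :
    veluY W (vcImage W C S') (vcPt W C P) =
      vcY C (veluX (C • W) S' P) (veluY (C • W) S' P) := by
  have hterm : ∀ d ∈ S', yOf (vcPt W C P + vcPt W C d) - yOf (vcPt W C d) =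
      (yOf (P + d) - yOf d) + C.s * (xOf (P + d) - xOf d) := by
    intro d hd
    have hd0 : d ≠ 0 := fun h => h0 (h ▸ hd)
    rw [← vcPt_add, yOf_vcPt W C (hPd d hd), yOf_vcPt W C hd0, vcY_of_u_eq_one C hu,
      vcY_of_u_eq_one C hu]
    ring
  rw [veluY, sum_vcImage, Finset.sum_congr rfl hterm, yOf_vcPt W C hP, vcY_of_u_eq_one C hu,
    vcY_of_u_eq_one C hu, veluY, veluX, Finset.sum_add_distrib, ← Finset.mul_sum]
  ring

end vc

end Fermat.Agent.FC
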