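/-
PROJECT FC — helper2 — block (Q), part 3: the predicate `IsVeluHom W D S φ` ("`φ` is a
homomorphism `W → veluCurve W S` with kernel `D`, given by Vélu's formulas off `D`") and its
transport (i) along `u = 1` changes of variables, (ii) DOWN along a field homomorphism (descent:
the formulas are algebraic, so a Vélu homomorphism over the big field restricts to the small one).
-/
import Mathlib
import Fermat.Agent.FC.Q_helper2_VC

set_option autoImplicit false
set_option linter.unusedSectionVars false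

namespace Fermat.Agent.FC

open WeierstrassCurve WeierstrassCurve.Affine Fermat.Agent.S13 Fermat.Agent.Tate

/-- `φ : W → veluCurve W S` is a homomorphism with kernel `D` given by Vélu's formulas off `D`. -/
structure IsVeluHom {F : Type*} [Field F] [DecidableEq F] (W : WeierstrassCurve F)
    (D : AddSubgroup W.toAffine.Point) (S : Finset W.toAffine.Point)
    (φ : W.toAffine.Point →+ (veluCurve W S).toAffine.Point) : Prop where
  ker : ∀ P, φ P = 0 ↔ P ∈ D
  formula : ∀ P, P ∉ D → ∃ h, φ P = Point.some (veluX W S P) (veluY W S P) h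

section descent

variable {F₁ F₂ : Type*} [Field F₁] [Field F₂] [DecidableEq F₁] [DecidableEq F₂]
  (f : F₁ →+* F₂) (W₁ : WeierstrassCurve F₁) (W₂ : WeierstrassCurve F₂) (h : W₁.map f = W₂)
  (D₁ : AddSubgroup W₁.toAffine.Point) (S₁ : Finset W₁.toAffine.Point)

/-- **descent of a Vélu homomorphism** along a field homomorphism. -/
theorem IsVeluHom.descent
    (φ₂ : W₂.toAffine.Point →+ (veluCurve W₂ (ptImage f W₁ W₂ h S₁)).toAffine.Point)
    (hφ₂ : IsVeluHom W₂ (D₁.map (ptMap f W₁ W₂ h)) (ptImage f W₁ W₂ h S₁) φ₂) :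
    ∃ φ₁ : W₁.toAffine.Point →+ (veluCurve W₁ S₁).toAffine.Point, IsVeluHom W₁ D₁ S₁ φ₁ ∧
      ∀ P, ptMap f (veluCurve W₁ S₁) (veluCurve W₂ (ptImage f W₁ W₂ h S₁))
        (veluCurve_map f W₁ W₂ h S₁) (φ₁ P) = φ₂ (ptMap f W₁ W₂ h P) := by
  classical
  set ι := ptMap f W₁ W₂ h with hι
  set ι' := ptMap f (veluCurve W₁ S₁) (veluCurve W₂ (ptImage f W₁ W₂ h S₁))
    (veluCurve_map f W₁ W₂ h S₁) with hι'
  have hιinj : Function.Injective ι := ptMap_injective f W₁ W₂ h
  have hι'inj : Function.Injective ι' := ptMap_injective f _ _ _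
  have hmem : ∀ P, ι P ∈ D₁.map ι ↔ P ∈ D₁ := by
    intro P
    constructor
    · rintro ⟨Q, hQ, hQP⟩
      exact hιinj hQP ▸ hQ
    · intro hP
      exact ⟨P, hP, rfl⟩
  -- nonsingularity of the formula point over the small field
  have hns : ∀ P, P ∉ D₁ →
      (veluCurve W₁ S₁).toAffine.Nonsingular (veluX W₁ S₁ P) (veluY W₁ S₁ P) := by
    intro P hP
    obtain ⟨h2, -⟩ := hφ₂.formula (ι P) (fun hc => hP ((hmem P).mp hc))
    rw [veluX_map, veluY_map] at h2
    have h3 : ((veluCurve W₁ S₁).map f).toAffine.Nonsingular (f (veluX W₁ S₁ P))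
        (f (veluY W₁ S₁ P)) := by
      rw [veluCurve_map f W₁ W₂ h S₁]
      exact h2
    exact (Affine.map_nonsingular (W := (veluCurve W₁ S₁).toAffine) f.injective _ _).mp h3
  let g : W₁.toAffine.Point → (veluCurve W₁ S₁).toAffine.Point := fun P =>
    if hP : P ∈ D₁ then 0 else Point.some (veluX W₁ S₁ P) (veluY W₁ S₁ P) (hns P hP)
  have hg : ∀ P, ι' (g P) = φ₂ (ι P) := by
    intro P
    by_cases hP : P ∈ D₁
    · have : g P = 0 := dif_pos hP
      rw [this, map_zero]
      exact ((hφ₂.ker (ι P)).mpr ((hmem P).mpr hP)).symm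
    · have : g P = Point.some (veluX W₁ S₁ P) (veluY W₁ S₁ P) (hns P hP) := dif_neg hP
      rw [this]
      obtain ⟨h2, h3⟩ := hφ₂.formula (ι P) (fun hc => hP ((hmem P).mp hc))
      rw [h3, hι', ptMap_some]
      simp only [Point.some.injEq]
      exact ⟨(veluX_map f W₁ W₂ h S₁ P).symm, (veluY_map f W₁ W₂ h S₁ P).symm⟩
  refine ⟨{ toFun := g, map_zero' := ?_, map_add' := ?_ }, ⟨?_, ?_⟩, hg⟩
  · exact dif_pos D₁.zero_mem
  · intro P Q
    apply hι'inj
    rw [hg, map_add, map_add, map_add, hg, hg]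
  · intro P
    show g P = 0 ↔ P ∈ D₁
    constructor
    · intro h0
      have := hg P
      rw [h0, map_zero] at this
      exact (hmem P).mp ((hφ₂.ker (ι P)).mp this.symm)
    · intro hP
      exact dif_pos hP
  · intro P hP
    exact ⟨hns P hP, dif_neg hP⟩

end descent

section vc

variable {F : Type*} [Field F] [DecidableEq F] (W : WeierstrassCurve F)
  (C : WeierstrassCurve.VariableChange F) (hu : C.u = 1) (h2 : (2 : F) ≠ 0)
  (D : AddSubgroup W.toAffine.Point) (S : Finset W.toAffine.Point)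
  (hS : ∀ d, d ∈ S ↔ d ∈ D ∧ d ≠ 0)

/-- the preimage of a finite set of points of `W` in `C • W`. -/
noncomputable def vcPreimage : Finset (C • W).toAffine.Point :=
  S.map ⟨(vcPtEquiv W C).symm, (vcPtEquiv W C).symm.injective⟩

theorem mem_vcPreimage {P : (C • W).toAffine.Point} : P ∈ vcPreimage W C S ↔ vcPt W C P ∈ S := by
  simp only [vcPreimage, Finset.mem_map, Function.Embedding.coeFn_mk]
  constructor
  · rintro ⟨Q, hQ, rfl⟩
    rw [← vcPtEquiv_apply, AddEquiv.apply_symm_apply]
    exact hQ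
  · intro hP
    exact ⟨vcPt W C P, hP, by rw [← vcPtEquiv_apply, AddEquiv.symm_apply_apply]⟩

theorem vcImage_vcPreimage : vcImage W C (vcPreimage W C S) = S := by
  ext Q
  rw [mem_vcImage]
  constructor
  · rintro ⟨P, hP, rfl⟩
    exact (mem_vcPreimage W C S).mp hP
  · intro hQ
    refine ⟨(vcPtEquiv W C).symm Q, (mem_vcPreimage W C S).mpr ?_, ?_⟩
    · rw [← vcPtEquiv_apply, AddEquiv.apply_symm_apply]; exact hQ
    · rw [← vcPtEquiv_apply, AddEquiv.apply_symm_apply]

include hu h2 hS in
/-- **a Vélu homomorphism for `C • W` (`u = 1`) gives one for `W`.** -/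
theorem IsVeluHom.of_variableChange
    (φ' : (C • W).toAffine.Point →+
      (veluCurve (C • W) (vcPreimage W C S)).toAffine.Point)
    (hφ' : IsVeluHom (C • W) (D.comap (vcPtHom W C)) (vcPreimage W C S) φ') :
    ∃ φ : W.toAffine.Point →+ (veluCurve W S).toAffine.Point, IsVeluHom W D S φ := by
  classical
  have hSS' : vcImage W C (vcPreimage W C S) = S := vcImage_vcPreimage W C S
  have hmemS' : ∀ d, d ∈ vcPreimage W C S ↔ vcPt W C d ∈ D ∧ d ≠ 0 := by
    intro d
    rw [mem_vcPreimage, hS]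
    constructor
    · rintro ⟨h1, h2⟩
      exact ⟨h1, fun h => h2 (by rw [h, vcPt_zero])⟩
    · rintro ⟨h1, h2⟩
      exact ⟨h1, vcPt_ne_zero W C h2⟩
  have h0 : (0 : (C • W).toAffine.Point) ∉ vcPreimage W C S := fun h => ((hmemS' 0).mp h).2 rfl
  have hneg : ∀ d ∈ vcPreimage W C S, -d ∈ vcPreimage W C S := by
    intro d hd
    obtain ⟨h1, h2⟩ := (hmemS' d).mp hd
    refine (hmemS' (-d)).mpr ⟨?_, neg_ne_zero.mpr h2⟩
    rw [vcPt_neg]
    exact D.neg_mem h1
  -- the curve equality
  have hcurve : C • veluCurve W S = veluCurve (C • W) (vcPreimage W C S) := by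
    have := veluCurve_vc W C hu (vcPreimage W C S) h0 hneg h2
    rwa [hSS'] at this
  -- cast along the curve equality
  let κ : (veluCurve (C • W) (vcPreimage W C S)).toAffine.Point →+ (C • veluCurve W S).toAffine.Point :=
    ptMap (RingHom.id F) _ _ (by rw [WeierstrassCurve.map_id]; exact hcurve.symm)
  let φ : W.toAffine.Point →+ (veluCurve W S).toAffine.Point :=
    (vcPtHom (veluCurve W S) C).comp (κ.comp (φ'.comp (vcPtEquiv W C).symm.toAddMonoidHom))
  have hκinj : Function.Injective κ := ptMap_injective _ _ _ _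
  refine ⟨φ, ⟨?_, ?_⟩⟩
  · intro P
    show vcPt (veluCurve W S) C (κ (φ' ((vcPtEquiv W C).symm P))) = 0 ↔ P ∈ D
    constructor
    · intro h
      have h1 : κ (φ' ((vcPtEquiv W C).symm P)) = 0 :=
        vcPt_injective _ C (h.trans (vcPt_zero _ C).symm)
      have h2' : φ' ((vcPtEquiv W C).symm P) = 0 := hκinj (h1.trans (map_zero κ).symm)
      have h3 := (hφ'.ker _).mp h2'
      have h4 : vcPt W C ((vcPtEquiv W C).symm P) ∈ D := h3
      rwa [← vcPtEquiv_apply, AddEquiv.apply_symm_apply] at h4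
    · intro hP
      have h3 : (vcPtEquiv W C).symm P ∈ D.comap (vcPtHom W C) := by
        show vcPt W C ((vcPtEquiv W C).symm P) ∈ D
        rw [← vcPtEquiv_apply, AddEquiv.apply_symm_apply]; exact hP
      rw [(hφ'.ker _).mpr h3, map_zero, vcPt_zero]
  · intro P hP
    set P' := (vcPtEquiv W C).symm P with hP'
    have hPP' : vcPt W C P' = P := by
      rw [hP', ← vcPtEquiv_apply, AddEquiv.apply_symm_apply]
    have hP'D : P' ∉ D.comap (vcPtHom W C) := by
      intro hc
      apply hP
      have : vcPt W C P' ∈ D := hc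
      rwa [hPP'] at this
    have hP'0 : P' ≠ 0 := by
      intro hc
      apply hP'D
      rw [hc]
      exact (D.comap (vcPtHom W C)).zero_mem
    have hP'd : ∀ d ∈ vcPreimage W C S, P' + d ≠ 0 := by
      intro d hd hc
      apply hP'D
      have hPd : P' = -d := eq_neg_of_add_eq_zero_left hc
      rw [hPd]
      have := (hmemS' (-d)).mp (hneg d hd)
      exact this.1
    obtain ⟨hns, hform⟩ := hφ'.formula P' hP'D
    have hX := veluX_vc W C hu (vcPreimage W C S) h0 hP'0 hP'd
    have hY := veluY_vc W C hu (vcPreimage W C S) h0 hP'0 hP'd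
    rw [hSS', hPP'] at hX hY
    have hval : φ P = vcPt (veluCurve W S) C (κ (φ' P')) := rfl
    rw [hval, hform]
    show ∃ h, vcPt (veluCurve W S) C (ptMap (RingHom.id F) _ _ _ (Point.some _ _ hns)) = _
    rw [ptMap_some, vcPt_some]
    have hN' : (C • veluCurve W S).toAffine.Nonsingular
        (veluX (C • W) (vcPreimage W C S) P') (veluY (C • W) (vcPreimage W C S) P') := by
      rw [hcurve]; exact hns
    have hN := (nonsingular_vc (veluCurve W S) C _ _).mp hN'
    refine ⟨by rw [hX, hY]; exact hN, ?_⟩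
    simp only [Point.some.injEq, RingHom.id_apply]
    exact ⟨hX.symm, hY.symm⟩

end vc

end Fermat.Agent.FC
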