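/-
PROJECT FC — helper2 — block (Q), part 4: Vélu over `ℂ` for a general Weierstrass equation, from the
short-form statement for `curveOf L` (hypothesis `VeluCurveOfHyp`, supplied by (Q-an)):
translate to the short form with a `u = 1` change of variables, uniformise, transfer back.
-/
import Mathlib
import Fermat.Agent.FC.Q_helper2_Hom
import Fermat.Agent.S13.A_helper8_Model

set_option autoImplicit false
set_option linter.unusedSectionVars false

namespace Fermat.Agent.FC

open WeierstrassCurve WeierstrassCurve.Affine Fermat.Agent.S13 Fermat.Agent.Tate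
open scoped PeriodPair
open Fermat.Agent.Tate.CX

/-- the interface expected from (Q-an): Vélu for the short forms `curveOf L`. -/
def VeluCurveOfHyp : Prop :=
  ∀ (L : PeriodPair) (D : AddSubgroup (curveOf L).toAffine.Point), Finite D →
    ∀ S : Finset (curveOf L).toAffine.Point, (∀ d, d ∈ S ↔ d ∈ D ∧ d ≠ 0) →
      ∃ L' : PeriodPair, veluCurve (curveOf L) S = curveOf L' ∧
        ∃ φ : (curveOf L).toAffine.Point →+ (veluCurve (curveOf L) S).toAffine.Point,
          IsVeluHom (curveOf L) D S φ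

/-- the discriminant of `curveOf L`. -/
theorem curveOf_Δ (L : PeriodPair) : (curveOf L).Δ = L.g₂ ^ 3 - 27 * L.g₃ ^ 2 := by
  simp only [WeierstrassCurve.Δ, WeierstrassCurve.b₂, WeierstrassCurve.b₄, WeierstrassCurve.b₆,
    WeierstrassCurve.b₈, curveOf_a₁, curveOf_a₂, curveOf_a₃, curveOf_a₄, curveOf_a₆]
  ring

/-- the cubic `4x³ - g₂x - g₃` of a lattice has no multiple root. -/
theorem curveOf_Δ_ne_zero (L : PeriodPair) : (curveOf L).Δ ≠ 0 := by
  rw [curveOf_Δ]
  intro h
  -- a double root `e`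
  obtain ⟨e, he1, he2⟩ : ∃ e : ℂ, 4 * e ^ 3 - L.g₂ * e - L.g₃ = 0 ∧ 12 * e ^ 2 - L.g₂ = 0 := by
    by_cases hg : L.g₂ = 0
    · have hg3 : L.g₃ = 0 := by
        rw [hg] at h
        have : L.g₃ ^ 2 = 0 := by linear_combination (-1 / 27 : ℂ) * h
        exact pow_eq_zero_iff (two_ne_zero) |>.mp this
      exact ⟨0, by rw [hg, hg3]; ring, by rw [hg]; ring⟩
    · refine ⟨-3 * L.g₃ / (2 * L.g₂), ?_, ?_⟩
      · field_simp
        linear_combination (4 * L.g₃ : ℂ) * h
      · field_simp
        linear_combination (-4 : ℂ) * h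
  obtain ⟨z, hz, hze⟩ := S13.exists_weierstrassP_eq L e
  have h1 : ℘'[L] z = 0 := by
    have := L.derivWeierstrassP_sq z hz
    rw [hze, he1] at this
    exact pow_eq_zero_iff (two_ne_zero) |>.mp this
  have h2 := deriv_derivWeierstrassP_ne_zero L hz h1
  rw [deriv_derivWeierstrassP L hz, hze] at h2
  apply h2
  linear_combination (1 / 2 : ℂ) * he2

section short

variable {F : Type*} [Field F] (W : WeierstrassCurve F)

/-- the `u = 1` change of variables to the short Weierstrass form. -/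
def shortVC : WeierstrassCurve.VariableChange F :=
  ⟨1, -W.b₂ / 12, -W.a₁ / 2, -(W.a₃ + (-W.b₂ / 12) * W.a₁) / 2⟩

@[simp] theorem shortVC_u : (shortVC W).u = 1 := rfl

theorem shortVC_smul (h2 : (2 : F) ≠ 0) (h3 : (3 : F) ≠ 0) :
    shortVC W • W = ⟨0, 0, 0, -W.c₄ / 48, -W.c₆ / 864⟩ := by
  have h12 : (12 : F) ≠ 0 := by
    have : (12 : F) = 2 * 2 * 3 := by norm_num
    rw [this]; exact mul_ne_zero (mul_ne_zero h2 h2) h3
  have h48 : (48 : F) ≠ 0 := by
    have : (48 : F) = 2 * 2 * 12 := by norm_num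
    rw [this]; exact mul_ne_zero (mul_ne_zero h2 h2) h12
  have h864 : (864 : F) ≠ 0 := by
    have : (864 : F) = 2 * 3 * 3 * 48 := by norm_num
    rw [this]; exact mul_ne_zero (mul_ne_zero (mul_ne_zero h2 h3) h3) h48
  ext
  · simp only [variableChange_a₁, shortVC, inv_one, Units.val_one, one_mul]
    field_simp
    ring
  · simp only [variableChange_a₂, shortVC, inv_one, Units.val_one, one_pow, one_mul,
      WeierstrassCurve.b₂]
    field_simp
    ring
  · simp only [variableChange_a₃, shortVC, inv_one, Units.val_one, one_pow, one_mul]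
    field_simp
    ring
  · simp only [variableChange_a₄, shortVC, inv_one, Units.val_one, one_pow, one_mul,
      WeierstrassCurve.c₄, WeierstrassCurve.b₂, WeierstrassCurve.b₄]
    field_simp
    ring
  · simp only [variableChange_a₆, shortVC, inv_one, Units.val_one, one_pow, one_mul,
      WeierstrassCurve.c₆, WeierstrassCurve.b₂, WeierstrassCurve.b₄, WeierstrassCurve.b₆]
    field_simp
    ring

end short

/-- every elliptic curve over `ℂ` is a `u = 1` variable change of some `curveOf L`. -/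
theorem exists_shortVC_eq_curveOf (W : WeierstrassCurve ℂ) (hΔ : W.Δ ≠ 0) :
    ∃ L : PeriodPair, shortVC W • W = curveOf L := by
  obtain ⟨L, h2, h3⟩ := exists_periodPair (W.c₄ / 12) (W.c₆ / 216) (by
    intro h
    apply hΔ
    have := W.c_relation
    linear_combination (1 : ℂ) * h + (1 / 1728 : ℂ) * this)
  refine ⟨L, ?_⟩
  rw [shortVC_smul W two_ne_zero three_ne_zero]
  ext
  · rfl
  · rfl
  · rfl
  · rw [curveOf_a₄, h2]; ring
  · rw [curveOf_a₆, h3]; ring

/-- **Vélu over `ℂ`, general Weierstrass form.** -/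
theorem exists_isVeluHom_complex (hyp : VeluCurveOfHyp) (W : WeierstrassCurve ℂ) (hΔ : W.Δ ≠ 0)
    (D : AddSubgroup W.toAffine.Point) [Finite D] (S : Finset W.toAffine.Point)
    (hS : ∀ d, d ∈ S ↔ d ∈ D ∧ d ≠ 0) :
    (veluCurve W S).Δ ≠ 0 ∧
      ∃ φ : W.toAffine.Point →+ (veluCurve W S).toAffine.Point, IsVeluHom W D S φ := by
  classical
  obtain ⟨L, hL⟩ := exists_shortVC_eq_curveOf W hΔ
  set C := shortVC W with hC
  have hu : C.u = 1 := rfl
  -- the data on `C • W`
  set D' : AddSubgroup (C • W).toAffine.Point := D.comap (vcPtHom W C) with hD'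
  have hfin : Finite D' := by
    have hinj : Function.Injective (fun x : D' => (⟨vcPt W C x.1, x.2⟩ : D)) := by
      intro x y hxy
      have := congrArg Subtype.val hxy
      exact Subtype.ext (vcPt_injective W C this)
    exact Finite.of_injective _ hinj
  have hS' : ∀ d, d ∈ vcPreimage W C S ↔ d ∈ D' ∧ d ≠ 0 := by
    intro d
    rw [mem_vcPreimage, hS]
    constructor
    · rintro ⟨h1, h2⟩
      exact ⟨h1, fun h => h2 (by rw [h, vcPt_zero])⟩
    · rintro ⟨h1, h2⟩
      exact ⟨h1, vcPt_ne_zero W C h2⟩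
  -- apply the hypothesis, transported along `C • W = curveOf L`
  have key : ∀ (V : WeierstrassCurve ℂ), V = curveOf L →
      ∀ (D'' : AddSubgroup V.toAffine.Point), Finite D'' →
      ∀ S'' : Finset V.toAffine.Point, (∀ d, d ∈ S'' ↔ d ∈ D'' ∧ d ≠ 0) →
      (veluCurve V S'').Δ ≠ 0 ∧
        ∃ φ : V.toAffine.Point →+ (veluCurve V S'').toAffine.Point, IsVeluHom V D'' S'' φ := by
    intro V hV
    subst hV
    intro D'' hfin'' S'' hS''
    obtain ⟨L', hL', φ, hφ⟩ := hyp L D'' hfin'' S'' hS''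
    exact ⟨by rw [hL']; exact curveOf_Δ_ne_zero L', φ, hφ⟩
  obtain ⟨hΔ', φ', hφ'⟩ := key (C • W) hL D' hfin (vcPreimage W C S) hS'
  refine ⟨?_, IsVeluHom.of_variableChange W C hu two_ne_zero D S hS φ' hφ'⟩
  -- the discriminant
  have h0 : (0 : (C • W).toAffine.Point) ∉ vcPreimage W C S := fun h => ((hS' 0).mp h).2 rfl
  have hneg : ∀ d ∈ vcPreimage W C S, -d ∈ vcPreimage W C S := by
    intro d hd
    obtain ⟨h1, h2⟩ := (hS' d).mp hd
    exact (hS' (-d)).mpr ⟨D'.neg_mem h1, neg_ne_zero.mpr h2⟩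
  have hcurve := veluCurve_vc W C hu (vcPreimage W C S) h0 hneg two_ne_zero
  rw [vcImage_vcPreimage] at hcurve
  rw [← hcurve, variableChange_Δ] at hΔ'
  exact right_ne_zero_of_mul hΔ'

end Fermat.Agent.FC
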