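/-
PROJECT FC — helper2 — block (Q), part 5: Vélu over an algebraically closed field algebraic over `ℚ`
(descent from `ℂ`), and over `ℚ`: for `W'` over `ℚ` and a finite Galois-stable subgroup `D` of
`W'(ℚ̄)`, Vélu's coefficients are rational and Vélu's homomorphism is Galois-equivariant.
-/
import Mathlib
import Fermat.Prelude.Def_FLTPrelim_GaloisRep
import Fermat.Agent.FC.Q_helper2_Complex
import Fermat.Agent.S13.A_helper8_Main
import Fermat.Agent.S52x.DESC_helper9_Rat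

set_option autoImplicit false
set_option linter.unusedSectionVars false

namespace Fermat.Agent.FC

open WeierstrassCurve WeierstrassCurve.Affine Fermat.Agent.S13 Fermat.Agent.Tate

section algClosed

variable {K : Type*} [Field K] [DecidableEq K]

/-- **Vélu over a subfield of `ℂ`.** -/
theorem exists_isVeluHom_of_emb (hyp : VeluCurveOfHyp) (ι : K →+* ℂ) (W : WeierstrassCurve K)
    (hΔ : W.Δ ≠ 0) (D : AddSubgroup W.toAffine.Point) [Finite D] (S : Finset W.toAffine.Point)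
    (hS : ∀ d, d ∈ S ↔ d ∈ D ∧ d ≠ 0) :
    (veluCurve W S).Δ ≠ 0 ∧
      ∃ φ : W.toAffine.Point →+ (veluCurve W S).toAffine.Point, IsVeluHom W D S φ := by
  classical
  set j := ptMap ι W (W.map ι) rfl with hj
  have hjinj : Function.Injective j := ptMap_injective ι W (W.map ι) rfl
  have hfin : Finite (D.map j) := by
    have : Function.Surjective (fun x : D => (⟨j x.1, ⟨x.1, x.2, rfl⟩⟩ : D.map j)) := by
      rintro ⟨_, ⟨x, hx, rfl⟩⟩
      exact ⟨⟨x, hx⟩, rfl⟩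
    exact Finite.of_surjective _ this
  have hS₂ : ∀ d, d ∈ ptImage ι W (W.map ι) rfl S ↔ d ∈ D.map j ∧ d ≠ 0 := by
    intro d
    rw [mem_ptImage]
    constructor
    · rintro ⟨P, hP, rfl⟩
      obtain ⟨h1, h2⟩ := (hS P).mp hP
      refine ⟨⟨P, h1, rfl⟩, fun h => h2 (hjinj (h.trans (map_zero j).symm))⟩
    · rintro ⟨⟨P, hP, rfl⟩, h2⟩
      exact ⟨P, (hS P).mpr ⟨hP, fun h => h2 (by rw [h, map_zero])⟩, rfl⟩
  obtain ⟨hΔ₂, φ₂, hφ₂⟩ := exists_isVeluHom_complex hyp (W.map ι) (map_Δ_ne_zero W ι hΔ)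
    (D.map j) (ptImage ι W (W.map ι) rfl S) hS₂
  obtain ⟨φ₁, hφ₁, -⟩ := IsVeluHom.descent ι W (W.map ι) rfl D S φ₂ hφ₂
  refine ⟨?_, φ₁, hφ₁⟩
  rw [← veluCurve_map ι W (W.map ι) rfl S, WeierstrassCurve.map_Δ] at hΔ₂
  intro h
  rw [h, map_zero] at hΔ₂
  exact hΔ₂ rfl

end algClosed

section rational

/-- `Ω = AlgebraicClosure ℚ`. -/
local notation "Ω" => AlgebraicClosure ℚ

/-- the absolute Galois group of `ℚ`. -/
local notation "GQ" => (AlgebraicClosure ℚ) ≃ₐ[ℚ] (AlgebraicClosure ℚ)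

variable (W' : WeierstrassCurve ℚ)

theorem smul_some' (σ : GQ) {x y : Ω} (h : (W'⁄Ω).toAffine.Nonsingular x y) :
    ∃ h', σ • (Point.some x y h : (W'⁄Ω).Point) = Point.some (σ x) (σ y) h' :=
  ⟨_, rfl⟩

theorem xOf_smul (σ : GQ) (P : (W'⁄Ω).Point) : xOf (σ • P) = σ (xOf P) := by
  rcases P with _ | ⟨x, y, h⟩
  · exact (map_zero σ).symm
  · rfl

theorem yOf_smul (σ : GQ) (P : (W'⁄Ω).Point) : yOf (σ • P) = σ (yOf P) := by
  rcases P with _ | ⟨x, y, h⟩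
  · exact (map_zero σ).symm
  · rfl

theorem map_baseChange_a₁ (σ : GQ) : σ (W'⁄Ω).a₁ = (W'⁄Ω).a₁ := by
  show σ (algebraMap ℚ Ω W'.a₁) = algebraMap ℚ Ω W'.a₁
  exact σ.commutes _

theorem map_baseChange_a₂ (σ : GQ) : σ (W'⁄Ω).a₂ = (W'⁄Ω).a₂ := by
  show σ (algebraMap ℚ Ω W'.a₂) = algebraMap ℚ Ω W'.a₂
  exact σ.commutes _

theorem map_baseChange_a₃ (σ : GQ) : σ (W'⁄Ω).a₃ = (W'⁄Ω).a₃ := by
  show σ (algebraMap ℚ Ω W'.a₃) = algebraMap ℚ Ω W'.a₃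
  exact σ.commutes _

theorem map_baseChange_a₄ (σ : GQ) : σ (W'⁄Ω).a₄ = (W'⁄Ω).a₄ := by
  show σ (algebraMap ℚ Ω W'.a₄) = algebraMap ℚ Ω W'.a₄
  exact σ.commutes _

theorem map_baseChange_a₆ (σ : GQ) : σ (W'⁄Ω).a₆ = (W'⁄Ω).a₆ := by
  show σ (algebraMap ℚ Ω W'.a₆) = algebraMap ℚ Ω W'.a₆
  exact σ.commutes _

theorem map_baseChange_b₂ (σ : GQ) : σ (W'⁄Ω).b₂ = (W'⁄Ω).b₂ := by
  simp only [WeierstrassCurve.b₂, map_add, map_mul, map_pow, map_ofNat, map_baseChange_a₁,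
    map_baseChange_a₂]

theorem map_baseChange_b₄ (σ : GQ) : σ (W'⁄Ω).b₄ = (W'⁄Ω).b₄ := by
  simp only [WeierstrassCurve.b₄, map_add, map_mul, map_ofNat, map_baseChange_a₁,
    map_baseChange_a₃, map_baseChange_a₄]

theorem map_baseChange_b₆ (σ : GQ) : σ (W'⁄Ω).b₆ = (W'⁄Ω).b₆ := by
  simp only [WeierstrassCurve.b₆, map_add, map_mul, map_pow, map_ofNat, map_baseChange_a₃,
    map_baseChange_a₆]

variable (S : Finset (W'⁄Ω).Point) (hSσ : ∀ σ : GQ, ∀ d ∈ S, σ • d ∈ S)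

include hSσ in
/-- a sum over a Galois-stable finite set of points is reindexed by any `σ`. -/
theorem sum_smul_eq {M : Type*} [AddCommMonoid M] (σ : GQ) (g : (W'⁄Ω).Point → M) :
    ∑ d ∈ S, g (σ • d) = ∑ d ∈ S, g d := by
  refine Finset.sum_nbij' (fun d => σ • d) (fun d => σ⁻¹ • d) (hSσ σ) (hSσ σ⁻¹) ?_ ?_ ?_
  · intro d _; exact inv_smul_smul σ d
  · intro d _; exact smul_inv_smul σ d
  · intro d _; rfl

include hSσ in
theorem map_veluT (σ : GQ) : σ (veluT (W'⁄Ω) S) = veluT (W'⁄Ω) S := by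
  rw [veluT, map_sum]
  refine (Finset.sum_congr rfl fun d _ => ?_).trans (sum_smul_eq W' S hSσ σ _)
  simp only [map_sub, map_add, map_mul, map_pow, map_ofNat, xOf_smul, yOf_smul,
    map_baseChange_a₁, map_baseChange_a₂, map_baseChange_a₄]

include hSσ in
theorem map_veluW (σ : GQ) : σ (veluW (W'⁄Ω) S) = veluW (W'⁄Ω) S := by
  rw [veluW, map_div₀, map_sum, map_ofNat]
  congr 1
  refine (Finset.sum_congr rfl fun d _ => ?_).trans (sum_smul_eq W' S hSσ σ _)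
  simp only [map_add, map_mul, map_pow, map_ofNat, xOf_smul,
    map_baseChange_b₂, map_baseChange_b₄, map_baseChange_b₆]

/-- an element of `ℚ̄` fixed by the absolute Galois group is rational. -/
theorem exists_rat_of_forall_map_eq (x : Ω) (hx : ∀ σ : GQ, σ x = x) :
    ∃ q : ℚ, algebraMap ℚ Ω q = x :=
  Fermat.Agent.S52x.exists_rat_of_fixed x hx

include hSσ in
/-- Vélu's curve of a Galois-stable set is defined over `ℚ`. -/
theorem exists_rat_veluCurve :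
    ∃ V : WeierstrassCurve ℚ, V⁄Ω = veluCurve (W'⁄Ω) S ∧ V.a₁ = W'.a₁ ∧ V.a₂ = W'.a₂ ∧
      V.a₃ = W'.a₃ := by
  obtain ⟨t, ht⟩ := exists_rat_of_forall_map_eq _ (map_veluT W' S hSσ)
  obtain ⟨w, hw⟩ := exists_rat_of_forall_map_eq _ (map_veluW W' S hSσ)
  refine ⟨⟨W'.a₁, W'.a₂, W'.a₃, W'.a₄ - 5 * t, W'.a₆ - W'.b₂ * t - 7 * w⟩, ?_, rfl, rfl, rfl⟩
  show WeierstrassCurve.map _ (algebraMap ℚ Ω) = _
  ext
  · rfl
  · rfl
  · rfl
  · show algebraMap ℚ Ω (W'.a₄ - 5 * t) = (W'⁄Ω).a₄ - 5 * veluT (W'⁄Ω) S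
    rw [map_sub, map_mul, ht, map_ofNat]
    rfl
  · show algebraMap ℚ Ω (W'.a₆ - W'.b₂ * t - 7 * w) =
      (W'⁄Ω).a₆ - (W'⁄Ω).b₂ * veluT (W'⁄Ω) S - 7 * veluW (W'⁄Ω) S
    rw [map_sub, map_sub, map_mul, map_mul, ht, hw, map_ofNat]
    have : (W'⁄Ω).b₂ = algebraMap ℚ Ω W'.b₂ := by
      show (W'.map (algebraMap ℚ Ω)).b₂ = _
      rw [WeierstrassCurve.map_b₂]
    rw [this]
    rfl

end rational

end Fermat.Agent.FC
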