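/-
PROJECT FC — helper2 — block (Q), part 6: **Vélu over `ℚ`.**  For `W'` over `ℚ` with `Δ ≠ 0` and a
finite Galois-stable subgroup `D` of `W'(ℚ̄)`: a curve `V` over `ℚ` (`a₁, a₂, a₃` unchanged,
`a₄' = a₄ - 5t`, `a₆' = a₆ - b₂t - 7w`) and a Galois-equivariant homomorphism
`W'(ℚ̄) → V(ℚ̄)` with kernel `D` (`exists_velu_rat`).
-/
import Mathlib
import Fermat.Agent.FC.Q_helper2_Qbar
import Fermat.Agent.S13.A_helper8_Qbar

set_option autoImplicit false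
set_option linter.unusedSectionVars false

namespace Fermat.Agent.FC

open WeierstrassCurve WeierstrassCurve.Affine Fermat.Agent.S13 Fermat.Agent.Tate

/-- `Ω = AlgebraicClosure ℚ`. -/
local notation "Ω" => AlgebraicClosure ℚ

/-- the absolute Galois group of `ℚ`. -/
local notation "GQ" => (AlgebraicClosure ℚ) ≃ₐ[ℚ] (AlgebraicClosure ℚ)

theorem eq_of_xOf_yOf {F : Type*} [Field F] {W : WeierstrassCurve.Affine F} {P Q : W.Point}
    (hP : P ≠ 0) (hQ : Q ≠ 0) (hx : xOf P = xOf Q) (hy : yOf P = yOf Q) : P = Q := by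
  rcases P with _ | ⟨x, y, h⟩
  · exact absurd rfl hP
  rcases Q with _ | ⟨x', y', h'⟩
  · exact absurd rfl hQ
  simp only [xOf_some, yOf_some] at hx hy
  subst hx hy
  rfl

variable (W' : WeierstrassCurve ℚ)

theorem smul_eq_zero_iff' (σ : GQ) (P : (W'⁄Ω).Point) : σ • P = 0 ↔ P = 0 := by
  rcases P with _ | ⟨x, y, h⟩
  · exact ⟨fun _ => rfl, fun _ => rfl⟩
  · constructor
    · intro h0
      have h1 : xOf (σ • (Point.some x y h : (W'⁄Ω).Point)) = xOf (0 : (W'⁄Ω).Point) := by rw [h0]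
      have h2 : (σ • (Point.some x y h : (W'⁄Ω).Point)) = Point.some (σ x) (σ y) _ := rfl
      rw [h2] at h0
      exact absurd h0 (Point.some_ne_zero _)
    · intro h0
      exact absurd h0 (Point.some_ne_zero _)

variable (S : Finset (W'⁄Ω).Point) (hSσ : ∀ σ : GQ, ∀ d ∈ S, σ • d ∈ S)

include hSσ in
theorem veluX_smul (σ : GQ) (P : (W'⁄Ω).Point) :
    veluX (W'⁄Ω) S (σ • P) = σ (veluX (W'⁄Ω) S P) := by
  rw [veluX, veluX, map_add, map_sum, xOf_smul]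
  congr 1
  refine ((sum_smul_eq W' S hSσ σ _).symm.trans (Finset.sum_congr rfl fun d _ => ?_))
  rw [← smul_add, xOf_smul, xOf_smul, map_sub]

include hSσ in
theorem veluY_smul (σ : GQ) (P : (W'⁄Ω).Point) :
    veluY (W'⁄Ω) S (σ • P) = σ (veluY (W'⁄Ω) S P) := by
  rw [veluY, veluY, map_add, map_sum, yOf_smul]
  congr 1
  refine ((sum_smul_eq W' S hSσ σ _).symm.trans (Finset.sum_congr rfl fun d _ => ?_))
  rw [← smul_add, yOf_smul, yOf_smul, map_sub]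

/-- **Vélu over `ℚ`.** -/
theorem exists_velu_rat (hyp : VeluCurveOfHyp) (hΔ : W'.Δ ≠ 0)
    (D : AddSubgroup (W'⁄Ω).Point) [Finite D] (hD : ∀ σ : GQ, ∀ d ∈ D, σ • d ∈ D)
    (hS : ∀ d, d ∈ S ↔ d ∈ D ∧ d ≠ 0) :
    ∃ (V : WeierstrassCurve ℚ) (φ : (W'⁄Ω).Point →+ (V⁄Ω).Point),
      V.Δ ≠ 0 ∧ (∀ (σ : GQ) (P : (W'⁄Ω).Point), φ (σ • P) = σ • φ P) ∧
      (∀ P, φ P = 0 ↔ P ∈ D) ∧ V.a₁ = W'.a₁ ∧ V.a₂ = W'.a₂ ∧ V.a₃ = W'.a₃ ∧
      algebraMap ℚ Ω V.a₄ = (W'⁄Ω).a₄ - 5 * veluT (W'⁄Ω) S ∧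
      algebraMap ℚ Ω V.a₆ =
        (W'⁄Ω).a₆ - (W'⁄Ω).b₂ * veluT (W'⁄Ω) S - 7 * veluW (W'⁄Ω) S := by
  classical
  have hSσ : ∀ σ : GQ, ∀ d ∈ S, σ • d ∈ S := by
    intro σ d hd
    obtain ⟨h1, h2⟩ := (hS d).mp hd
    exact (hS _).mpr ⟨hD σ d h1, fun h => h2 ((smul_eq_zero_iff' W' σ d).mp h)⟩
  obtain ⟨V, hV, h1, h2, h3⟩ := exists_rat_veluCurve W' S hSσ
  have := isAlgebraic_Qbar
  obtain ⟨hΔ', φ₀, hφ₀⟩ := exists_isVeluHom_of_emb hyp (embC Ω) (W'⁄Ω)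
    (baseChange_Δ_ne_zero W' hΔ) D S hS
  -- cast along `V⁄Ω = veluCurve (W'⁄Ω) S`
  have hcast : (veluCurve (W'⁄Ω) S).map (RingHom.id Ω) = V⁄Ω := by
    rw [WeierstrassCurve.map_id]; exact hV.symm
  let κ : (veluCurve (W'⁄Ω) S).toAffine.Point →+ (V⁄Ω).Point :=
    ptMap (RingHom.id Ω) _ _ hcast
  have hκinj : Function.Injective κ := ptMap_injective _ _ _ _
  have hκx : ∀ R, xOf (κ R) = xOf R := fun R => xOf_ptMap _ _ _ hcast R
  have hκy : ∀ R, yOf (κ R) = yOf R := fun R => yOf_ptMap _ _ _ hcast R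
  have hκ0 : ∀ R, κ R = 0 ↔ R = 0 := by
    intro R
    constructor
    · intro h; exact hκinj (h.trans (map_zero κ).symm)
    · rintro rfl; exact map_zero κ
  refine ⟨V, κ.comp φ₀, ?_, ?_, ?_, h1, h2, h3, ?_, ?_⟩
  · -- discriminant
    intro h
    apply hΔ'
    rw [← hV]
    show (V.map (algebraMap ℚ Ω)).Δ = 0
    rw [WeierstrassCurve.map_Δ, h, map_zero]
  · -- equivariance
    intro σ P
    show κ (φ₀ (σ • P)) = σ • κ (φ₀ P)
    by_cases hP : P ∈ D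
    · rw [(hφ₀.ker P).mpr hP, (hφ₀.ker _).mpr (hD σ P hP), map_zero]
      rfl
    · have hσP : σ • P ∉ D := by
        intro hc
        apply hP
        have := hD σ⁻¹ _ hc
        rwa [inv_smul_smul] at this
      obtain ⟨hn, hf⟩ := hφ₀.formula P hP
      obtain ⟨hn', hf'⟩ := hφ₀.formula (σ • P) hσP
      have hne : κ (φ₀ P) ≠ 0 := by
        rw [Ne, hκ0, hf]; exact Point.some_ne_zero _
      have hne' : κ (φ₀ (σ • P)) ≠ 0 := by
        rw [Ne, hκ0, hf']; exact Point.some_ne_zero _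
      have hne'' : σ • κ (φ₀ P) ≠ 0 := fun h => hne ((smul_eq_zero_iff' V σ _).mp h)
      apply eq_of_xOf_yOf hne' hne''
      · rw [hκx, xOf_smul, hκx, hf, hf', xOf_some, xOf_some, veluX_smul W' S hSσ]
      · rw [hκy, yOf_smul, hκy, hf, hf', yOf_some, yOf_some, veluY_smul W' S hSσ]
  · -- kernel
    intro P
    show κ (φ₀ P) = 0 ↔ P ∈ D
    rw [hκ0]
    exact hφ₀.ker P
  · have := congrArg WeierstrassCurve.a₄ hV
    exact this
  · have := congrArg WeierstrassCurve.a₆ hV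
    exact this

end Fermat.Agent.FC
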