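/-
PROJECT FC — helper2 — block (Q), part 7: **the `ℤ`-model of the Vélu quotient.**
`exists_velu_model_of` = `exists_velu_rat` (Vélu over `ℚ`) + (Q-i) integrality of `t`, `w` away from `p`
(helper1) + (Q-z) clearing the `p`-power denominators (helper9).  `velu_c₄` = the `c₄` of the model.
The only open input is the named hypothesis `VeluCurveOfHyp` (block (Q-an)).
-/
import Mathlib
import Fermat.Agent.FC.Q_helper2_Rat
import Fermat.Agent.FC.QI_helper1_Integral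
import Fermat.Agent.FC.QZ_helper9_IntModel

set_option autoImplicit false
set_option linter.unusedSectionVars false

namespace Fermat.Agent.FC

open WeierstrassCurve WeierstrassCurve.Affine Fermat.Agent.S13 Fermat.Agent.Tate

/-- `Ω = AlgebraicClosure ℚ`. -/
local notation "Ω" => AlgebraicClosure ℚ

/-- the absolute Galois group of `ℚ`. -/
local notation "GQ" => (AlgebraicClosure ℚ) ≃ₐ[ℚ] (AlgebraicClosure ℚ)

/-- the `c₄` of the Vélu model (pure algebra from the coefficient relations). -/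
theorem velu_c₄ {W W₀ : WeierstrassCurve ℤ} {p e : ℕ} {t : Ω}
    (h1 : W.a₁ = (p : ℤ) ^ e * W₀.a₁) (h2 : W.a₂ = (p : ℤ) ^ (2 * e) * W₀.a₂)
    (h3 : W.a₃ = (p : ℤ) ^ (3 * e) * W₀.a₃)
    (h4 : ((W.a₄ : ℤ) : Ω) = (p : Ω) ^ (4 * e) * (((W₀.a₄ : ℤ) : Ω) - 5 * t)) :
    ((W.c₄ : ℤ) : Ω) = (p : Ω) ^ (4 * e) * (((W₀.c₄ : ℤ) : Ω) + 240 * t) := by
  simp only [WeierstrassCurve.c₄, WeierstrassCurve.b₂, WeierstrassCurve.b₄]
  push_cast
  rw [h4, h1, h2, h3]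
  push_cast
  ring

/-- the discriminant of a curve with scaled coefficients. -/
theorem Δ_of_scaled {R : Type*} [CommRing R] (W V : WeierstrassCurve R) (u : R)
    (h1 : W.a₁ = u * V.a₁) (h2 : W.a₂ = u ^ 2 * V.a₂) (h3 : W.a₃ = u ^ 3 * V.a₃)
    (h4 : W.a₄ = u ^ 4 * V.a₄) (h6 : W.a₆ = u ^ 6 * V.a₆) : W.Δ = u ^ 12 * V.Δ := by
  simp only [WeierstrassCurve.Δ, WeierstrassCurve.b₂, WeierstrassCurve.b₄, WeierstrassCurve.b₆,
    WeierstrassCurve.b₈, h1, h2, h3, h4, h6]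
  ring

/-- **(Q), final form, modulo the analytic input.** -/
theorem exists_velu_model_of (hyp : VeluCurveOfHyp) (W₀ℚ : WeierstrassCurve ℚ)
    (W₀ : WeierstrassCurve ℤ) (h : W₀.map (Int.castRingHom ℚ) = W₀ℚ) (hΔ : W₀.Δ ≠ 0) {p : ℕ}
    (hp : p.Prime) (hp2 : p ≠ 2) (D : AddSubgroup (W₀ℚ⁄Ω).Point) {k : ℕ}
    (hcard : Nat.card D = p ^ k) (hD : ∀ σ : GQ, ∀ d ∈ D, σ • d ∈ D)
    (S : Finset (W₀ℚ⁄Ω).Point) (hS : ∀ d, d ∈ S ↔ d ∈ D ∧ d ≠ 0) :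
    ∃ (W : WeierstrassCurve ℤ) (e : ℕ)
      (φ : (W₀ℚ⁄Ω).Point →+ ((W.map (Int.castRingHom ℚ))⁄Ω).Point),
      W.Δ ≠ 0 ∧ (∀ (σ : GQ) (P : (W₀ℚ⁄Ω).Point), φ (σ • P) = σ • φ P) ∧
      (∀ P, φ P = 0 ↔ P ∈ D) ∧
      W.a₁ = (p : ℤ) ^ e * W₀.a₁ ∧ W.a₂ = (p : ℤ) ^ (2 * e) * W₀.a₂ ∧
      W.a₃ = (p : ℤ) ^ (3 * e) * W₀.a₃ ∧
      ((W.a₄ : ℤ) : Ω) = (p : Ω) ^ (4 * e) * (((W₀.a₄ : ℤ) : Ω) - 5 * veluT (W₀ℚ⁄Ω) S) ∧
      ((W.a₆ : ℤ) : Ω) = (p : Ω) ^ (6 * e) *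
        (((W₀.a₆ : ℤ) : Ω) - ((W₀.b₂ : ℤ) : Ω) * veluT (W₀ℚ⁄Ω) S - 7 * veluW (W₀ℚ⁄Ω) S) := by
  classical
  have hfin : Finite D := by
    apply Nat.finite_of_card_ne_zero
    rw [hcard]; exact pow_ne_zero _ hp.ne_zero
  have hΔℚ : W₀ℚ.Δ ≠ 0 := by
    subst h
    rw [WeierstrassCurve.map_Δ]
    simpa using hΔ
  obtain ⟨V, φ₀, hVΔ, hφσ, hφker, hV1, hV2, hV3, hV4, hV6⟩ :=
    exists_velu_rat W₀ℚ S hyp hΔℚ D hD hS
  -- torsion of the points of `S`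
  have hStors : ∀ d ∈ S, (p ^ k) • d = 0 := by
    intro d hd
    have hdD : d ∈ D := ((hS d).mp hd).1
    have := card_nsmul_eq_zero' (G := D) (x := (⟨d, hdD⟩ : D))
    rw [hcard] at this
    have h2 := congrArg Subtype.val this
    simpa using h2
  have hSn : ∀ ℓ : ℕ, ℓ.Prime → ℓ ≠ p → ∀ d ∈ S, ∃ n : ℕ, ¬ ℓ ∣ n ∧ n • d = 0 := by
    intro ℓ hℓ hℓp d hd
    refine ⟨p ^ k, ?_, hStors d hd⟩
    intro hdvd
    exact hℓp ((Nat.prime_dvd_prime_iff_eq hℓ hp).mp (hℓ.dvd_of_dvd_pow hdvd))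
  have hneg : ∀ d ∈ S, -d ∈ S ∧ -d ≠ d := by
    intro d hd
    obtain ⟨hdD, hd0⟩ := (hS d).mp hd
    refine ⟨(hS _).mpr ⟨D.neg_mem hdD, neg_ne_zero.mpr hd0⟩, ?_⟩
    intro hnd
    apply hd0
    -- `2 • d = 0` and `p ^ k • d = 0` with `p` odd
    have h2d : (2 : ℕ) • d = 0 := by
      rw [two_nsmul]
      nth_rewrite 1 [← hnd]
      exact neg_add_cancel d
    have hcop : Nat.Coprime (p ^ k) 2 := by
      apply Nat.Coprime.pow_left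
      exact (Nat.coprime_primes hp Nat.prime_two).mpr hp2
    have hord : addOrderOf d ∣ 1 := by
      have h1 : addOrderOf d ∣ p ^ k := addOrderOf_dvd_of_nsmul_eq_zero (hStors d hd)
      have h2 : addOrderOf d ∣ 2 := addOrderOf_dvd_of_nsmul_eq_zero h2d
      have := Nat.dvd_gcd h1 h2
      rwa [hcop.gcd_eq_one] at this
    exact AddMonoid.addOrderOf_eq_one_iff.mp (Nat.dvd_one.mp hord)
  -- integrality of the coefficients of `V` away from `p`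
  have hint : ∀ ℓ : ℕ, ℓ.Prime → ℓ ≠ p → ∀ A : ValuationSubring Ω, A.LiesOverPrime ℓ →
      algebraMap ℚ Ω V.a₁ ∈ A ∧ algebraMap ℚ Ω V.a₂ ∈ A ∧ algebraMap ℚ Ω V.a₃ ∈ A ∧
        algebraMap ℚ Ω V.a₄ ∈ A ∧ algebraMap ℚ Ω V.a₆ ∈ A := by
    intro ℓ hℓ hℓp A hA
    have hT : veluT (W₀ℚ⁄Ω) S ∈ A := veluT_mem W₀ℚ W₀ h hℓ hA S (hSn ℓ hℓ hℓp)
    have hWm : veluW (W₀ℚ⁄Ω) S ∈ A := veluW_mem W₀ℚ W₀ h hℓ hA S (hSn ℓ hℓ hℓp) hneg
    have hintZ : ∀ z : ℤ, algebraMap ℚ Ω ((z : ℤ) : ℚ) ∈ A := by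
      intro z
      have : algebraMap ℚ Ω ((z : ℤ) : ℚ) = ((z : ℤ) : Ω) := by simp
      rw [this]
      exact intCast_mem A.toSubring z
    have hnat : ∀ n : ℕ, ((n : ℕ) : Ω) ∈ A := fun n => natCast_mem A.toSubring n
    subst h
    refine ⟨?_, ?_, ?_, ?_, ?_⟩
    · rw [hV1]; exact hintZ _
    · rw [hV2]; exact hintZ _
    · rw [hV3]; exact hintZ _
    · rw [hV4]
      apply A.sub_mem
      · exact hintZ _
      · exact A.mul_mem _ _ (by exact_mod_cast hnat 5) hT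
    · rw [hV6]
      apply A.sub_mem
      · apply A.sub_mem
        · exact hintZ _
        · apply A.mul_mem _ _ _ hT
          have : ((W₀.map (Int.castRingHom ℚ))⁄Ω).b₂ = algebraMap ℚ Ω ((W₀.b₂ : ℤ) : ℚ) := by
            simp only [WeierstrassCurve.b₂, WeierstrassCurve.baseChange, WeierstrassCurve.map_a₁,
              WeierstrassCurve.map_a₂]
            simp
          rw [this]; exact hintZ _
      · exact A.mul_mem _ _ (by exact_mod_cast hnat 7) hWm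
  obtain ⟨W, e, ψ, hψσ, hW1, hW2, hW3, hW4, hW6⟩ := exists_int_model_of_denominators V hp hint
  refine ⟨W, e, ψ.toAddMonoidHom.comp φ₀, ?_, ?_, ?_, ?_, ?_, ?_, ?_, ?_⟩
  · -- discriminant
    intro hW0
    have hΔ' : ((W.Δ : ℤ) : ℚ) = ((p : ℚ) ^ e) ^ 12 * V.Δ := by
      have := Δ_of_scaled (W.map (Int.castRingHom ℚ)) V ((p : ℚ) ^ e)
        (by simpa using hW1) (by simpa [← pow_mul, mul_comm] using hW2)
        (by simpa [← pow_mul, mul_comm] using hW3) (by simpa [← pow_mul, mul_comm] using hW4)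
        (by simpa [← pow_mul, mul_comm] using hW6)
      rw [WeierstrassCurve.map_Δ] at this
      simpa using this
    rw [hW0] at hΔ'
    have hp0 : (p : ℚ) ≠ 0 := Nat.cast_ne_zero.mpr hp.ne_zero
    have : ((p : ℚ) ^ e) ^ 12 * V.Δ ≠ 0 := mul_ne_zero (pow_ne_zero _ (pow_ne_zero _ hp0)) hVΔ
    exact this (by simpa using hΔ'.symm)
  · intro σ P
    show ψ (φ₀ (σ • P)) = σ • ψ (φ₀ P)
    rw [hφσ, hψσ]
  · intro P
    show ψ (φ₀ P) = 0 ↔ P ∈ D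
    rw [← hφker P]
    constructor
    · intro h0
      exact ψ.injective (h0.trans (map_zero ψ).symm)
    · intro h0
      rw [h0]; exact map_zero ψ
  · subst h
    have : ((W.a₁ : ℤ) : ℚ) = (((p : ℤ) ^ e * W₀.a₁ : ℤ) : ℚ) := by
      rw [hW1, hV1]; simp
    exact_mod_cast this
  · subst h
    have : ((W.a₂ : ℤ) : ℚ) = (((p : ℤ) ^ (2 * e) * W₀.a₂ : ℤ) : ℚ) := by
      rw [hW2, hV2]; simp
    exact_mod_cast this
  · subst h
    have : ((W.a₃ : ℤ) : ℚ) = (((p : ℤ) ^ (3 * e) * W₀.a₃ : ℤ) : ℚ) := by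
      rw [hW3, hV3]; simp
    exact_mod_cast this
  · subst h
    have h1 : ((W.a₄ : ℤ) : Ω) = algebraMap ℚ Ω ((W.a₄ : ℤ) : ℚ) := by simp
    rw [h1, hW4, map_mul, hV4]
    simp
  · subst h
    have h1 : ((W.a₆ : ℤ) : Ω) = algebraMap ℚ Ω ((W.a₆ : ℤ) : ℚ) := by simp
    rw [h1, hW6, map_mul, hV6]
    have : ((W₀.map (Int.castRingHom ℚ))⁄Ω).b₂ = ((W₀.b₂ : ℤ) : Ω) := by
      simp only [WeierstrassCurve.b₂, WeierstrassCurve.baseChange, WeierstrassCurve.map_a₁,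
        WeierstrassCurve.map_a₂]
      simp
    rw [this]
    simp

end Fermat.Agent.FC
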