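/-
PROJECT FC (Frey chain, S12), block (Q), analytic half — helper7.  Part 3: every `ℤ`-submodule of
`ℂ` between a period lattice `Λ` and `(1/n) Λ` is the lattice of a period pair.
-/
import Mathlib

set_option autoImplicit false
set_option linter.style.haveILetI false

namespace Fermat.Agent.FC

open Complex Module
open scoped PeriodPair

/-- the period pair `(ω₁ / n, ω₂ / n)`. -/
noncomputable def divPair (L : PeriodPair) (n : ℕ) (hn : 0 < n) : PeriodPair where
  ω₁ := L.ω₁ / n
  ω₂ := L.ω₂ / n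
  indep := by
    have hn0 : (n : ℝ) ≠ 0 := by exact_mod_cast hn.ne'
    have hnC : (n : ℂ) ≠ 0 := by exact_mod_cast hn.ne'
    rw [LinearIndependent.pair_iff]
    intro s t hst
    have h := (LinearIndependent.pair_iff.mp L.indep) s t
    apply h
    have e : s • L.ω₁ + t • L.ω₂ = (n : ℂ) * (s • (L.ω₁ / n) + t • (L.ω₂ / n)) := by
      simp only [Complex.real_smul]
      field_simp
    rw [e, hst, mul_zero]

theorem mem_divPair_lattice (L : PeriodPair) (n : ℕ) (hn : 0 < n) {t : ℂ}
    (ht : (n : ℂ) * t ∈ L.lattice) : t ∈ (divPair L n hn).lattice := by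
  have hnC : (n : ℂ) ≠ 0 := by exact_mod_cast hn.ne'
  obtain ⟨a, b, hab⟩ := PeriodPair.mem_lattice.mp ht
  refine PeriodPair.mem_lattice.mpr ⟨a, b, ?_⟩
  show (a : ℂ) * (L.ω₁ / n) + (b : ℂ) * (L.ω₂ / n) = t
  field_simp
  linear_combination hab

/-- **(A5)** a submodule between `Λ` and `(1/n) Λ` is a period lattice. -/
theorem exists_periodPair_of_submodule (L : PeriodPair) (n : ℕ) (hn : 0 < n) (T : Submodule ℤ ℂ)
    (hT : L.lattice ≤ T) (hnT : ∀ t ∈ T, (n : ℂ) * t ∈ L.lattice) :
    ∃ L' : PeriodPair, L'.lattice = T := by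
  have hT1 : T ≤ (divPair L n hn).lattice := fun t ht => mem_divPair_lattice L n hn (hnT t ht)
  haveI : DiscreteTopology T := by
    have h1 : DiscreteTopology ((divPair L n hn).lattice : Set ℂ) :=
      (inferInstance : DiscreteTopology (divPair L n hn).lattice)
    exact DiscreteTopology.of_subset (s := ((divPair L n hn).lattice : Set ℂ)) h1 hT1
  haveI : IsZLattice ℝ T := by
    refine ⟨?_⟩
    rw [eq_top_iff, ← (inferInstance : IsZLattice ℝ L.lattice).span_top]
    exact Submodule.span_mono hT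
  have hrank : finrank ℤ T = 2 := by
    rw [ZLattice.rank ℝ T]
    exact Complex.finrank_real_complex
  haveI : Module.Free ℤ T := ZLattice.module_free ℝ T
  haveI : Module.Finite ℤ T := ZLattice.module_finite ℝ T
  let b : Basis (Fin 2) ℤ T := Module.finBasisOfFinrankEq ℤ T hrank
  let B : Basis (Fin 2) ℝ ℂ := b.ofZLatticeBasis ℝ T
  have hB : ∀ i, B i = (b i : ℂ) := fun i => b.ofZLatticeBasis_apply ℝ T i
  have hind : LinearIndependent ℝ ![((b 0 : T) : ℂ), ((b 1 : T) : ℂ)] := by
    have h := B.linearIndependent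
    have e : (fun i => B i) = ![((b 0 : T) : ℂ), ((b 1 : T) : ℂ)] := by
      funext i
      fin_cases i <;> simp [hB]
    rw [← e]
    exact h
  refine ⟨⟨b 0, b 1, hind⟩, ?_⟩
  have hspan := b.ofZLatticeBasis_span ℝ (L := T)
  refine Eq.trans ?_ hspan
  show Submodule.span ℤ {((b 0 : T) : ℂ), ((b 1 : T) : ℂ)} = _
  congr 1
  ext x
  simp only [Set.mem_insert_iff, Set.mem_singleton_iff, Set.mem_range]
  constructor
  · rintro (rfl | rfl)
    · exact ⟨0, hB 0⟩
    · exact ⟨1, hB 1⟩
  · rintro ⟨i, rfl⟩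
    fin_cases i
    · exact Or.inl (hB 0)
    · exact Or.inr (hB 1)

end Fermat.Agent.FC
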