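/-
PROJECT FC (Frey chain, S12), block (Q), analytic half — helper7.  Part 4: for a finite subgroup
`D` of `E_Λ(ℂ)` (in the currency `curveOf L` of S13/A_helper8_Unif), Vélu's curve
`veluCurve (curveOf L) S` (`S = D ∖ {0}`) IS `curveOf L'` for the superlattice `Λ' ⊇ Λ` of `D`, and
the analytic isogeny `z ↦ z` is a homomorphism with kernel `D` given by Vélu's formulas off `D`.
Also (FT): the torsion sum `120 ∑_{d ∈ E[m] ∖ 0} (6 x_d² + b₂ x_d + b₄) = (m⁴ - 1) c₄`.
-/
import Mathlib
import Fermat.Agent.FC.VELU_helper7_Pt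
import Fermat.Agent.FC.VELU_helper7_Lat
import Fermat.Agent.FC.Q_helper2_Hom

set_option autoImplicit false

namespace Fermat.Agent.FC

open Complex WeierstrassCurve
open scoped PeriodPair
open Fermat.Agent.Tate.CX Fermat.Agent.S13

section SuperHom

variable (L L' : PeriodPair)

/-- the chosen analytic lift of a point. -/
noncomputable def liftPt (P : (curveOf L).toAffine.Point) : ℂ :=
  Function.surjInv (ptOf_surjective L) P

@[simp] theorem ptOf_liftPt (P : (curveOf L).toAffine.Point) : ptOf L (liftPt L P) = P :=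
  Function.surjInv_eq (ptOf_surjective L) P

theorem liftPt_injective : Function.Injective (liftPt L) :=
  Function.LeftInverse.injective (g := ptOf L) (ptOf_liftPt L)

/-- the analytic isogeny `E_Λ(ℂ) → E_{Λ'}(ℂ)`, `z ↦ z`, for `Λ ⊆ Λ'`. -/
noncomputable def superHom (hle : L.lattice ≤ L'.lattice) :
    (curveOf L).toAffine.Point →+ (curveOf L').toAffine.Point :=
  (ptHom L).liftOfRightInverse (liftPt L) (ptOf_liftPt L)
    ⟨ptHom L', fun z hz => by
      rw [AddMonoidHom.mem_ker, ptHom_apply, ptOf_eq_zero_iff] at hz ⊢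
      exact hle hz⟩

theorem superHom_ptOf (hle : L.lattice ≤ L'.lattice) (z : ℂ) :
    superHom L L' hle (ptOf L z) = ptOf L' z :=
  (ptHom L).liftOfRightInverse_comp_apply (liftPt L) (ptOf_liftPt L) _ z

end SuperHom

section Subgroup

variable (L : PeriodPair) (D : AddSubgroup (curveOf L).toAffine.Point)

/-- the `ℤ`-submodule of `ℂ` of all analytic lifts of the points of `D`. -/
noncomputable def liftSubmodule : Submodule ℤ ℂ :=
  AddSubgroup.toIntSubmodule (D.comap (ptHom L))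

theorem mem_liftSubmodule {z : ℂ} : z ∈ liftSubmodule L D ↔ ptOf L z ∈ D := Iff.rfl

theorem lattice_le_liftSubmodule : L.lattice ≤ liftSubmodule L D := by
  intro z hz
  rw [mem_liftSubmodule, ptOf_of_mem L hz]
  exact D.zero_mem

/-- **the superlattice of a finite subgroup.** -/
theorem exists_superLattice_of_subgroup [Finite D] :
    ∃ L' : PeriodPair, L'.lattice = liftSubmodule L D := by
  have hn : 0 < Nat.card D := Nat.card_pos
  refine exists_periodPair_of_submodule L (Nat.card D) hn _ (lattice_le_liftSubmodule L D) ?_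
  intro t ht
  rw [← ptOf_eq_zero_iff, ptOf_nsmul]
  have h1 : Nat.card D • (⟨ptOf L t, ht⟩ : D) = 0 := card_nsmul_eq_zero'
  have h2 := congrArg (Subtype.val) h1
  rw [AddSubgroup.coe_nsmul] at h2
  exact h2

variable (S : Finset (curveOf L).toAffine.Point) (hS : ∀ d, d ∈ S ↔ d ∈ D ∧ d ≠ 0)

include hS in
theorem isSuperLattice_of_subgroup {L' : PeriodPair} (hL' : L'.lattice = liftSubmodule L D) :
    IsSuperLattice L L' (S.image (liftPt L)) where
  le := hL' ▸ lattice_le_liftSubmodule L D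
  mem := by
    intro s hs
    obtain ⟨d, hd, rfl⟩ := Finset.mem_image.mp hs
    obtain ⟨hdD, hd0⟩ := (hS d).mp hd
    refine ⟨?_, ?_⟩
    · rw [hL', mem_liftSubmodule, ptOf_liftPt]; exact hdD
    · rw [← ptOf_eq_zero_iff, ptOf_liftPt]; exact hd0
  inj := by
    intro s hs t ht hst
    obtain ⟨d, -, rfl⟩ := Finset.mem_image.mp hs
    obtain ⟨d', -, rfl⟩ := Finset.mem_image.mp ht
    have := ptOf_eq_of_sub_mem L hst
    rw [ptOf_liftPt, ptOf_liftPt] at this
    rw [this]
  surj := by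
    intro z hz
    rw [hL', mem_liftSubmodule] at hz
    by_cases h0 : ptOf L z = 0
    · exact Or.inl (ptOf_eq_zero_iff L |>.mp h0)
    · refine Or.inr ⟨liftPt L (ptOf L z), Finset.mem_image_of_mem _ ((hS _).mpr ⟨hz, h0⟩), ?_⟩
      apply sub_mem_of_ptOf_eq
      rw [ptOf_liftPt]

/-- sums over the lifted set are sums over the set of points. -/
theorem sum_image_liftPt {M : Type*} [AddCommMonoid M] (f : ℂ → M) :
    ∑ s ∈ S.image (liftPt L), f s = ∑ d ∈ S, f (liftPt L d) :=
  Finset.sum_image fun _ _ _ _ h => liftPt_injective L h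

end Subgroup

section Main

variable (L : PeriodPair) (D : AddSubgroup (curveOf L).toAffine.Point)
  (S : Finset (curveOf L).toAffine.Point) (hS : ∀ d, d ∈ S ↔ d ∈ D ∧ d ≠ 0)

/-- `y` is odd on `curveOf L`. -/
theorem yOf_neg_curveOf (P : (curveOf L).toAffine.Point) : yOf (-P) = -yOf P := by
  rcases P with _ | ⟨x, y, h⟩
  · show yOf (0 : (curveOf L).toAffine.Point) = -yOf (0 : (curveOf L).toAffine.Point)
    simp
  · rw [Affine.Point.neg_some, yOf_some, yOf_some, Affine.negY]
    simp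

include hS in
theorem neg_mem_of_mem_subgroup_diff : ∀ d ∈ S, -d ∈ S := fun d hd =>
  (hS _).mpr ⟨D.neg_mem ((hS d).mp hd).1, neg_ne_zero.mpr ((hS d).mp hd).2⟩

include hS in
theorem sum_yOf_curveOf_eq_zero : ∑ d ∈ S, yOf d = 0 :=
  sum_eq_zero_of_odd (curveOf L) S (neg_mem_of_mem_subgroup_diff L D S hS) two_ne_zero _
    (yOf_neg_curveOf L)

theorem exists_some_eq_of_eq {W : WeierstrassCurve.Affine ℂ} {a b a' b' : ℂ}
    (h : W.Nonsingular a b) (ha : a = a') (hb : b = b') :
    ∃ h', Affine.Point.some a b h = Affine.Point.some a' b' h' := by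
  subst ha hb
  exact ⟨h, rfl⟩

include hS in
/-- **Vélu's curve of `curveOf L` is the curve of the superlattice.** -/
theorem veluCurve_curveOf {L' : PeriodPair} (hL' : L'.lattice = liftSubmodule L D) :
    veluCurve (curveOf L) S = curveOf L' := by
  have h := isSuperLattice_of_subgroup L D S hS hL'
  rw [curveOf_superLattice h, sum_image_liftPt, sum_image_liftPt]
  simp only [← xOf_ptOf, ptOf_liftPt]
  unfold veluCurve veluT veluW
  simp only [curveOf_a₁, curveOf_a₂, curveOf_a₃, curveOf_a₄, curveOf_a₆, WeierstrassCurve.b₂,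
    WeierstrassCurve.b₄, WeierstrassCurve.b₆]
  rw [Finset.sum_div]
  congr 1
  · congr 2
    exact Finset.sum_congr rfl fun d _ => by ring
  · have e : ∀ d ∈ S, (10 * xOf d ^ 3 + 2 * ((0 : ℂ) ^ 2 + 4 * 0) * xOf d ^ 2
        + 3 * (2 * -(L.g₂ / 4) + 0 * 0) * xOf d + (0 ^ 2 + 4 * -(L.g₃ / 4))) / 2
        = 5 * xOf d ^ 3 + 3 * -(L.g₂ / 4) * xOf d + 2 * -(L.g₃ / 4) := fun d _ => by ring
    rw [Finset.sum_congr rfl e]
    ring

include hS in
theorem exists_veluHom_aux {L' : PeriodPair} (hL' : L'.lattice = liftSubmodule L D)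
    (W' : WeierstrassCurve ℂ) (e : W' = curveOf L') :
    ∃ φ : (curveOf L).toAffine.Point →+ W'.toAffine.Point,
      (∀ P, φ P = 0 ↔ P ∈ D) ∧
      ∀ P, P ∉ D → ∃ h, φ P =
        Affine.Point.some (veluX (curveOf L) S P) (veluY (curveOf L) S P) h := by
  subst e
  have hsl := isSuperLattice_of_subgroup L D S hS hL'
  refine ⟨superHom L L' hsl.le, ?_, ?_⟩
  · intro P
    obtain ⟨z, rfl⟩ := ptOf_surjective L P
    rw [superHom_ptOf, ptOf_eq_zero_iff, hL', mem_liftSubmodule]
  · intro P hP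
    obtain ⟨z, rfl⟩ := ptOf_surjective L P
    have hz : z ∉ L'.lattice := by rw [hL', mem_liftSubmodule]; exact hP
    have hx : ℘[L'] z = veluX (curveOf L) S (ptOf L z) := by
      have := xOf_ptOf_superLattice hsl z
      rw [xOf_ptOf, sum_image_liftPt] at this
      simp only [ptOf_liftPt] at this
      exact this
    have hy : ℘'[L'] z / 2 = veluY (curveOf L) S (ptOf L z) := by
      have := yOf_ptOf_superLattice hsl z
      rw [yOf_ptOf, sum_image_liftPt] at this
      simp only [ptOf_liftPt] at this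
      rw [this, veluY, Finset.sum_sub_distrib, sum_yOf_curveOf_eq_zero L D S hS, sub_zero]
    rw [superHom_ptOf, ptOf_of_notMem L' hz]
    exact exists_some_eq_of_eq _ hx hy

/-- **(Q-an), main theorem.**  For a finite subgroup `D` of `E_Λ(ℂ)` and `S = D ∖ {0}`, Vélu's
curve is again of the form `curveOf L'`, and there is a homomorphism `E_Λ(ℂ) → veluCurve` with
kernel `D` given by Vélu's formulas off `D`. -/
theorem exists_veluHom_curveOf (L : PeriodPair) (D : AddSubgroup (curveOf L).toAffine.Point)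
    [Finite D] (S : Finset (curveOf L).toAffine.Point) (hS : ∀ d, d ∈ S ↔ d ∈ D ∧ d ≠ 0) :
    ∃ L' : PeriodPair, veluCurve (curveOf L) S = curveOf L' ∧
      ∃ φ : (curveOf L).toAffine.Point →+ (veluCurve (curveOf L) S).toAffine.Point,
        (∀ P, φ P = 0 ↔ P ∈ D) ∧
        ∀ P, P ∉ D → ∃ h, φ P =
          Affine.Point.some (veluX (curveOf L) S P) (veluY (curveOf L) S P) h := by
  obtain ⟨L', hL'⟩ := exists_superLattice_of_subgroup L D
  have e := veluCurve_curveOf L D S hS hL'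
  exact ⟨L', e, exists_veluHom_aux L D S hS hL' _ e⟩

/-- the same, with helper2's predicate `IsVeluHom`. -/
theorem exists_isVeluHom_curveOf (L : PeriodPair) (D : AddSubgroup (curveOf L).toAffine.Point)
    [Finite D] (S : Finset (curveOf L).toAffine.Point) (hS : ∀ d, d ∈ S ↔ d ∈ D ∧ d ≠ 0) :
    ∃ L' : PeriodPair, veluCurve (curveOf L) S = curveOf L' ∧
      ∃ φ : (curveOf L).toAffine.Point →+ (veluCurve (curveOf L) S).toAffine.Point,
        IsVeluHom (curveOf L) D S φ := by
  obtain ⟨L', e, φ, h1, h2⟩ := exists_veluHom_curveOf L D S hS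
  exact ⟨L', e, φ, ⟨h1, h2⟩⟩

/-- literally the unfolded body of helper2's `VeluCurveOfHyp` (`FC/Q_helper2_Complex.lean`). -/
theorem veluCurveOfHyp_unfolded :
    ∀ (L : PeriodPair) (D : AddSubgroup (curveOf L).toAffine.Point), Finite D →
      ∀ S : Finset (curveOf L).toAffine.Point, (∀ d, d ∈ S ↔ d ∈ D ∧ d ≠ 0) →
        ∃ L' : PeriodPair, veluCurve (curveOf L) S = curveOf L' ∧
          ∃ φ : (curveOf L).toAffine.Point →+ (veluCurve (curveOf L) S).toAffine.Point,
            IsVeluHom (curveOf L) D S φ :=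
  fun L D hfin S hS => by
    have := hfin
    exact exists_isVeluHom_curveOf L D S hS

end Main

section Torsion

variable (L : PeriodPair)

theorem mul_mem_lattice_of_mem_divPair (n : ℕ) (hn : 0 < n) {t : ℂ}
    (ht : t ∈ (divPair L n hn).lattice) : (n : ℂ) * t ∈ L.lattice := by
  have hnC : (n : ℂ) ≠ 0 := by exact_mod_cast hn.ne'
  obtain ⟨a, b, hab⟩ := PeriodPair.mem_lattice.mp ht
  refine PeriodPair.mem_lattice.mpr ⟨a, b, ?_⟩
  have h : (a : ℂ) * (L.ω₁ / n) + (b : ℂ) * (L.ω₂ / n) = t := hab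
  rw [← h]
  field_simp

/-- homogeneity of the Eisenstein sums: `G_k((1/n) Λ) = n^k G_k(Λ)`. -/
theorem G_divPair (n : ℕ) (hn : 0 < n) (k : ℕ) :
    (divPair L n hn).G k = (n : ℂ) ^ k * L.G k := by
  have hnC : (n : ℂ) ≠ 0 := by exact_mod_cast hn.ne'
  let e : L.lattice ≃ (divPair L n hn).lattice :=
    { toFun := fun l => ⟨(l : ℂ) / n, mem_divPair_lattice L n hn (by
        rw [mul_div_cancel₀ _ hnC]; exact l.2)⟩
      invFun := fun l' => ⟨(n : ℂ) * l', mul_mem_lattice_of_mem_divPair L n hn l'.2⟩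
      left_inv := fun l => by
        ext
        show (n : ℂ) * ((l : ℂ) / n) = l
        rw [mul_div_cancel₀ _ hnC]
      right_inv := fun l' => by
        ext
        show (n : ℂ) * (l' : ℂ) / n = l'
        rw [mul_div_assoc, mul_div_cancel₀ _ hnC] }
  unfold PeriodPair.G
  rw [← e.tsum_eq, ← tsum_mul_left]
  congr 1
  funext l
  show ((((l : ℂ) / n) ^ k))⁻¹ = (n : ℂ) ^ k * ((l : ℂ) ^ k)⁻¹
  rw [div_pow, inv_div, div_eq_mul_inv]

/-- **(FT) over `ℂ`**: the torsion sum, for the curves `curveOf L`. -/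
theorem sum_torsion_curveOf (m : ℕ) (hm : 0 < m) (S : Finset (curveOf L).toAffine.Point)
    (hS : ∀ d, d ∈ S ↔ m • d = 0 ∧ d ≠ 0) :
    120 * ∑ d ∈ S, (6 * xOf d ^ 2 + (curveOf L).b₂ * xOf d + (curveOf L).b₄)
      = ((m : ℂ) ^ 4 - 1) * (curveOf L).c₄ := by
  let D : AddSubgroup (curveOf L).toAffine.Point :=
    (nsmulAddMonoidHom (α := (curveOf L).toAffine.Point) m).ker
  have hD : ∀ d, d ∈ D ↔ m • d = 0 := fun d => Iff.rfl
  have hS' : ∀ d, d ∈ S ↔ d ∈ D ∧ d ≠ 0 := fun d => by rw [hS, hD]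
  have hL' : (divPair L m hm).lattice = liftSubmodule L D := by
    ext z
    rw [mem_liftSubmodule, hD, ← ptOf_nsmul, ptOf_eq_zero_iff]
    exact ⟨mul_mem_lattice_of_mem_divPair L m hm, mem_divPair_lattice L m hm⟩
  have hsl := isSuperLattice_of_subgroup L D S hS' hL'
  have h2 := g₂_superLattice hsl
  rw [sum_image_liftPt] at h2
  simp only [← xOf_ptOf, ptOf_liftPt] at h2
  have h3 : (divPair L m hm).g₂ = (m : ℂ) ^ 4 * L.g₂ := by
    rw [PeriodPair.g₂, G_divPair, PeriodPair.g₂]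
    ring
  simp only [WeierstrassCurve.b₂, WeierstrassCurve.b₄, WeierstrassCurve.c₄, curveOf_a₁,
    curveOf_a₂, curveOf_a₃, curveOf_a₄]
  have e : 120 * ∑ d ∈ S, (6 * xOf d ^ 2 + ((0 : ℂ) ^ 2 + 4 * 0) * xOf d
        + (2 * -(L.g₂ / 4) + 0 * 0))
      = 12 * ∑ d ∈ S, (60 * xOf d ^ 2 - 5 * L.g₂) := by
    rw [Finset.mul_sum, Finset.mul_sum]
    exact Finset.sum_congr rfl fun d _ => by ring
  rw [e]
  linear_combination 12 * h3 - 12 * h2

/-- literally the unfolded body of the named hypothesis `SumTorsionCurveOfHyp` of (FT). -/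
theorem sumTorsionCurveOfHyp_unfolded :
    ∀ (L : PeriodPair) (m : ℕ) (_ : 0 < m) (S : Finset (curveOf L).toAffine.Point)
      (_ : ∀ d, d ∈ S ↔ m • d = 0 ∧ d ≠ 0),
      120 * ∑ d ∈ S, (6 * xOf d ^ 2 + (curveOf L).b₂ * xOf d + (curveOf L).b₄)
        = ((m : ℂ) ^ 4 - 1) * (curveOf L).c₄ :=
  fun L m hm S hS => sum_torsion_curveOf L m hm S hS

end Torsion

end Fermat.Agent.FC
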