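/-
PROJECT FC — helper2 — block (Q), part 8: **the final literal `exists_velu_model`** (blueprint 418):
`exists_velu_model_of` with the analytic input `VeluCurveOfHyp` discharged by helper7's
`exists_isVeluHom_curveOf` (block (Q-an)).
-/
import Mathlib
import Fermat.Agent.FC.Q_helper2_Model
import Fermat.Agent.FC.VELU_helper7_Hom

set_option autoImplicit false
set_option linter.unusedSectionVars false

namespace Fermat.Agent.FC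

open WeierstrassCurve WeierstrassCurve.Affine Fermat.Agent.S13 Fermat.Agent.Tate

/-- `Ω = AlgebraicClosure ℚ`. -/
local notation "Ω" => AlgebraicClosure ℚ

/-- the absolute Galois group of `ℚ`. -/
local notation "GQ" => (AlgebraicClosure ℚ) ≃ₐ[ℚ] (AlgebraicClosure ℚ)

/-- (Q-an) discharges the analytic hypothesis. -/
theorem veluCurveOfHyp : VeluCurveOfHyp := by
  intro L D hfin S hS
  haveI := hfin
  exact exists_isVeluHom_curveOf L D S hS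

/-- **(Q): the Vélu quotient of a `ℤ`-model by a Galois-stable subgroup of order `p ^ k`,
as a `ℤ`-model with the same `a₁, a₂, a₃` up to `p`-power scaling.** -/
theorem exists_velu_model (W₀ℚ : WeierstrassCurve ℚ)
    (W₀ : WeierstrassCurve ℤ) (h : W₀.map (Int.castRingHom ℚ) = W₀ℚ) (hΔ : W₀.Δ ≠ 0) {p : ℕ}
    (hp : p.Prime) (hp2 : p ≠ 2) (D : AddSubgroup (W₀ℚ⁄Ω).Point) {k : ℕ}
    (hcard : Nat.card D = p ^ k) (hD : ∀ σ : GQ, ∀ d ∈ D, σ • d ∈ D)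
    (S : Finset (W₀ℚ⁄Ω).Point) (hS : ∀ d, d ∈ S ↔ d ∈ D ∧ d ≠ 0) :
    ∃ (W : WeierstrassCurve ℤ) (e : ℕ)
      (φ : (W₀ℚ⁄Ω).Point →+ ((W.map (Int.castRingHom ℚ))⁄Ω).Point),
      W.Δ ≠ 0 ∧ (∀ (σ : GQ) (P : (W₀ℚ⁄Ω).Point), φ (σ • P) = σ • φ P) ∧
      (∀ P, φ P = 0 ↔ P ∈ D) ∧
      W.a₁ = (p : ℤ) ^ e * W₀.a₁ ∧ W.a₂ = (p : ℤ) ^ (2 * e) * W₀.a₂ ∧
      W.a₃ = (p : ℤ) ^ (3 * e) * W₀.a₃ ∧
      ((W.a₄ : ℤ) : Ω) = (p : Ω) ^ (4 * e) * (((W₀.a₄ : ℤ) : Ω) - 5 * veluT (W₀ℚ⁄Ω) S) ∧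
      ((W.a₆ : ℤ) : Ω) = (p : Ω) ^ (6 * e) *
        (((W₀.a₆ : ℤ) : Ω) - ((W₀.b₂ : ℤ) : Ω) * veluT (W₀ℚ⁄Ω) S - 7 * veluW (W₀ℚ⁄Ω) S) :=
  exists_velu_model_of veluCurveOfHyp W₀ℚ W₀ h hΔ hp hp2 D hcard hD S hS

end Fermat.Agent.FC
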