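/-
PROJECT FC (Frey chain, S12), block (TOP) (helper4), part 5: adapters (FREY), (Q)+(M).

* `frey_hgood` : the input `hgood` of `s12_of_blocks` (helper9's `frey_inertia_trivial_of_good`);
* `frey_hQM`   : the input `hQM`: helper2's `exists_velu_model` + `velu_c₄`, helper1's
  `velu_c₄_unit_final`, helper9's `frey_map_int`, `dvd_freyCurveInt_Δ`, `not_dvd_freyCurveInt_c₄`.
-/
import Mathlib
import Fermat.Agent.FC.Q_helper2_Final
import Fermat.Agent.FC.M_helper1_Uncond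
import Fermat.Agent.FC.FREY_helper9_Basic
import Fermat.Agent.FC.C_helper9_Frey
import Fermat.Agent.S54_Frobenius

set_option autoImplicit false
set_option linter.unusedSectionVars false
set_option linter.style.haveILetI false

namespace Fermat.Agent.FC

open WeierstrassCurve WeierstrassCurve.Affine WeierstrassCurve.Affine.Point AddSubgroup
open scoped WeierstrassCurve.Affine

/-- `Ω = AlgebraicClosure ℚ`. -/
local notation "Ω" => AlgebraicClosure ℚ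
/-- `GQ = Gal(Ω/ℚ)`. -/
local notation "GQ" => (AlgebraicClosure ℚ ≃ₐ[ℚ] AlgebraicClosure ℚ)

variable (P : FreyPackage)

/-- **adapter (FREY)**: good reduction outside `p · abc`. -/
theorem frey_hgood : ∀ ℓ : ℕ, ℓ.Prime → ℓ ≠ P.p → ¬ (ℓ : ℤ) ∣ P.a * P.b * P.c →
    ∀ A : ValuationSubring Ω, A.LiesOverPrime ℓ → ∀ σ ∈ A.inertiaSubgroupIn ℚ,
    ∀ (n : ℕ) (x : Epts P), P.p ^ n • x = 0 → σ • x = x :=
  fun _ hℓ hℓp hgood A hA σ hσ n x hx =>
    frey_inertia_trivial_of_good P hℓ hℓp hgood A hA σ hσ n x hx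

/-- a unit times a non-nonunit of a valuation subring is not a nonunit -/
theorem mul_notMem_nonunits {K : Type*} [Field K] {A : ValuationSubring K} {a u : K}
    (ha0 : a ≠ 0) (ha' : a⁻¹ ∈ A) (hu' : u ∉ A.nonunits) : a * u ∉ A.nonunits := by
  intro h
  apply hu'
  rw [ValuationSubring.mem_nonunits_iff] at h ⊢
  have h1 : A.valuation a⁻¹ ≤ 1 := (A.valuation_le_one_iff _).mpr ha'
  have h2 : A.valuation u = A.valuation a⁻¹ * A.valuation (a * u) := by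
    rw [← map_mul, ← mul_assoc, inv_mul_cancel₀ ha0, one_mul]
  rw [h2]
  calc A.valuation a⁻¹ * A.valuation (a * u) ≤ 1 * A.valuation (a * u) :=
        mul_le_mul_left h1 _
    _ = A.valuation (a * u) := one_mul _
    _ < 1 := h

/-- **adapter (Q)+(M)**: the Vélu `ℤ`-model of the quotient of the Frey curve by a Galois-stable
subgroup of order `p ^ k`, with `ℓ ∤ c₄` for every prime `ℓ ≠ p` dividing `abc`. -/
theorem frey_hQM : ∀ (D : AddSubgroup (Epts P)) (k : ℕ), Nat.card D = P.p ^ k →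
    (∀ σ : GQ, ∀ d ∈ D, σ • d ∈ D) →
    ∃ (W : WeierstrassCurve ℤ) (φ : Epts P →+ ((W.map (Int.castRingHom ℚ))⁄Ω).Point),
      W.Δ ≠ 0 ∧ (∀ (σ : GQ) (x : Epts P), φ (σ • x) = σ • φ x) ∧
      (∀ x : Epts P, φ x = 0 ↔ x ∈ D) ∧
      ∀ ℓ : ℕ, ℓ.Prime → ℓ ≠ P.p → (ℓ : ℤ) ∣ P.a * P.b * P.c → ¬ (ℓ : ℤ) ∣ W.c₄ := by
  classical
  intro D k hcard hD
  have hp : P.p.Prime := P.pp
  have hp2 : P.p ≠ 2 := Fermat.Agent.EC.frey_p_ne_two P
  haveI hfin : Finite D := by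
    apply Nat.finite_of_card_ne_zero
    rw [hcard]; exact pow_ne_zero _ hp.ne_zero
  have hSfin : {d : Epts P | d ∈ D ∧ d ≠ 0}.Finite :=
    (Set.toFinite (D : Set (Epts P))).subset (fun d hd => hd.1)
  obtain ⟨S, hS⟩ : ∃ S : Finset (Epts P), ∀ d, d ∈ S ↔ d ∈ D ∧ d ≠ 0 :=
    ⟨hSfin.toFinset, fun d => by rw [Set.Finite.mem_toFinset]; rfl⟩
  obtain ⟨W, e, φ, hWΔ, hφ, hker, h1, h2, h3, h4, -⟩ :=
    exists_velu_model P.freyCurve P.freyCurveInt (frey_map_int P) (freyCurveInt_Δ_ne_zero P) hp hp2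
      D hcard hD S hS
  refine ⟨W, φ, hWΔ, hφ, hker, ?_⟩
  intro ℓ hℓ hℓp hℓabc hdvd
  obtain ⟨A, hA⟩ := Fermat.Agent.S54.exists_valuationSubring_liesOver (L := Ω) hℓ
  have hA' : A.LiesOverPrime ℓ := hA
  have hc := velu_c₄ h1 h2 h3 h4
  obtain ⟨-, hnu⟩ := velu_c₄_unit_final P.freyCurve P.freyCurveInt (frey_map_int P)
    (freyCurveInt_Δ_ne_zero P) hp hp2 hℓ hℓp hA' (dvd_freyCurveInt_Δ P hℓ hℓabc)
    (not_dvd_freyCurveInt_c₄ P hℓ hℓabc) D hcard S hS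
  -- `p ^ (4 e)` is a unit of `A`
  obtain ⟨hp0, hpinv⟩ := natCast_unit_of_not_dvd hℓ hA'
    (fun h => hℓp ((Nat.prime_dvd_prime_iff_eq hℓ hp).mp h))
  have hpow0 : ((P.p : Ω)) ^ (4 * e) ≠ 0 := pow_ne_zero _ hp0
  have hpowinv : (((P.p : Ω)) ^ (4 * e))⁻¹ ∈ A := by
    rw [← inv_pow]; exact pow_mem hpinv _
  have hunit := mul_notMem_nonunits hpow0 hpowinv hnu
  apply hunit
  rw [← hc]
  obtain ⟨m, hm⟩ := hdvd
  rw [hm]
  rw [ValuationSubring.mem_nonunits_iff, Int.cast_mul, map_mul]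
  have h5 : A.valuation (((ℓ : ℤ) : ℤ) : Ω) < 1 := by
    rw [Int.cast_natCast]
    exact (ValuationSubring.mem_nonunits_iff A).mp hA
  have h6 : A.valuation ((m : ℤ) : Ω) ≤ 1 := (A.valuation_le_one_iff _).mpr (intCast_mem A m)
  calc A.valuation (((ℓ : ℤ) : ℤ) : Ω) * A.valuation ((m : ℤ) : Ω)
      ≤ A.valuation (((ℓ : ℤ) : ℤ) : Ω) * 1 := mul_le_mul_right h6 _
    _ = A.valuation (((ℓ : ℤ) : ℤ) : Ω) := mul_one _
    _ < 1 := h5

end Fermat.Agent.FC
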