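/-
PROJECT FC (Frey chain, S12), block (χ) (helper9): consequences of `det ρ̄_{E,p} = χ̄_p`
(`S52x/DET_helper3_Mod.det_mod_eq_cyclotomic`) in the two shapes needed by the chain.

`W` an integral Weierstrass model with `Δ ≠ 0`, `p` an odd prime, `Ω = ℚ̄`.
* `cycloExp_spec` : `σ μ = μ ^ cycloExp p σ` for every `p`-th root of unity `μ`;
* `smul_sub_cyclo_of_fixed` (**cyclo_quot**): if `σ` fixes the point `Q` of order `p`, then
  `σ x - (cycloExp p σ) • x ∈ ⟨Q⟩` for every `p`-torsion point `x`;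
* `line_cyclo` (**(χ)**): if `σ` stabilises the line `⟨n₀⟩` and acts trivially on `E[p]/⟨n₀⟩`, then
  `σ n₀ = (cycloExp p σ) • n₀`.
Each in three spellings of the curve: `W⁄Ω`, `(W.map (Int.castRingHom ℚ))⁄Ω`, and `W₀ℚ⁄Ω` with
`h : W₀.map (Int.castRingHom ℚ) = W₀ℚ`.
-/
import Mathlib
import Fermat.Agent.S52x.DET_helper3_Mod
import Fermat.Agent.LR.NONEIS_helper3_Main
import Fermat.Prelude.Def_ExtCitation_AdmissibleExtension_v2

set_option autoImplicit false
set_option linter.style.haveILetI false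
set_option linter.unusedSectionVars false

namespace Fermat.Agent.FC

open WeierstrassCurve WeierstrassCurve.Affine AddSubgroup ExtCitation
open scoped WeierstrassCurve.Affine

/-- `Ω = AlgebraicClosure ℚ`. -/
local notation "Ω" => AlgebraicClosure ℚ
/-- `GQ = Gal(Ω/ℚ)`. -/
local notation "GQ" => (AlgebraicClosure ℚ ≃ₐ[ℚ] AlgebraicClosure ℚ)

section Cyclo

variable (p : ℕ) [Fact p.Prime]

/-- the defining property of `cycloExp` -/
theorem cycloExp_spec (σ : GQ) (μ : Ω) (hμ : μ ^ p = 1) : σ μ = μ ^ cycloExp p σ := by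
  haveI : NeZero p := ⟨(Fact.out : p.Prime).ne_zero⟩
  have hμ0 : μ ≠ 0 := by
    rintro rfl
    rw [zero_pow (NeZero.ne p)] at hμ
    exact zero_ne_one hμ
  let t : Ωˣ := Units.mk0 μ hμ0
  have ht : t ∈ rootsOfUnity p Ω := by
    rw [mem_rootsOfUnity]
    apply Units.ext
    simpa [t] using hμ
  have := modularCyclotomicCharacter.spec Ω (card_rootsOfUnity_eq_self p)
    (σ : Ω ≃+* Ω) ht
  simpa [t, cycloExp] using this

end Cyclo

section Abstract

variable {E : Type*} [AddCommGroup E]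

/-- a `p`-torsion point outside the line `⟨Q⟩` is independent of `Q` -/
theorem indep_of_not_mem {p : ℕ} (hp : p.Prime) {Q x : E} (hQ : addOrderOf Q = p)
    (hx : p • x = 0) (hxQ : x ∉ zmultiples Q) (a b : ℤ) (h : a • Q + b • x = 0) :
    (p : ℤ) ∣ a ∧ (p : ℤ) ∣ b := by
  have hb : (p : ℤ) ∣ b := by
    by_contra hb
    apply hxQ
    have hcop : IsCoprime b (p : ℤ) :=
      ((Nat.prime_iff_prime_int.mp hp).coprime_iff_not_dvd.mpr hb).symm
    obtain ⟨u, v, huv⟩ := hcop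
    have hx' : (p : ℤ) • x = 0 := by rw [natCast_zsmul]; exact hx
    have h1 : x = (u * b) • x := by
      have : (u * b) • x = (1 - v * p) • x := by rw [← huv]; congr 1; ring
      rw [this, sub_smul, one_smul, mul_smul, hx', smul_zero, sub_zero]
    have h2 : b • x = -(a • Q) := eq_neg_of_add_eq_zero_right h
    rw [h1, mul_smul, h2, smul_neg, ← mul_smul]
    exact (zmultiples Q).neg_mem (zsmul_mem_zmultiples Q _)
  refine ⟨?_, hb⟩
  obtain ⟨b', rfl⟩ := hb
  have h1 : (↑p * b') • x = 0 := by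
    rw [mul_comm, mul_smul, natCast_zsmul, hx, smul_zero]
  rw [h1, add_zero] at h
  have := addOrderOf_dvd_iff_zsmul_eq_zero.mpr h
  rwa [hQ] at this

end Abstract

section Int

variable (W : WeierstrassCurve ℤ) {p : ℕ} [Fact p.Prime]

/-- **cyclo_quot**, spelling `W⁄Ω`. -/
theorem smul_sub_cyclo_of_fixed_int (hΔ : W.Δ ≠ 0) (hp2 : p ≠ 2) (Q : (W⁄Ω).Point)
    (hQ : addOrderOf Q = p) (σ : GQ) (hσQ : σ • Q = Q) (x : (W⁄Ω).Point) (hx : p • x = 0) :
    σ • x - cycloExp p σ • x ∈ zmultiples Q := by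
  have hp : p.Prime := Fact.out
  have hQp : p • Q = 0 := by rw [← hQ]; exact addOrderOf_nsmul_eq_zero Q
  by_cases hxQ : x ∈ zmultiples Q
  · obtain ⟨j, rfl⟩ := mem_zmultiples_iff.mp hxQ
    have h1 : σ • (j • Q) = j • Q := by
      rw [WeierstrassCurve.Affine.Point.algEquiv_smul_zsmul, hσQ]
    rw [h1]
    exact (zmultiples Q).sub_mem (zsmul_mem_zmultiples Q j)
      ((zmultiples Q).nsmul_mem (zsmul_mem_zmultiples Q j) _)
  · have hind := indep_of_not_mem hp hQ hx hxQ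
    have hσx : p • (σ • x) = 0 := by
      have := WeierstrassCurve.Affine.Point.algEquiv_smul_zsmul σ (p : ℤ) x
      rw [natCast_zsmul, natCast_zsmul, hx] at this
      rw [← this]; rfl
    obtain ⟨b, d, hbd⟩ := Fermat.Agent.S52x.span_of_indep W hΔ hp2 Q x hQp hx hind (σ • x) hσx
    have hdet := Fermat.Agent.S52x.det_mod_eq_cyclotomic W hΔ hp2 Q x hQp hx hind σ 1 b 0 d
      (by rw [hσQ, one_zsmul, zero_zsmul, add_zero]) hbd (cycloExp p σ)
      (fun μ hμ => cycloExp_spec p σ μ hμ)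
    obtain ⟨c, hc⟩ := hdet
    have hd : d = (cycloExp p σ : ℤ) + p * c := by linear_combination hc
    rw [hbd, hd, add_zsmul, natCast_zsmul, mul_comm, mul_zsmul, natCast_zsmul, hx, zsmul_zero,
      add_zero, add_sub_cancel_right]
    exact zsmul_mem_zmultiples Q b

/-- **(χ)**, spelling `W⁄Ω`. -/
theorem line_cyclo_int (hΔ : W.Δ ≠ 0) (hp2 : p ≠ 2) (n₀ : (W⁄Ω).Point)
    (hn₀ : addOrderOf n₀ = p) (σ : GQ) (hst : σ • n₀ ∈ zmultiples n₀)
    (hcof : ∀ x : (W⁄Ω).Point, p • x = 0 → σ • x - x ∈ zmultiples n₀) :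
    σ • n₀ = cycloExp p σ • n₀ := by
  classical
  have hp : p.Prime := Fact.out
  have hn₀p : p • n₀ = 0 := by rw [← hn₀]; exact addOrderOf_nsmul_eq_zero n₀
  -- a `p`-torsion point outside the line
  obtain ⟨x, hx, hxn⟩ : ∃ x : (W⁄Ω).Point, p • x = 0 ∧ x ∉ zmultiples n₀ := by
    by_contra hcon
    have hsub : ∀ x : (W⁄Ω).Point, p • x = 0 → x ∈ zmultiples n₀ := by
      intro x hx
      by_contra hxn
      exact hcon ⟨x, hx, hxn⟩
    have hcard : Nat.card {P : (W⁄Ω).Point // p • P = 0} = p ^ 2 :=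
      Fermat.Agent.EC.card_torsion_eq (Fermat.Agent.S52x.baseChange_Δ_ne_zero W hΔ) hp hp2
    have hle : Nat.card {P : (W⁄Ω).Point // p • P = 0} ≤ Nat.card (zmultiples n₀) := by
      haveI : Finite (zmultiples n₀) := by
        apply Nat.finite_of_card_ne_zero
        rw [Nat.card_zmultiples, hn₀]
        exact hp.ne_zero
      exact Nat.card_le_card_of_injective
        (fun P => (⟨(P : (W⁄Ω).Point), hsub _ P.2⟩ : zmultiples n₀))
        (fun P P' h => Subtype.ext (congrArg (fun z : zmultiples n₀ => (z : (W⁄Ω).Point)) h))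
    rw [hcard, Nat.card_zmultiples, hn₀] at hle
    have := hp.one_lt
    nlinarith
  have hind := indep_of_not_mem hp hn₀ hx hxn
  obtain ⟨a, ha⟩ := mem_zmultiples_iff.mp hst
  obtain ⟨b, hb⟩ := mem_zmultiples_iff.mp (hcof x hx)
  have hσx : σ • x = b • n₀ + (1 : ℤ) • x := by
    rw [one_zsmul, hb]; abel
  have hdet := Fermat.Agent.S52x.det_mod_eq_cyclotomic W hΔ hp2 n₀ x hn₀p hx hind σ a b 0 1
    (by rw [← ha, zero_zsmul, add_zero]) hσx (cycloExp p σ)
    (fun μ hμ => cycloExp_spec p σ μ hμ)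
  obtain ⟨c, hc⟩ := hdet
  have ha' : a = (cycloExp p σ : ℤ) + p * c := by linear_combination hc
  rw [← ha, ha', add_zsmul, natCast_zsmul, mul_comm, mul_zsmul, natCast_zsmul, hn₀p, zsmul_zero,
    add_zero]

end Int

section Rat

variable (W : WeierstrassCurve ℤ) {p : ℕ} [Fact p.Prime]

/-- the equivariant identification of the two spellings of the points of an integral model -/
noncomputable def intIso :
    ((W.map (Int.castRingHom ℚ))⁄Ω).Point ≃+ (W⁄Ω).Point :=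
  Fermat.Agent.LR.NonEis.pointCongr (Fermat.Agent.LR.NonEis.baseChange_map_castRingHom W)

theorem intIso_smul (σ : GQ) (P : ((W.map (Int.castRingHom ℚ))⁄Ω).Point) :
    intIso W (σ • P) = σ • intIso W P :=
  Fermat.Agent.LR.NonEis.smul_pointCongr_castRingHom W σ P

theorem mem_zmultiples_of_intIso {Q y : ((W.map (Int.castRingHom ℚ))⁄Ω).Point}
    (h : intIso W y ∈ zmultiples (intIso W Q)) : y ∈ zmultiples Q := by
  obtain ⟨j, hj⟩ := mem_zmultiples_iff.mp h
  rw [← map_zsmul] at hj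
  rw [← (intIso W).injective hj]
  exact zsmul_mem_zmultiples Q j

/-- **cyclo_quot**, spelling `(W.map (Int.castRingHom ℚ))⁄Ω` (the point type of S15). -/
theorem smul_sub_cyclo_of_fixed_map (hΔ : W.Δ ≠ 0) (hp2 : p ≠ 2)
    (Q : ((W.map (Int.castRingHom ℚ))⁄Ω).Point) (hQ : addOrderOf Q = p) (σ : GQ)
    (hσQ : σ • Q = Q) (x : ((W.map (Int.castRingHom ℚ))⁄Ω).Point) (hx : p • x = 0) :
    σ • x - cycloExp p σ • x ∈ zmultiples Q := by
  apply mem_zmultiples_of_intIso W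
  rw [map_sub, intIso_smul, map_nsmul]
  refine smul_sub_cyclo_of_fixed_int W hΔ hp2 (intIso W Q) ?_ σ ?_ (intIso W x) ?_
  · rw [← hQ]
    exact addOrderOf_injective (intIso W).toAddMonoidHom (intIso W).injective Q
  · rw [← intIso_smul, hσQ]
  · rw [← map_nsmul, hx, map_zero]

/-- **(χ)**, spelling `(W.map (Int.castRingHom ℚ))⁄Ω`. -/
theorem line_cyclo_map (hΔ : W.Δ ≠ 0) (hp2 : p ≠ 2)
    (n₀ : ((W.map (Int.castRingHom ℚ))⁄Ω).Point) (hn₀ : addOrderOf n₀ = p) (σ : GQ)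
    (hst : σ • n₀ ∈ zmultiples n₀)
    (hcof : ∀ x : ((W.map (Int.castRingHom ℚ))⁄Ω).Point, p • x = 0 →
      σ • x - x ∈ zmultiples n₀) :
    σ • n₀ = cycloExp p σ • n₀ := by
  apply (intIso W).injective
  rw [intIso_smul, map_nsmul]
  have himg : ∀ {y : ((W.map (Int.castRingHom ℚ))⁄Ω).Point}, y ∈ zmultiples n₀ →
      intIso W y ∈ zmultiples (intIso W n₀) := by
    intro y hy
    obtain ⟨j, rfl⟩ := mem_zmultiples_iff.mp hy
    rw [map_zsmul]
    exact zsmul_mem_zmultiples _ j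
  refine line_cyclo_int W hΔ hp2 (intIso W n₀) ?_ σ ?_ ?_
  · rw [← hn₀]
    exact addOrderOf_injective (intIso W).toAddMonoidHom (intIso W).injective n₀
  · rw [← intIso_smul]
    exact himg hst
  · intro x hx
    obtain ⟨x', rfl⟩ := (intIso W).surjective x
    have hx' : p • x' = 0 := by
      apply (intIso W).injective
      rw [map_nsmul, hx, map_zero]
    rw [← intIso_smul, ← map_sub]
    exact himg (hcof x' hx')

end Rat

section RatModel

variable {p : ℕ} [Fact p.Prime]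

/-- **cyclo_quot**, for a curve over `ℚ` with an integral model. -/
theorem smul_sub_cyclo_of_fixed (W₀ℚ : WeierstrassCurve ℚ) (W₀ : WeierstrassCurve ℤ)
    (h : W₀.map (Int.castRingHom ℚ) = W₀ℚ) (hΔ : W₀.Δ ≠ 0) (hp2 : p ≠ 2)
    (Q : (W₀ℚ⁄Ω).Point) (hQ : addOrderOf Q = p) (σ : GQ) (hσQ : σ • Q = Q)
    (x : (W₀ℚ⁄Ω).Point) (hx : p • x = 0) :
    σ • x - cycloExp p σ • x ∈ zmultiples Q := by
  subst h
  exact smul_sub_cyclo_of_fixed_map W₀ hΔ hp2 Q hQ σ hσQ x hx

/-- **(χ)**, for a curve over `ℚ` with an integral model: if `σ` stabilises the line `⟨n₀⟩` and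
acts trivially on `E[p]/⟨n₀⟩` then it acts on `n₀` through the cyclotomic character. -/
theorem line_cyclo (W₀ℚ : WeierstrassCurve ℚ) (W₀ : WeierstrassCurve ℤ)
    (h : W₀.map (Int.castRingHom ℚ) = W₀ℚ) (hΔ : W₀.Δ ≠ 0) (hp2 : p ≠ 2)
    (n₀ : (W₀ℚ⁄Ω).Point) (hn₀ : addOrderOf n₀ = p) (σ : GQ)
    (hst : σ • n₀ ∈ zmultiples n₀)
    (hcof : ∀ x : (W₀ℚ⁄Ω).Point, p • x = 0 → σ • x - x ∈ zmultiples n₀) :
    σ • n₀ = cycloExp p σ • n₀ := by
  subst h
  exact line_cyclo_map W₀ hΔ hp2 n₀ hn₀ σ hst hcof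

end RatModel

end Fermat.Agent.FC
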