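/-
PROJECT FC (Frey chain, S12), block (ADM) (helper4), part 1: the S14 packaging, abstractly.

`E'` an additive commutative group (in `Type`) with an action of `G_ℚ` (the points of the Vélu
quotient `W_k` over `ℚ̄`), `p` an odd prime.  `TorsP p E'` is the `p`-torsion of `E'` as a type of
its own, with its `ZMod p`-module structure and its `G_ℚ`-action.

* `exists_global_line` : if `#E'[p] = p²`, `Q` is a `G_ℚ`-fixed point of order `p`, `G_ℚ` acts on
  `E'[p]/⟨Q⟩` through the mod `p` cyclotomic character, inertia at every `ℓ ≠ p` acts trivially on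
  `E'[p]`, at every place above `p` there is a decomposition-stable complement of `⟨Q⟩`, and the
  kernel of the action on `E'[p]` is open, then (S14: `ExtVanishingCts p`) there is a `G_ℚ`-stable
  line `M ⊆ E'[p]` with `M ∩ ⟨Q⟩ = 0`, in exactly the shape consumed by `State.succ`.
-/
import Mathlib
import Fermat.Prelude.Def_ExtCitation_AdmissibleExtension_v2
import Fermat.Agent.FC.C_helper9_Group

set_option autoImplicit false
set_option linter.unusedSectionVars false
set_option linter.style.haveILetI false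

namespace Fermat.Agent.FC

open AddSubgroup ExtCitation

section TorsP

/-- the `p`-torsion of `E'` as a type of its own -/
def TorsP (p : ℕ) (E' : Type) [AddCommGroup E'] : Type := torsN E' p

variable {p : ℕ} {E' : Type} [AddCommGroup E']

noncomputable instance instAddCommGroupTorsP : AddCommGroup (TorsP p E') :=
  inferInstanceAs (AddCommGroup (torsN E' p))

/-- the underlying point, as an additive homomorphism -/
def TorsP.valHom : TorsP p E' →+ E' := (torsN E' p).subtype

/-- a `p`-torsion point as an element of `TorsP` -/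
def TorsP.mk' (x : E') (hx : p • x = 0) : TorsP p E' := ⟨x, mem_torsN.mpr hx⟩

@[simp] theorem TorsP.valHom_mk' (x : E') (hx : p • x = 0) :
    TorsP.valHom (TorsP.mk' x hx) = x := rfl

theorem TorsP.valHom_injective : Function.Injective (TorsP.valHom : TorsP p E' → E') :=
  Subtype.val_injective

theorem TorsP.nsmul_valHom (x : TorsP p E') : p • TorsP.valHom x = 0 := mem_torsN.mp x.2

theorem TorsP.nsmul_eq_zero (x : TorsP p E') : p • x = 0 := by
  apply TorsP.valHom_injective
  rw [map_nsmul, TorsP.nsmul_valHom, map_zero]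

theorem TorsP.exists_mk' (x : TorsP p E') : ∃ (y : E') (hy : p • y = 0), x = TorsP.mk' y hy :=
  ⟨TorsP.valHom x, TorsP.nsmul_valHom x, rfl⟩

noncomputable instance instModuleTorsP [Fact p.Prime] : Module (ZMod p) (TorsP p E') :=
  AddCommGroup.zmodModule TorsP.nsmul_eq_zero

theorem TorsP.zmod_smul [Fact p.Prime] (c : ZMod p) (x : TorsP p E') : c • x = c.val • x := by
  haveI : NeZero p := ⟨(Fact.out : p.Prime).ne_zero⟩
  conv_lhs => rw [← ZMod.natCast_zmod_val c, Nat.cast_smul_eq_nsmul]

variable {G : Type*} [Monoid G] [DistribMulAction G E']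

noncomputable instance instDistribMulActionTorsP : DistribMulAction G (TorsP p E') where
  smul σ x := TorsP.mk' (σ • TorsP.valHom x) (by
    rw [smul_comm, TorsP.nsmul_valHom, smul_zero])
  one_smul x := TorsP.valHom_injective (one_smul G (TorsP.valHom x))
  mul_smul σ τ x := TorsP.valHom_injective (mul_smul σ τ (TorsP.valHom x))
  smul_zero σ := TorsP.valHom_injective (smul_zero σ)
  smul_add σ x y := TorsP.valHom_injective (smul_add σ (TorsP.valHom x) (TorsP.valHom y))

@[simp] theorem TorsP.valHom_smul (σ : G) (x : TorsP p E') :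
    TorsP.valHom (σ • x) = σ • TorsP.valHom x := rfl

theorem TorsP.smul_nsmul (σ : G) (n : ℕ) (x : TorsP p E') : σ • (n • x) = n • (σ • x) :=
  map_nsmul (DistribSMul.toAddMonoidHom (TorsP p E') σ) n x

theorem TorsP.smul_zsmul (σ : G) (n : ℤ) (x : TorsP p E') : σ • (n • x) = n • (σ • x) :=
  map_zsmul (DistribSMul.toAddMonoidHom (TorsP p E') σ) n x

instance instSMulCommClassTorsP [Fact p.Prime] : SMulCommClass G (ZMod p) (TorsP p E') where
  smul_comm σ c x := by
    rw [TorsP.zmod_smul, TorsP.zmod_smul, TorsP.smul_nsmul]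

theorem TorsP.card_eq : Nat.card (TorsP p E') = Nat.card (torsN E' p) := rfl

/-- membership in the line spanned by a point, downstairs and upstairs -/
theorem TorsP.mem_zmultiples_iff {x Q : TorsP p E'} :
    x ∈ zmultiples Q ↔ TorsP.valHom x ∈ zmultiples (TorsP.valHom Q) := by
  constructor
  · intro h
    obtain ⟨j, rfl⟩ := AddSubgroup.mem_zmultiples_iff.mp h
    rw [map_zsmul]
    exact zsmul_mem_zmultiples _ j
  · intro h
    obtain ⟨j, hj⟩ := AddSubgroup.mem_zmultiples_iff.mp h
    rw [← map_zsmul] at hj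
    rw [← TorsP.valHom_injective hj]
    exact zsmul_mem_zmultiples _ j

theorem TorsP.addOrderOf_valHom (x : TorsP p E') :
    addOrderOf (TorsP.valHom x) = addOrderOf x :=
  addOrderOf_injective (TorsP.valHom : TorsP p E' →+ E') TorsP.valHom_injective x

end TorsP

section ADM

/-- `Ω = AlgebraicClosure ℚ`. -/
local notation "Ω" => AlgebraicClosure ℚ
/-- `GQ = Gal(Ω/ℚ)`. -/
local notation "GQ" => (AlgebraicClosure ℚ ≃ₐ[ℚ] AlgebraicClosure ℚ)

variable {p : ℕ} [Fact p.Prime] {E' : Type} [AddCommGroup E'] [DistribMulAction GQ E']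

/-- the line `⟨Q⟩` inside the `p`-torsion, as a `ZMod p`-submodule -/
noncomputable def lineSub (Q : TorsP p E') : Submodule (ZMod p) (TorsP p E') :=
  AddSubgroup.toZModSubmodule p (zmultiples Q)

theorem mem_lineSub {Q x : TorsP p E'} : x ∈ lineSub Q ↔ x ∈ zmultiples Q := Iff.rfl

/-- the submodule of the `p`-torsion cut out by a subgroup of `E'` -/
noncomputable def cutSub (M' : AddSubgroup E') : Submodule (ZMod p) (TorsP p E') :=
  AddSubgroup.toZModSubmodule p (M'.comap (TorsP.valHom : TorsP p E' →+ E'))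

theorem mem_cutSub {M' : AddSubgroup E'} {x : TorsP p E'} :
    x ∈ cutSub M' ↔ TorsP.valHom x ∈ M' := Iff.rfl

theorem card_lineSub {Q : TorsP p E'} (hQ : addOrderOf Q = p) :
    Nat.card (lineSub Q) = p := by
  have : Nat.card (lineSub Q) = Nat.card (zmultiples Q) := rfl
  rw [this, Nat.card_zmultiples, hQ]

theorem finite_torsP (hcard : Nat.card (torsN E' p) = p ^ 2) : Finite (TorsP p E') := by
  apply Nat.finite_of_card_ne_zero
  rw [TorsP.card_eq, hcard]
  exact pow_ne_zero _ (Fact.out : p.Prime).ne_zero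

theorem finrank_torsP (hcard : Nat.card (torsN E' p) = p ^ 2) :
    Module.finrank (ZMod p) (TorsP p E') = 2 := by
  haveI := finite_torsP hcard
  have h1 : Nat.card (TorsP p E') = Nat.card (ZMod p) ^ Module.finrank (ZMod p) (TorsP p E') :=
    Module.natCard_eq_pow_finrank
  rw [TorsP.card_eq, hcard, Nat.card_zmod] at h1
  exact (Nat.pow_right_injective (Fact.out : p.Prime).two_le h1).symm

/-- two lines with trivial intersection in a plane are complementary -/
theorem isCompl_of_disjoint_of_ne_bot (hcard : Nat.card (torsN E' p) = p ^ 2)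
    {C C' : Submodule (ZMod p) (TorsP p E')} (hC : C ≠ ⊥) (hC' : C' ≠ ⊥) (hd : Disjoint C C') :
    IsCompl C C' := by
  haveI := finite_torsP (p := p) (E' := E') hcard
  refine ⟨hd, ?_⟩
  rw [codisjoint_iff]
  apply Submodule.eq_top_of_finrank_eq
  rw [finrank_torsP hcard]
  have h1 := Submodule.finrank_sup_add_finrank_inf_eq C C'
  rw [disjoint_iff.mp hd, finrank_bot, add_zero] at h1
  have h2 : 0 < Module.finrank (ZMod p) C := by
    rw [Module.finrank_pos_iff]
    exact Submodule.nontrivial_iff_ne_bot.mpr hC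
  have h3 : 0 < Module.finrank (ZMod p) C' := by
    rw [Module.finrank_pos_iff]
    exact Submodule.nontrivial_iff_ne_bot.mpr hC'
  have h4 : Module.finrank (ZMod p) (C ⊔ C' : Submodule (ZMod p) (TorsP p E')) ≤
      Module.finrank (ZMod p) (TorsP p E') := Submodule.finrank_le _
  rw [finrank_torsP hcard] at h4
  omega

/-- **(ADM)**: the S14 packaging.  From the cyclotomic quotient, the triviality of inertia outside
`p`, a local splitting at `p` and openness of the kernel, `ExtVanishingCts p` produces the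
`G_ℚ`-stable line `M` complementary to `⟨Q⟩` in `E'[p]`. -/
theorem exists_global_line (hS14 : ExtVanishingCts p)
    (hcard : Nat.card (torsN E' p) = p ^ 2)
    (Q : E') (hQ : addOrderOf Q = p) (hQfix : ∀ σ : GQ, σ • Q = Q)
    (hcyc : ∀ (σ : GQ) (x : E'), p • x = 0 → σ • x - cycloExp p σ • x ∈ zmultiples Q)
    (hunr : ∀ ℓ : ℕ, ℓ.Prime → ℓ ≠ p → ∀ A : ValuationSubring Ω, A.LiesOverPrime ℓ →
      ∀ σ ∈ A.inertiaSubgroupIn ℚ, ∀ x : E', p • x = 0 → σ • x = x)
    (hloc : ∀ A : ValuationSubring Ω, A.LiesOverPrime p → ∃ M' : AddSubgroup E',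
      (∀ σ ∈ A.decompositionSubgroup ℚ, ∀ m ∈ M', σ • m ∈ M') ∧
      (∀ m ∈ M', m ∈ zmultiples Q → m = 0) ∧ (∃ m ∈ M', m ≠ 0 ∧ p • m = 0))
    (hopen : IsOpen {σ : GQ | ∀ x : E', p • x = 0 → σ • x = x}) :
    ∃ M : AddSubgroup E', (∀ σ : GQ, ∀ m ∈ M, σ • m ∈ M) ∧
      (∀ m ∈ M, ∀ m' ∈ M, m ≠ 0 → m' ∈ zmultiples m) ∧ (∀ m ∈ M, p • m = 0) ∧
      (∃ m ∈ M, m ≠ 0) ∧ (∀ m ∈ M, m ∈ zmultiples Q → m = 0) := by
  have hp : p.Prime := Fact.out
  haveI := finite_torsP (p := p) (E' := E') hcard
  have hQp : p • Q = 0 := by rw [← hQ]; exact addOrderOf_nsmul_eq_zero Q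
  obtain ⟨Q', hQ'⟩ : ∃ Q' : TorsP p E', Q' = TorsP.mk' Q hQp := ⟨_, rfl⟩
  have hQ'val : TorsP.valHom Q' = Q := by rw [hQ']; rfl
  have hQ'ord : addOrderOf Q' = p := by rw [← TorsP.addOrderOf_valHom, hQ'val, hQ]
  have hQ'0 : Q' ≠ 0 := by
    intro h0
    rw [h0, addOrderOf_zero] at hQ'ord
    exact hp.one_lt.ne hQ'ord
  have hQ'fix : ∀ σ : GQ, σ • Q' = Q' := by
    intro σ
    apply TorsP.valHom_injective
    rw [TorsP.valHom_smul, hQ'val, hQfix]
  have hCne : lineSub Q' ≠ ⊥ := by
    intro h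
    have : Q' ∈ lineSub Q' := mem_lineSub.mpr (mem_zmultiples Q')
    rw [h, Submodule.mem_bot] at this
    exact hQ'0 this
  have hfixC : ∀ σ : GQ, ∀ x ∈ lineSub Q', σ • x = x := by
    intro σ x hx
    obtain ⟨j, rfl⟩ := AddSubgroup.mem_zmultiples_iff.mp (mem_lineSub.mp hx)
    rw [TorsP.smul_zsmul, hQ'fix]
  -- admissibility
  have hadm : IsAdmissibleExtensionCts p (TorsP p E') (lineSub Q') := by
    refine ⟨⟨?_, hfixC, ?_, card_lineSub hQ'ord, ?_, ?_, ?_⟩, ?_⟩
    · intro σ x hx
      rw [hfixC σ x hx]; exact hx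
    · intro σ x
      rw [Nat.cast_smul_eq_nsmul, mem_lineSub, TorsP.mem_zmultiples_iff, map_sub, map_nsmul,
        TorsP.valHom_smul, hQ'val]
      exact hcyc σ _ (TorsP.nsmul_valHom x)
    · rw [TorsP.card_eq, hcard]
    · intro ℓ hℓ hℓp A hA σ hσ x
      apply TorsP.valHom_injective
      rw [TorsP.valHom_smul]
      exact hunr ℓ hℓ hℓp A hA σ hσ _ (TorsP.nsmul_valHom x)
    · intro A hA
      obtain ⟨M', hM'st, hM'Q, m, hmM', hm0, hmp⟩ := hloc A hA
      refine ⟨cutSub M', ?_, ?_⟩
      · intro σ hσ x hx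
        rw [mem_cutSub, TorsP.valHom_smul]
        exact hM'st σ hσ _ (mem_cutSub.mp hx)
      · apply isCompl_of_disjoint_of_ne_bot hcard hCne
        · intro h
          have : TorsP.mk' m hmp ∈ cutSub (p := p) M' := mem_cutSub.mpr hmM'
          rw [h, Submodule.mem_bot] at this
          exact hm0 (congrArg TorsP.valHom this)
        · rw [Submodule.disjoint_def]
          intro x hxC hxC'
          apply TorsP.valHom_injective
          rw [map_zero]
          apply hM'Q _ (mem_cutSub.mp hxC')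
          rw [← hQ'val]
          exact TorsP.mem_zmultiples_iff.mp (mem_lineSub.mp hxC)
    · have : {σ : GQ | ∀ v : TorsP p E', σ • v = v} =
          {σ : GQ | ∀ x : E', p • x = 0 → σ • x = x} := by
        ext σ
        simp only [Set.mem_ofPred_eq]
        constructor
        · intro h x hx
          exact congrArg TorsP.valHom (h (TorsP.mk' x hx))
        · intro h v
          apply TorsP.valHom_injective
          rw [TorsP.valHom_smul]
          exact h _ (TorsP.nsmul_valHom v)
      rw [this]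
      exact hopen
  obtain ⟨C', hC'st, hcompl⟩ := hS14 (TorsP p E') (lineSub Q') hadm
  -- `C'` is a line
  have hfrC : Module.finrank (ZMod p) (lineSub Q') = 1 := by
    have h1 : Nat.card (lineSub Q') =
        Nat.card (ZMod p) ^ Module.finrank (ZMod p) (lineSub Q') :=
      Module.natCard_eq_pow_finrank
    rw [card_lineSub hQ'ord, Nat.card_zmod] at h1
    have h2 : p ^ 1 = p ^ Module.finrank (ZMod p) (lineSub Q') := by rw [pow_one]; exact h1
    exact (Nat.pow_right_injective hp.two_le h2).symm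
  have hfrC' : Module.finrank (ZMod p) C' = 1 := by
    have h1 := Submodule.finrank_add_eq_of_isCompl hcompl
    rw [hfrC, finrank_torsP hcard] at h1
    omega
  refine ⟨(C'.toAddSubgroup).map (TorsP.valHom : TorsP p E' →+ E'), ?_, ?_, ?_, ?_, ?_⟩
  · rintro σ _ ⟨x, hx, rfl⟩
    exact ⟨σ • x, hC'st σ x hx, rfl⟩
  · rintro _ ⟨x, hx, rfl⟩ _ ⟨y, hy, rfl⟩ hx0
    have hx0' : (⟨x, hx⟩ : C') ≠ 0 := by
      intro h
      apply hx0
      have : x = 0 := congrArg Subtype.val h
      rw [this, map_zero]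
    obtain ⟨c, hc⟩ := (finrank_eq_one_iff_of_nonzero' (⟨x, hx⟩ : C') hx0').mp hfrC' ⟨y, hy⟩
    have hc' : c • x = y := congrArg Subtype.val hc
    rw [← hc', TorsP.zmod_smul, map_nsmul]
    exact nsmul_mem_zmultiples _ _
  · rintro _ ⟨x, _, rfl⟩
    exact TorsP.nsmul_valHom x
  · have hC'ne : C' ≠ ⊥ := by
      intro h
      rw [h, finrank_bot] at hfrC'
      exact zero_ne_one hfrC'
    obtain ⟨x, hx, hx0⟩ := Submodule.exists_mem_ne_zero_of_ne_bot hC'ne
    refine ⟨TorsP.valHom x, ⟨x, hx, rfl⟩, ?_⟩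
    intro h
    apply hx0
    apply TorsP.valHom_injective
    rw [h, map_zero]
  · rintro _ ⟨x, hx, rfl⟩ hxQ
    have h1 : x ∈ lineSub Q' := by
      rw [mem_lineSub, TorsP.mem_zmultiples_iff, hQ'val]
      exact hxQ
    have h2 : x ∈ (lineSub Q' ⊓ C' : Submodule (ZMod p) (TorsP p E')) := ⟨h1, hx⟩
    rw [disjoint_iff.mp hcompl.disjoint, Submodule.mem_bot] at h2
    rw [h2, map_zero]

end ADM

end Fermat.Agent.FC
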