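/-
PROJECT FC (Frey chain, S12), block (TOP) (helper4), part 1: the abstract induction step
`PreState k ⇒ State k ∧ PreState (k+1)`.

`E`, `E'` additive commutative groups with an action of `G_ℚ` (`E` = points of the Frey curve, `E'`
= points of the Vélu quotient by `D = ⟨g⟩`), `φ : E →+ E'` equivariant with kernel `D`.

* `cyclic_torsion_mem` : the `p`-torsion of a cyclic group of order `p ^ k` is the line spanned by
  any of its elements of order `p`;
* `exists_preimage_pow` : every `p`-torsion point of `E'` is `φ y` with `y ∈ E[p^(k+1)]`;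
* `fix_torsion_of_fix` : if `σ` fixes `E[p^(k+1)]` pointwise it fixes `E'[p]` pointwise;
* `loc_of_chain` : the local complement at `p` from the next step of the canonical chain;
* `PreState.step_core` : **the step**: Minkowski (`PreState.toState_of_inertia`), the S14 packaging
  (`exists_global_line`), surjectivity by counting and `State.succ`.
-/
import Mathlib
import Fermat.Agent.FC.C_helper9_Chain
import Fermat.Agent.FC.C_helper9_Mink
import Fermat.Agent.FC.C_helper9_Aux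
import Fermat.Agent.FC.ADM_helper4_Core

set_option autoImplicit false
set_option linter.unusedSectionVars false
set_option linter.style.haveILetI false

namespace Fermat.Agent.FC

open AddSubgroup ExtCitation

section Cyclic

variable {E : Type*} [AddCommGroup E]

/-- in a cyclic group of order `p ^ k`, `k ≠ 0`, the `p`-torsion is the line spanned by any element
of order `p` -/
theorem cyclic_torsion_mem {p : ℕ} (hp : p.Prime) {k : ℕ} (hk : k ≠ 0) {g g₁ : E}
    (hg : addOrderOf g = p ^ k) (hg₁ : g₁ ∈ zmultiples g) (hg₁ord : addOrderOf g₁ = p)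
    (x : E) (hx : x ∈ zmultiples g) (hxp : p • x = 0) : x ∈ zmultiples g₁ := by
  obtain ⟨j, rfl⟩ := Nat.exists_eq_succ_of_ne_zero hk
  set n₀ := p ^ j • g with hn₀
  have hn₀ord : addOrderOf n₀ = p := by
    have := addOrderOf_pow_pred_nsmul hp hk hg
    rwa [Nat.succ_sub_one] at this
  -- every `p`-torsion element of `⟨g⟩` is in `⟨n₀⟩`
  have key : ∀ y ∈ zmultiples g, p • y = 0 → y ∈ zmultiples n₀ := by
    intro y hy hyp
    obtain ⟨n, rfl⟩ := mem_zmultiples_iff.mp hy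
    have h1 : ((p : ℤ) * n) • g = 0 := by
      rw [mul_smul, natCast_zsmul]; exact hyp
    have h2 := addOrderOf_dvd_iff_zsmul_eq_zero.mpr h1
    rw [hg] at h2
    have hp0 : (p : ℤ) ≠ 0 := by exact_mod_cast hp.ne_zero
    have h3 : ((p ^ j : ℕ) : ℤ) ∣ n := by
      have e : ((p ^ (j + 1) : ℕ) : ℤ) = (p : ℤ) * ((p ^ j : ℕ) : ℤ) := by push_cast; ring
      rw [e] at h2
      exact (mul_dvd_mul_iff_left hp0).mp h2
    obtain ⟨m, rfl⟩ := h3
    have h4 : (((p ^ j : ℕ) : ℤ) * m) • g = m • n₀ := by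
      rw [mul_comm, mul_smul, natCast_zsmul]
    rw [h4]
    exact zsmul_mem_zmultiples n₀ m
  have hg₁p : p • g₁ = 0 := by rw [← hg₁ord]; exact addOrderOf_nsmul_eq_zero g₁
  have hle : zmultiples g₁ ≤ zmultiples n₀ := by
    rw [zmultiples_le]; exact key g₁ hg₁ hg₁p
  have heq : zmultiples g₁ = zmultiples n₀ := by
    haveI : Finite (zmultiples n₀) := by
      apply Nat.finite_of_card_ne_zero
      rw [Nat.card_zmultiples, hn₀ord]
      exact hp.ne_zero
    apply AddSubgroup.eq_of_le_of_card_ge hle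
    rw [Nat.card_zmultiples, Nat.card_zmultiples, hn₀ord, hg₁ord]
  rw [heq]
  exact key x hx hxp

end Cyclic

section Pre

variable {E E' : Type*} [AddCommGroup E] [AddCommGroup E']

theorem finite_ker_of_zmultiples {p k : ℕ} (hp : p.Prime) {g : E} (hg : addOrderOf g = p ^ k)
    (φ : E →+ E') (hker : ∀ x : E, φ x = 0 ↔ x ∈ zmultiples g) : Finite φ.ker := by
  have h : φ.ker = zmultiples g := by
    ext x
    rw [AddMonoidHom.mem_ker, hker]
  rw [h]
  apply Nat.finite_of_card_ne_zero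
  rw [Nat.card_zmultiples, hg]
  exact pow_ne_zero _ hp.ne_zero

/-- every `p`-torsion point of `E'` is the image of a `p ^ (k+1)`-torsion point of `E` -/
theorem exists_preimage_pow {p k : ℕ} (hp : p.Prime) {g : E} (hg : addOrderOf g = p ^ k)
    (φ : E →+ E') (hker : ∀ x : E, φ x = 0 ↔ x ∈ zmultiples g)
    (hdiv : ∀ x : E, ∃ y : E, p • y = x)
    (hcardE : Nat.card (torsN E p) = p ^ 2) (hcardE' : Nat.card (torsN E' p) = p ^ 2)
    (T : E') (hT : p • T = 0) : ∃ y : E, p ^ (k + 1) • y = 0 ∧ φ y = T := by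
  haveI := finite_ker_of_zmultiples hp hg φ hker
  have hpos : Nat.card (torsN E' p) ≠ 0 := by
    rw [hcardE']; exact pow_ne_zero _ hp.ne_zero
  obtain ⟨y, hy, hφy⟩ := exists_preimage_of_torsion φ p hdiv (hcardE.trans hcardE'.symm) hpos T hT
  refine ⟨y, ?_, hφy⟩
  have h1 : p • y ∈ zmultiples g := (hker _).mp (AddMonoidHom.mem_ker.mp hy)
  obtain ⟨n, hn⟩ := mem_zmultiples_iff.mp h1
  rw [pow_succ, mul_smul, ← hn, smul_comm, ← hg, addOrderOf_nsmul_eq_zero, smul_zero]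

end Pre

section Equivariant

variable {G : Type*} {E E' : Type*} [Group G] [AddCommGroup E] [AddCommGroup E']
  [DistribMulAction G E] [DistribMulAction G E']

/-- if `σ` fixes `E[p^(k+1)]` pointwise then it fixes `E'[p]` pointwise -/
theorem fix_torsion_of_fix {p k : ℕ} (hp : p.Prime) {g : E} (hg : addOrderOf g = p ^ k)
    (φ : E →+ E') (hφ : ∀ (σ : G) (x : E), φ (σ • x) = σ • φ x)
    (hker : ∀ x : E, φ x = 0 ↔ x ∈ zmultiples g)
    (hdiv : ∀ x : E, ∃ y : E, p • y = x)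
    (hcardE : Nat.card (torsN E p) = p ^ 2) (hcardE' : Nat.card (torsN E' p) = p ^ 2)
    (σ : G) (hσ : ∀ x : E, p ^ (k + 1) • x = 0 → σ • x = x)
    (T : E') (hT : p • T = 0) : σ • T = T := by
  obtain ⟨y, hy, rfl⟩ := exists_preimage_pow hp hg φ hker hdiv hcardE hcardE' T hT
  rw [← hφ, hσ y hy]

/-- **the local complement at `p`**: `K` the next step of the canonical chain. -/
theorem loc_of_chain {p k : ℕ} (hk : k ≠ 0) {g : E}
    (φ : E →+ E') (hφ : ∀ (σ : G) (x : E), φ (σ • x) = σ • φ x)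
    (hker : ∀ x : E, φ x = 0 ↔ x ∈ zmultiples g)
    {T₀ : E} (hT₀ : p • T₀ = 0)
    (H : Subgroup G) (K : AddSubgroup E) (hKst : ∀ σ ∈ H, ∀ y ∈ K, σ • y ∈ K)
    (hgK : zmultiples g ≤ K) (hKp : ∀ y ∈ K, p • y ∈ zmultiples g)
    (hKtors : ∀ y ∈ K, p ^ k • y = 0 → y ∈ zmultiples g)
    (hKne : ∃ y ∈ K, y ∉ zmultiples g) :
    ∃ M' : AddSubgroup E', (∀ σ ∈ H, ∀ m ∈ M', σ • m ∈ M') ∧
      (∀ m ∈ M', m ∈ zmultiples (φ T₀) → m = 0) ∧ (∃ m ∈ M', m ≠ 0 ∧ p • m = 0) := by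
  refine ⟨K.map φ, ?_, ?_, ?_⟩
  · rintro σ hσ _ ⟨y, hy, rfl⟩
    exact ⟨σ • y, hKst σ hσ y hy, hφ σ y⟩
  · rintro _ ⟨y, hy, rfl⟩ hyQ
    obtain ⟨j, hj⟩ := mem_zmultiples_iff.mp hyQ
    rw [← map_zsmul] at hj
    have h1 : y - j • T₀ ∈ zmultiples g := by
      rw [← hker, map_sub, hj, sub_self]
    have h2 : j • T₀ ∈ K := by
      have := K.sub_mem hy (hgK h1)
      rwa [sub_sub_cancel] at this
    have h3 : p ^ k • (j • T₀) = 0 := by
      obtain ⟨i, rfl⟩ := Nat.exists_eq_succ_of_ne_zero hk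
      rw [pow_succ, mul_smul, smul_comm p j, hT₀, smul_zero, smul_zero]
    have h4 : j • T₀ ∈ zmultiples g := hKtors _ h2 h3
    rw [← hj]
    exact (hker _).mpr h4
  · obtain ⟨y, hy, hyg⟩ := hKne
    refine ⟨φ y, ⟨y, hy, rfl⟩, ?_, ?_⟩
    · intro h
      exact hyg ((hker _).mp h)
    · rw [← map_nsmul]
      exact (hker _).mpr (hKp y hy)

end Equivariant

section Step

/-- `Ω = AlgebraicClosure ℚ`. -/
local notation "Ω" => AlgebraicClosure ℚ
/-- `GQ = Gal(Ω/ℚ)`. -/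
local notation "GQ" => (AlgebraicClosure ℚ ≃ₐ[ℚ] AlgebraicClosure ℚ)

variable {E : Type*} {E' : Type} [AddCommGroup E] [AddCommGroup E'] [DistribMulAction GQ E]
  [DistribMulAction GQ E']

/-- **the induction step**, abstractly. -/
theorem PreState.step_core {p : ℕ} [Fact p.Prime] (hS14 : ExtVanishingCts p) {k : ℕ}
    (hk : k ≠ 0) {g : E} (hPS : PreState GQ p k g)
    (hdiv : ∀ x : E, ∃ y : E, p • y = x) (hcardE : Nat.card (torsN E p) = p ^ 2)
    (hopenE : IsOpen {σ : GQ | ∀ x : E, p ^ k • x = 0 → σ • x = x})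
    (hI : ∀ (ℓ : ℕ) (A : ValuationSubring Ω), ℓ.Prime → A.LiesOverPrime ℓ →
      ∀ σ ∈ A.inertiaSubgroupIn ℚ, ∀ x : E, p ^ k • x = 0 → σ • x - x ∈ zmultiples g)
    (φ : E →+ E') (hφ : ∀ (σ : GQ) (x : E), φ (σ • x) = σ • φ x)
    (hker : ∀ x : E, φ x = 0 ↔ x ∈ zmultiples g)
    (hcardE' : Nat.card (torsN E' p) = p ^ 2)
    {T₀ : E} (hT₀ : p • T₀ = 0) (hT₀g : T₀ ∉ zmultiples g)
    (hcyc : ∀ (σ : GQ) (x : E'), p • x = 0 → σ • x - cycloExp p σ • x ∈ zmultiples (φ T₀))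
    (hunr : ∀ ℓ : ℕ, ℓ.Prime → ℓ ≠ p → ∀ A : ValuationSubring Ω, A.LiesOverPrime ℓ →
      ∀ σ ∈ A.inertiaSubgroupIn ℚ, ∀ x : E', p • x = 0 → σ • x = x)
    (hloc : ∀ A : ValuationSubring Ω, A.LiesOverPrime p → ∃ M' : AddSubgroup E',
      (∀ σ ∈ A.decompositionSubgroup ℚ, ∀ m ∈ M', σ • m ∈ M') ∧
      (∀ m ∈ M', m ∈ zmultiples (φ T₀) → m = 0) ∧ (∃ m ∈ M', m ≠ 0 ∧ p • m = 0))
    (hopenE' : IsOpen {σ : GQ | ∀ x : E', p • x = 0 → σ • x = x}) :
    State GQ p k g ∧ ∃ g' : E, PreState GQ p (k + 1) g' ∧ zmultiples g ≤ zmultiples g' := by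
  have hp : p.Prime := Fact.out
  -- Step A
  have hS : State GQ p k g := hPS.toState_of_inertia hopenE hI
  refine ⟨hS, ?_⟩
  -- the rational point `Q`
  have hQp : p • φ T₀ = 0 := by rw [← map_nsmul, hT₀, map_zero]
  have hQ0 : φ T₀ ≠ 0 := fun h => hT₀g ((hker _).mp h)
  have hQord : addOrderOf (φ T₀) = p := addOrderOf_eq_prime hQp hQ0
  have hQfix : ∀ σ : GQ, σ • φ T₀ = φ T₀ := by
    intro σ
    rw [← hφ, ← sub_eq_zero, ← map_sub, hker]
    exact hPS.low σ T₀ hT₀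
  -- the global line
  obtain ⟨M, hMst, hMline, hMtors, hMne, hMQ⟩ :=
    exists_global_line hS14 hcardE' (φ T₀) hQord hQfix hcyc hunr hloc hopenE'
  -- surjectivity
  have hsurj : ∀ m : E', p • m = 0 → ∃ y : E, φ y = m := by
    intro m hm
    obtain ⟨y, -, hy⟩ := exists_preimage_pow hp hPS.order φ hker hdiv hcardE hcardE' m hm
    exact ⟨y, hy⟩
  -- `M ∩ φ(E[p]) = 0`
  have hMcompl : ∀ x : E, p • x = 0 → φ x ∈ M → φ x = 0 := by
    intro x hx hxM
    obtain ⟨j, hj⟩ := torsion_decomp hp hcardE hk hPS.order hT₀ hT₀g x hx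
    apply hMQ _ hxM
    have h1 : φ x = j • φ T₀ := by
      rw [← map_zsmul, ← sub_eq_zero, ← map_sub, hker]
      exact hj
    rw [h1]
    exact zsmul_mem_zmultiples _ j
  obtain ⟨g', hg', -, hle⟩ :=
    hS.succ hp hk φ hφ hker hsurj M hMst hMline hMtors hMne hMcompl
  exact ⟨g', hg', hle⟩

end Step

end Fermat.Agent.FC
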