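/-
PROJECT FC (Frey chain, S12), block (TOP) (helper4), part 2: the induction step on the Frey curve
and the skeleton `s12_of_interfaces`.

All blocks that are not yet proved enter as named hypotheses:
* `hS14`  : S14 (`ExtVanishingCts`);
* `hS15`  : S15 (literal of the frozen statement);
* `hss`, `hgood` : (FREY) semistability of the integral Frey model and good reduction outside `abc`;
* `hQM`   : (Q)+(M) the Vélu `ℤ`-model of `E/D` with `ℓ ∤ c₄` for `ℓ ∣ abc`, `ℓ ≠ p`;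
* `hUa`, `hUb` : (U) inertia on a nodal `ℤ`-model with a rational point of order `p` outside `W⁰`
  (`hUb` only for `p ≠ 2`);
* `hP`    : (P) the canonical chain at the places above `p`.
(S2), (R-c)+(U2), (χ), (C), (CNT) are imported.
-/
import Mathlib
import Fermat.Agent.FC.TOP_helper4_Step
import Fermat.Agent.FC.C_helper9_Frey
import Fermat.Agent.FC.C_helper9_Open
import Fermat.Agent.FC.CHI_helper9_Det
import Fermat.Agent.FC.RED_helper1_Frozen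
import Fermat.Agent.FC.S2_helper1

set_option autoImplicit false
set_option linter.unusedSectionVars false
set_option linter.style.haveILetI false

namespace Fermat.Agent.FC

open WeierstrassCurve WeierstrassCurve.Affine WeierstrassCurve.Affine.Point AddSubgroup ExtCitation
open scoped WeierstrassCurve.Affine

/-- `Ω = AlgebraicClosure ℚ`. -/
local notation "Ω" => AlgebraicClosure ℚ
/-- `GQ = Gal(Ω/ℚ)`. -/
local notation "GQ" => (AlgebraicClosure ℚ ≃ₐ[ℚ] AlgebraicClosure ℚ)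

section Model

variable (W : WeierstrassCurve ℤ)

theorem int_baseChange_Δ_ne (hΔ : W.Δ ≠ 0) : ((W.map (Int.castRingHom ℚ))⁄Ω).Δ ≠ 0 := by
  have h : ((W.map (Int.castRingHom ℚ))⁄Ω).Δ = algebraMap ℚ Ω (W.map (Int.castRingHom ℚ)).Δ :=
    WeierstrassCurve.map_Δ _ _
  rw [h, WeierstrassCurve.map_Δ]
  intro h0
  have h1 := (map_eq_zero (algebraMap ℚ Ω)).mp h0
  have h2 : ((W.Δ : ℤ) : ℚ) = 0 := h1
  exact hΔ (by exact_mod_cast h2)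

theorem int_card_torsN (hΔ : W.Δ ≠ 0) {p : ℕ} (hp : p.Prime) (hp2 : p ≠ 2) :
    Nat.card (torsN ((W.map (Int.castRingHom ℚ))⁄Ω).Point p) = p ^ 2 := by
  rw [card_torsN_eq_card_subtype]
  exact Fermat.Agent.EC.card_torsion_eq (int_baseChange_Δ_ne W hΔ) hp hp2

theorem int_isOpen_kernel (hΔ : W.Δ ≠ 0) {p : ℕ} (hp : p.Prime) (hp2 : p ≠ 2) :
    IsOpen {σ : GQ | ∀ x : ((W.map (Int.castRingHom ℚ))⁄Ω).Point, p • x = 0 → σ • x = x} := by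
  apply isOpen_kernel_torsion (W.map (Int.castRingHom ℚ) : Affine ℚ) p
  apply Nat.finite_of_card_ne_zero
  rw [int_card_torsN W hΔ hp hp2]
  exact pow_ne_zero _ hp.ne_zero

/-- good reduction of a `ℤ`-model: inertia at `ℓ ∤ Δ` fixes the torsion prime to `ℓ` -/
theorem int_smul_eq_of_good {ℓ n : ℕ} (hℓ : ℓ.Prime) {A : ValuationSubring Ω}
    (hA : A.LiesOverPrime ℓ) (hΔ : ¬ (ℓ : ℤ) ∣ W.Δ) (hn : ¬ ℓ ∣ n) {σ : GQ}
    (hσ : σ ∈ A.inertiaSubgroupIn ℚ) {T : ((W.map (Int.castRingHom ℚ))⁄Ω).Point}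
    (hT : n • T = 0) : σ • T = T :=
  smul_eq_of_inZeroComponentAt hℓ hA hn hσ hT (inZeroComponentAt_of_torsion_good hℓ hA hΔ hn hT)

end Model

theorem not_dvd_prime_pow {ℓ p : ℕ} (hℓ : ℓ.Prime) (hp : p.Prime) (hℓp : ℓ ≠ p) (k : ℕ) :
    ¬ ℓ ∣ p ^ k := fun h =>
  hℓp ((Nat.prime_dvd_prime_iff_eq hℓ hp).mp (hℓ.dvd_of_dvd_pow h))

section Step

variable (P : FreyPackage)

/-- **the induction step on the Frey curve**, all open blocks as hypotheses. -/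
theorem frey_step (hp17 : 17 ≤ P.p)
    (hS14 : haveI : Fact P.p.Prime := ⟨P.pp⟩; ExtVanishingCts P.p)
    (hS15 : ∀ {p : ℕ} (_ : p.Prime) (_ : p ∉ ({2, 3, 5, 7, 13} : Finset ℕ))
      (W : WeierstrassCurve ℤ) (_ : W.Δ ≠ 0)
      (Q : ((W.map (Int.castRingHom ℚ))⁄Ω).Point)
      (_ : ∀ σ : GQ, σ • Q = Q) (_ : addOrderOf Q = p)
      (_ : (2 : ℤ) ∣ W.Δ) (_ : ¬ (2 : ℤ) ∣ W.c₄)
      (_ : ∀ A : ValuationSubring Ω, A.LiesOverPrime 2 → ¬ W.InZeroComponentAt A Q)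
      (_ : (3 : ℤ) ∣ W.Δ) (_ : ¬ (3 : ℤ) ∣ W.c₄)
      (_ : ∀ A : ValuationSubring Ω, A.LiesOverPrime 3 → ¬ W.InZeroComponentAt A Q)
      {ℓ : ℕ} (_ : ℓ.Prime) (_ : ℓ ≠ p) (_ : (ℓ : ℤ) ∣ W.Δ) (_ : ¬ (ℓ : ℤ) ∣ W.c₄)
      (A : ValuationSubring Ω) (_ : A.LiesOverPrime ℓ), ¬ W.InZeroComponentAt A Q)
    (hgood : ∀ ℓ : ℕ, ℓ.Prime → ℓ ≠ P.p → ¬ (ℓ : ℤ) ∣ P.a * P.b * P.c →
      ∀ A : ValuationSubring Ω, A.LiesOverPrime ℓ → ∀ σ ∈ A.inertiaSubgroupIn ℚ,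
      ∀ (n : ℕ) (x : Epts P), P.p ^ n • x = 0 → σ • x = x)
    (hQM : ∀ (D : AddSubgroup (Epts P)) (k : ℕ), Nat.card D = P.p ^ k →
      (∀ σ : GQ, ∀ d ∈ D, σ • d ∈ D) →
      ∃ (W : WeierstrassCurve ℤ) (φ : Epts P →+ ((W.map (Int.castRingHom ℚ))⁄Ω).Point),
        W.Δ ≠ 0 ∧ (∀ (σ : GQ) (x : Epts P), φ (σ • x) = σ • φ x) ∧
        (∀ x : Epts P, φ x = 0 ↔ x ∈ D) ∧
        ∀ ℓ : ℕ, ℓ.Prime → ℓ ≠ P.p → (ℓ : ℤ) ∣ P.a * P.b * P.c → ¬ (ℓ : ℤ) ∣ W.c₄)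
    (hUb : ∀ (W : WeierstrassCurve ℤ), W.Δ ≠ 0 → ∀ {ℓ : ℕ}, ℓ.Prime → (ℓ : ℤ) ∣ W.Δ →
      ¬ (ℓ : ℤ) ∣ W.c₄ → ∀ (A : ValuationSubring Ω), A.LiesOverPrime ℓ →
      ∀ {p : ℕ}, p.Prime → p ≠ 2 → ℓ ≠ p → ∀ (Q : ((W.map (Int.castRingHom ℚ))⁄Ω).Point),
      addOrderOf Q = p → ¬ W.InZeroComponentAt A Q → ∀ σ ∈ A.inertiaSubgroupIn ℚ, σ • Q = Q →
      ∀ T : ((W.map (Int.castRingHom ℚ))⁄Ω).Point, p • T = 0 → σ • T = T)
    (hUa : ∀ (W : WeierstrassCurve ℤ), W.Δ ≠ 0 → ∀ {ℓ : ℕ}, ℓ.Prime → (ℓ : ℤ) ∣ W.Δ →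
      ¬ (ℓ : ℤ) ∣ W.c₄ → ∀ (A : ValuationSubring Ω), A.LiesOverPrime ℓ →
      ∀ {p : ℕ}, p.Prime → ℓ ≠ p → ∀ (Q : ((W.map (Int.castRingHom ℚ))⁄Ω).Point),
      addOrderOf Q = p → ¬ W.InZeroComponentAt A Q → ∀ σ ∈ A.inertiaSubgroupIn ℚ, σ • Q = Q →
      ∀ R : ((W.map (Int.castRingHom ℚ))⁄Ω).Point, (∃ m : ℤ, σ • R - R = m • Q) →
      (∃ n : ℕ, ¬ ℓ ∣ n ∧ n • R = 0) → σ • R = R)
    {g₁ : Epts P} (hg₁ : State GQ P.p 1 g₁)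
    (hP : ∀ A : ValuationSubring Ω, A.LiesOverPrime P.p → ∃ Kc : ℕ → AddSubgroup (Epts P),
      (∀ j, Nat.card (Kc j) = P.p ^ j) ∧ (∀ j, Kc j ≤ Kc (j + 1)) ∧
      (∀ j, ∀ Q ∈ Kc (j + 1), P.p • Q ∈ Kc j) ∧
      (∀ j, ∀ Q ∈ Kc (j + 1), P.p ^ j • Q = 0 → Q ∈ Kc j) ∧
      (∀ Q, Q ∈ Kc 1 ↔ Q ∈ zmultiples g₁) ∧
      (∀ j, ∀ σ ∈ A.decompositionSubgroup ℚ, ∀ Q ∈ Kc j, σ • Q ∈ Kc j) ∧
      (∀ j, ∀ σ ∈ A.inertiaSubgroupIn ℚ, ∀ R : Epts P, P.p ^ j • R = 0 → σ • R - R ∈ Kc j) ∧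
      (∀ j, ∀ D : AddSubgroup (Epts P), (∀ Q ∈ D, P.p ^ j • Q = 0) → Nat.card D = P.p ^ j →
        (∀ Q ∈ D, P.p • Q = 0 → Q ∈ Kc 1) →
        (∀ σ ∈ A.inertiaSubgroupIn ℚ, ∀ Q ∈ D, σ • Q ∈ D) → D = Kc j))
    {T₀ : Epts P} (hT₀ : P.p • T₀ = 0) (hT₀g₁ : T₀ ∉ zmultiples g₁)
    {k : ℕ} (hk : k ≠ 0) {g : Epts P} (hPS : PreState GQ P.p k g)
    (hg₁g : zmultiples g₁ ≤ zmultiples g) :
    State GQ P.p k g ∧
      ∃ g' : Epts P, PreState GQ P.p (k + 1) g' ∧ zmultiples g ≤ zmultiples g' := by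
  haveI : Fact P.p.Prime := ⟨P.pp⟩
  have hp : P.p.Prime := P.pp
  have hp2 : P.p ≠ 2 := by omega
  have hp' : P.p ∉ ({2, 3, 5, 7, 13} : Finset ℕ) := by
    simp only [Finset.mem_insert, Finset.mem_singleton, not_or]
    omega
  have hcardE : Nat.card (torsN (Epts P) P.p) = P.p ^ 2 := frey_card_torsN P
  have hdiv := frey_divisible P
  have hg₁ord : addOrderOf g₁ = P.p := by have := hg₁.order; rwa [pow_one] at this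
  -- `D = ⟨g⟩`
  have hDst : ∀ σ : GQ, ∀ d ∈ zmultiples g, σ • d ∈ zmultiples g :=
    fun σ d hd => stable_zmultiples hPS.stable σ hd
  have hDcard : Nat.card (zmultiples g) = P.p ^ k := by
    rw [Nat.card_zmultiples, hPS.order]
  have hDtors : ∀ Q ∈ zmultiples g, P.p ^ k • Q = 0 := by
    intro Q hQ
    obtain ⟨n, rfl⟩ := mem_zmultiples_iff.mp hQ
    rw [smul_comm, ← hPS.order, addOrderOf_nsmul_eq_zero, smul_zero]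
  have hDp : ∀ Q ∈ zmultiples g, P.p • Q = 0 → Q ∈ zmultiples g₁ := fun Q hQ hQp =>
    cyclic_torsion_mem hp hk hPS.order (hg₁g (mem_zmultiples g₁)) hg₁ord Q hQ hQp
  have hT₀g : T₀ ∉ zmultiples g := fun h => hT₀g₁ (hDp T₀ h hT₀)
  -- the model
  obtain ⟨W, φ, hWΔ, hφ, hker, hc₄⟩ := hQM (zmultiples g) k hDcard hDst
  have hcardE' := int_card_torsN W hWΔ hp hp2
  -- the rational point
  have hQp : P.p • φ T₀ = 0 := by rw [← map_nsmul, hT₀, _root_.map_zero]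
  have hQ0 : φ T₀ ≠ 0 := fun h => hT₀g ((hker _).mp h)
  have hQord : addOrderOf (φ T₀) = P.p := addOrderOf_eq_prime hQp hQ0
  have hQfix : ∀ σ : GQ, σ • φ T₀ = φ T₀ := by
    intro σ
    rw [← hφ, ← sub_eq_zero, ← map_sub, hker]
    exact hPS.low σ T₀ hT₀
  -- `2, 3 ∣ abc`
  have h2abc : ((2 : ℕ) : ℤ) ∣ P.a * P.b * P.c := by exact_mod_cast P.two_dvd_abc
  have h3abc : ((3 : ℕ) : ℤ) ∣ P.a * P.b * P.c := by
    exact_mod_cast three_dvd_abc_of_state_one P hg₁ (by omega)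
  -- S15 at every bad prime of `W` dividing `abc`
  have hnotin : ∀ ℓ : ℕ, ℓ.Prime → ℓ ≠ P.p → (ℓ : ℤ) ∣ P.a * P.b * P.c → (ℓ : ℤ) ∣ W.Δ →
      ∀ A : ValuationSubring Ω, A.LiesOverPrime ℓ → ¬ W.InZeroComponentAt A (φ T₀) := by
    intro ℓ hℓ hℓp hℓabc hℓΔ A hA
    refine hS15 hp hp' W hWΔ (φ T₀) hQfix hQord ?_ ?_ ?_ ?_ ?_ ?_ hℓ hℓp hℓΔ
      (hc₄ ℓ hℓ hℓp hℓabc) A hA
    · exact_mod_cast dvd_Δ_of_lt hp Nat.prime_two (by omega) W (φ T₀) hQfix hQord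
    · exact_mod_cast hc₄ 2 Nat.prime_two (by omega) h2abc
    · exact fun A hA =>
        not_inZeroComponentAt_of_lt hp Nat.prime_two (by omega) W (φ T₀) hQfix hQord A hA
    · exact_mod_cast dvd_Δ_of_lt hp Nat.prime_three (by omega) W (φ T₀) hQfix hQord
    · exact_mod_cast hc₄ 3 Nat.prime_three (by omega) h3abc
    · exact fun A hA =>
        not_inZeroComponentAt_of_lt hp Nat.prime_three (by omega) W (φ T₀) hQfix hQord A hA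
  -- inertia outside `p` on `W`, for `ℓ ∣ abc`
  have hWfix : ∀ ℓ : ℕ, ℓ.Prime → ℓ ≠ P.p → (ℓ : ℤ) ∣ P.a * P.b * P.c →
      ∀ A : ValuationSubring Ω, A.LiesOverPrime ℓ → ∀ σ ∈ A.inertiaSubgroupIn ℚ,
      (∀ T : ((W.map (Int.castRingHom ℚ))⁄Ω).Point, P.p • T = 0 → σ • T = T) ∧
      (∀ R : ((W.map (Int.castRingHom ℚ))⁄Ω).Point, (∃ m : ℤ, σ • R - R = m • φ T₀) →
        P.p ^ k • R = 0 → σ • R = R) := by
    intro ℓ hℓ hℓp hℓabc A hA σ hσ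
    by_cases hℓΔ : (ℓ : ℤ) ∣ W.Δ
    · have hnQ := hnotin ℓ hℓ hℓp hℓabc hℓΔ A hA
      have hℓc₄ := hc₄ ℓ hℓ hℓp hℓabc
      refine ⟨hUb W hWΔ hℓ hℓΔ hℓc₄ A hA hp hp2 hℓp (φ T₀) hQord hnQ σ hσ (hQfix σ), ?_⟩
      intro R hR hRk
      exact hUa W hWΔ hℓ hℓΔ hℓc₄ A hA hp hℓp (φ T₀) hQord hnQ σ hσ (hQfix σ) R hR
        ⟨P.p ^ k, not_dvd_prime_pow hℓ hp hℓp k, hRk⟩
    · refine ⟨fun T hT => ?_, fun R _ hRk => ?_⟩
      · have := not_dvd_prime_pow hℓ hp hℓp 1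
        rw [pow_one] at this
        exact int_smul_eq_of_good W hℓ hA hℓΔ this hσ hT
      · exact int_smul_eq_of_good W hℓ hA hℓΔ (not_dvd_prime_pow hℓ hp hℓp k) hσ hRk
  -- the chain at `p` identifies `D`
  have hKD : ∀ A : ValuationSubring Ω, A.LiesOverPrime P.p → ∃ K : AddSubgroup (Epts P),
      (∀ σ ∈ A.inertiaSubgroupIn ℚ, ∀ x : Epts P, P.p ^ k • x = 0 → σ • x - x ∈ zmultiples g) ∧
      (∀ σ ∈ A.decompositionSubgroup ℚ, ∀ y ∈ K, σ • y ∈ K) ∧ zmultiples g ≤ K ∧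
      (∀ y ∈ K, P.p • y ∈ zmultiples g) ∧ (∀ y ∈ K, P.p ^ k • y = 0 → y ∈ zmultiples g) ∧
      (∃ y ∈ K, y ∉ zmultiples g) := by
    intro A hA
    obtain ⟨Kc, hK2, hK3, hK3', hK3'', hK4, hK5, hK6, hK7⟩ := hP A hA
    have hDK : zmultiples g = Kc k :=
      hK7 k (zmultiples g) hDtors hDcard (fun Q hQ hQp => (hK4 Q).mpr (hDp Q hQ hQp))
        (fun σ _ Q hQ => hDst σ Q hQ)
    refine ⟨Kc (k + 1), ?_, hK5 (k + 1), ?_, ?_, ?_, ?_⟩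
    · intro σ hσ x hx
      rw [hDK]
      exact hK6 k σ hσ x hx
    · rw [hDK]; exact hK3 k
    · rw [hDK]; exact hK3' k
    · rw [hDK]; exact hK3'' k
    · rw [hDK]
      by_contra hcon
      have hle : Kc (k + 1) ≤ Kc k := by
        intro y hy
        by_contra hy'
        exact hcon ⟨y, hy, hy'⟩
      have heq : Kc (k + 1) = Kc k := le_antisymm hle (hK3 k)
      have h1 := hK2 (k + 1)
      rw [heq, hK2 k] at h1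
      have := Nat.pow_right_injective hp.two_le h1
      omega
  -- assemble
  refine hPS.step_core hS14 hk hdiv hcardE (frey_isOpen_kernel P k) ?_ φ hφ hker hcardE' hT₀ hT₀g
    ?_ ?_ ?_ (int_isOpen_kernel W hWΔ hp hp2)
  · -- Step A: inertia everywhere
    intro ℓ A hℓ hA σ hσ x hx
    by_cases hℓp : ℓ = P.p
    · subst hℓp
      obtain ⟨K, hI, -⟩ := hKD A hA
      exact hI σ hσ x hx
    by_cases hℓabc : (ℓ : ℤ) ∣ P.a * P.b * P.c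
    · exact hPS.sub_mem_of_fix hp hk hcardE φ hφ hker hT₀ hT₀g σ
        (hWfix ℓ hℓ hℓp hℓabc A hA σ hσ).2 x hx
    · rw [hgood ℓ hℓ hℓp hℓabc A hA σ hσ k x hx, sub_self]
      exact (zmultiples g).zero_mem
  · -- cyclotomic quotient
    intro σ x hx
    exact smul_sub_cyclo_of_fixed (W.map (Int.castRingHom ℚ)) W rfl hWΔ hp2 (φ T₀) hQord σ
      (hQfix σ) x hx
  · -- unramified outside `p`
    intro ℓ hℓ hℓp A hA σ hσ T hT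
    by_cases hℓabc : (ℓ : ℤ) ∣ P.a * P.b * P.c
    · exact (hWfix ℓ hℓ hℓp hℓabc A hA σ hσ).1 T hT
    · exact fix_torsion_of_fix hp hPS.order φ hφ hker hdiv hcardE hcardE' σ
        (fun x hx => hgood ℓ hℓ hℓp hℓabc A hA σ hσ (k + 1) x hx) T hT
  · -- locally split at `p`
    intro A hA
    obtain ⟨K, -, hKst, hgK, hKp, hKtors, hKne⟩ := hKD A hA
    exact loc_of_chain hk φ hφ hker hT₀ (A.decompositionSubgroup ℚ) K hKst hgK hKp hKtors hKne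

end Step

section Chain

variable {E : Type*} [AddCommGroup E]

/-- a `p`-torsion point outside a line, when `#E[p] = p²` -/
theorem exists_torsion_not_mem {p : ℕ} (hp : p.Prime) (hcard : Nat.card (torsN E p) = p ^ 2)
    {g₁ : E} (hg₁ : addOrderOf g₁ = p) : ∃ T₀ : E, p • T₀ = 0 ∧ T₀ ∉ zmultiples g₁ := by
  by_contra hcon
  have hsub : ∀ x : E, p • x = 0 → x ∈ zmultiples g₁ := by
    intro x hx
    by_contra hxn
    exact hcon ⟨x, hx, hxn⟩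
  haveI : Finite (zmultiples g₁) := by
    apply Nat.finite_of_card_ne_zero
    rw [Nat.card_zmultiples, hg₁]
    exact hp.ne_zero
  have hle : Nat.card (torsN E p) ≤ Nat.card (zmultiples g₁) :=
    Nat.card_le_card_of_injective
      (fun x => (⟨(x : E), hsub _ (mem_torsN.mp x.2)⟩ : zmultiples g₁))
      (fun x y h => Subtype.ext (congrArg (fun z : zmultiples g₁ => (z : E)) h))
  rw [hcard, Nat.card_zmultiples, hg₁] at hle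
  have := hp.one_lt
  nlinarith

variable (P : FreyPackage)

/-- **the skeleton of S12**: every open block as a hypothesis. -/
theorem s12_of_interfaces (hp17 : 17 ≤ P.p)
    (hS14 : haveI : Fact P.p.Prime := ⟨P.pp⟩; ExtVanishingCts P.p)
    (hS15 : ∀ {p : ℕ} (_ : p.Prime) (_ : p ∉ ({2, 3, 5, 7, 13} : Finset ℕ))
      (W : WeierstrassCurve ℤ) (_ : W.Δ ≠ 0)
      (Q : ((W.map (Int.castRingHom ℚ))⁄Ω).Point)
      (_ : ∀ σ : GQ, σ • Q = Q) (_ : addOrderOf Q = p)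
      (_ : (2 : ℤ) ∣ W.Δ) (_ : ¬ (2 : ℤ) ∣ W.c₄)
      (_ : ∀ A : ValuationSubring Ω, A.LiesOverPrime 2 → ¬ W.InZeroComponentAt A Q)
      (_ : (3 : ℤ) ∣ W.Δ) (_ : ¬ (3 : ℤ) ∣ W.c₄)
      (_ : ∀ A : ValuationSubring Ω, A.LiesOverPrime 3 → ¬ W.InZeroComponentAt A Q)
      {ℓ : ℕ} (_ : ℓ.Prime) (_ : ℓ ≠ p) (_ : (ℓ : ℤ) ∣ W.Δ) (_ : ¬ (ℓ : ℤ) ∣ W.c₄)
      (A : ValuationSubring Ω) (_ : A.LiesOverPrime ℓ), ¬ W.InZeroComponentAt A Q)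
    (hgood : ∀ ℓ : ℕ, ℓ.Prime → ℓ ≠ P.p → ¬ (ℓ : ℤ) ∣ P.a * P.b * P.c →
      ∀ A : ValuationSubring Ω, A.LiesOverPrime ℓ → ∀ σ ∈ A.inertiaSubgroupIn ℚ,
      ∀ (n : ℕ) (x : Epts P), P.p ^ n • x = 0 → σ • x = x)
    (hQM : ∀ (D : AddSubgroup (Epts P)) (k : ℕ), Nat.card D = P.p ^ k →
      (∀ σ : GQ, ∀ d ∈ D, σ • d ∈ D) →
      ∃ (W : WeierstrassCurve ℤ) (φ : Epts P →+ ((W.map (Int.castRingHom ℚ))⁄Ω).Point),
        W.Δ ≠ 0 ∧ (∀ (σ : GQ) (x : Epts P), φ (σ • x) = σ • φ x) ∧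
        (∀ x : Epts P, φ x = 0 ↔ x ∈ D) ∧
        ∀ ℓ : ℕ, ℓ.Prime → ℓ ≠ P.p → (ℓ : ℤ) ∣ P.a * P.b * P.c → ¬ (ℓ : ℤ) ∣ W.c₄)
    (hUb : ∀ (W : WeierstrassCurve ℤ), W.Δ ≠ 0 → ∀ {ℓ : ℕ}, ℓ.Prime → (ℓ : ℤ) ∣ W.Δ →
      ¬ (ℓ : ℤ) ∣ W.c₄ → ∀ (A : ValuationSubring Ω), A.LiesOverPrime ℓ →
      ∀ {p : ℕ}, p.Prime → p ≠ 2 → ℓ ≠ p → ∀ (Q : ((W.map (Int.castRingHom ℚ))⁄Ω).Point),
      addOrderOf Q = p → ¬ W.InZeroComponentAt A Q → ∀ σ ∈ A.inertiaSubgroupIn ℚ, σ • Q = Q →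
      ∀ T : ((W.map (Int.castRingHom ℚ))⁄Ω).Point, p • T = 0 → σ • T = T)
    (hUa : ∀ (W : WeierstrassCurve ℤ), W.Δ ≠ 0 → ∀ {ℓ : ℕ}, ℓ.Prime → (ℓ : ℤ) ∣ W.Δ →
      ¬ (ℓ : ℤ) ∣ W.c₄ → ∀ (A : ValuationSubring Ω), A.LiesOverPrime ℓ →
      ∀ {p : ℕ}, p.Prime → ℓ ≠ p → ∀ (Q : ((W.map (Int.castRingHom ℚ))⁄Ω).Point),
      addOrderOf Q = p → ¬ W.InZeroComponentAt A Q → ∀ σ ∈ A.inertiaSubgroupIn ℚ, σ • Q = Q →
      ∀ R : ((W.map (Int.castRingHom ℚ))⁄Ω).Point, (∃ m : ℤ, σ • R - R = m • Q) →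
      (∃ n : ℕ, ¬ ℓ ∣ n ∧ n • R = 0) → σ • R = R)
    (hP : ∀ g₁ : Epts P, State GQ P.p 1 g₁ →
      ∀ A : ValuationSubring Ω, A.LiesOverPrime P.p → ∃ Kc : ℕ → AddSubgroup (Epts P),
      (∀ j, Nat.card (Kc j) = P.p ^ j) ∧ (∀ j, Kc j ≤ Kc (j + 1)) ∧
      (∀ j, ∀ Q ∈ Kc (j + 1), P.p • Q ∈ Kc j) ∧
      (∀ j, ∀ Q ∈ Kc (j + 1), P.p ^ j • Q = 0 → Q ∈ Kc j) ∧
      (∀ Q, Q ∈ Kc 1 ↔ Q ∈ zmultiples g₁) ∧
      (∀ j, ∀ σ ∈ A.decompositionSubgroup ℚ, ∀ Q ∈ Kc j, σ • Q ∈ Kc j) ∧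
      (∀ j, ∀ σ ∈ A.inertiaSubgroupIn ℚ, ∀ R : Epts P, P.p ^ j • R = 0 → σ • R - R ∈ Kc j) ∧
      (∀ j, ∀ D : AddSubgroup (Epts P), (∀ Q ∈ D, P.p ^ j • Q = 0) → Nat.card D = P.p ^ j →
        (∀ Q ∈ D, P.p • Q = 0 → Q ∈ Kc 1) →
        (∀ σ ∈ A.inertiaSubgroupIn ℚ, ∀ Q ∈ D, σ • Q ∈ D) → D = Kc j)) :
    ¬ HasGaloisStableCofixedLine (K := AlgebraicClosure ℚ) ℚ P.freyCurve P.p := by
  intro hcof
  obtain ⟨g₁, hg₁⟩ := frey_state_one_of_cofixed P hcof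
  have hg₁ord : addOrderOf g₁ = P.p := by have := hg₁.order; rwa [pow_one] at this
  obtain ⟨T₀, hT₀, hT₀g₁⟩ := exists_torsion_not_mem P.pp (frey_card_torsN P) hg₁ord
  have hstep := fun {k : ℕ} (hk : k ≠ 0) {g : Epts P} (hPS : PreState GQ P.p k g)
      (hg₁g : zmultiples g₁ ≤ zmultiples g) =>
    frey_step P hp17 hS14 hS15 hgood hQM hUb hUa hg₁ (hP g₁ hg₁) hT₀ hT₀g₁ hk hPS hg₁g
  have hchain : ∀ n : ℕ, ∃ g : Epts P, PreState GQ P.p (n + 1) g ∧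
      zmultiples g₁ ≤ zmultiples g := by
    intro n
    induction n with
    | zero => exact ⟨g₁, hg₁.toPreState one_ne_zero, le_rfl⟩
    | succ n ih =>
      obtain ⟨g, hPS, hle⟩ := ih
      obtain ⟨-, g', hPS', hle'⟩ := hstep (Nat.succ_ne_zero n) hPS hle
      exact ⟨g', hPS', hle.trans hle'⟩
  apply frey_state_false P
  intro k hk
  obtain ⟨n, rfl⟩ : ∃ n, k = n + 1 := ⟨k - 1, by omega⟩
  obtain ⟨g, hPS, hle⟩ := hchain n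
  exact ⟨g, (hstep (Nat.succ_ne_zero n) hPS hle).1⟩

end Chain

end Fermat.Agent.FC
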