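/-
PROJECT FC (Frey chain, S12), block (TOP) (helper4), part 3: adapter for block (P).

From a `State` of level one with generator `g₁` we rebuild the cofixed line
`N = {x ∈ E[p] | x ∈ ⟨g₁⟩}` as a `ZMod p`-submodule of `E[p]`, so that helper5's canonical chain
(`IsCanonicalChain P N A Kc`) gives the input `hP` of `s12_of_interfaces`.
-/
import Mathlib
import Fermat.Agent.FC.TOP_helper4_Main
import Fermat.Agent.FC.P_helper5_Frey

set_option autoImplicit false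
set_option linter.unusedSectionVars false
set_option linter.style.haveILetI false

namespace Fermat.Agent.FC

open WeierstrassCurve WeierstrassCurve.Affine WeierstrassCurve.Affine.Point AddSubgroup
open Fermat.Agent.S13
open scoped WeierstrassCurve.Affine

/-- `Ω = AlgebraicClosure ℚ`. -/
local notation "Ω" => AlgebraicClosure ℚ
/-- `GQ = Gal(Ω/ℚ)`. -/
local notation "GQ" => (AlgebraicClosure ℚ ≃ₐ[ℚ] AlgebraicClosure ℚ)

variable (P : FreyPackage)

/-- the line `⟨g₁⟩ ∩ E[p]` as a submodule of `E[p]` -/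
noncomputable def lineOfGen (g₁ : Epts P) : Submodule (ZMod P.p) (FreyTors P) :=
  AddSubgroup.toZModSubmodule P.p
    ((zmultiples g₁).comap (Submodule.torsionBy ℤ (Epts P) P.p).subtype.toAddMonoidHom)

theorem mem_lineOfGen {g₁ : Epts P} {x : FreyTors P} :
    x ∈ lineOfGen P g₁ ↔ (x : Epts P) ∈ zmultiples g₁ := Iff.rfl

/-- **adapter (P)**: the canonical chain in the shape consumed by `s12_of_interfaces`. -/
theorem hP_of_canonical_chain
    (hchain : ∀ (N : Submodule (ZMod P.p) (FreyTors P)), IsGaloisStable ℚ N → N ≠ ⊥ → N ≠ ⊤ →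
      (∀ (σ : GQ) (x : FreyTors P), σ • x - x ∈ N) →
      ∀ A : ValuationSubring Ω, A.LiesOverPrime P.p →
        ∃ Kc : ℕ → AddSubgroup (PEpts P), IsCanonicalChain P N A Kc)
    (g₁ : Epts P) (hg₁ : State GQ P.p 1 g₁)
    (A : ValuationSubring Ω) (hA : A.LiesOverPrime P.p) :
    ∃ Kc : ℕ → AddSubgroup (Epts P),
      (∀ j, Nat.card (Kc j) = P.p ^ j) ∧ (∀ j, Kc j ≤ Kc (j + 1)) ∧
      (∀ j, ∀ Q ∈ Kc (j + 1), P.p • Q ∈ Kc j) ∧
      (∀ j, ∀ Q ∈ Kc (j + 1), P.p ^ j • Q = 0 → Q ∈ Kc j) ∧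
      (∀ Q, Q ∈ Kc 1 ↔ Q ∈ zmultiples g₁) ∧
      (∀ j, ∀ σ ∈ A.decompositionSubgroup ℚ, ∀ Q ∈ Kc j, σ • Q ∈ Kc j) ∧
      (∀ j, ∀ σ ∈ A.inertiaSubgroupIn ℚ, ∀ R : Epts P, P.p ^ j • R = 0 → σ • R - R ∈ Kc j) ∧
      (∀ j, ∀ D : AddSubgroup (Epts P), (∀ Q ∈ D, P.p ^ j • Q = 0) → Nat.card D = P.p ^ j →
        (∀ Q ∈ D, P.p • Q = 0 → Q ∈ Kc 1) →
        (∀ σ ∈ A.inertiaSubgroupIn ℚ, ∀ Q ∈ D, σ • Q ∈ D) → D = Kc j) := by
  have hg₁ord : addOrderOf g₁ = P.p := by have := hg₁.order; rwa [pow_one] at this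
  have hg₁p : P.p • g₁ = 0 := by rw [← hg₁ord]; exact addOrderOf_nsmul_eq_zero g₁
  have hg₁0 : g₁ ≠ 0 := by
    intro h
    rw [h, addOrderOf_zero] at hg₁ord
    exact P.pp.one_lt.ne hg₁ord
  have hstable : IsGaloisStable ℚ (lineOfGen P g₁) := by
    intro σ x hx
    rw [mem_lineOfGen P] at hx ⊢
    exact stable_zmultiples hg₁.stable σ hx
  have hbot : lineOfGen P g₁ ≠ ⊥ := by
    intro h
    have h1 : toFreyTors P g₁ hg₁p ∈ lineOfGen P g₁ := (mem_lineOfGen P).mpr (mem_zmultiples g₁)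
    rw [h, Submodule.mem_bot] at h1
    exact hg₁0 (congrArg Subtype.val h1)
  have htop : lineOfGen P g₁ ≠ ⊤ := by
    intro h
    obtain ⟨T₀, hT₀, hT₀g⟩ := exists_torsion_not_mem P.pp (frey_card_torsN P) hg₁ord
    have h1 : toFreyTors P T₀ hT₀ ∈ lineOfGen P g₁ := by rw [h]; exact Submodule.mem_top
    exact hT₀g ((mem_lineOfGen P).mp h1)
  have hcof : ∀ (σ : GQ) (x : FreyTors P), σ • x - x ∈ lineOfGen P g₁ := by
    intro σ x
    rw [mem_lineOfGen P]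
    have := hg₁.full σ (x : Epts P) (by rw [pow_one]; exact freyTors_nsmul P x)
    exact this
  obtain ⟨Kc, hKc⟩ := hchain (lineOfGen P g₁) hstable hbot htop hcof A hA
  refine ⟨Kc, hKc.card, hKc.mono, hKc.nsmul_mem, hKc.mem_of_tors, ?_, hKc.dec_stable, hKc.unram,
    hKc.unique⟩
  intro Q
  rw [hKc.one Q]
  constructor
  · rintro ⟨x, hx, rfl⟩
    exact (mem_lineOfGen P).mp hx
  · intro hQ
    have hQp : P.p • Q = 0 := by
      obtain ⟨n, rfl⟩ := mem_zmultiples_iff.mp hQ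
      rw [smul_comm, hg₁p, zsmul_zero]
    exact ⟨toFreyTors P Q hQp, (mem_lineOfGen P).mpr hQ, rfl⟩

end Fermat.Agent.FC
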