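/-
PROJECT FC (Frey chain, S12), block (C) (helper9), part 7: adapters between the abstract chain and
the block literals.

* `span_of_indep_abs` : two independent `p`-torsion points span `E[p]` when `#E[p] = p²`;
* `State.torsion_decomp` / `PreState.torsion_decomp` : `E[p] ⊆ ℤ T₀ + D` for `T₀ ∈ E[p] ∖ D`;
* `PreState.sub_decomp` : `σ x - x ∈ D + ℤ T₀` for `x ∈ E[p^k]`;
* `PreState.sub_mem_of_fix` : the consumer form of (U-a): if `σ R = R` for every `R ∈ E'[p^k]` with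
  `σ R - R ∈ ℤ Q` (`Q = φ T₀`), then `σ x - x ∈ D` for every `x ∈ E[p^k]`.
-/
import Mathlib
import Fermat.Agent.FC.C_helper9_Chain
import Fermat.Agent.FC.CHI_helper9_Det

set_option autoImplicit false
set_option linter.style.haveILetI false
set_option linter.unusedSectionVars false

namespace Fermat.Agent.FC

open AddSubgroup

section Span

variable {E : Type*} [AddCommGroup E]

/-- two independent `p`-torsion points span the `p`-torsion when it has `p²` elements -/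
theorem span_of_indep_abs {p : ℕ} (hp : p.Prime) (hcard : Nat.card (torsN E p) = p ^ 2)
    (P Q : E) (hP : p • P = 0) (hQ : p • Q = 0)
    (hind : ∀ x y : ℤ, x • P + y • Q = 0 → (p : ℤ) ∣ x ∧ (p : ℤ) ∣ y)
    (z : E) (hz : p • z = 0) : ∃ a b : ℤ, z = a • P + b • Q := by
  classical
  have hp0 : p ≠ 0 := hp.ne_zero
  haveI : Finite (torsN E p) :=
    Nat.finite_of_card_ne_zero (by rw [hcard]; exact pow_ne_zero _ hp0)
  let g : Fin p × Fin p → torsN E p := fun ij =>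
    ⟨(ij.1 : ℕ) • P + (ij.2 : ℕ) • Q, by
      rw [mem_torsN, smul_add, smul_comm p, smul_comm p (ij.2 : ℕ), hP, hQ, smul_zero, smul_zero,
        add_zero]⟩
  have hg : Function.Injective g := by
    rintro ⟨i, j⟩ ⟨i', j'⟩ h
    have h1 : ((i : ℕ) : ℤ) • P + ((j : ℕ) : ℤ) • Q = ((i' : ℕ) : ℤ) • P + ((j' : ℕ) : ℤ) • Q := by
      have := congrArg Subtype.val h
      simpa only [natCast_zsmul] using this
    have h2 : (((i : ℕ) : ℤ) - ((i' : ℕ) : ℤ)) • P + (((j : ℕ) : ℤ) - ((j' : ℕ) : ℤ)) • Q = 0 := by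
      have e : (((i : ℕ) : ℤ) - ((i' : ℕ) : ℤ)) • P + (((j : ℕ) : ℤ) - ((j' : ℕ) : ℤ)) • Q =
          (((i : ℕ) : ℤ) • P + ((j : ℕ) : ℤ) • Q) - (((i' : ℕ) : ℤ) • P + ((j' : ℕ) : ℤ) • Q) := by
        rw [sub_smul, sub_smul]; abel
      rw [e, h1, sub_self]
    obtain ⟨d1, d2⟩ := hind _ _ h2
    have key : ∀ u v : Fin p, (p : ℤ) ∣ ((u : ℕ) : ℤ) - ((v : ℕ) : ℤ) → u = v := by
      intro u v huv
      have hu := u.2
      have hv := v.2
      have habs : |((u : ℕ) : ℤ) - ((v : ℕ) : ℤ)| < (p : ℤ) := by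
        rw [abs_lt]; constructor <;> omega
      have h0 := Int.eq_zero_of_abs_lt_dvd huv habs
      apply Fin.ext
      omega
    rw [key i i' d1, key j j' d2]
  have hbij : Function.Bijective g := by
    apply hg.bijective_of_nat_card_le
    rw [hcard, Nat.card_prod, Nat.card_eq_fintype_card, Fintype.card_fin, sq]
  obtain ⟨⟨i, j⟩, hij⟩ := hbij.2 ⟨z, mem_torsN.mpr hz⟩
  refine ⟨((i : ℕ) : ℤ), ((j : ℕ) : ℤ), ?_⟩
  rw [natCast_zsmul, natCast_zsmul]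
  exact (congrArg Subtype.val hij).symm

/-- the element of order `p` of a cyclic group of order `p ^ k`, `k ≠ 0` -/
theorem addOrderOf_pow_pred_nsmul {p : ℕ} (hp : p.Prime) {k : ℕ} (hk : k ≠ 0) {g : E}
    (hg : addOrderOf g = p ^ k) : addOrderOf (p ^ (k - 1) • g) = p := by
  haveI : Fact p.Prime := ⟨hp⟩
  obtain ⟨j, rfl⟩ := Nat.exists_eq_succ_of_ne_zero hk
  rw [Nat.succ_sub_one]
  apply addOrderOf_eq_prime
  · rw [← mul_smul, ← pow_succ', ← hg]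
    exact addOrderOf_nsmul_eq_zero g
  · intro h0
    have := addOrderOf_dvd_of_nsmul_eq_zero h0
    rw [hg] at this
    have := (Nat.pow_dvd_pow_iff_le_right hp.one_lt).mp this
    omega

/-- `E[p] ⊆ ℤ T₀ + ⟨g⟩` for `T₀ ∈ E[p] ∖ ⟨g⟩`, `g` of order `p ^ k`, `k ≠ 0` -/
theorem torsion_decomp {p : ℕ} (hp : p.Prime) (hcard : Nat.card (torsN E p) = p ^ 2) {k : ℕ}
    (hk : k ≠ 0) {g : E} (hg : addOrderOf g = p ^ k) {T₀ : E} (hT₀ : p • T₀ = 0)
    (hT₀g : T₀ ∉ zmultiples g) (t : E) (ht : p • t = 0) :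
    ∃ j : ℤ, t - j • T₀ ∈ zmultiples g := by
  set n₀ := p ^ (k - 1) • g with hn₀
  have hn₀ord : addOrderOf n₀ = p := addOrderOf_pow_pred_nsmul hp hk hg
  have hn₀p : p • n₀ = 0 := by rw [← hn₀ord]; exact addOrderOf_nsmul_eq_zero n₀
  have hn₀g : n₀ ∈ zmultiples g := nsmul_mem_zmultiples g _
  have hT₀n : T₀ ∉ zmultiples n₀ := fun h =>
    hT₀g ((zmultiples_le.mpr hn₀g) h)
  have hind := indep_of_not_mem hp hn₀ord hT₀ hT₀n
  obtain ⟨a, b, hab⟩ := span_of_indep_abs hp hcard n₀ T₀ hn₀p hT₀ hind t ht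
  refine ⟨b, ?_⟩
  rw [hab, add_sub_cancel_right]
  exact (zmultiples g).zsmul_mem hn₀g a

end Span

section Decomp

variable {G : Type*} {E E' : Type*} [Group G] [AddCommGroup E] [AddCommGroup E']
  [DistribMulAction G E] [DistribMulAction G E']

/-- in a `PreState`, `σ x - x ∈ ⟨g⟩ + E[p]` for `x ∈ E[p^k]` -/
theorem PreState.sub_decomp {p : ℕ} (hp : p.Prime) {k : ℕ} (hk : k ≠ 0) {g : E}
    (hPS : PreState G p k g) (σ : G) (x : E) (hx : p ^ k • x = 0) :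
    ∃ d ∈ zmultiples g, p • (σ • x - x - d) = 0 := by
  obtain ⟨n, hn⟩ := mem_zmultiples_iff.mp (hPS.pre σ x hx)
  -- `p ∣ n`
  have hσx : p ^ k • (σ • x - x) = 0 := by
    rw [smul_sub, smul_comm, hx, smul_zero, sub_zero]
  obtain ⟨j, rfl⟩ := Nat.exists_eq_succ_of_ne_zero hk
  have h1 : (p ^ j : ℕ) • (n • g) = 0 := by
    rw [hn, ← mul_smul, ← pow_succ]; exact hσx
  have h2 : ((p ^ j : ℕ) * n : ℤ) • g = 0 := by
    rw [mul_smul, natCast_zsmul]; exact h1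
  have h3 := addOrderOf_dvd_iff_zsmul_eq_zero.mpr h2
  rw [hPS.order] at h3
  have hpn : (p : ℤ) ∣ n := by
    have hpj : ((p ^ j : ℕ) : ℤ) ≠ 0 := by exact_mod_cast (pow_pos hp.pos j).ne'
    have : ((p ^ j : ℕ) : ℤ) * (p : ℤ) ∣ ((p ^ j : ℕ) : ℤ) * n := by
      have e : ((p ^ (j + 1) : ℕ) : ℤ) = ((p ^ j : ℕ) : ℤ) * (p : ℤ) := by push_cast; ring
      rw [← e]; exact h3
    exact (mul_dvd_mul_iff_left hpj).mp this
  obtain ⟨n', rfl⟩ := hpn
  refine ⟨n' • g, zsmul_mem_zmultiples g n', ?_⟩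
  rw [smul_sub, ← hn, mul_smul, natCast_zsmul, sub_self]

/-- **consumer form of (U-a)**: let `φ : E →+ E'` be equivariant with kernel `⟨g⟩`, `T₀ ∈ E[p] ∖ ⟨g⟩`
and `Q = φ T₀`.  If `σ` fixes every `R ∈ E'[p^k]` with `σ R - R ∈ ℤ Q`, then `σ x - x ∈ ⟨g⟩` for
every `x ∈ E[p^k]`. -/
theorem PreState.sub_mem_of_fix {p : ℕ} (hp : p.Prime) {k : ℕ} (hk : k ≠ 0) {g : E}
    (hPS : PreState G p k g) (hcard : Nat.card (torsN E p) = p ^ 2)
    (φ : E →+ E') (hφ : ∀ (σ : G) (x : E), φ (σ • x) = σ • φ x)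
    (hker : ∀ x : E, φ x = 0 ↔ x ∈ zmultiples g)
    {T₀ : E} (hT₀ : p • T₀ = 0) (hT₀g : T₀ ∉ zmultiples g) (σ : G)
    (hfix : ∀ R : E', (∃ m : ℤ, σ • R - R = m • φ T₀) → p ^ k • R = 0 → σ • R = R)
    (x : E) (hx : p ^ k • x = 0) : σ • x - x ∈ zmultiples g := by
  obtain ⟨d, hd, hpd⟩ := hPS.sub_decomp hp hk σ x hx
  obtain ⟨j, hj⟩ := torsion_decomp hp hcard hk hPS.order hT₀ hT₀g _ hpd
  have h1 : σ • φ x - φ x = j • φ T₀ := by
    rw [← hφ, ← map_sub, ← map_zsmul, ← sub_eq_zero, ← map_sub, hker]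
    have : σ • x - x - j • T₀ = (σ • x - x - d - j • T₀) + d := by abel
    rw [this]
    exact (zmultiples g).add_mem hj hd
  have h2 := hfix (φ x) ⟨j, h1⟩ (by rw [← map_nsmul, hx, map_zero])
  rw [← hker, map_sub, hφ, h2, sub_self]

end Decomp

end Fermat.Agent.FC
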