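/-
PROJECT FC (Frey chain, S12), block (U) (helper4): the two consumer forms (U-a), (U-b) from (U1).

`W` a `ℤ`-model, `A` a place over `ℓ`, `σ` in the inertia group of `A`, `Q` a point of prime order
`p ≠ ℓ`, fixed by `σ`, outside the identity component `W⁰` at `A`.  (U1) is the hypothesis
`hU1 : ∀ n, ¬ ℓ ∣ n → ∀ T, n • T = 0 → W.InZeroComponentAt A (σ • T - T)`.

* `ua_of_u1` (**(U-a)**): if `σ R - R ∈ ℤ Q` for a torsion point `R` of order prime to `ℓ`, then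
  `σ R = R`;
* `ub_of_u1` (**(U-b)**): `σ` fixes `W[p]` pointwise.
(U2) = helper1's `smul_eq_of_inZeroComponentAt`; `#W[p] = p²` from `EC.card_torsion_eq`.
-/
import Mathlib
import Fermat.Agent.FC.RED_helper1_Frozen
import Fermat.Agent.FC.C_helper9_Aux
import Fermat.Agent.FC.TOP_helper4_Main

set_option autoImplicit false
set_option linter.unusedSectionVars false
set_option linter.style.haveILetI false

namespace Fermat.Agent.FC

open WeierstrassCurve WeierstrassCurve.Affine WeierstrassCurve.Affine.Point AddSubgroup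
open scoped WeierstrassCurve.Affine

/-- `Ω = AlgebraicClosure ℚ`. -/
local notation "Ω" => AlgebraicClosure ℚ
/-- `GQ = Gal(Ω/ℚ)`. -/
local notation "GQ" => (AlgebraicClosure ℚ ≃ₐ[ℚ] AlgebraicClosure ℚ)

section U

variable (W : WeierstrassCurve ℤ) (A : ValuationSubring Ω)

/-- a multiple of a point of prime order outside `W⁰` lies in `W⁰` only if it is zero -/
theorem zsmul_eq_zero_of_inZero {p : ℕ} (hp : p.Prime)
    {Q : ((W.map (Int.castRingHom ℚ))⁄Ω).Point} (hQp : addOrderOf Q = p)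
    (hQ : ¬ W.InZeroComponentAt A Q) (m : ℤ) (hm : W.InZeroComponentAt A (m • Q)) :
    m • Q = 0 := by
  by_contra hne
  apply hQ
  have hpQ : (p : ℤ) • Q = 0 := by
    rw [natCast_zsmul, ← hQp]; exact addOrderOf_nsmul_eq_zero Q
  have hpm : ¬ (p : ℤ) ∣ m := by
    rintro ⟨c, rfl⟩
    apply hne
    rw [mul_comm, mul_zsmul, hpQ, zsmul_zero]
  have hcop : IsCoprime m (p : ℤ) :=
    ((Nat.prime_iff_prime_int.mp hp).coprime_iff_not_dvd.mpr hpm).symm
  obtain ⟨u, v, huv⟩ := hcop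
  have h1 : Q = u • (m • Q) := by
    have : (u * m) • Q = (1 - v * p) • Q := by rw [← huv]; congr 1; ring
    rw [← mul_zsmul, this, sub_zsmul, one_zsmul, mul_zsmul, hpQ, zsmul_zero, _root_.neg_zero, add_zero]
  rw [h1]
  exact inZeroComponentAt_zsmul W A hm u

variable {W A}

/-- **(U-a)** from (U1). -/
theorem ua_of_u1 {ℓ p : ℕ} (hp : p.Prime)
    {Q : ((W.map (Int.castRingHom ℚ))⁄Ω).Point} (hQp : addOrderOf Q = p)
    (hQ : ¬ W.InZeroComponentAt A Q) {σ : GQ}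
    (hU1 : ∀ n : ℕ, ¬ ℓ ∣ n → ∀ T : ((W.map (Int.castRingHom ℚ))⁄Ω).Point, n • T = 0 →
      W.InZeroComponentAt A (σ • T - T))
    (R : ((W.map (Int.castRingHom ℚ))⁄Ω).Point) (hR : ∃ m : ℤ, σ • R - R = m • Q)
    (hRn : ∃ n : ℕ, ¬ ℓ ∣ n ∧ n • R = 0) : σ • R = R := by
  obtain ⟨m, hm⟩ := hR
  obtain ⟨n, hn, hnR⟩ := hRn
  have h1 : W.InZeroComponentAt A (m • Q) := hm ▸ hU1 n hn R hnR
  have h2 := zsmul_eq_zero_of_inZero W A hp hQp hQ m h1
  rw [h2] at hm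
  exact sub_eq_zero.mp hm

/-- **(U-b)** from (U1) and (U2). -/
theorem ub_of_u1 (hΔ : W.Δ ≠ 0) {ℓ p : ℕ} (hℓ : ℓ.Prime) (hA : A.LiesOverPrime ℓ)
    (hp : p.Prime) (hp2 : p ≠ 2) (hℓp : ℓ ≠ p)
    {Q : ((W.map (Int.castRingHom ℚ))⁄Ω).Point} (hQp : addOrderOf Q = p)
    (hQ : ¬ W.InZeroComponentAt A Q) {σ : GQ} (hσ : σ ∈ A.inertiaSubgroupIn ℚ)
    (hσQ : σ • Q = Q)
    (hU1 : ∀ n : ℕ, ¬ ℓ ∣ n → ∀ T : ((W.map (Int.castRingHom ℚ))⁄Ω).Point, n • T = 0 →
      W.InZeroComponentAt A (σ • T - T))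
    (T : ((W.map (Int.castRingHom ℚ))⁄Ω).Point) (hT : p • T = 0) : σ • T = T := by
  have hℓp' : ¬ ℓ ∣ p := by
    have := not_dvd_prime_pow hℓ hp hℓp 1
    rwa [pow_one] at this
  have hpQ : p • Q = 0 := by rw [← hQp]; exact addOrderOf_nsmul_eq_zero Q
  have hσtors : ∀ x : ((W.map (Int.castRingHom ℚ))⁄Ω).Point, p • x = 0 →
      p • (σ • x - x) = 0 := by
    intro x hx
    have e0 : σ • (0 : ((W.map (Int.castRingHom ℚ))⁄Ω).Point) = 0 := rfl
    rw [nsmul_sub, smul_comm, hx, e0, sub_self]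
  by_cases hH : ∀ x : ((W.map (Int.castRingHom ℚ))⁄Ω).Point, p • x = 0 →
      W.InZeroComponentAt A x → x = 0
  · exact sub_eq_zero.mp (hH _ (hσtors T hT) (hU1 p hℓp' T hT))
  · push Not at hH
    obtain ⟨R, hRp, hR0, hRne⟩ := hH
    have hσR : σ • R = R := smul_eq_of_inZeroComponentAt hℓ hA hℓp' hσ hRp hR0
    -- `R ∉ ⟨Q⟩`
    have hRQ : R ∉ zmultiples Q := by
      intro h
      obtain ⟨j, rfl⟩ := mem_zmultiples_iff.mp h
      exact hRne (zsmul_eq_zero_of_inZero W A hp hQp hQ j hR0)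
    have hind := indep_of_not_mem hp hQp hRp hRQ
    obtain ⟨a, b, hab⟩ := span_of_indep_abs hp (int_card_torsN W hΔ hp hp2) Q R hpQ hRp hind T hT
    have e1 : σ • (a • Q + b • R) = σ • (a • Q) + σ • (b • R) :=
      (Point.map σ.toAlgHom).map_add _ _
    rw [hab, e1, algEquiv_smul_zsmul, algEquiv_smul_zsmul, hσQ, hσR]

end U

end Fermat.Agent.FC
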