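/-
PROJECT FC (Frey chain, S12), block (TOP) (helper4), part 4: `s12_of_interfaces` with the inputs
(U-a), (U-b) replaced by (U1) (`ua_of_u1`, `ub_of_u1`) and (P) by helper5's canonical chain
(`hP_of_canonical_chain`).
-/
import Mathlib
import Fermat.Agent.FC.TOP_helper4_Main
import Fermat.Agent.FC.TOP_helper4_AdaptP
import Fermat.Agent.FC.U_helper4_Consumers

set_option autoImplicit false
set_option linter.unusedSectionVars false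
set_option linter.style.haveILetI false

namespace Fermat.Agent.FC

open WeierstrassCurve WeierstrassCurve.Affine WeierstrassCurve.Affine.Point AddSubgroup ExtCitation
open Fermat.Agent.S13
open scoped WeierstrassCurve.Affine

/-- `Ω = AlgebraicClosure ℚ`. -/
local notation "Ω" => AlgebraicClosure ℚ
/-- `GQ = Gal(Ω/ℚ)`. -/
local notation "GQ" => (AlgebraicClosure ℚ ≃ₐ[ℚ] AlgebraicClosure ℚ)

variable (P : FreyPackage)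

/-- **S12 from the blocks**: S14, S15, (FREY) good reduction, (Q)+(M) model, (U1), (P) chain. -/
theorem s12_of_blocks (hp17 : 17 ≤ P.p)
    (hS14 : haveI : Fact P.p.Prime := ⟨P.pp⟩; ExtVanishingCts P.p)
    (hS15 : ∀ {p : ℕ} (_ : p.Prime) (_ : p ∉ ({2, 3, 5, 7, 13} : Finset ℕ))
      (W : WeierstrassCurve ℤ) (_ : W.Δ ≠ 0)
      (Q : ((W.map (Int.castRingHom ℚ))⁄Ω).Point)
      (_ : ∀ σ : GQ, σ • Q = Q) (_ : addOrderOf Q = p)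
      (_ : (2 : ℤ) ∣ W.Δ) (_ : ¬ (2 : ℤ) ∣ W.c₄)
      (_ : ∀ A : ValuationSubring Ω, A.LiesOverPrime 2 → ¬ W.InZeroComponentAt A Q)
      (_ : (3 : ℤ) ∣ W.Δ) (_ : ¬ (3 : ℤ) ∣ W.c₄)
      (_ : ∀ A : ValuationSubring Ω, A.LiesOverPrime 3 → ¬ W.InZeroComponentAt A Q)
      {ℓ : ℕ} (_ : ℓ.Prime) (_ : ℓ ≠ p) (_ : (ℓ : ℤ) ∣ W.Δ) (_ : ¬ (ℓ : ℤ) ∣ W.c₄)
      (A : ValuationSubring Ω) (_ : A.LiesOverPrime ℓ), ¬ W.InZeroComponentAt A Q)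
    (hgood : ∀ ℓ : ℕ, ℓ.Prime → ℓ ≠ P.p → ¬ (ℓ : ℤ) ∣ P.a * P.b * P.c →
      ∀ A : ValuationSubring Ω, A.LiesOverPrime ℓ → ∀ σ ∈ A.inertiaSubgroupIn ℚ,
      ∀ (n : ℕ) (x : Epts P), P.p ^ n • x = 0 → σ • x = x)
    (hQM : ∀ (D : AddSubgroup (Epts P)) (k : ℕ), Nat.card D = P.p ^ k →
      (∀ σ : GQ, ∀ d ∈ D, σ • d ∈ D) →
      ∃ (W : WeierstrassCurve ℤ) (φ : Epts P →+ ((W.map (Int.castRingHom ℚ))⁄Ω).Point),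
        W.Δ ≠ 0 ∧ (∀ (σ : GQ) (x : Epts P), φ (σ • x) = σ • φ x) ∧
        (∀ x : Epts P, φ x = 0 ↔ x ∈ D) ∧
        ∀ ℓ : ℕ, ℓ.Prime → ℓ ≠ P.p → (ℓ : ℤ) ∣ P.a * P.b * P.c → ¬ (ℓ : ℤ) ∣ W.c₄)
    (hU1 : ∀ (W : WeierstrassCurve ℤ), W.Δ ≠ 0 → ∀ {ℓ : ℕ}, ℓ.Prime → (ℓ : ℤ) ∣ W.Δ →
      ¬ (ℓ : ℤ) ∣ W.c₄ → ∀ (A : ValuationSubring Ω), A.LiesOverPrime ℓ →
      ∀ σ ∈ A.inertiaSubgroupIn ℚ, ∀ {n : ℕ}, ¬ ℓ ∣ n →
      ∀ T : ((W.map (Int.castRingHom ℚ))⁄Ω).Point, n • T = 0 →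
      W.InZeroComponentAt A (σ • T - T))
    (hchain : ∀ (N : Submodule (ZMod P.p) (FreyTors P)), IsGaloisStable ℚ N → N ≠ ⊥ → N ≠ ⊤ →
      (∀ (σ : GQ) (x : FreyTors P), σ • x - x ∈ N) →
      ∀ A : ValuationSubring Ω, A.LiesOverPrime P.p →
        ∃ Kc : ℕ → AddSubgroup (PEpts P), IsCanonicalChain P N A Kc) :
    ¬ HasGaloisStableCofixedLine (K := AlgebraicClosure ℚ) ℚ P.freyCurve P.p := by
  refine s12_of_interfaces P hp17 hS14 hS15 hgood hQM ?_ ?_ (hP_of_canonical_chain P hchain)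
  · intro W hΔ ℓ hℓ hℓΔ hℓc₄ A hA p hp hp2 hℓp Q hQp hQ σ hσ hσQ T hT
    exact ub_of_u1 hΔ hℓ hA hp hp2 hℓp hQp hQ hσ hσQ
      (fun n hn T hT => hU1 W hΔ hℓ hℓΔ hℓc₄ A hA σ hσ hn T hT) T hT
  · intro W hΔ ℓ hℓ hℓΔ hℓc₄ A hA p hp hℓp Q hQp hQ σ hσ hσQ R hR hRn
    exact ua_of_u1 hp hQp hQ (fun n hn T hT => hU1 W hΔ hℓ hℓΔ hℓc₄ A hA σ hσ hn T hT) R hR hRn

end Fermat.Agent.FC
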