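/-
PROJECT FC (Frey chain, S12), block (TOP) (helper4), part 6: S12 from (U1) alone.

Every other block is plugged in: S14, S15, (FREY), (Q), (M), (P), (χ), (C), (CNT), (S2), (RED).
-/
import Mathlib
import Fermat.Agent.FC.TOP_helper4_Final
import Fermat.Agent.FC.TOP_helper4_AdaptQM
import Fermat.Agent.FC.P_helper5_Final
import Fermat.Agent.S14
import Fermat.Agent.S15

set_option autoImplicit false
set_option linter.unusedSectionVars false
set_option linter.style.haveILetI false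

namespace Fermat.Agent.FC

open WeierstrassCurve WeierstrassCurve.Affine WeierstrassCurve.Affine.Point
open scoped WeierstrassCurve.Affine

/-- `Ω = AlgebraicClosure ℚ`. -/
local notation "Ω" => AlgebraicClosure ℚ
/-- `GQ = Gal(Ω/ℚ)`. -/
local notation "GQ" => (AlgebraicClosure ℚ ≃ₐ[ℚ] AlgebraicClosure ℚ)

/-- **S12 from (U1)**: inertia at a nodal prime moves prime-to-`ℓ` torsion inside `W⁰`. -/
theorem s12_of_u1
    (hU1 : ∀ (W : WeierstrassCurve ℤ), W.Δ ≠ 0 → ∀ {ℓ : ℕ}, ℓ.Prime → (ℓ : ℤ) ∣ W.Δ →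
      ¬ (ℓ : ℤ) ∣ W.c₄ → ∀ (A : ValuationSubring Ω), A.LiesOverPrime ℓ →
      ∀ σ ∈ A.inertiaSubgroupIn ℚ, ∀ {n : ℕ}, ¬ ℓ ∣ n →
      ∀ T : ((W.map (Int.castRingHom ℚ))⁄Ω).Point, n • T = 0 →
      W.InZeroComponentAt A (σ • T - T))
    (P : FreyPackage) (hp17 : 17 ≤ P.p) :
    ¬ HasGaloisStableCofixedLine (K := AlgebraicClosure ℚ) ℚ P.freyCurve P.p := by
  haveI : Fact P.p.Prime := ⟨P.pp⟩
  exact s12_of_blocks P hp17 (Fermat.Agent.S14.result (by omega))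
    (fun hp hp' W hΔ Q hQfix hQord h2Δ h2c₄ h2 h3Δ h3c₄ h3 _ hℓ hℓp hℓΔ hℓc₄ A hA =>
      Fermat.Agent.S15.result hp hp' W hΔ Q hQfix hQord h2Δ h2c₄ h2 h3Δ h3c₄ h3 hℓ hℓp hℓΔ hℓc₄
        A hA)
    (frey_hgood P) (frey_hQM P) hU1 (exists_canonical_chain P)

end Fermat.Agent.FC
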