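/-
PROJECT FC (Frey chain, S12), block (U1) — helper7.  For a `ℤ`-model `W` with multiplicative
reduction at `ℓ` (`ℓ ∣ Δ`, `ℓ ∤ c₄`, EVERY residue characteristic), an inertia element `σ` at a
place `A ∣ ℓ` and a torsion point `T` of order prime to `ℓ`: `σ • T - T` lies in the identity
component `W⁰(A)` (frozen predicate `WeierstrassCurve.InZeroComponentAt`).

Route: helper3's nodal normal form (`S58/NORMF58_helper3.exists_gnode_model`: an integral,
inertia-fixed translation to `(y - αx)(y - βx) = x³ + a₄x + a₆`), helper2's depth function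
(`S13/At2_helper2_Inertia.depthPt_smul_sub_eq_zero`: `σ • Q - Q` has depth `0`), the transport
pattern of `S58/ECTATE_helper7_Unip.unipotent_of_gnode_params`, and helper1's description of the
frozen predicate through the partial derivatives (`FC/RED_helper1_Add.goodRed_iff_partials`).
-/
import Mathlib
import Fermat.Agent.S58.ECTATE_helper7_Unip
import Fermat.Agent.S58.NORMF58_helper3
import Fermat.Agent.FC.RED_helper1_Frozen

set_option autoImplicit false
set_option linter.unusedSectionVars false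
set_option linter.unusedVariables false

namespace Fermat.Agent.FC

open Fermat.Agent.Tate Fermat.Agent.S13 Fermat.Agent.S58
open WeierstrassCurve WeierstrassCurve.Affine
open scoped WeierstrassCurve.Affine

section Abstract

variable {K : Type*} [Field K] [DecidableEq K] {A : ValuationSubring K}
  {R : Type*} {S : Type*} [CommRing R] [CommRing S] [Algebra R S]
  [Algebra R K] [Algebra S K] [IsScalarTower R S K]

/-- on a nodal model, `σ • Q - Q` is the origin or an integral point whose reduction is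
nonsingular (partial derivatives not both in `𝔪`), for every `m`-torsion point `Q`. -/
theorem gnode_smul_sub_cases (W' : Affine R) (C : GNodeCtx K A) {α β : K}
    (hM : C.IsModel (W'⁄K) α β) {m : ℕ}
    (hR1 : ∀ {x y : K} (h : (W'⁄K).Nonsingular x y), m • Point.some x y h = 0 → x ∈ A ∧ y ∈ A)
    (σ : K ≃ₐ[S] K) (hσ : ∀ a ∈ A, σ a ∈ A ∧ σ a - a ∈ A.nonunits)
    (hσ' : ∀ a ∈ A, σ.symm a ∈ A) {π : K} (hπ0 : π ≠ 0) (hπ : C.L.w π ≠ 0) (hσπ : σ π = π)
    (Q : (W'⁄K).Point) (hQ : m • Q = 0) :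
    σ • Q - Q = 0 ∨ ∃ (x y : K) (h : (W'⁄K).Nonsingular x y), σ • Q - Q = Point.some x y h ∧
      x ∈ A ∧ y ∈ A ∧
      ¬ (3 * x ^ 2 + 2 * (W'⁄K).a₂ * x + (W'⁄K).a₄ - (W'⁄K).a₁ * y ∈ A.nonunits ∧
        2 * y + (W'⁄K).a₁ * x + (W'⁄K).a₃ ∈ A.nonunits) := by
  have hσQ := nsmul_smul_eq_zero σ hQ
  have hsub : m • (σ • Q - Q) = 0 := by rw [smul_sub, hσQ, hQ, sub_zero]
  have hd := depthPt_smul_sub_eq_zero W' C hM hR1 σ hσ hπ0 hπ hσπ hσ' hQ
  rcases hD : σ • Q - Q with _ | ⟨x, y, h⟩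
  · exact Or.inl rfl
  · rw [hD] at hsub hd
    rw [GNodeCtx.depthPt_some, GNodeCtx.depth_eq_zero_iff] at hd
    obtain ⟨hx, hy⟩ := hR1 h hsub
    exact Or.inr ⟨x, y, h, rfl, hx, hy, hM.not_partials_mem hx hy hd h.1⟩

end Abstract

section Translate

variable {F : Type*} [Field F]

/-- the partial derivatives of a Weierstrass polynomial are invariant under translations -/
theorem partials_translate (V : WeierstrassCurve F) (r t x y : F) :
    3 * (x + r) ^ 2 + 2 * V.a₂ * (x + r) + V.a₄ - V.a₁ * (y + t) =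
        3 * x ^ 2 + 2 * (VariableChange.mk 1 r 0 t • V).a₂ * x + (VariableChange.mk 1 r 0 t • V).a₄
          - (VariableChange.mk 1 r 0 t • V).a₁ * y ∧
      2 * (y + t) + V.a₁ * (x + r) + V.a₃ =
        2 * y + (VariableChange.mk 1 r 0 t • V).a₁ * x + (VariableChange.mk 1 r 0 t • V).a₃ := by
  simp only [variableChange_a₁, variableChange_a₂, variableChange_a₃, variableChange_a₄,
    inv_one, Units.val_one]
  constructor <;> ring

theorem vcX_translate (r t x : F) : vcX (VariableChange.mk 1 r 0 t) x = x + r := by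
  simp [vcX]

theorem vcY_translate (r t x y : F) : vcY (VariableChange.mk 1 r 0 t) x y = y + t := by
  simp [vcY]

end Translate

section Transport

variable {K : Type*} [Field K] [DecidableEq K] [Algebra ℚ K] [CharZero K]
  {A : ValuationSubring K}

/-- **transport**: if the translate of `W⁄K` by `(r, t)` (`r, t ∈ A` fixed by `σ`) is a nodal
model, then for every `m`-torsion point `P` (`m` invertible in `A`), `σ • P - P` is the origin or
an integral point whose partial derivatives are not both in `𝔪`. -/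
theorem smul_sub_cases_of_gnode_params (W : WeierstrassCurve ℤ) (r t α β : K) (C : GNodeCtx K A)
    (hM : C.IsModel (VariableChange.mk 1 r 0 t • (W.toAffine⁄K)).toAffine α β)
    {m : ℕ} (hm0 : m ≠ 0) (hminv : ((m : K))⁻¹ ∈ A)
    (σ : K ≃ₐ[ℚ] K) (hσ : ∀ a ∈ A, σ a ∈ A ∧ σ a - a ∈ A.nonunits)
    (hσ' : ∀ a ∈ A, σ.symm a ∈ A) (hσr : σ r = r) (hσt : σ t = t) (hr : r ∈ A) (ht : t ∈ A)
    {π : K} (hπ0 : π ≠ 0) (hπ : C.L.w π ≠ 0) (hσπ : σ π = π)
    (P : (W.toAffine⁄K).Point) (hP : m • P = 0) :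
    σ • P - P = 0 ∨ ∃ (x y : K) (h : (W.toAffine⁄K).Nonsingular x y),
      σ • P - P = Point.some x y h ∧ x ∈ A ∧ y ∈ A ∧
      ¬ (3 * x ^ 2 + 2 * (W.toAffine⁄K).a₂ * x + (W.toAffine⁄K).a₄ - (W.toAffine⁄K).a₁ * y
            ∈ A.nonunits ∧
        2 * y + (W.toAffine⁄K).a₁ * x + (W.toAffine⁄K).a₃ ∈ A.nonunits) := by
  -- the fixed field of `σ`
  let F₀ : IntermediateField ℚ K := FixedBy.intermediateField ℚ K σ
  let r' : F₀ := ⟨r, hσr⟩
  let t' : F₀ := ⟨t, hσt⟩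
  let σ' : K ≃ₐ[F₀] K := { σ.toRingEquiv with commutes' := fun x => x.2 }
  have hσσ' : ∀ x : K, σ' x = σ x := fun x => rfl
  let W_F : WeierstrassCurve F₀ := W.map (algebraMap ℤ F₀)
  let C₀ : VariableChange F₀ := ⟨1, r', 0, t'⟩
  have h1 : (W_F.toAffine⁄K) = (W.toAffine⁄K) := by
    show (W.map (algebraMap ℤ F₀)).map (algebraMap F₀ K) = W.map (algebraMap ℤ K)
    rw [WeierstrassCurve.map_map]
    congr 1
  have hC₀ : C₀.baseChange K = VariableChange.mk 1 r 0 t := by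
    show VariableChange.mk (Units.map (algebraMap F₀ K : F₀ →* K) 1) (algebraMap F₀ K r')
      (algebraMap F₀ K 0) (algebraMap F₀ K t') = _
    rw [map_one, map_zero]
    rfl
  have h2 : ((C₀ • W_F).toAffine⁄K) = VariableChange.mk 1 r 0 t • (W.toAffine⁄K) := by
    have := baseChange_variableChange W_F C₀ K
    rw [hC₀] at this
    rw [← h1]
    exact this
  have hM' : C.IsModel ((C₀ • W_F).toAffine⁄K) α β := by
    rw [h2]; exact hM
  have hR1 : ∀ {x y : K} (h : ((C₀ • W_F).toAffine⁄K).Nonsingular x y),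
      m • Point.some x y h = 0 → x ∈ A ∧ y ∈ A := fun h ht =>
    mem_of_nsmul_eq_zero' (gnode_isIntegralCurve58 hM') hm0 hminv h ht
  have hσ1 : ∀ a ∈ A, σ' a ∈ A ∧ σ' a - a ∈ A.nonunits := hσ
  have hσ1' : ∀ a ∈ A, σ'.symm a ∈ A := hσ'
  have key := gnode_smul_sub_cases (C₀ • W_F).toAffine C hM' hR1 σ' hσ1 hσ1' hπ0 hπ hσπ
  -- transport along the change of variables
  let e := vcPtBaseChange W_F C₀ K
  have he : ∀ Q, σ' • e Q = e (σ' • Q) := fun Q => smul_vcPtBaseChange W_F C₀ σ' Q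
  have hc : ∀ P' : (W_F.toAffine⁄K).Point, ptCast h1 (σ' • P') = σ • ptCast h1 P' :=
    fun P' => ptCast_smul W_F.toAffine W.toAffine h1 σ' σ hσσ' P'
  obtain ⟨P', rfl⟩ := (ptCast h1).surjective P
  obtain ⟨Q, rfl⟩ := e.surjective P'
  have hQ : m • Q = 0 := by
    apply e.injective
    apply (ptCast h1).injective
    rw [map_nsmul, map_nsmul, hP, map_zero, map_zero]
  have hD : σ • ptCast h1 (e Q) - ptCast h1 (e Q) = ptCast h1 (e (σ' • Q - Q)) := by
    rw [← hc, he, ← map_sub, ← map_sub]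
  rcases key Q hQ with h0 | ⟨x', y', h', hD', hx', hy', hpart⟩
  · left
    rw [hD, h0, map_zero, map_zero]
  · right
    rw [hD, hD', vcPtBaseChange_some, ptCast_some]
    have eX : vcX (C₀.baseChange K) x' = x' + r := by rw [hC₀]; exact vcX_translate r t x'
    have eY : vcY (C₀.baseChange K) x' y' = y' + t := by rw [hC₀]; exact vcY_translate r t x' y'
    refine ⟨_, _, _, rfl, ?_, ?_, ?_⟩
    · rw [eX]; exact A.add_mem _ _ hx' hr
    · rw [eY]; exact A.add_mem _ _ hy' ht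
    · rw [eX, eY]
      obtain ⟨p1, p2⟩ := partials_translate (W.toAffine⁄K) r t x' y'
      rw [p1, p2, ← h2]
      exact hpart

end Transport

section Concrete

/-- `Ω = AlgebraicClosure ℚ`. -/
local notation "Ω" => AlgebraicClosure ℚ

/-- **(U1), on the `ℤ`-presentation of the points**: for `q ∣ Δ`, `q ∤ c₄`, `σ` in an inertia
group over `q` and `P` an `m`-torsion point (`q ∤ m`), `σ • P - P` is the origin or an integral
point whose partial derivatives are not both in `𝔪`. -/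
theorem smul_sub_cases_of_multiplicative (W : WeierstrassCurve ℤ)
    (hΔ0 : W.Δ ≠ 0) {q : ℕ} (hq : q.Prime) (hqΔ : (q : ℤ) ∣ W.Δ) (hqc₄ : ¬ (q : ℤ) ∣ W.c₄)
    {m : ℕ} (hqm : ¬ q ∣ m)
    (A : ValuationSubring Ω) (hA : A.LiesOverPrime q)
    (σ : Ω ≃ₐ[ℚ] Ω) (hσ : σ ∈ A.inertiaSubgroupIn ℚ)
    (P : (W.toAffine⁄Ω).Point) (hP : m • P = 0) :
    σ • P - P = 0 ∨ ∃ (x y : Ω) (h : (W.toAffine⁄Ω).Nonsingular x y),
      σ • P - P = Point.some x y h ∧ x ∈ A ∧ y ∈ A ∧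
      ¬ (3 * x ^ 2 + 2 * (W.toAffine⁄Ω).a₂ * x + (W.toAffine⁄Ω).a₄ - (W.toAffine⁄Ω).a₁ * y
            ∈ A.nonunits ∧
        2 * y + (W.toAffine⁄Ω).a₁ * x + (W.toAffine⁄Ω).a₃ ∈ A.nonunits) := by
  have hqA : ((q : ℕ) : Ω) ∈ A.nonunits := hA
  have : Algebra.IsAlgebraic ℚ Ω := AlgebraicClosure.isAlgebraic ℚ
  obtain ⟨L, hL⟩ := exists_logVal A hq hqA
  have hcoe : ∀ z : ℤ, algebraMap ℤ Ω z = (z : Ω) := fun z => rfl
  have hint : ∀ z : ℤ, algebraMap ℤ Ω z ∈ A := fun z => by rw [hcoe]; exact intCast_mem A z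
  have hΔmap : (W.toAffine⁄Ω).Δ = algebraMap ℤ Ω W.Δ := WeierstrassCurve.map_Δ W _
  have hc₄map : (W.toAffine⁄Ω).c₄ = algebraMap ℤ Ω W.c₄ := WeierstrassCurve.map_c₄ W _
  obtain ⟨r, t, α, β, C, hCL, hr, ht, hM, hfix⟩ := exists_gnode_model A L (W.toAffine⁄Ω)
    (hint _) (hint _) (hint _) (hint _) (hint _)
    (by rw [hΔmap, hcoe]; exact Int.cast_ne_zero.mpr hΔ0)
    (by rw [hΔmap, hcoe]; exact intCast_mem_nonunits A hqA hqΔ)
    (by rw [hc₄map, hcoe]; exact intCast_notMem_nonunits A hq hqA hqc₄)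
  have hin : ∀ a ∈ A, σ a ∈ A ∧ σ a - a ∈ A.nonunits :=
    fun a ha => inertia_map_mem_and_sub_mem hσ ha
  have hin' : ∀ a ∈ A, σ.symm a ∈ A :=
    fun a ha => (inertia_map_mem_and_sub_mem (inv_mem hσ) ha).1
  have hσcoe : ∀ z : ℤ, (σ : Ω →+* Ω) (algebraMap ℤ Ω z) = algebraMap ℤ Ω z := fun z => by
    rw [hcoe]; exact map_intCast _ z
  obtain ⟨hσr, hσt⟩ := hfix (σ : Ω →+* Ω) (hσcoe _) (hσcoe _) (hσcoe _) (hσcoe _) (hσcoe _) hin
  have hm0 : m ≠ 0 := by
    rintro rfl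
    exact hqm (dvd_zero q)
  have hq0 : ((q : ℕ) : Ω) ≠ 0 := Nat.cast_ne_zero.mpr hq.ne_zero
  exact smul_sub_cases_of_gnode_params W r t α β C hM hm0 (inv_natCast_mem A hq hqA hqm)
    σ hin hin' hσr hσt hr ht hq0 (by rw [hCL, hL]; exact one_ne_zero) (map_natCast σ q) P hP

/-- the two presentations of the base change to `Ω` of a `ℤ`-model -/
theorem baseChange_int_rat_eq (W : WeierstrassCurve ℤ) :
    (W.toAffine⁄Ω) = ((W.map (Int.castRingHom ℚ)).toAffine⁄Ω) := by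
  show W.map (algebraMap ℤ Ω) = (W.map (Int.castRingHom ℚ)).map (algebraMap ℚ Ω)
  rw [WeierstrassCurve.map_map]
  congr 1

/-- **(U1)**: for a `ℤ`-model `W` with `ℓ ∣ Δ`, `ℓ ∤ c₄` (every prime `ℓ`, also `2` and `3`), a
place `A` over `ℓ`, `σ` in the inertia group of `A` and a torsion point `T` of order prime to `ℓ`,
the point `σ • T - T` lies in the identity component `W⁰(A)`. -/
theorem inZero_smul_sub (W : WeierstrassCurve ℤ) (hΔ : W.Δ ≠ 0) {ℓ : ℕ} (hℓ : ℓ.Prime)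
    (hℓΔ : (ℓ : ℤ) ∣ W.Δ) (hℓc₄ : ¬ (ℓ : ℤ) ∣ W.c₄) (A : ValuationSubring Ω)
    (hA : A.LiesOverPrime ℓ) (σ : Ω ≃ₐ[ℚ] Ω) (hσ : σ ∈ A.inertiaSubgroupIn ℚ) {n : ℕ}
    (hn : ¬ ℓ ∣ n) (T : ((W.map (Int.castRingHom ℚ))⁄Ω).Point) (hT : n • T = 0) :
    W.InZeroComponentAt A (σ • T - T) := by
  classical
  have h := baseChange_int_rat_eq W
  set T₀ : (W.toAffine⁄Ω).Point := (ptCast h).symm T with hT₀def
  have hTT₀ : ptCast h T₀ = T := (ptCast h).apply_symm_apply T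
  have hT₀ : n • T₀ = 0 := by
    apply (ptCast h).injective
    rw [map_nsmul, hTT₀, hT, map_zero]
  have hcast : ptCast h (σ • T₀ - T₀) = σ • T - T := by
    rw [map_sub, ptCast_smul W.toAffine (W.map (Int.castRingHom ℚ)).toAffine h σ σ (fun _ => rfl),
      hTT₀]
  rcases smul_sub_cases_of_multiplicative W hΔ hℓ hℓΔ hℓc₄ hn A hA σ hσ T₀ hT₀ with
    h0 | ⟨x, y, hxy, hD, hx, hy, hpart⟩
  · rw [← hcast, h0, map_zero]
    exact Or.inl rfl
  · rw [← hcast, hD, ptCast_some]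
    have hxy' : ((W.map (Int.castRingHom ℚ)).toAffine⁄Ω).Nonsingular x y := h ▸ hxy
    have heq : ((intModel W A).map A.subtype).Equation x y := by
      rw [intModel_map_subtype' W A]
      exact hxy'.1
    have hg : GoodRed (intModel W A) x y := by
      refine (goodRed_iff_partials (intModel W A) hx hy heq).mpr ?_
      rw [intModel_map_subtype' W A, ← h]
      exact hpart
    obtain ⟨hx', hy', hns⟩ := hg
    rw [intModel_map_residue] at hns
    exact Or.inr ⟨x, y, _, rfl, Or.inr ⟨hx', hy', hns⟩⟩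

/-- (U1) in the binder shape of the hypothesis `hU1` of the assembly (`TOP_helper4_Final`) and of
`InertiaSubInZeroHyp` (`U_helper2_Consumers`). -/
theorem inZero_smul_sub_all : ∀ (W : WeierstrassCurve ℤ), W.Δ ≠ 0 → ∀ {ℓ : ℕ}, ℓ.Prime →
    (ℓ : ℤ) ∣ W.Δ → ¬ (ℓ : ℤ) ∣ W.c₄ → ∀ (A : ValuationSubring Ω), A.LiesOverPrime ℓ →
    ∀ σ ∈ A.inertiaSubgroupIn ℚ, ∀ {n : ℕ}, ¬ ℓ ∣ n →
    ∀ T : ((W.map (Int.castRingHom ℚ))⁄Ω).Point, n • T = 0 →
      W.InZeroComponentAt A (σ • T - T) :=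
  fun W hΔ _ hℓ hℓΔ hℓc₄ A hA σ hσ _ hn T hT =>
    inZero_smul_sub W hΔ hℓ hℓΔ hℓc₄ A hA σ hσ hn T hT

end Concrete

end Fermat.Agent.FC
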