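/-
PROJECT FC, block (FT) (helper1): the sum of `℘''` over the nonzero `m`-torsion points,
`120 ∑_{d ∈ E[m] ∖ 0} (6 x_d² + b₂ x_d + b₄) = (m⁴ - 1) c₄`,
for a Weierstrass curve over `ℚ` with points over `Ω = AlgebraicClosure ℚ`, deduced from the
statement for the curves `curveOf L` over `ℂ` (helper7's analytic input, a named hypothesis here).

* `SumTorsionCurveOfHyp` : the analytic input;
* `sum_torsion_complex` : any Weierstrass curve over `ℂ` with `Δ ≠ 0` (`u = 1` change to short form);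
* `sum_torsion_of_emb` : any algebraically closed field embedded in `ℂ`;
* `sum_torsion_velu` : the literal of the blueprint.
-/
import Mathlib
import Fermat.Prelude.Def_FLTPrelim_GaloisRep
import Fermat.Agent.FC.Q_helper2_Complex
import Fermat.Agent.S13.A_helper8_Descent

set_option autoImplicit false
set_option linter.unusedSectionVars false

namespace Fermat.Agent.FC

open WeierstrassCurve WeierstrassCurve.Affine Fermat.Agent.S13 Fermat.Agent.Tate

/-- the analytic input (helper7): the sum over the nonzero `m`-torsion points of `curveOf L` -/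
def SumTorsionCurveOfHyp : Prop :=
  ∀ (L : PeriodPair) (m : ℕ) (_ : 0 < m) (S : Finset (curveOf L).toAffine.Point)
    (_ : ∀ d, d ∈ S ↔ m • d = 0 ∧ d ≠ 0),
    120 * ∑ d ∈ S, (6 * xOf d ^ 2 + (curveOf L).b₂ * xOf d + (curveOf L).b₄) =
      ((m : ℂ) ^ 4 - 1) * (curveOf L).c₄

section vc

variable {F : Type*} [Field F] [DecidableEq F] (W : WeierstrassCurve F)
  (C : WeierstrassCurve.VariableChange F)

/-- `6 x² + b₂ x + b₄` is invariant under `u = 1` variable changes -/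
theorem sixXsq_vcPt (hu : C.u = 1) {P : (C • W).toAffine.Point} (hP : P ≠ 0) :
    6 * xOf (vcPt W C P) ^ 2 + W.b₂ * xOf (vcPt W C P) + W.b₄ =
      6 * xOf P ^ 2 + (C • W).b₂ * xOf P + (C • W).b₄ := by
  rw [xOf_vcPt W C hP, vcX_of_u_eq_one C hu, variableChange_b₂, variableChange_b₄, hu]
  simp only [inv_one, Units.val_one, one_pow, one_mul]
  ring

theorem c₄_vc_of_u_eq_one (hu : C.u = 1) : (C • W).c₄ = W.c₄ := by
  rw [variableChange_c₄, hu]
  simp

end vc

/-- **(FT) over `ℂ`**, general Weierstrass form -/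
theorem sum_torsion_complex (hyp : SumTorsionCurveOfHyp) (W : WeierstrassCurve ℂ) (hΔ : W.Δ ≠ 0)
    (m : ℕ) (hm : 0 < m) (S : Finset W.toAffine.Point) (hS : ∀ d, d ∈ S ↔ m • d = 0 ∧ d ≠ 0) :
    120 * ∑ d ∈ S, (6 * xOf d ^ 2 + W.b₂ * xOf d + W.b₄) = ((m : ℂ) ^ 4 - 1) * W.c₄ := by
  classical
  obtain ⟨L, hL⟩ := exists_shortVC_eq_curveOf W hΔ
  set C := shortVC W with hC
  have hu : C.u = 1 := rfl
  have hS' : ∀ d, d ∈ vcPreimage W C S ↔ m • d = 0 ∧ d ≠ 0 := by
    intro d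
    rw [mem_vcPreimage, hS]
    constructor
    · rintro ⟨h1, h2⟩
      refine ⟨?_, fun h => h2 (by rw [h, vcPt_zero])⟩
      apply vcPt_injective W C
      rw [vcPt_zero, ← h1]
      exact (map_nsmul (vcPtHom W C) m d)
    · rintro ⟨h1, h2⟩
      refine ⟨?_, vcPt_ne_zero W C h2⟩
      have := map_nsmul (vcPtHom W C) m d
      rw [h1, map_zero] at this
      exact this.symm
  -- the hypothesis, transported along `C • W = curveOf L`
  have key : ∀ (V : WeierstrassCurve ℂ), V = curveOf L →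
      ∀ S'' : Finset V.toAffine.Point, (∀ d, d ∈ S'' ↔ m • d = 0 ∧ d ≠ 0) →
      120 * ∑ d ∈ S'', (6 * xOf d ^ 2 + V.b₂ * xOf d + V.b₄) = ((m : ℂ) ^ 4 - 1) * V.c₄ := by
    intro V hV
    subst hV
    intro S'' hS''
    exact hyp L m hm S'' hS''
  have h1 := key (C • W) hL (vcPreimage W C S) hS'
  rw [c₄_vc_of_u_eq_one W C hu] at h1
  rw [← h1, ← vcImage_vcPreimage W C S, sum_vcImage]
  congr 1
  rw [vcImage_vcPreimage]
  apply Finset.sum_congr rfl
  intro d hd
  exact sixXsq_vcPt W C hu ((hS' d).mp hd).2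

section emb

variable {K : Type*} [Field K] [DecidableEq K] [IsAlgClosed K]

/-- **(FT) over an algebraically closed subfield of `ℂ`** -/
theorem sum_torsion_of_emb (hyp : SumTorsionCurveOfHyp) (ι : K →+* ℂ) (W : WeierstrassCurve K)
    (hΔ : W.Δ ≠ 0) (m : ℕ) (hm : 0 < m) (S : Finset W.toAffine.Point)
    (hS : ∀ d, d ∈ S ↔ m • d = 0 ∧ d ≠ 0) :
    120 * ∑ d ∈ S, (6 * xOf d ^ 2 + W.b₂ * xOf d + W.b₄) = ((m : K) ^ 4 - 1) * W.c₄ := by
  classical
  set j := ptMap ι W (W.map ι) rfl with hj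
  have hjinj : Function.Injective j := ptMap_injective ι W (W.map ι) rfl
  have hS₂ : ∀ d, d ∈ ptImage ι W (W.map ι) rfl S ↔ m • d = 0 ∧ d ≠ 0 := by
    intro d
    rw [mem_ptImage]
    constructor
    · rintro ⟨P, hP, rfl⟩
      obtain ⟨h1, h2⟩ := (hS P).mp hP
      refine ⟨?_, fun h => h2 (hjinj (h.trans (map_zero j).symm))⟩
      have := map_nsmul j m P
      rw [h1, map_zero] at this
      exact this.symm
    · rintro ⟨h1, h2⟩
      have hr : m • d ∈ Set.range (ptMap ι W (W.map ι) rfl) := ⟨0, by rw [h1]; exact map_zero j⟩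
      obtain ⟨P, hP⟩ := mem_range_ptMap_of_nsmul_mem W ι hΔ hm.ne' d hr
      refine ⟨P, (hS P).mpr ⟨?_, fun h => h2 (by rw [← hP, h]; exact map_zero j)⟩, hP⟩
      apply hjinj
      have := map_nsmul j m P
      change j (m • P) = j 0
      rw [this, map_zero]
      change m • ptMap ι W (W.map ι) rfl P = 0
      rw [hP, h1]
  have h1 := sum_torsion_complex hyp (W.map ι) (map_Δ_ne_zero W ι hΔ) m hm
    (ptImage ι W (W.map ι) rfl S) hS₂
  rw [sum_ptImage] at h1
  apply ι.injective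
  have e1 : ι (((m : K) ^ 4 - 1) * W.c₄) = ((m : ℂ) ^ 4 - 1) * (W.map ι).c₄ := by
    rw [map_mul, map_sub, map_pow, map_natCast, map_one, WeierstrassCurve.map_c₄]
  rw [e1, ← h1, map_mul, map_sum]
  congr 1
  · exact map_ofNat ι 120
  · apply Finset.sum_congr rfl
    intro d _
    rw [xOf_ptMap, WeierstrassCurve.map_b₂, WeierstrassCurve.map_b₄]
    simp only [map_add, map_mul, map_pow, map_ofNat]

end emb

/-- **(FT)**: the literal of the blueprint -/
theorem sum_torsion_velu (hyp : SumTorsionCurveOfHyp) (W : WeierstrassCurve ℚ) (hΔ : W.Δ ≠ 0)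
    (m : ℕ) (hm : 0 < m) (S : Finset (W⁄(AlgebraicClosure ℚ)).Point)
    (hS : ∀ d : (W⁄(AlgebraicClosure ℚ)).Point, d ∈ S ↔ m • d = 0 ∧ d ≠ 0) :
    120 * ∑ d ∈ S, (6 * xOf d ^ 2 + (W⁄(AlgebraicClosure ℚ)).b₂ * xOf d +
      (W⁄(AlgebraicClosure ℚ)).b₄) =
      ((m : AlgebraicClosure ℚ) ^ 4 - 1) * (W⁄(AlgebraicClosure ℚ)).c₄ := by
  classical
  have hΔ' : (W⁄(AlgebraicClosure ℚ)).Δ ≠ 0 := by
    change (W.map (algebraMap ℚ (AlgebraicClosure ℚ))).Δ ≠ 0
    rw [WeierstrassCurve.map_Δ]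
    exact (map_ne_zero_iff _ (algebraMap ℚ (AlgebraicClosure ℚ)).injective).mpr hΔ
  obtain ⟨ι⟩ : Nonempty (AlgebraicClosure ℚ →+* ℂ) := by
    have e : (AlgebraicClosure.instAlgebra ℚ : Algebra ℚ (AlgebraicClosure ℚ)) =
        DivisionRing.toRatAlgebra := Subsingleton.elim _ _
    have h : @Algebra.IsAlgebraic ℚ (AlgebraicClosure ℚ) _ _ (AlgebraicClosure.instAlgebra ℚ) :=
      AlgebraicClosure.isAlgebraic ℚ
    have h1 : Algebra.IsAlgebraic ℚ (AlgebraicClosure ℚ) := e ▸ h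
    exact ⟨(IsAlgClosed.lift (R := ℚ) (S := AlgebraicClosure ℚ) (M := ℂ)).toRingHom⟩
  exact sum_torsion_of_emb hyp ι (W⁄(AlgebraicClosure ℚ)) hΔ' m hm S hS

end Fermat.Agent.FC
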