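/-
PROJECT FC, blocks (R-b) and (M) (helper1), final forms, with helper6's (NODE) plugged in.

* `card_inZero_torsion_le` (R-b) : nodal `ℤ`-model at `ℓ ≠ 2`, `ℓ ∤ m`: at most `m` points of
  `m`-torsion in the identity component at a place over `ℓ`;
* `velu_c₄_unit` (M) : `c₄ + 240 t` is a unit at every place over a multiplicative prime `ℓ ≠ p`
  (from (FT) as a hypothesis).
-/
import Mathlib
import Fermat.Agent.FC.M_helper1_Main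
import Fermat.Agent.FC.NODE_helper6_Main

set_option autoImplicit false
set_option linter.unusedSectionVars false

namespace Fermat.Agent.FC

open WeierstrassCurve WeierstrassCurve.Affine IsLocalRing Fermat.Agent.Tate Fermat.Agent.S13

variable {A : ValuationSubring (AlgebraicClosure ℚ)}

theorem charP_residueField_of_liesOver {ℓ : ℕ} (hℓ : ℓ.Prime) (hA : A.LiesOverPrime ℓ) :
    CharP (ResidueField A) ℓ := by
  classical
  rw [CharP.charP_iff_prime_eq_zero hℓ]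
  exact residue_natCast_eq_zero (A := A) hA

/-- the reduction of a `ℤ`-model which is nodal at `ℓ` is a nodal cubic -/
theorem reduced_isNode (W₀ : WeierstrassCurve ℤ) {ℓ : ℕ} (hℓ : ℓ.Prime) (hA : A.LiesOverPrime ℓ)
    (hℓΔ : (ℓ : ℤ) ∣ W₀.Δ) (hℓc₄ : ¬ (ℓ : ℤ) ∣ W₀.c₄) :
    (W₀.map (Int.castRingHom (ResidueField A))).Δ = 0 ∧
      (W₀.map (Int.castRingHom (ResidueField A))).c₄ ≠ 0 := by
  haveI := charP_residueField_of_liesOver hℓ hA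
  constructor
  · rw [WeierstrassCurve.map_Δ]
    exact (CharP.intCast_eq_zero_iff (ResidueField A) ℓ W₀.Δ).mpr hℓΔ
  · rw [WeierstrassCurve.map_c₄]
    intro h0
    exact hℓc₄ ((CharP.intCast_eq_zero_iff (ResidueField A) ℓ W₀.c₄).mp h0)

theorem residue_two_ne_zero {ℓ : ℕ} (hℓ : ℓ.Prime) (hA : A.LiesOverPrime ℓ) (hℓ2 : ℓ ≠ 2) :
    (2 : ResidueField A) ≠ 0 := by
  haveI := charP_residueField_of_liesOver hℓ hA
  intro h0
  have h1 : ((2 : ℕ) : ResidueField A) = 0 := by exact_mod_cast h0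
  have h2 := (CharP.cast_eq_zero_iff (ResidueField A) ℓ 2).mp h1
  exact hℓ2 ((Nat.prime_dvd_prime_iff_eq hℓ Nat.prime_two).mp h2)

/-- **(R-b)**: on a `ℤ`-model which is nodal at `ℓ ≠ 2`, the identity component at a place over
`ℓ` contains at most `m` points killed by `m` (`ℓ ∤ m`). -/
theorem card_inZero_torsion_le (W : WeierstrassCurve ℤ) {ℓ m : ℕ} (hℓ : ℓ.Prime) (hℓ2 : ℓ ≠ 2)
    (hA : A.LiesOverPrime ℓ) (hℓΔ : (ℓ : ℤ) ∣ W.Δ) (hℓc₄ : ¬ (ℓ : ℤ) ∣ W.c₄) (hm : ¬ ℓ ∣ m)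
    (T : Finset ((W.map (Int.castRingHom ℚ))⁄(AlgebraicClosure ℚ)).Point)
    (hT : ∀ x ∈ T, m • x = 0 ∧ W.InZeroComponentAt A x) : T.card ≤ m := by
  classical
  obtain ⟨hΔ, hc₄⟩ := reduced_isNode W hℓ hA hℓΔ hℓc₄
  have hmpos : 0 < m := Nat.pos_of_ne_zero (fun h0 => hm (h0 ▸ dvd_zero ℓ))
  exact card_le_of_inZero_torsion hℓ hA hm
    (fun T' hT' => card_torsion_node_le _ hΔ hc₄ (residue_two_ne_zero hℓ hA hℓ2) m hmpos T' hT')
    T hT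

/-- **(M)**: `c₄` of Vélu's quotient by a subgroup of `p`-power order is a unit at every place
over a multiplicative prime `ℓ ≠ p` of the `ℤ`-model `W₀`; (FT) as a hypothesis. -/
theorem velu_c₄_unit (W₀ℚ : WeierstrassCurve ℚ) (W₀ : WeierstrassCurve ℤ)
    (h : W₀.map (Int.castRingHom ℚ) = W₀ℚ) {p ℓ k : ℕ} (hp : p.Prime) (hp2 : p ≠ 2)
    (hℓ : ℓ.Prime) (hℓp : ℓ ≠ p) (hA : A.LiesOverPrime ℓ) (hℓΔ : (ℓ : ℤ) ∣ W₀.Δ)
    (hℓc₄ : ¬ (ℓ : ℤ) ∣ W₀.c₄)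
    (D : AddSubgroup (W₀ℚ⁄(AlgebraicClosure ℚ)).Point) (hcard : Nat.card D = p ^ k)
    (S : Finset (W₀ℚ⁄(AlgebraicClosure ℚ)).Point) (hS : ∀ d, d ∈ S ↔ d ∈ D ∧ d ≠ 0)
    (hFT : ∀ m : ℕ, 0 < m → ∀ Sm : Finset (W₀ℚ⁄(AlgebraicClosure ℚ)).Point,
      (∀ d, d ∈ Sm ↔ m • d = 0 ∧ d ≠ 0) →
      120 * ∑ d ∈ Sm, (6 * xOf d ^ 2 + (W₀ℚ⁄(AlgebraicClosure ℚ)).b₂ * xOf d +
        (W₀ℚ⁄(AlgebraicClosure ℚ)).b₄) =
        ((m : AlgebraicClosure ℚ) ^ 4 - 1) * (W₀ℚ⁄(AlgebraicClosure ℚ)).c₄) :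
    ((W₀.c₄ : ℤ) : AlgebraicClosure ℚ) + 240 * veluT (W₀ℚ⁄(AlgebraicClosure ℚ)) S ∈ A ∧
    ((W₀.c₄ : ℤ) : AlgebraicClosure ℚ) + 240 * veluT (W₀ℚ⁄(AlgebraicClosure ℚ)) S ∉ A.nonunits := by
  classical
  by_cases h240 : ℓ ∣ 240
  · -- small primes
    apply velu_c₄_unit_small W₀ℚ W₀ h hℓ h240 hA hℓc₄ S
    intro d hd
    refine ⟨p ^ k, ?_, ?_⟩
    · intro hdiv
      have := hℓ.dvd_of_dvd_pow hdiv
      exact hℓp ((Nat.prime_dvd_prime_iff_eq hℓ hp).mp this)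
    · have hdD := ((hS d).mp hd).1
      have h1 : Nat.card D • (⟨d, hdD⟩ : D) = 0 := card_nsmul_eq_zero'
      rw [hcard] at h1
      have := congrArg (fun x : D => (x : (W₀ℚ⁄(AlgebraicClosure ℚ)).Point)) h1
      simpa using this
  · have hℓ2 : ℓ ≠ 2 := by
      rintro rfl
      exact h240 (by norm_num)
    obtain ⟨hΔ, hc₄⟩ := reduced_isNode W₀ hℓ hA hℓΔ hℓc₄
    exact velu_c₄_unit_of W₀ℚ W₀ h hp hp2 hℓ hℓp hA hℓc₄ D hcard S hS hFT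
      (fun m hm T' hT' => card_torsion_node_le _ hΔ hc₄ (residue_two_ne_zero hℓ hA hℓ2) m
        (Nat.pos_of_ne_zero (fun h0 => hm (h0 ▸ dvd_zero ℓ))) T' hT')

end Fermat.Agent.FC
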