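/-
PROJECT FC, block (M) (helper1), top: `velu_c₄_unit` with (FT) and (NODE) plugged in; the only
remaining input is helper7's analytic statement `SumTorsionCurveOfHyp`.
-/
import Mathlib
import Fermat.Agent.FC.M_helper1_Final
import Fermat.Agent.FC.FT_helper1_Sum

set_option autoImplicit false
set_option linter.unusedSectionVars false

namespace Fermat.Agent.FC

open WeierstrassCurve WeierstrassCurve.Affine IsLocalRing Fermat.Agent.Tate Fermat.Agent.S13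

/-- **(M)**: `c₄` of Vélu's quotient of a `ℤ`-model `W₀` (`Δ ≠ 0`) by a subgroup of `p`-power
order is a unit at every place over a multiplicative prime `ℓ ≠ p` of `W₀`. -/
theorem velu_c₄_unit_top (hyp : SumTorsionCurveOfHyp) (W₀ℚ : WeierstrassCurve ℚ)
    (W₀ : WeierstrassCurve ℤ) (h : W₀.map (Int.castRingHom ℚ) = W₀ℚ) (hΔ : W₀.Δ ≠ 0)
    {p ℓ k : ℕ} (hp : p.Prime) (hp2 : p ≠ 2) (hℓ : ℓ.Prime) (hℓp : ℓ ≠ p)
    {A : ValuationSubring (AlgebraicClosure ℚ)} (hA : A.LiesOverPrime ℓ)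
    (hℓΔ : (ℓ : ℤ) ∣ W₀.Δ) (hℓc₄ : ¬ (ℓ : ℤ) ∣ W₀.c₄)
    (D : AddSubgroup (W₀ℚ⁄(AlgebraicClosure ℚ)).Point) (hcard : Nat.card D = p ^ k)
    (S : Finset (W₀ℚ⁄(AlgebraicClosure ℚ)).Point) (hS : ∀ d, d ∈ S ↔ d ∈ D ∧ d ≠ 0) :
    ((W₀.c₄ : ℤ) : AlgebraicClosure ℚ) + 240 * veluT (W₀ℚ⁄(AlgebraicClosure ℚ)) S ∈ A ∧
    ((W₀.c₄ : ℤ) : AlgebraicClosure ℚ) + 240 * veluT (W₀ℚ⁄(AlgebraicClosure ℚ)) S ∉ A.nonunits := by
  have hΔℚ : W₀ℚ.Δ ≠ 0 := by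
    rw [← h, WeierstrassCurve.map_Δ]
    intro h0
    apply hΔ
    have h1 : ((W₀.Δ : ℤ) : ℚ) = 0 := h0
    exact_mod_cast h1
  exact velu_c₄_unit W₀ℚ W₀ h hp hp2 hℓ hℓp hA hℓΔ hℓc₄ D hcard S hS
    (fun m hm Sm hSm => sum_torsion_velu hyp W₀ℚ hΔℚ m hm Sm hSm)

end Fermat.Agent.FC
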