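/-
PROJECT FC, block (M) (helper1), unconditional form: helper7's analytic torsion sum
`sum_torsion_curveOf` discharges the named hypothesis `SumTorsionCurveOfHyp`, so (FT) and (M)
hold with no extra hypothesis.
-/
import Mathlib
import Fermat.Agent.FC.M_helper1_Top
import Fermat.Agent.FC.VELU_helper7_Hom

set_option autoImplicit false
set_option linter.unusedSectionVars false

namespace Fermat.Agent.FC

open WeierstrassCurve WeierstrassCurve.Affine IsLocalRing Fermat.Agent.Tate Fermat.Agent.S13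

/-- The analytic torsion sum over `ℂ/Λ` (helper7) in the named-hypothesis form. -/
theorem sumTorsionCurveOfHyp_proved : SumTorsionCurveOfHyp :=
  fun L m hm S hS => sum_torsion_curveOf L m hm S hS

/-- **(FT)**, unconditional: `120 ∑_{d ∈ E[m] ∖ 0} (6 x_d² + b₂ x_d + b₄) = (m⁴ - 1) c₄` for an
elliptic curve over `ℚ`, points over `ℚ̄`. -/
theorem sum_torsion_velu_final (W : WeierstrassCurve ℚ) (hΔ : W.Δ ≠ 0) (m : ℕ) (hm : 0 < m)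
    (S : Finset (W⁄(AlgebraicClosure ℚ)).Point)
    (hS : ∀ d : (W⁄(AlgebraicClosure ℚ)).Point, d ∈ S ↔ m • d = 0 ∧ d ≠ 0) :
    120 * ∑ d ∈ S, (6 * xOf d ^ 2 + (W⁄(AlgebraicClosure ℚ)).b₂ * xOf d
        + (W⁄(AlgebraicClosure ℚ)).b₄)
      = ((m : AlgebraicClosure ℚ) ^ 4 - 1) * (W⁄(AlgebraicClosure ℚ)).c₄ :=
  sum_torsion_velu sumTorsionCurveOfHyp_proved W hΔ m hm S hS

/-- **(M)**, unconditional: `c₄` of Vélu's quotient of a `ℤ`-model `W₀` (`Δ ≠ 0`) by a subgroup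
of `p`-power order (`p` odd) is a unit at every place over a multiplicative prime `ℓ ≠ p` of
`W₀`. -/
theorem velu_c₄_unit_final (W₀ℚ : WeierstrassCurve ℚ)
    (W₀ : WeierstrassCurve ℤ) (h : W₀.map (Int.castRingHom ℚ) = W₀ℚ) (hΔ : W₀.Δ ≠ 0)
    {p ℓ k : ℕ} (hp : p.Prime) (hp2 : p ≠ 2) (hℓ : ℓ.Prime) (hℓp : ℓ ≠ p)
    {A : ValuationSubring (AlgebraicClosure ℚ)} (hA : A.LiesOverPrime ℓ)
    (hℓΔ : (ℓ : ℤ) ∣ W₀.Δ) (hℓc₄ : ¬ (ℓ : ℤ) ∣ W₀.c₄)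
    (D : AddSubgroup (W₀ℚ⁄(AlgebraicClosure ℚ)).Point) (hcard : Nat.card D = p ^ k)
    (S : Finset (W₀ℚ⁄(AlgebraicClosure ℚ)).Point) (hS : ∀ d, d ∈ S ↔ d ∈ D ∧ d ≠ 0) :
    ((W₀.c₄ : ℤ) : AlgebraicClosure ℚ) + 240 * veluT (W₀ℚ⁄(AlgebraicClosure ℚ)) S ∈ A ∧
    ((W₀.c₄ : ℤ) : AlgebraicClosure ℚ) + 240 * veluT (W₀ℚ⁄(AlgebraicClosure ℚ)) S ∉ A.nonunits :=
  velu_c₄_unit_top sumTorsionCurveOfHyp_proved W₀ℚ W₀ h hΔ hp hp2 hℓ hℓp hA hℓΔ hℓc₄ D hcard S hS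

end Fermat.Agent.FC
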