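/-
PROJECT FC (Frey chain, S12), block (Q), analytic half — helper7.

Vélu's formulas over `ℂ`, analytically: for period pairs `L`, `L'` with `Λ ⊆ Λ'` of finite index and
a finite set `S` of representatives of the NONZERO classes of `Λ'/Λ`:

* `weierstrassP_superLattice`      : `℘_{Λ'}(z) = ℘_Λ(z) + ∑_{s ∈ S} (℘_Λ(z + s) - ℘_Λ(s))`,
* `derivWeierstrassP_superLattice` : `℘'_{Λ'}(z) = ℘'_Λ(z) + ∑_{s ∈ S} ℘'_Λ(z + s)`,
* `g₂_superLattice`, `g₃_superLattice` : the invariants of `Λ'` (Vélu's `t`, `w` in short form).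

Proof: regroup the defining (absolutely convergent) lattice sums along the cosets of `Λ`.
-/
import Mathlib
import Fermat.Agent.Tate.CX_helper8_ODE

set_option autoImplicit false

namespace Fermat.Agent.FC

open Complex Filter Topology
open scoped PeriodPair
open Fermat.Agent.Tate.CX

/-- `Λ ⊆ Λ'` and `S` is a set of representatives of the nonzero classes of `Λ'/Λ`. -/
structure IsSuperLattice (L L' : PeriodPair) (S : Finset ℂ) : Prop where
  le : L.lattice ≤ L'.lattice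
  mem : ∀ s ∈ S, s ∈ L'.lattice ∧ s ∉ L.lattice
  inj : ∀ s ∈ S, ∀ t ∈ S, s - t ∈ L.lattice → s = t
  surj : ∀ z ∈ L'.lattice, z ∈ L.lattice ∨ ∃ s ∈ S, z - s ∈ L.lattice

section Regroup

variable {L L' : PeriodPair} {S : Finset ℂ}

/-- the coset `t + Λ` as a subset of `ℂ`. -/
def cosetSet (L : PeriodPair) (t : ℂ) : Set ℂ := {x | x - t ∈ L.lattice}

theorem hasSum_cosetSet {f : ℂ → ℂ} {t a : ℂ}
    (h : HasSum (fun l : L.lattice => f (t + l)) a) :
    HasSum (f ∘ (↑) : cosetSet L t → ℂ) a := by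
  let e : L.lattice ≃ cosetSet L t :=
    { toFun := fun l => ⟨t + l, by show t + (l : ℂ) - t ∈ L.lattice; simp⟩
      invFun := fun x => ⟨(x : ℂ) - t, x.2⟩
      left_inv := fun l => by ext; simp
      right_inv := fun x => by ext; simp }
  exact (e.hasSum_iff (f := (f ∘ (↑) : cosetSet L t → ℂ))).mp h

theorem IsSuperLattice.pairwise_disjoint (h : IsSuperLattice L L' S) :
    (S : Set ℂ).Pairwise (Function.onFun Disjoint (cosetSet L)) := by
  intro s hs t ht hst
  rw [Function.onFun, Set.disjoint_left]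
  intro x hxs hxt
  apply hst
  refine h.inj s hs t ht ?_
  have : s - t = (x - t) - (x - s) := by ring
  rw [this]
  exact L.lattice.sub_mem hxt hxs

theorem IsSuperLattice.disjoint_zero (h : IsSuperLattice L L' S) :
    Disjoint (cosetSet L 0) (⋃ s ∈ S, cosetSet L s) := by
  rw [Set.disjoint_left]
  intro x hx0 hx
  simp only [Set.mem_iUnion] at hx
  obtain ⟨s, hs, hxs⟩ := hx
  have hx0' : x ∈ L.lattice := by simpa [cosetSet] using hx0
  have : s = x - (x - s) := by ring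
  exact (h.mem s hs).2 (this ▸ L.lattice.sub_mem hx0' hxs)

theorem IsSuperLattice.union_eq (h : IsSuperLattice L L' S) :
    cosetSet L 0 ∪ (⋃ s ∈ S, cosetSet L s) = (L'.lattice : Set ℂ) := by
  ext x
  simp only [Set.mem_union, Set.mem_iUnion, cosetSet, Set.mem_ofPred_eq, sub_zero, SetLike.mem_coe]
  constructor
  · rintro (hx | ⟨s, hs, hxs⟩)
    · exact h.le hx
    · have : x = (x - s) + s := by ring
      rw [this]
      exact L'.lattice.add_mem (h.le hxs) (h.mem s hs).1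
  · intro hx
    rcases h.surj x hx with h0 | ⟨s, hs, hxs⟩
    · exact Or.inl h0
    · exact Or.inr ⟨s, hs, hxs⟩

/-- **regrouping a sum over `Λ'` along the cosets of `Λ`.** -/
theorem IsSuperLattice.hasSum (h : IsSuperLattice L L' S) {f : ℂ → ℂ} {a₀ : ℂ} {a : ℂ → ℂ}
    (h0 : HasSum (fun l : L.lattice => f l) a₀)
    (hs : ∀ s ∈ S, HasSum (fun l : L.lattice => f (s + l)) (a s)) :
    HasSum (fun l' : L'.lattice => f l') (a₀ + ∑ s ∈ S, a s) := by
  have h0' : HasSum (f ∘ (↑) : cosetSet L 0 → ℂ) a₀ :=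
    hasSum_cosetSet (by simpa using h0)
  have hS := hasSum_sum_disjoint (f := f) S h.pairwise_disjoint
    (fun s hs' => hasSum_cosetSet (hs s hs'))
  have hU := h0'.add_disjoint h.disjoint_zero hS
  rw [h.union_eq] at hU
  exact hU

end Regroup

section Wp

variable {L L' : PeriodPair} {S : Finset ℂ}

/-- `℘_{Λ'}(z) = ℘_Λ(z) + ∑_s (℘_Λ(z - s) - ℘_Λ(-s))` (all `z`). -/
theorem weierstrassP_superLattice_sub (h : IsSuperLattice L L' S) (z : ℂ) :
    ℘[L'] z = ℘[L] z + ∑ s ∈ S, (℘[L] (z - s) - ℘[L] (-s)) := by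
  refine (L'.hasSum_weierstrassP z).unique
    (h.hasSum (f := fun x => 1 / (z - x) ^ 2 - 1 / x ^ 2) (L.hasSum_weierstrassP z) ?_)
  intro s _
  have h1 := (L.hasSum_weierstrassP (z - s)).sub (L.hasSum_weierstrassP (-s))
  have e : (fun l : L.lattice => (fun x : ℂ => 1 / (z - x) ^ 2 - 1 / x ^ 2) (s + l)) =
      fun l : L.lattice => (1 / (z - s - l) ^ 2 - 1 / (l : ℂ) ^ 2) -
        (1 / (-s - l) ^ 2 - 1 / (l : ℂ) ^ 2) := by
    funext l
    ring
  rw [e]
  exact h1

/-- **Vélu, `x`-coordinate**: `℘_{Λ'}(z) = ℘_Λ(z) + ∑_s (℘_Λ(z + s) - ℘_Λ(s))`. -/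
theorem weierstrassP_superLattice (h : IsSuperLattice L L' S) (z : ℂ) :
    ℘[L'] z = ℘[L] z + ∑ s ∈ S, (℘[L] (z + s) - ℘[L] s) := by
  have h1 := weierstrassP_superLattice_sub h (-z)
  rw [L'.weierstrassP_neg, L.weierstrassP_neg] at h1
  rw [h1]
  congr 1
  refine Finset.sum_congr rfl fun s _ => ?_
  rw [L.weierstrassP_neg s, show -z - s = -(z + s) by ring, L.weierstrassP_neg]

/-- `℘'_{Λ'}(z) = ℘'_Λ(z) + ∑_s ℘'_Λ(z - s)` (all `z`). -/
theorem derivWeierstrassP_superLattice_sub (h : IsSuperLattice L L' S) (z : ℂ) :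
    ℘'[L'] z = ℘'[L] z + ∑ s ∈ S, ℘'[L] (z - s) := by
  refine (L'.hasSum_derivWeierstrassP z).unique
    (h.hasSum (f := fun x => -2 / (z - x) ^ 3) (L.hasSum_derivWeierstrassP z) ?_)
  intro s _
  have h1 := L.hasSum_derivWeierstrassP (z - s)
  have e : (fun l : L.lattice => (fun x : ℂ => -2 / (z - x) ^ 3) (s + l)) =
      fun l : L.lattice => -2 / (z - s - l) ^ 3 := by
    funext l
    ring
  rw [e]
  exact h1

/-- **Vélu, `y`-coordinate**: `℘'_{Λ'}(z) = ℘'_Λ(z) + ∑_s ℘'_Λ(z + s)`. -/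
theorem derivWeierstrassP_superLattice (h : IsSuperLattice L L' S) (z : ℂ) :
    ℘'[L'] z = ℘'[L] z + ∑ s ∈ S, ℘'[L] (z + s) := by
  have h1 := derivWeierstrassP_superLattice_sub h (-z)
  rw [L'.derivWeierstrassP_neg, L.derivWeierstrassP_neg] at h1
  have h2 : ℘'[L'] z = -(-℘'[L] z + ∑ s ∈ S, ℘'[L] (-z - s)) := by rw [← h1, neg_neg]
  rw [h2, neg_add, neg_neg, ← Finset.sum_neg_distrib]
  congr 1
  refine Finset.sum_congr rfl fun s _ => ?_
  rw [show -z - s = -(z + s) by ring, L.derivWeierstrassP_neg, neg_neg]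

/-- the Eisenstein sums of the superlattice. -/
theorem G_superLattice (h : IsSuperLattice L L' S) {n : ℕ} (hn : 2 < n) :
    L'.G n = L.G n + ∑ s ∈ S, L.sumInvPow (-s) n := by
  have hG : ∀ M : PeriodPair, HasSum (fun l : M.lattice => ((l : ℂ) ^ n)⁻¹) (M.G n) := by
    intro M
    have := M.hasSum_sumInvPow 0 hn
    simpa using this
  refine (hG L').unique (h.hasSum (f := fun x => (x ^ n)⁻¹) (hG L) ?_)
  intro s _
  have h1 := L.hasSum_sumInvPow (-s) hn
  have e : (fun l : L.lattice => (fun x : ℂ => (x ^ n)⁻¹) (s + l)) =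
      fun l : L.lattice => (((l : ℂ) - -s) ^ n)⁻¹ := by
    funext l
    show ((s + (l : ℂ)) ^ n)⁻¹ = _
    rw [sub_neg_eq_add, add_comm]
  rw [e]
  exact h1

end Wp

section Invariants

variable (L : PeriodPair)

/-- the fourth derivative of `℘` is `120 ℘³ - 18 g₂ ℘ - 12 g₃`. -/
theorem iteratedDeriv_four_weierstrassP {b : ℂ} (hb : b ∉ L.lattice) :
    iteratedDeriv 4 ℘[L] b = 120 * ℘[L] b ^ 3 - 18 * L.g₂ * ℘[L] b - 12 * L.g₃ := by
  have hev : iteratedDeriv 3 ℘[L] =ᶠ[𝓝 b] fun y => 12 * ℘[L] y * ℘'[L] y := by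
    filter_upwards [(isOpen_compl_lattice L).mem_nhds hb] with y hy
    exact iteratedDeriv_three_weierstrassP L hy
  rw [iteratedDeriv_succ, hev.deriv_eq]
  have hP := hasDerivAt_weierstrassP L hb
  have hP' := hasDerivAt_derivWeierstrassP L hb
  rw [deriv_derivWeierstrassP L hb] at hP'
  have h1 : HasDerivAt (fun y => 12 * ℘[L] y * ℘'[L] y)
      (12 * ℘'[L] b * ℘'[L] b + 12 * ℘[L] b * (6 * ℘[L] b ^ 2 - L.g₂ / 2)) b :=
    (hP.const_mul 12).mul hP'
  rw [h1.deriv]
  have h2 := L.derivWeierstrassP_sq b hb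
  linear_combination 12 * h2

theorem sumInvPow_four {x : ℂ} (hx : x ∉ L.lattice) :
    L.sumInvPow x 4 = ℘[L] x ^ 2 - L.g₂ / 12 := by
  have h := L.iteratedDeriv_weierstrassPExcept_self x (n := 2)
  rw [L.weierstrassPExcept_of_notMem x hx, iteratedDeriv_two_weierstrassP L hx] at h
  simp only [OfNat.ofNat_ne_zero, if_false] at h
  have e : ((2 + 1 : ℕ).factorial : ℂ) = 6 := by norm_num [Nat.factorial]
  rw [e] at h
  linear_combination (-1 / 6 : ℂ) * h

theorem sumInvPow_six {x : ℂ} (hx : x ∉ L.lattice) :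
    L.sumInvPow x 6 = ℘[L] x ^ 3 - 3 / 20 * L.g₂ * ℘[L] x - L.g₃ / 10 := by
  have h := L.iteratedDeriv_weierstrassPExcept_self x (n := 4)
  rw [L.weierstrassPExcept_of_notMem x hx, iteratedDeriv_four_weierstrassP L hx] at h
  simp only [OfNat.ofNat_ne_zero, if_false] at h
  have e : ((4 + 1 : ℕ).factorial : ℂ) = 120 := by norm_num [Nat.factorial]
  rw [e] at h
  linear_combination (-1 / 120 : ℂ) * h

variable {L} {L' : PeriodPair} {S : Finset ℂ}

/-- **Vélu, `g₂`**. -/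
theorem g₂_superLattice (h : IsSuperLattice L L' S) :
    L'.g₂ = L.g₂ + ∑ s ∈ S, (60 * ℘[L] s ^ 2 - 5 * L.g₂) := by
  rw [PeriodPair.g₂, G_superLattice h (by norm_num), mul_add, Finset.mul_sum, ← PeriodPair.g₂]
  congr 1
  refine Finset.sum_congr rfl fun s hs => ?_
  have hs' : -s ∉ L.lattice := fun h' => (h.mem s hs).2 (by simpa using L.lattice.neg_mem h')
  rw [sumInvPow_four L hs', L.weierstrassP_neg]
  ring

/-- **Vélu, `g₃`**. -/
theorem g₃_superLattice (h : IsSuperLattice L L' S) :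
    L'.g₃ = L.g₃ + ∑ s ∈ S, (140 * ℘[L] s ^ 3 - 21 * L.g₂ * ℘[L] s - 14 * L.g₃) := by
  rw [PeriodPair.g₃, G_superLattice h (by norm_num), mul_add, Finset.mul_sum, ← PeriodPair.g₃]
  congr 1
  refine Finset.sum_congr rfl fun s hs => ?_
  have hs' : -s ∉ L.lattice := fun h' => (h.mem s hs).2 (by simpa using L.lattice.neg_mem h')
  rw [sumInvPow_six L hs', L.weierstrassP_neg]
  ring

end Invariants

end Fermat.Agent.FC
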