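/-
PROJECT FC (Frey chain, S12), block (Q), analytic half — helper7.  Part 2: the analytic isogeny
`E_Λ(ℂ) → E_{Λ'}(ℂ)` for `Λ ⊆ Λ'` in the currency of S13/A_helper8_Unif (`curveOf`, `ptOf`), with
Vélu's formulas for the model and for the coordinates, and the existence of the superlattice
attached to a finite subgroup.
-/
import Mathlib
import Fermat.Agent.FC.VELU_helper7_An
import Fermat.Agent.S13.A_helper8_Descent

set_option autoImplicit false

namespace Fermat.Agent.FC

open Complex Filter Topology WeierstrassCurve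
open scoped PeriodPair
open Fermat.Agent.Tate.CX Fermat.Agent.S13

section Coordinates

variable (L : PeriodPair)

/-- the `x`-coordinate of `ptOf L z` is `℘ z`, for EVERY `z` (both sides vanish on the lattice). -/
theorem xOf_ptOf (z : ℂ) : xOf (ptOf L z) = ℘[L] z := by
  by_cases hz : z ∈ L.lattice
  · rw [ptOf_of_mem L hz, xOf_zero]
    exact (L.weierstrassP_coe ⟨z, hz⟩).symm
  · rw [ptOf_of_notMem L hz, xOf_some]

/-- the `y`-coordinate of `ptOf L z` is `℘' z / 2`, for EVERY `z`. -/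
theorem yOf_ptOf (z : ℂ) : yOf (ptOf L z) = ℘'[L] z / 2 := by
  by_cases hz : z ∈ L.lattice
  · rw [ptOf_of_mem L hz, yOf_zero]
    have := L.derivWeierstrassP_coe ⟨z, hz⟩
    simp only at this
    rw [this, zero_div]
  · rw [ptOf_of_notMem L hz, yOf_some]

end Coordinates

section Velu

variable {L L' : PeriodPair} {S : Finset ℂ}

/-- **Vélu's model** (short form): the curve of the superlattice. -/
theorem curveOf_superLattice (h : IsSuperLattice L L' S) :
    curveOf L' = ⟨0, 0, 0,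
      -(L.g₂ / 4) - 5 * ∑ s ∈ S, (3 * ℘[L] s ^ 2 + -(L.g₂ / 4)),
      -(L.g₃ / 4) - 7 * ∑ s ∈ S, (5 * ℘[L] s ^ 3 + 3 * -(L.g₂ / 4) * ℘[L] s
        + 2 * -(L.g₃ / 4))⟩ := by
  have e2 : ∑ s ∈ S, (60 * ℘[L] s ^ 2 - 5 * L.g₂) =
      20 * ∑ s ∈ S, (3 * ℘[L] s ^ 2 + -(L.g₂ / 4)) := by
    rw [Finset.mul_sum]
    exact Finset.sum_congr rfl fun s _ => by ring
  have e3 : ∑ s ∈ S, (140 * ℘[L] s ^ 3 - 21 * L.g₂ * ℘[L] s - 14 * L.g₃) =
      28 * ∑ s ∈ S, (5 * ℘[L] s ^ 3 + 3 * -(L.g₂ / 4) * ℘[L] s + 2 * -(L.g₃ / 4)) := by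
    rw [Finset.mul_sum]
    exact Finset.sum_congr rfl fun s _ => by ring
  unfold curveOf
  rw [g₂_superLattice h, g₃_superLattice h, e2, e3]
  congr 1 <;> ring

/-- **Vélu's formula for the `x`-coordinate** of the analytic isogeny (all `z`). -/
theorem xOf_ptOf_superLattice (h : IsSuperLattice L L' S) (z : ℂ) :
    xOf (ptOf L' z) = xOf (ptOf L z)
      + ∑ s ∈ S, (xOf (ptOf L z + ptOf L s) - xOf (ptOf L s)) := by
  rw [xOf_ptOf, xOf_ptOf, weierstrassP_superLattice h z]
  congr 1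
  refine Finset.sum_congr rfl fun s _ => ?_
  rw [← ptOf_add, xOf_ptOf, xOf_ptOf]

/-- **Vélu's formula for the `y`-coordinate** of the analytic isogeny (all `z`). -/
theorem yOf_ptOf_superLattice (h : IsSuperLattice L L' S) (z : ℂ) :
    yOf (ptOf L' z) = yOf (ptOf L z) + ∑ s ∈ S, yOf (ptOf L z + ptOf L s) := by
  rw [yOf_ptOf, yOf_ptOf, derivWeierstrassP_superLattice h z, add_div, Finset.sum_div]
  congr 1
  refine Finset.sum_congr rfl fun s _ => ?_
  rw [← ptOf_add, yOf_ptOf]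

end Velu

end Fermat.Agent.FC
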